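import Fermat.Agent.Flat.Closure
import Fermat.Agent.Frob.Basic

/-!
# The global setting `R = ℤ_(p)`, `Ω = ℚ̄`, and `GaloisRepAdic.IsFlatAt`
-/

set_option autoImplicit false

open GaloisRep

namespace Fermat.Agent.Flat

instance isPrincipalIdealRing_ratLocalizedAt (p : ℕ) :
    IsPrincipalIdealRing (ratLocalizedAt p) where
  principal I := by
    obtain ⟨n, hn⟩ := (IsPrincipalIdealRing.principal
      (I.comap (Int.castRingHom (ratLocalizedAt p)))).principal
    refine ⟨((n : ℤ) : ratLocalizedAt p), ?_⟩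
    apply le_antisymm
    · intro x hx
      have hden : ((1 : ℚ) / (x : ℚ).den) ∈ ratLocalizedAt p := by
        change ((1 : ℚ) / (x : ℚ).den).den.Coprime p
        have h1 : ((1 : ℚ) / (x : ℚ).den).den ∣ (x : ℚ).den := by
          have : ((1 : ℚ) / (x : ℚ).den) = Rat.divInt 1 ((x : ℚ).den : ℤ) := by
            rw [Rat.divInt_eq_div]; simp
          rw [this]
          have := Rat.den_dvd 1 ((x : ℚ).den : ℤ)
          exact_mod_cast this
        exact Nat.Coprime.coprime_dvd_left h1 x.2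
      have hnum : ((x : ℚ).num : ratLocalizedAt p) = x * (((x : ℚ).den : ℕ) : ratLocalizedAt p) := by
        apply Subtype.ext
        push_cast
        exact (Rat.mul_den_eq_num _).symm
      have h2 : (x : ℚ).num ∈ I.comap (Int.castRingHom (ratLocalizedAt p)) := by
        rw [Ideal.mem_comap]
        change (((x : ℚ).num : ℤ) : ratLocalizedAt p) ∈ I
        rw [hnum]
        exact I.mul_mem_right _ hx
      rw [hn] at h2
      obtain ⟨a, ha⟩ := Submodule.mem_span_singleton.mp h2
      refine Submodule.mem_span_singleton.mpr ⟨(a : ratLocalizedAt p) * ⟨_, hden⟩, ?_⟩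
      apply Subtype.ext
      have hd : ((x : ℚ).den : ℚ) ≠ 0 := by exact_mod_cast (x : ℚ).den_ne_zero
      have h3 : ((a : ℚ) * n) = (x : ℚ).num := by exact_mod_cast ha
      have h4 : ((x : ℚ).num : ℚ) = (x : ℚ) * (x : ℚ).den := (Rat.mul_den_eq_num _).symm
      simp only [smul_eq_mul, Subring.coe_mul, SubringClass.coe_intCast]
      field_simp
      rw [h3, h4, mul_comm]
    · rw [Submodule.span_singleton_le_iff_mem]
      have : n ∈ I.comap (Int.castRingHom (ratLocalizedAt p)) := by
        rw [hn]; exact Submodule.mem_span_singleton_self n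
      exact this

instance setupGlobal (p : ℕ) : Setup (ratLocalizedAt p) (AlgebraicClosure ℚ)
    (AlgebraicClosure ℚ ≃ₐ[ℚ] AlgebraicClosure ℚ) where
  inj := by
    intro x y hxy
    apply Subtype.ext
    exact (algebraMap ℚ (AlgebraicClosure ℚ)).injective hxy
  smul_algebraMap g r := g.commutes (r : ℚ)
  exists_frac x hx := by
    have : x ∈ Set.range (algebraMap ℚ (AlgebraicClosure ℚ)) := by
      rw [InfiniteGalois.mem_range_algebraMap_iff_fixed]
      exact hx
    obtain ⟨q, rfl⟩ := this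
    refine ⟨(q.num : ratLocalizedAt p), (q.den : ratLocalizedAt p), ?_, ?_⟩
    · intro h
      have := congrArg (fun z : ratLocalizedAt p => (z : ℚ)) h
      simp at this
    · change algebraMap ℚ (AlgebraicClosure ℚ) (((q.den : ratLocalizedAt p)) : ℚ) * _
        = algebraMap ℚ (AlgebraicClosure ℚ) (((q.num : ratLocalizedAt p)) : ℚ)
      rw [← map_mul]
      congr 1
      push_cast
      rw [mul_comm]; exact Rat.mul_den_eq_num _

instance infinite_ratLocalizedAt (p : ℕ) : Infinite (ratLocalizedAt p) :=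
  Infinite.of_injective (fun n : ℤ => (n : ratLocalizedAt p)) (fun a b h => by
    have := congrArg (fun z : ratLocalizedAt p => (z : ℚ)) h
    simpa using this)

variable {A : Type} [CommRing A] [IsLocalRing A]

/-- the Galois action on `V / I V`. -/
noncomputable def levelHom (ρ : GaloisRepAdic A) (I : Ideal A) :
    (AlgebraicClosure ℚ ≃ₐ[ℚ] AlgebraicClosure ℚ) →*
      AddMonoid.End (ρ.V ⧸ (I • (⊤ : Submodule A ρ.V))) where
  toFun σ := (ρ.levelAction I σ).toAddMonoidHom
  map_one' := by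
    apply AddMonoidHom.ext
    intro x
    obtain ⟨v, rfl⟩ := Submodule.mkQ_surjective _ x
    change Submodule.mkQ _ (ρ.ρ 1 v) = Submodule.mkQ _ v
    rw [map_one]; rfl
  map_mul' σ τ := by
    apply AddMonoidHom.ext
    intro x
    obtain ⟨v, rfl⟩ := Submodule.mkQ_surjective _ x
    change Submodule.mkQ _ (ρ.ρ (σ * τ) v) = Submodule.mkQ _ (ρ.ρ σ (ρ.ρ τ v))
    rw [map_mul]; rfl

theorem levelHom_apply (ρ : GaloisRepAdic A) (I : Ideal A)
    (σ : AlgebraicClosure ℚ ≃ₐ[ℚ] AlgebraicClosure ℚ) (x : ρ.V ⧸ (I • (⊤ : Submodule A ρ.V))) :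
    levelHom ρ I σ x = ρ.levelAction I σ x := rfl

theorem finite_level (ρ : GaloisRepAdic A) (I : Ideal A) [Finite (A ⧸ I)] :
    Finite (ρ.V ⧸ (I • (⊤ : Submodule A ρ.V))) := by
  haveI : Module.Finite (A ⧸ I) (ρ.V ⧸ (I • (⊤ : Submodule A ρ.V))) := by
    haveI : Module.Finite A (ρ.V ⧸ (I • (⊤ : Submodule A ρ.V))) := inferInstance
    exact Module.Finite.of_restrictScalars_finite A _ _
  exact Module.finite_of_finite (A ⧸ I)

theorem isFlatAt_iff (ρ : GaloisRepAdic A) (p : ℕ) :
    ρ.IsFlatAt p ↔ Finite (IsLocalRing.ResidueField A) ∧ ∀ I : Ideal A, Finite (A ⧸ I) →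
      IsFlat (ratLocalizedAt p) (Ω := AlgebraicClosure ℚ) (levelHom ρ I) := by
  constructor
  · rintro ⟨h1, h2⟩
    exact ⟨h1, fun I hI => HopfModel.isFlat (h2 I hI)⟩
  · rintro ⟨h1, h2⟩
    refine ⟨h1, fun I hI => ?_⟩
    haveI := finite_level ρ I
    exact (h2 I hI).hopfModel

end Fermat.Agent.Flat
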