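import Mathlib
import Fermat.Prelude.Def_GaloisRep_Flat

/-!
# Orders of functions on a finite Galois module (F0)

`R` is a PID inside a field `Ω`, `G` acts on `Ω` with fixed field `Frac R`. For a finite
abelian group `M` with an action `ρ` of `G`, an *order* is a finitely generated `R`-subalgebra
`O` of the ring of functions `M → Ω`, consisting of equivariant functions, separating points and
closed under `φ ↦ ((x, y) ↦ φ (x + y))`. Such orders are exactly the finite flat cocommutative
Hopf algebras over `R` with `Ω`-points `M`.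
-/

set_option autoImplicit false

open TensorProduct

namespace Fermat.Agent.Flat

section Setup

variable (R : Type*) [CommRing R] (Ω : Type*) [Field Ω] [Algebra R Ω]
  (G : Type*) [Group G] [MulSemiringAction G Ω]

/-- `R ⊂ Ω` and `G` acts on `Ω` with fixed field `Frac R`. -/
class Setup : Prop where
  inj : Function.Injective (algebraMap R Ω)
  smul_algebraMap : ∀ (g : G) (r : R), g • algebraMap R Ω r = algebraMap R Ω r
  exists_frac : ∀ x : Ω, (∀ g : G, g • x = x) →
    ∃ r s : R, s ≠ 0 ∧ algebraMap R Ω s * x = algebraMap R Ω r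

end Setup

section LinIndep

variable {R : Type*} [CommRing R] [IsDomain R] {Ω : Type*} [Field Ω] [Algebra R Ω]
  {G : Type*} [Group G] [MulSemiringAction G Ω] [Setup R Ω G]

omit [IsDomain R] in
theorem Setup.smul_smul' (g : G) (r : R) (x : Ω) : g • (r • x) = r • (g • x) := by
  rw [Algebra.smul_def, Algebra.smul_def, smul_mul', Setup.smul_algebraMap]

variable (R G) in
/-- common denominators -/
theorem exists_common_denom {ι : Type*} (s : Finset ι) (c : ι → Ω)
    (hc : ∀ i ∈ s, ∀ g : G, g • c i = c i) :
    ∃ d : R, d ≠ 0 ∧ ∃ r : ι → R, ∀ i ∈ s, algebraMap R Ω d * c i = algebraMap R Ω (r i) := by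
  classical
  induction s using Finset.induction_on with
  | empty => exact ⟨1, one_ne_zero, fun _ => 0, by simp⟩
  | insert a s ha ih =>
    obtain ⟨d, hd, r, hr⟩ := ih (fun i hi => hc i (Finset.mem_insert_of_mem hi))
    obtain ⟨r', s', hs', h'⟩ := Setup.exists_frac (R := R) (G := G) (c a)
      (hc a (Finset.mem_insert_self _ _))
    refine ⟨d * s', mul_ne_zero hd hs', fun i => if i = a then d * r' else s' * r i, ?_⟩
    intro i hi
    rcases Finset.mem_insert.mp hi with rfl | hi
    · simp only [if_true, map_mul, mul_assoc, h']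
    · have : i ≠ a := fun h => ha (h ▸ hi)
      simp only [this, if_false, map_mul]
      rw [← hr i hi]; ring

variable (G) in
/-- `R`-linearly independent equivariant functions are `Ω`-linearly independent. -/
theorem linearIndependent_of_equivariant {X : Type*} (act : G → X → X)
    (hact : ∀ g, Function.Surjective (act g)) {ι : Type*} (v : ι → (X → Ω))
    (hv : ∀ i g x, v i (act g x) = g • v i x) (hli : LinearIndependent R v) :
    LinearIndependent Ω v := by
  classical
  rw [linearIndependent_iff'] at hli ⊢
  intro s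
  induction s using Finset.induction_on with
  | empty => intro c _ i hi; simp at hi
  | insert a s ha ih =>
    intro c hc
    by_cases hca : c a = 0
    · rw [Finset.sum_insert ha, hca, zero_smul, zero_add] at hc
      intro i hi
      rcases Finset.mem_insert.mp hi with rfl | hi
      · exact hca
      · exact ih c hc i hi
    · exfalso
      -- normalise
      set c' : ι → Ω := fun i => (c a)⁻¹ * c i with hc'
      have h1 : ∑ i ∈ insert a s, c' i • v i = 0 := by
        have : ∑ i ∈ insert a s, c' i • v i = (c a)⁻¹ • ∑ i ∈ insert a s, c i • v i := by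
          rw [Finset.smul_sum]
          exact Finset.sum_congr rfl fun i _ => by rw [hc', smul_smul]
        rw [this, hc, smul_zero]
      have ha1 : c' a = 1 := inv_mul_cancel₀ hca
      have hg : ∀ g : G, ∑ i ∈ insert a s, (g • c' i) • v i = 0 := by
        intro g
        funext x
        obtain ⟨y, rfl⟩ := hact g x
        have := congrArg (fun f => g • f y) h1
        simpa [Finset.sum_apply, Finset.smul_sum, smul_mul', hv] using this
      have hfix : ∀ i ∈ insert a s, ∀ g : G, g • c' i = c' i := by
        intro i hi g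
        rcases Finset.mem_insert.mp hi with rfl | hi
        · rw [ha1, smul_one]
        · have h2 : ∑ i ∈ s, (g • c' i - c' i) • v i = 0 := by
            have h3 : ∑ i ∈ insert a s, (g • c' i - c' i) • v i = 0 := by
              simp only [sub_smul, Finset.sum_sub_distrib, hg g, h1, sub_zero]
            rw [Finset.sum_insert ha, ha1, smul_one, sub_self, zero_smul, zero_add] at h3
            exact h3
          exact sub_eq_zero.mp (ih _ h2 i hi)
      obtain ⟨d, hd, r, hr⟩ := exists_common_denom R G (insert a s) c' hfix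
      have h4 : ∑ i ∈ insert a s, r i • v i = 0 := by
        have : ∑ i ∈ insert a s, r i • v i
            = algebraMap R Ω d • ∑ i ∈ insert a s, c' i • v i := by
          rw [Finset.smul_sum]
          refine Finset.sum_congr rfl fun i hi => ?_
          rw [smul_smul, hr i hi]
          funext x; simp [Algebra.smul_def]
        rw [this, h1, smul_zero]
      have h5 := hli _ _ h4 a (Finset.mem_insert_self _ _)
      have h6 := hr a (Finset.mem_insert_self _ _)
      rw [h5, ha1, mul_one, map_zero] at h6
      exact hd (Setup.inj (G := G) (by rw [h6, map_zero]))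

end LinIndep

section Good

variable {R : Type*} [CommRing R] {Ω : Type*} [Field Ω] [Algebra R Ω]

/-- A linear map from an `R`-module to `Ω`-valued functions is *good* if it sends some finite
basis to an `Ω`-linearly independent family. -/
def Good {A : Type*} [AddCommMonoid A] [Module R A] {X : Type*} (α : A →ₗ[R] (X → Ω)) : Prop :=
  ∃ (n : ℕ) (b : Module.Basis (Fin n) R A), LinearIndependent Ω (fun i => α (b i))

/-- the function `(x, y) ↦ a x * b y` attached to `a ⊗ b`. -/
noncomputable def tmulFun {A B : Type*} [AddCommMonoid A] [Module R A] [AddCommMonoid B]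
    [Module R B] {X Y : Type*} (α : A →ₗ[R] (X → Ω)) (β : B →ₗ[R] (Y → Ω)) :
    A ⊗[R] B →ₗ[R] (X × Y → Ω) :=
  TensorProduct.lift (LinearMap.mk₂ R (fun a b z => α a z.1 * β b z.2)
    (fun a a' b => by funext z; simp [add_mul]) (fun c a b => by funext z; simp)
    (fun a b b' => by funext z; simp [mul_add]) (fun c a b => by funext z; simp))

@[simp] theorem tmulFun_tmul {A B : Type*} [AddCommMonoid A] [Module R A] [AddCommMonoid B]
    [Module R B] {X Y : Type*} (α : A →ₗ[R] (X → Ω)) (β : B →ₗ[R] (Y → Ω)) (a : A) (b : B)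
    (z : X × Y) : tmulFun α β (a ⊗ₜ b) z = α a z.1 * β b z.2 := by
  simp [tmulFun]

theorem Good.injective (hinj : Function.Injective (algebraMap R Ω))
    {A : Type*} [AddCommMonoid A] [Module R A] {X : Type*} {α : A →ₗ[R] (X → Ω)} (h : Good α) :
    Function.Injective α := by
  obtain ⟨n, b, hb⟩ := h
  intro a a' haa'
  have key : ∀ a : A, α a = ∑ i, algebraMap R Ω (b.repr a i) • α (b i) := by
    intro a
    conv_lhs => rw [← b.sum_repr a]
    rw [map_sum]
    refine Finset.sum_congr rfl fun i _ => ?_
    rw [map_smul]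
    funext x; simp [Algebra.smul_def]
  rw [key a, key a'] at haa'
  have h1 : ∑ i, (algebraMap R Ω (b.repr a i) - algebraMap R Ω (b.repr a' i)) • α (b i) = 0 := by
    simp only [sub_smul, Finset.sum_sub_distrib, haa', sub_self]
  have h2 := Fintype.linearIndependent_iff.mp hb _ h1
  apply b.repr.injective
  ext i
  exact hinj (sub_eq_zero.mp (h2 i))

theorem linearIndependent_mul {X Y ι κ : Type*} [Fintype ι] [Fintype κ]
    {a : ι → X → Ω} {b : κ → Y → Ω} (ha : LinearIndependent Ω a) (hb : LinearIndependent Ω b) :
    LinearIndependent Ω (fun (p : ι × κ) (z : X × Y) => a p.1 z.1 * b p.2 z.2) := by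
  classical
  rw [Fintype.linearIndependent_iff] at ha hb ⊢
  intro c hc ij
  have h1 : ∀ y : Y, ∀ i, ∑ j, c (i, j) * b j y = 0 := by
    intro y
    refine ha _ ?_
    funext x
    have := congrFun hc (x, y)
    simp only [Finset.sum_apply, Pi.smul_apply, smul_eq_mul, Pi.zero_apply] at this ⊢
    rw [← this, Fintype.sum_prod_type]
    refine Finset.sum_congr rfl fun i _ => ?_
    rw [Finset.sum_mul]
    exact Finset.sum_congr rfl fun j _ => by ring
  have h2 := hb (fun j => c (ij.1, j)) (by
    funext y
    have := h1 y ij.1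
    simpa [Finset.sum_apply] using this)
  exact h2 ij.2

theorem Good.tmul {A B : Type*} [AddCommMonoid A] [Module R A] [AddCommMonoid B]
    [Module R B] {X Y : Type*} {α : A →ₗ[R] (X → Ω)} {β : B →ₗ[R] (Y → Ω)}
    (hα : Good α) (hβ : Good β) : Good (tmulFun α β) := by
  obtain ⟨n, b, hb⟩ := hα
  obtain ⟨m, c, hc⟩ := hβ
  refine ⟨n * m, (b.tensorProduct c).reindex finProdFinEquiv, ?_⟩
  have h := linearIndependent_mul hb hc
  have h2 := h.comp (finProdFinEquiv (m := n) (n := m)).symm (Equiv.injective _)
  convert h2 using 1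
  funext i z
  simp [Module.Basis.tensorProduct_apply]

end Good

theorem torsionFree_of_inj {R : Type*} [CommRing R] [IsDomain R] {Ω : Type*} [Field Ω]
    [Algebra R Ω] (hinj : Function.Injective (algebraMap R Ω)) (X : Type*)
    (O : Submodule R (X → Ω)) : Module.IsTorsionFree R O := by
  refine Module.IsTorsionFree.mk ?_
  intro r hr x y hxy
  have hr0 : algebraMap R Ω r ≠ 0 := fun h =>
    (isRegular_iff_ne_zero.mp hr) (hinj (by rw [h, map_zero]))
  ext z
  have h1 := congrArg (fun f : O => (f : X → Ω) z) hxy
  simp only [Submodule.coe_smul, Pi.smul_apply, Algebra.smul_def] at h1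
  exact mul_left_cancel₀ hr0 h1

section Order

variable {R : Type*} [CommRing R] {Ω : Type*} [Field Ω] [Algebra R Ω]
  {G : Type*} [Group G] [MulSemiringAction G Ω] {M : Type*} [AddCommGroup M]

/-- the `R`-module of functions `(x, y) ↦ ∑ a_i x * b_i y` with `a_i ∈ O`, `b_i ∈ P`. -/
noncomputable def tens {X Y : Type*} (O : Submodule R (X → Ω)) (P : Submodule R (Y → Ω)) :
    Submodule R (X × Y → Ω) :=
  LinearMap.range (tmulFun O.subtype P.subtype)

theorem mem_tens_iff {X Y : Type*} {O : Submodule R (X → Ω)} {P : Submodule R (Y → Ω)}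
    {f : X × Y → Ω} : f ∈ tens O P ↔
      ∃ (n : ℕ) (a : Fin n → (X → Ω)) (b : Fin n → (Y → Ω)), (∀ i, a i ∈ O) ∧ (∀ i, b i ∈ P) ∧
        ∀ x y, f (x, y) = ∑ i, a i x * b i y := by
  constructor
  · rintro ⟨z, rfl⟩
    induction z using TensorProduct.induction_on with
    | zero => exact ⟨0, Fin.elim0, Fin.elim0, fun i => i.elim0, fun i => i.elim0, by simp⟩
    | tmul a b => exact ⟨1, fun _ => a.1, fun _ => b.1, fun _ => a.2, fun _ => b.2, by simp⟩
    | add z w hz hw =>
      obtain ⟨n, a, b, ha, hb, h⟩ := hz
      obtain ⟨m, a', b', ha', hb', h'⟩ := hw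
      refine ⟨n + m, Fin.append a a', Fin.append b b', ?_, ?_, ?_⟩
      · intro i; refine Fin.addCases (fun i => ?_) (fun i => ?_) i
        · simpa using ha i
        · simpa using ha' i
      · intro i; refine Fin.addCases (fun i => ?_) (fun i => ?_) i
        · simpa using hb i
        · simpa using hb' i
      · intro x y
        rw [map_add, Pi.add_apply, h, h', Fin.sum_univ_add]
        simp
  · rintro ⟨n, a, b, ha, hb, h⟩
    refine ⟨∑ i, (⟨a i, ha i⟩ : O) ⊗ₜ[R] (⟨b i, hb i⟩ : P), ?_⟩
    funext z
    obtain ⟨x, y⟩ := z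
    rw [h, map_sum, Finset.sum_apply]
    simp

/-- An order of functions on `M` (see the header). -/
structure IsOrder (ρ : G →* AddMonoid.End M) (O : Subalgebra R (M → Ω)) : Prop where
  fg : (Subalgebra.toSubmodule O).FG
  equivariant : ∀ φ ∈ O, ∀ (g : G) (m : M), φ (ρ g m) = g • φ m
  separates : ∀ m n : M, (∀ φ ∈ O, φ m = φ n) → m = n
  add_mem : ∀ φ ∈ O, (fun z : M × M => φ (z.1 + z.2)) ∈
    tens (Subalgebra.toSubmodule O) (Subalgebra.toSubmodule O)

/-- `M` is (the generic fibre of) a finite flat cocommutative group scheme over `R`. -/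
def IsFlat (R : Type*) [CommRing R] {Ω : Type*} [Field Ω] [Algebra R Ω]
    {G : Type*} [Group G] [MulSemiringAction G Ω] {M : Type*} [AddCommGroup M]
    (ρ : G →* AddMonoid.End M) : Prop :=
  ∃ O : Subalgebra R (M → Ω), IsOrder ρ O

theorem act_surjective (ρ : G →* AddMonoid.End M) (g : G) : Function.Surjective (ρ g) := by
  intro m
  refine ⟨ρ g⁻¹ m, ?_⟩
  have : (ρ g * ρ g⁻¹) m = m := by
    rw [← map_mul, mul_inv_cancel, map_one]; rfl
  exact this

variable [IsDomain R] [IsPrincipalIdealRing R] [Setup R Ω G]

theorem good_of_equivariant {X : Type*} (act : G → X → X)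
    (hact : ∀ g, Function.Surjective (act g)) (O : Submodule R (X → Ω)) (hfg : O.FG)
    (hO : ∀ φ ∈ O, ∀ g x, φ (act g x) = g • φ x) : Good (Ω := Ω) O.subtype := by
  haveI := torsionFree_of_inj (Setup.inj (R := R) (Ω := Ω) (G := G)) X O
  haveI : Module.Finite R O := Module.Finite.iff_fg.mpr hfg
  haveI : Module.Free R O := Module.free_of_finite_type_torsion_free'
  obtain ⟨n, ⟨b⟩⟩ : ∃ n, Nonempty (Module.Basis (Fin n) R O) :=
    ⟨_, ⟨Module.finBasis R O⟩⟩
  refine ⟨n, b, ?_⟩
  have hli := b.linearIndependent.map' O.subtype (Submodule.ker_subtype O)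
  exact linearIndependent_of_equivariant (R := R) G act hact _ (fun i g x => hO _ (b i).2 g x) hli

theorem IsOrder.good {ρ : G →* AddMonoid.End M} {O : Subalgebra R (M → Ω)} (h : IsOrder ρ O) :
    Good (Ω := Ω) (Subalgebra.toSubmodule O).subtype :=
  good_of_equivariant (fun g m => ρ g m) (act_surjective ρ) _ h.fg h.equivariant

end Order

end Fermat.Agent.Flat
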