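import Fermat.Agent.Flat.Closure

/-!
# Base change of orders, and Cartier duality of orders
-/

set_option autoImplicit false

open TensorProduct

namespace Fermat.Agent.Flat

section BaseChange

variable {R : Type*} [CommRing R] {Ω : Type*} [Field Ω] [Algebra R Ω]
  {G : Type*} [Group G] [MulSemiringAction G Ω]
  {R' : Type*} [CommRing R'] {Ω' : Type*} [Field Ω'] [Algebra R' Ω']
  {G' : Type*} [Group G'] [MulSemiringAction G' Ω']
  {M : Type*} [AddCommGroup M] {ρ : G →* AddMonoid.End M} {ρ' : G' →* AddMonoid.End M}
  {O : Subalgebra R (M → Ω)}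

/-- the `R'`-algebra generated by the image of `O`. -/
def bcOrder (R' : Type*) [CommRing R'] {Ω' : Type*} [Field Ω'] [Algebra R' Ω'] (ι : Ω →+* Ω')
    (O : Subalgebra R (M → Ω)) : Subalgebra R' (M → Ω') :=
  Algebra.adjoin R' {f | ∃ φ ∈ O, f = fun m => ι (φ m)}

theorem bcOrder_toSubmodule (ι : Ω →+* Ω') (O : Subalgebra R (M → Ω)) :
    Subalgebra.toSubmodule (bcOrder R' ι O) =
      Submodule.span R' {f | ∃ φ ∈ O, f = fun m => ι (φ m)} := by
  rw [bcOrder, Algebra.adjoin_eq_span]
  congr 1
  let S : Submonoid (M → Ω') :=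
    { carrier := {f | ∃ φ ∈ O, f = fun m => ι (φ m)}
      one_mem' := ⟨1, O.one_mem, by funext m; simp⟩
      mul_mem' := by
        rintro _ _ ⟨φ, hφ, rfl⟩ ⟨ψ, hψ, rfl⟩
        exact ⟨φ * ψ, O.mul_mem hφ hψ, by funext m; simp⟩ }
  have : Submonoid.closure (S : Set (M → Ω')) = S := Submonoid.closure_eq S
  exact congrArg (fun T : Submonoid (M → Ω') => (T : Set (M → Ω'))) this

theorem mem_bcOrder (ι : Ω →+* Ω') {φ : M → Ω} (hφ : φ ∈ O) :
    (fun m => ι (φ m)) ∈ bcOrder R' ι O :=
  Algebra.subset_adjoin ⟨φ, hφ, rfl⟩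

theorem bcOrder_induction (ι : Ω →+* Ω') {C : (M → Ω') → Prop} (h0 : C 0)
    (hadd : ∀ f g, C f → C g → C (f + g)) (hsmul : ∀ (r : R') f, C f → C (r • f))
    (hmem : ∀ φ ∈ O, C (fun m => ι (φ m))) {f : M → Ω'} (hf : f ∈ bcOrder R' ι O) : C f := by
  have hf' : f ∈ Subalgebra.toSubmodule (bcOrder R' ι O) := hf
  rw [bcOrder_toSubmodule] at hf'
  induction hf' using Submodule.span_induction with
  | mem x hx => obtain ⟨φ, hφ, rfl⟩ := hx; exact hmem φ hφ
  | zero => exact h0
  | add x y hx hy hx' hy' =>
    exact hadd x y (hx' (by rw [← bcOrder_toSubmodule] at hx; exact hx))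
      (hy' (by rw [← bcOrder_toSubmodule] at hy; exact hy))
  | smul a x hx hx' =>
    exact hsmul a x (hx' (by rw [← bcOrder_toSubmodule] at hx; exact hx))

theorem IsOrder.baseChange (h : IsOrder ρ O) (ι : Ω →+* Ω') (f : R →+* R') (j : G' →* G)
    (hf : ∀ r, ι (algebraMap R Ω r) = algebraMap R' Ω' (f r))
    (hj : ∀ g x, ι (j g • x) = g • ι x) (hρ : ∀ g m, ρ' g m = ρ (j g) m)
    (hR' : ∀ (g : G') (r : R'), g • algebraMap R' Ω' r = algebraMap R' Ω' r) :
    IsOrder ρ' (bcOrder R' ι O) where
  fg := by
    rw [bcOrder_toSubmodule]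
    obtain ⟨s, hs⟩ := h.fg
    classical
    refine ⟨s.image (fun φ m => ι (φ m)), ?_⟩
    apply le_antisymm
    · refine Submodule.span_mono ?_
      intro x hx
      rw [Finset.coe_image] at hx
      obtain ⟨φ, hφ, rfl⟩ := hx
      refine ⟨φ, ?_, rfl⟩
      have : φ ∈ Submodule.span R (s : Set (M → Ω)) := Submodule.subset_span hφ
      rw [hs] at this; exact this
    · rw [Submodule.span_le]
      rintro _ ⟨φ, hφ, rfl⟩
      have hφ' : φ ∈ Submodule.span R (s : Set (M → Ω)) := by rw [hs]; exact hφ
      induction hφ' using Submodule.span_induction with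
      | mem x hx =>
        refine Submodule.subset_span ?_
        rw [Finset.coe_image]
        exact ⟨x, hx, rfl⟩
      | zero =>
        have : (fun m => ι ((0 : M → Ω) m)) = (0 : M → Ω') := by funext m; simp
        rw [this]; exact Submodule.zero_mem _
      | add x y hx hy hx' hy' =>
        have : (fun m => ι ((x + y) m)) = (fun m => ι (x m)) + (fun m => ι (y m)) := by
          funext m; simp
        rw [this]
        have hxO : x ∈ O := by rw [hs] at hx; exact hx
        have hyO : y ∈ O := by rw [hs] at hy; exact hy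
        exact Submodule.add_mem _ (hx' hxO) (hy' hyO)
      | smul a x hx hx' =>
        have : (fun m => ι ((a • x) m)) = f a • (fun m => ι (x m)) := by
          funext m
          simp only [Pi.smul_apply, Algebra.smul_def]
          rw [← hf, ← map_mul]
        rw [this]
        have hxO : x ∈ O := by rw [hs] at hx; exact hx
        exact Submodule.smul_mem _ _ (hx' hxO)
  equivariant := by
    intro φ hφ g m
    refine bcOrder_induction (R' := R') ι (C := fun φ => φ (ρ' g m) = g • φ m) ?_ ?_ ?_ ?_ hφ
    · simp
    · intro f f' hf hf'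
      simp only [Pi.add_apply, smul_add, hf, hf']
    · intro r f hf'
      simp only [Pi.smul_apply, Algebra.smul_def, smul_mul', hR', hf']
    · intro φ hφ
      change ι (φ (ρ' g m)) = g • ι (φ m)
      rw [hρ, h.equivariant φ hφ, hj]
  separates := by
    intro m n hmn
    refine h.separates m n (fun φ hφ => ι.injective ?_)
    exact hmn _ (mem_bcOrder ι hφ)
  add_mem := by
    intro φ hφ
    refine bcOrder_induction (R' := R') ι (C := fun φ => (fun z : M × M => φ (z.1 + z.2)) ∈
      tens (Subalgebra.toSubmodule (bcOrder R' ι O)) (Subalgebra.toSubmodule (bcOrder R' ι O)))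
      ?_ ?_ ?_ ?_ hφ
    · exact Submodule.zero_mem _
    · intro f g hf hg
      exact Submodule.add_mem _ hf hg
    · intro r f hf
      exact Submodule.smul_mem _ r hf
    · intro φ hφ
      obtain ⟨n, a, b, ha, hb, hab⟩ := mem_tens_iff.mp (h.add_mem φ hφ)
      refine mem_tens_iff.mpr ⟨n, fun i m => ι (a i m), fun i m => ι (b i m),
        fun i => mem_bcOrder ι (ha i), fun i => mem_bcOrder ι (hb i), fun x y => ?_⟩
      have := hab x y
      simp only at this
      simp only
      rw [this, map_sum]
      simp

end BaseChange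

section Dual

variable {R : Type*} [CommRing R] [IsDomain R] [IsPrincipalIdealRing R] {Ω : Type*} [Field Ω]
  [Algebra R Ω] {G : Type*} [Group G] [MulSemiringAction G Ω] [Setup R Ω G]
  {M : Type*} [AddCommGroup M] {ρ : G →* AddMonoid.End M}
  {M' : Type*} [AddCommGroup M'] {ρ' : G →* AddMonoid.End M'} {O : Subalgebra R (M → Ω)}

/-- A multiplicative pairing of Galois modules. -/
structure Pairing (ρ : G →* AddMonoid.End M) (ρ' : G →* AddMonoid.End M') (e : M' → M → Ω) :
    Prop where
  add_left : ∀ a b x, e (a + b) x = e a x * e b x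
  add_right : ∀ a x y, e a (x + y) = e a x * e a y
  zero_right : ∀ a, e a 0 = 1
  zero_left : ∀ x, e 0 x = 1
  equivariant : ∀ g a x, e (ρ' g a) (ρ g x) = g • e a x
  nondeg : ∀ a b, (∀ x, e a x = e b x) → a = b

/-- Data of a dual basis: `a` is an `R`-basis of `O` and an `Ω`-basis of all functions, and
`e m' = ∑ b_j(m') a_j`. -/
structure DualBasis (O : Subalgebra R (M → Ω)) (e : M' → M → Ω) (n : ℕ) where
  a : Fin n → (M → Ω)
  b : Fin n → (M' → Ω)
  a_mem : ∀ i, a i ∈ O
  a_span : ∀ φ ∈ O, ∃ c : Fin n → R, φ = ∑ i, c i • a i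
  a_indep : LinearIndependent Ω a
  expand : ∀ m' x, e m' x = ∑ j, b j m' * a j x

theorem IsOrder.exists_dualBasis [Finite M] (h : IsOrder ρ O) (e : M' → M → Ω) :
    ∃ n, Nonempty (DualBasis O e n) := by
  obtain ⟨n, a, ha⟩ := h.good
  have htop := span_eq_top_of_separates O h.separates
  have hrange : Submodule.span Ω (Set.range fun i => ((a i : O) : M → Ω)) = ⊤ := by
    rw [← htop]
    apply le_antisymm
    · refine Submodule.span_mono ?_
      rintro _ ⟨i, rfl⟩; exact (a i).2
    · rw [Submodule.span_le]
      intro φ hφ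
      have : φ = ∑ i, (algebraMap R Ω (a.repr ⟨φ, hφ⟩ i)) • ((a i : O) : M → Ω) := by
        have := congrArg (fun z : O => (z : M → Ω)) (a.sum_repr ⟨φ, hφ⟩)
        simp only [Submodule.coe_sum, Submodule.coe_smul] at this
        refine this.symm.trans (Finset.sum_congr rfl fun i _ => ?_)
        funext x; simp [Algebra.smul_def]
      rw [SetLike.mem_coe, this]
      exact sum_mem fun i _ => Submodule.smul_mem _ _ (Submodule.subset_span ⟨i, rfl⟩)
  let B := Module.Basis.mk ha hrange.ge
  refine ⟨n, ⟨{ a := fun i => ((a i : O) : M → Ω)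
                b := fun j m' => B.repr (e m') j
                a_mem := fun i => (a i).2
                a_span := ?_
                a_indep := ha
                expand := ?_ }⟩⟩
  · intro φ hφ
    refine ⟨fun i => a.repr ⟨φ, hφ⟩ i, ?_⟩
    have := congrArg (fun z : O => (z : M → Ω)) (a.sum_repr ⟨φ, hφ⟩)
    simp only [Submodule.coe_sum, Submodule.coe_smul] at this
    exact this.symm
  · intro m' x
    have := congrFun (B.sum_repr (e m')) x
    rw [Finset.sum_apply] at this
    rw [← this]
    refine Finset.sum_congr rfl fun i _ => ?_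
    rw [Pi.smul_apply, smul_eq_mul, Module.Basis.mk_apply]
    rfl

namespace DualBasis

variable {e : M' → M → Ω} {n : ℕ} (D : DualBasis O e n)

omit [IsDomain R] [IsPrincipalIdealRing R] [Setup R Ω G] in
theorem coord_unique {c c' : Fin n → Ω} (h : ∀ x, ∑ j, c j * D.a j x = ∑ j, c' j * D.a j x) :
    c = c' := by
  have h1 : ∑ j, (c j - c' j) • D.a j = 0 := by
    funext x
    rw [Finset.sum_apply]
    simp only [Pi.smul_apply, smul_eq_mul, sub_mul, Finset.sum_sub_distrib, h x, sub_self,
      Pi.zero_apply]
  have := Fintype.linearIndependent_iff.mp D.a_indep _ h1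
  funext j
  exact sub_eq_zero.mp (this j)

omit [IsDomain R] [IsPrincipalIdealRing R] [Setup R Ω G] in
theorem coord_unique₂ {c c' : Fin n → Fin n → Ω}
    (h : ∀ x y, ∑ j, ∑ l, c j l * (D.a j x * D.a l y) = ∑ j, ∑ l, c' j l * (D.a j x * D.a l y)) :
    c = c' := by
  funext j
  have h1 : ∀ y, (fun j => ∑ l, c j l * D.a l y) = (fun j => ∑ l, c' j l * D.a l y) := by
    intro y
    apply D.coord_unique
    intro x
    have := h x y
    simp only [Finset.sum_mul]
    refine Eq.trans ?_ (this.trans ?_)
    · exact Finset.sum_congr rfl fun j _ => Finset.sum_congr rfl fun l _ => by ring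
    · exact Finset.sum_congr rfl fun j _ => Finset.sum_congr rfl fun l _ => by ring
  apply D.coord_unique
  intro y
  exact congrFun (h1 y) j

omit [IsDomain R] [IsPrincipalIdealRing R] in
theorem exists_comul (h : IsOrder ρ O) (m : Fin n) : ∃ c : Fin n → Fin n → R,
    ∀ x y, D.a m (x + y) = ∑ j, ∑ l, algebraMap R Ω (c j l) * (D.a j x * D.a l y) := by
  obtain ⟨N, α, β, hα, hβ, hab⟩ := mem_tens_iff.mp (h.add_mem _ (D.a_mem m))
  choose s hs using fun i => D.a_span (α i) (hα i)
  choose t ht using fun i => D.a_span (β i) (hβ i)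
  refine ⟨fun j l => ∑ i, s i j * t i l, fun x y => ?_⟩
  have h1 : ∀ i x, α i x = ∑ j, algebraMap R Ω (s i j) * D.a j x := by
    intro i x
    conv_lhs => rw [hs i]
    rw [Finset.sum_apply]
    exact Finset.sum_congr rfl fun j _ => by rw [Pi.smul_apply, Algebra.smul_def]
  have h2 : ∀ i x, β i x = ∑ j, algebraMap R Ω (t i j) * D.a j x := by
    intro i x
    conv_lhs => rw [ht i]
    rw [Finset.sum_apply]
    exact Finset.sum_congr rfl fun j _ => by rw [Pi.smul_apply, Algebra.smul_def]
  refine (hab x y).trans ?_
  simp only [map_sum, map_mul, Finset.sum_mul]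
  rw [Finset.sum_congr rfl (fun i _ => by rw [h1 i x, h2 i y, Finset.sum_mul_sum] :
    ∀ i ∈ Finset.univ, α i x * β i y = ∑ j, ∑ l, (algebraMap R Ω (s i j) * D.a j x) *
      (algebraMap R Ω (t i l) * D.a l y))]
  rw [Finset.sum_comm]
  refine Finset.sum_congr rfl fun j _ => ?_
  rw [Finset.sum_comm]
  refine Finset.sum_congr rfl fun l _ => Finset.sum_congr rfl fun i _ => ?_
  ring

omit [IsDomain R] [IsPrincipalIdealRing R] in
theorem exists_mul (j l : Fin n) : ∃ c : Fin n → R,
    ∀ x, D.a j x * D.a l x = ∑ m, algebraMap R Ω (c m) * D.a m x := by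
  obtain ⟨c, hc⟩ := D.a_span (D.a j * D.a l) (O.mul_mem (D.a_mem j) (D.a_mem l))
  refine ⟨c, fun x => ?_⟩
  have := congrFun hc x
  rw [Pi.mul_apply, Finset.sum_apply] at this
  rw [this]
  exact Finset.sum_congr rfl fun j _ => by rw [Pi.smul_apply, Algebra.smul_def]

theorem one_mem (h : IsOrder ρ O) (he : Pairing ρ ρ' e) :
    (1 : M' → Ω) ∈ Submodule.span R (Set.range D.b) := by
  choose r hr using fun j => h.apply_zero (D.a_mem j)
  have : (1 : M' → Ω) = ∑ j, r j • D.b j := by
    funext m'
    have := D.expand m' 0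
    rw [he.zero_right] at this
    rw [Finset.sum_apply, Pi.one_apply, this]
    refine Finset.sum_congr rfl fun j _ => ?_
    rw [Pi.smul_apply, Algebra.smul_def, hr, mul_comm]
  rw [this]
  exact sum_mem fun j _ => Submodule.smul_mem _ _ (Submodule.subset_span ⟨j, rfl⟩)

omit [IsDomain R] [IsPrincipalIdealRing R] in
theorem b_mul_mem (h : IsOrder ρ O) (he : Pairing ρ ρ' e) (j l : Fin n) :
    D.b j * D.b l ∈ Submodule.span R (Set.range D.b) := by
  choose c hc using fun m => D.exists_comul h m
  have key : ∀ m', (fun j l => D.b j m' * D.b l m')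
      = fun j l => ∑ m, D.b m m' * algebraMap R Ω (c m j l) := by
    intro m'
    apply D.coord_unique₂
    intro x y
    have h1 := he.add_right m' x y
    rw [D.expand, D.expand m' x, D.expand m' y, Finset.sum_mul_sum] at h1
    refine Eq.trans (Eq.trans ?_ h1.symm) ?_
    · exact Finset.sum_congr rfl fun j _ => Finset.sum_congr rfl fun l _ => by ring
    · simp only [Finset.sum_mul]
      rw [Finset.sum_congr rfl (fun m _ => by rw [hc m x y, Finset.mul_sum] :
        ∀ m ∈ Finset.univ, D.b m m' * D.a m (x + y)
          = ∑ j, D.b m m' * ∑ l, algebraMap R Ω (c m j l) * (D.a j x * D.a l y))]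
      rw [Finset.sum_comm]
      refine Finset.sum_congr rfl fun j _ => ?_
      simp only [Finset.mul_sum]
      rw [Finset.sum_comm]
      refine Finset.sum_congr rfl fun l _ => Finset.sum_congr rfl fun m _ => ?_
      ring
  have : D.b j * D.b l = ∑ m, c m j l • D.b m := by
    funext m'
    have h1 : D.b j m' * D.b l m' = ∑ m, D.b m m' * algebraMap R Ω (c m j l) :=
      congrFun (congrFun (key m') j) l
    rw [Pi.mul_apply, h1, Finset.sum_apply]
    refine Finset.sum_congr rfl fun m _ => ?_
    rw [Pi.smul_apply, Algebra.smul_def, mul_comm]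
  rw [this]
  exact sum_mem fun m _ => Submodule.smul_mem _ _ (Submodule.subset_span ⟨m, rfl⟩)

/-- the Cartier dual order -/
noncomputable def dual (h : IsOrder ρ O) (he : Pairing ρ ρ' e) : Subalgebra R (M' → Ω) :=
  (Submodule.span R (Set.range D.b)).toSubalgebra (D.one_mem h he) (by
    intro x y hx hy
    induction hx using Submodule.span_induction with
    | mem x hx =>
      obtain ⟨j, rfl⟩ := hx
      induction hy using Submodule.span_induction with
      | mem y hy => obtain ⟨l, rfl⟩ := hy; exact D.b_mul_mem h he j l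
      | zero => rw [mul_zero]; exact Submodule.zero_mem _
      | add y z _ _ hy hz => rw [mul_add]; exact Submodule.add_mem _ hy hz
      | smul r y _ hy => rw [mul_smul_comm]; exact Submodule.smul_mem _ _ hy
    | zero => rw [zero_mul]; exact Submodule.zero_mem _
    | add x z _ _ hx hz => rw [add_mul]; exact Submodule.add_mem _ hx hz
    | smul r x _ hx => rw [smul_mul_assoc]; exact Submodule.smul_mem _ _ hx)

theorem dual_toSubmodule (h : IsOrder ρ O) (he : Pairing ρ ρ' e) :
    Subalgebra.toSubmodule (D.dual h he) = Submodule.span R (Set.range D.b) := rfl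

theorem b_mem_dual (h : IsOrder ρ O) (he : Pairing ρ ρ' e) (j : Fin n) : D.b j ∈ D.dual h he :=
  (Submodule.subset_span ⟨j, rfl⟩ : D.b j ∈ Submodule.span R (Set.range D.b))

theorem isOrder_dual (h : IsOrder ρ O) (he : Pairing ρ ρ' e) : IsOrder ρ' (D.dual h he) where
  fg := by
    rw [dual_toSubmodule]
    exact Submodule.fg_span (Set.finite_range _)
  equivariant := by
    intro φ hφ g m'
    have hφ' : φ ∈ Submodule.span R (Set.range D.b) := hφ
    clear hφ
    induction hφ' using Submodule.span_induction with
    | mem x hx =>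
      obtain ⟨j, rfl⟩ := hx
      have : (fun j => D.b j (ρ' g m')) = fun j => g • D.b j m' := by
        apply D.coord_unique
        intro x
        obtain ⟨y, rfl⟩ := act_surjective ρ g x
        rw [← D.expand, he.equivariant, D.expand, Finset.smul_sum]
        refine Finset.sum_congr rfl fun j _ => ?_
        rw [smul_mul', h.equivariant _ (D.a_mem j)]
      exact congrFun this j
    | zero => simp
    | add x y _ _ hx hy => rw [Pi.add_apply, Pi.add_apply, hx, hy, smul_add]
    | smul r x _ hx =>
      rw [Pi.smul_apply, Pi.smul_apply, Algebra.smul_def, Algebra.smul_def, hx, smul_mul',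
        Setup.smul_algebraMap]
  separates := by
    intro m' n' hmn
    apply he.nondeg
    intro x
    rw [D.expand, D.expand]
    exact Finset.sum_congr rfl fun j _ => by rw [hmn _ (D.b_mem_dual h he j)]
  add_mem := by
    intro φ hφ
    have hφ' : φ ∈ Submodule.span R (Set.range D.b) := hφ
    clear hφ
    induction hφ' using Submodule.span_induction with
    | mem x hx =>
      obtain ⟨m, rfl⟩ := hx
      choose c hc using fun j l => D.exists_mul j l
      have key : ∀ a b : M', D.b m (a + b)
          = ∑ j, ∑ l, (D.b j a * D.b l b) * algebraMap R Ω (c j l m) := by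
        intro a b
        have : (fun m => D.b m (a + b))
            = fun m => ∑ j, ∑ l, (D.b j a * D.b l b) * algebraMap R Ω (c j l m) := by
          apply D.coord_unique
          intro x
          rw [← D.expand, he.add_left, D.expand, D.expand b, Finset.sum_mul_sum]
          simp only [Finset.sum_mul]
          symm
          rw [Finset.sum_comm]
          refine Finset.sum_congr rfl fun j _ => ?_
          rw [Finset.sum_comm]
          refine Finset.sum_congr rfl fun l _ => ?_
          symm
          have : D.b j a * D.a j x * (D.b l b * D.a l x)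
              = D.b j a * D.b l b * (D.a j x * D.a l x) := by ring
          rw [this, hc j l x, Finset.mul_sum]
          exact Finset.sum_congr rfl fun m _ => by ring
        exact congrFun this m
      have : (fun z : M' × M' => D.b m (z.1 + z.2)) = ∑ j, ∑ l,
          (c j l m) • (fun z : M' × M' => D.b j z.1 * D.b l z.2) := by
        funext z
        rw [key]
        simp only [Finset.sum_apply, Pi.smul_apply]
        refine Finset.sum_congr rfl fun j _ => Finset.sum_congr rfl fun l _ => ?_
        rw [Algebra.smul_def, mul_comm]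
      rw [this]
      refine sum_mem fun j _ => sum_mem fun l _ => Submodule.smul_mem _ _ ?_
      exact mem_tens_iff.mpr ⟨1, fun _ => D.b j, fun _ => D.b l,
        fun _ => D.b_mem_dual h he j, fun _ => D.b_mem_dual h he l, fun x y => by simp⟩
    | zero => exact Submodule.zero_mem _
    | add x y _ _ hx hy => exact Submodule.add_mem _ hx hy
    | smul r x _ hx => exact Submodule.smul_mem _ r hx

end DualBasis

end Dual

end Fermat.Agent.Flat
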