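import Fermat.Agent.Flat.LineChar

/-!
# Flat two-dimensional modules: the irreducible case
-/

set_option autoImplicit false

open GaloisRep Fermat.Agent.CFT.Loc Fermat.Agent.CFT Matrix

namespace Fermat.Agent.Flat

local notation "M₂" => Matrix (Fin 2) (Fin 2)

/-- the action on column vectors -/
noncomputable def vecRep {G : Type*} [Group G] {k : Type*} [Field k] (r : G →* M₂ k) :
    G →* AddMonoid.End (Fin 2 → k) where
  toFun g := (Matrix.mulVecLin (r g)).toAddMonoidHom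
  map_one' := by
    apply AddMonoidHom.ext
    intro v
    change r 1 *ᵥ v = v
    rw [map_one, Matrix.one_mulVec]
  map_mul' g h := by
    apply AddMonoidHom.ext
    intro v
    change r (g * h) *ᵥ v = r g *ᵥ (r h *ᵥ v)
    rw [map_mul, Matrix.mulVec_mulVec]

@[simp] theorem vecRep_apply {G : Type*} [Group G] {k : Type*} [Field k] (r : G →* M₂ k) (g : G)
    (v : Fin 2 → k) : vecRep r g v = r g *ᵥ v := rfl

section LinAlg

variable {k : Type*} [Field k]

theorem exists_smul_of_det {v w : Fin 2 → k} (hv : v ≠ 0) (h : v 0 * w 1 = v 1 * w 0) :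
    ∃ a : k, w = a • v := by
  by_cases h0 : v 0 = 0
  · have h1 : v 1 ≠ 0 := by
      intro h1
      apply hv
      funext i
      fin_cases i
      · exact h0
      · exact h1
    refine ⟨w 1 / v 1, ?_⟩
    funext i
    fin_cases i
    · simp only [Fin.zero_eta, Pi.smul_apply, smul_eq_mul, h0, mul_zero]
      rw [h0, zero_mul] at h
      rcases mul_eq_zero.mp h.symm with h | h
      · exact absurd h h1
      · exact h
    · simp only [Fin.mk_one, Pi.smul_apply, smul_eq_mul]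
      field_simp
  · refine ⟨w 0 / v 0, ?_⟩
    funext i
    fin_cases i
    · simp only [Fin.zero_eta, Pi.smul_apply, smul_eq_mul]
      field_simp
    · simp only [Fin.mk_one, Pi.smul_apply, smul_eq_mul]
      field_simp
      linear_combination h

theorem exists_combination {v w : Fin 2 → k} (h : v 0 * w 1 - v 1 * w 0 ≠ 0) (x : Fin 2 → k) :
    ∃ a b : k, x = a • v + b • w := by
  refine ⟨(x 0 * w 1 - x 1 * w 0) / (v 0 * w 1 - v 1 * w 0),
    (v 0 * x 1 - v 1 * x 0) / (v 0 * w 1 - v 1 * w 0), ?_⟩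
  funext i
  fin_cases i
  · simp only [Fin.zero_eta, Pi.add_apply, Pi.smul_apply, smul_eq_mul]
    rw [div_mul_eq_mul_div, div_mul_eq_mul_div, ← add_div, eq_div_iff h]; ring
  · simp only [Fin.mk_one, Pi.add_apply, Pi.smul_apply, smul_eq_mul]
    rw [div_mul_eq_mul_div, div_mul_eq_mul_div, ← add_div, eq_div_iff h]; ring

theorem tr_det_of_charpoly {M : M₂ k} {α β : k}
    (h : M.charpoly = (Polynomial.X - Polynomial.C α) * (Polynomial.X - Polynomial.C β)) :
    M.trace = α + β ∧ M.det = α * β := by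
  rw [Matrix.charpoly_fin_two] at h
  have h1 := congrArg (Polynomial.eval 0) h
  have h2 := congrArg (Polynomial.eval 1) h
  simp only [Polynomial.eval_add, Polynomial.eval_sub, Polynomial.eval_pow, Polynomial.eval_X,
    Polynomial.eval_mul, Polynomial.eval_C] at h1 h2
  constructor
  · linear_combination -h2 + h1
  · linear_combination h1

theorem cayley_two (M : M₂ k) : M * M = M.trace • M - M.det • (1 : M₂ k) := by
  ext i j
  fin_cases i <;> fin_cases j <;>
    simp [Matrix.mul_apply, Fin.sum_univ_two, Matrix.trace_fin_two, Matrix.det_fin_two] <;> ring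

theorem exists_eigenvector {M : M₂ k} {α β : k} (htr : M.trace = α + β) (hdet : M.det = α * β) :
    ∃ v : Fin 2 → k, v ≠ 0 ∧ M *ᵥ v = α • v := by
  have h1 : (M - α • (1 : M₂ k)).det = 0 := by
    rw [Matrix.det_fin_two] at hdet ⊢
    rw [Matrix.trace_fin_two] at htr
    simp
    linear_combination hdet - α * htr
  obtain ⟨v, hv, hMv⟩ := Matrix.exists_mulVec_eq_zero_iff.mpr h1
  refine ⟨v, hv, ?_⟩
  rw [Matrix.sub_mulVec, Matrix.smul_mulVec, Matrix.one_mulVec, sub_eq_zero] at hMv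
  exact hMv

end LinAlg

section Irr

variable {p : ℕ} [hp : Fact p.Prime]

variable {k : Type*} [Field k] [CharP k p] [Finite k] {r : GalLoc p →* M₂ k}

/-- no stable line -/
def NoLine (r : GalLoc p →* M₂ k) : Prop :=
  ∀ v : Fin 2 → k, v ≠ 0 → ∃ g, ∀ a : k, r g *ᵥ v ≠ a • v

omit [CharP k p] [Finite k] in
theorem NoLine.eq_top (hr : NoLine r) (W : Submodule k (Fin 2 → k))
    (hW : ∀ g, ∀ w ∈ W, r g *ᵥ w ∈ W) (hne : ∃ w ∈ W, w ≠ 0) (x : Fin 2 → k) : x ∈ W := by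
  obtain ⟨v, hv, hv0⟩ := hne
  obtain ⟨g, hg⟩ := hr v hv0
  have hdet : v 0 * (r g *ᵥ v) 1 - v 1 * (r g *ᵥ v) 0 ≠ 0 := by
    intro h0
    obtain ⟨a, ha⟩ := exists_smul_of_det hv0 (sub_eq_zero.mp h0)
    exact hg a ha
  obtain ⟨a, b, rfl⟩ := exists_combination hdet x
  exact W.add_mem (W.smul_mem _ hv) (W.smul_mem _ (hW g v hv))

variable {O : Subalgebra (Wring p) ((Fin 2 → k) → PadicAlgCl p)}

/-- The normal form of the irreducible case. -/
structure SuperForm (p : ℕ) [hp : Fact p.Prime] {k : Type*} [Field k] [CharP k p] [Finite k]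
    (r : GalLoc p →* M₂ k) (F : GalLoc p)
    (χ : inertiaLoc p →* kˣ) (β γ : k) : Prop where
  inertia : ∀ τ : inertiaLoc p, r τ = !![(χ τ : k), 0; 0, (χ τ : k) ^ p]
  frob : r F = !![0, β; γ, 0]
  sq : ∀ τ, ((χ τ : kˣ) : k) ^ (p ^ 2) = χ τ
  ne : ∃ τ₀, ((χ τ₀ : kˣ) : k) ^ p ≠ χ τ₀

theorem exists_superForm (h : IsOrder ((vecRep r).comp (inertiaLoc p).subtype) O)
    (hlc : (locLevels p).LC r) (hr : NoLine r)
    (hnt : ∃ τ ∈ inertiaLoc p, r τ ≠ 1)
    (hsplit : ∀ σ, ∃ α β : k,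
      (r σ).charpoly = (Polynomial.X - Polynomial.C α) * (Polynomial.X - Polynomial.C β))
    {F : GalLoc p} (hF : ∀ r, resAct p F r = r ^ p) :
    ∃ (P : M₂ k) (r' : GalLoc p →* M₂ k) (χ : inertiaLoc p →* kˣ) (β γ : k), IsUnit P.det ∧
      (∀ g, r g * P = P * r' g) ∧ SuperForm p r' F χ β γ := by
  classical
  set ρ := (vecRep r).comp (inertiaLoc p).subtype with hρ
  have hρa : ∀ (τ : inertiaLoc p) v, ρ τ v = r τ *ᵥ v := fun τ v => rfl
  have hrinv : ∀ g v, r g⁻¹ *ᵥ (r g *ᵥ v) = v := fun g v => by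
    rw [Matrix.mulVec_mulVec, ← map_mul, inv_mul_cancel, map_one, Matrix.one_mulVec]
  have hrinv' : ∀ g v, r g *ᵥ (r g⁻¹ *ᵥ v) = v := fun g v => by
    rw [Matrix.mulVec_mulVec, ← map_mul, mul_inv_cancel, map_one, Matrix.one_mulVec]
  have hrmul : ∀ g g' v, r (g * g') *ᵥ v = r g *ᵥ (r g' *ᵥ v) := fun g g' v => by
    rw [map_mul, Matrix.mulVec_mulVec]
  -- 1. connectedness
  have hconn : ∀ x, x ∈ connPart h := by
    intro x
    let W : Submodule k (Fin 2 → k) :=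
      { carrier := {x | ∀ (c : k) (g : GalLoc p), c • (r g *ᵥ x) ∈ connPart h}
        add_mem' := fun {a b} ha hb c g => by
          rw [Matrix.mulVec_add, smul_add]; exact add_mem (ha c g) (hb c g)
        zero_mem' := fun c g => by rw [Matrix.mulVec_zero, smul_zero]; exact zero_mem _
        smul_mem' := fun a x hx c g => by
          rw [Matrix.mulVec_smul, smul_smul]; exact hx (c * a) g }
    have hWg : ∀ g, ∀ w ∈ W, r g *ᵥ w ∈ W := fun g w hw c g' => by
      rw [← hrmul]; exact hw c (g' * g)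
    have hW1 : ∀ (τ : inertiaLoc p) v, r τ *ᵥ v - v ∈ W := by
      intro τ v c g
      have h1 := sub_mem_connPart h ⟨g * τ * g⁻¹, conj_mem_inertia g τ⟩ (c • (r g *ᵥ v))
      rw [hρa] at h1
      have h2 : r (g * (τ : GalLoc p) * g⁻¹) *ᵥ (c • (r g *ᵥ v)) - c • (r g *ᵥ v)
          = c • (r g *ᵥ (r τ *ᵥ v - v)) := by
        rw [Matrix.mulVec_smul, hrmul, hrinv, hrmul, Matrix.mulVec_sub, smul_sub]
      rw [← h2]; exact h1
    have hne : ∃ w ∈ W, w ≠ 0 := by
      obtain ⟨τ, hτ, hτ1⟩ := hnt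
      by_contra hcon
      push Not at hcon
      apply hτ1
      apply Matrix.ext_of_mulVec_single
      intro i
      have := hcon _ (hW1 ⟨τ, hτ⟩ (Pi.single i 1))
      rw [sub_eq_zero] at this
      rw [this, Matrix.one_mulVec]
    have := hr.eq_top W hWg hne x 1 1
    rwa [map_one, Matrix.one_mulVec, one_smul] at this
  -- 2. the maximal value
  obtain ⟨φ₀, hφ₀, m₀, hmax⟩ := h.exists_max
  set z := φ₀ m₀ with hzdef
  have hz : z ≠ 0 := by
    intro h0
    have h1 : (Pi.single 0 1 : Fin 2 → k) = 0 := by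
      refine h.separates _ _ (fun φ hφ => ?_)
      have h2 := hmax _ (h.sub_const_isJ hφ) (Pi.single 0 1)
      rw [h0, norm_zero] at h2
      exact sub_eq_zero.mp (norm_le_zero_iff.mp h2)
    have := congrFun h1 0
    simp at this
  have hz1 : ‖z‖ < 1 := hconn m₀ φ₀ hφ₀
  have hm₀ : rd p (φ₀ m₀ / z) = 1 := by rw [← hzdef, div_self hz, rd_one]
  -- the family of additive functions
  let b : {φ // IsJ O φ} → k → GalLoc p → ((Fin 2 → k) →+ ResF p) := fun φ c g =>
    AddMonoidHom.mk' (fun x => rd p (φ.1 (c • (r g *ᵥ x)) / z)) (fun x y => by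
      rw [Matrix.mulVec_add, smul_add]; exact lead_add h hz hz1 hmax φ.2 _ _)
  have hb : ∀ φ c g x, b φ c g x = rd p (φ.1 (c • (r g *ᵥ x)) / z) := fun _ _ _ _ => rfl
  have hbτ : ∀ φ c g (τ : inertiaLoc p) x, b φ c g (r τ *ᵥ x)
      = resAct p g (chz z τ) * b φ c g x := by
    intro φ c g τ x
    rw [hb, hb, ← chz_conj hz g τ.2]
    have h1 := lead_equiv h hz hmax φ.2 ⟨g * τ * g⁻¹, conj_mem_inertia g τ⟩ (c • (r g *ᵥ x))
    have h2 : c • (r g *ᵥ (r τ *ᵥ x)) = r (g * (τ : GalLoc p) * g⁻¹) *ᵥ (c • (r g *ᵥ x)) := by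
      rw [Matrix.mulVec_smul, hrmul, hrinv, hrmul]
    rw [← h1, hρa, h2]
  have hK : ∀ x, x ≠ 0 → ∃ φ c g, b φ c g x ≠ 0 := by
    intro x hx
    by_contra hcon
    push Not at hcon
    let W : Submodule k (Fin 2 → k) :=
      { carrier := {x | ∀ φ c g, b φ c g x = 0}
        add_mem' := fun {a b} ha hb φ c g => by rw [map_add, ha, hb, add_zero]
        zero_mem' := fun φ c g => map_zero _
        smul_mem' := fun a x hx φ c g => by
          rw [hb, Matrix.mulVec_smul, smul_smul]; exact hx φ (c * a) g }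
    have hWg : ∀ g, ∀ w ∈ W, r g *ᵥ w ∈ W := fun g w hw φ c g' => by
      rw [hb, ← hrmul]; exact hw φ c (g' * g)
    have := hr.eq_top W hWg ⟨x, hcon, hx⟩ m₀ ⟨φ₀, hφ₀⟩ 1 1
    rw [hb, map_one, Matrix.one_mulVec, one_smul, hm₀] at this
    exact one_ne_zero this
  -- relations between operators
  have hrel : ∀ A B : M₂ k, (∀ φ c g x, b φ c g (A *ᵥ x) = b φ c g (B *ᵥ x)) → A = B := by
    intro A B hAB
    apply Matrix.ext_of_mulVec_single
    intro i
    by_contra hne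
    obtain ⟨φ, c, g, h1⟩ := hK _ (sub_ne_zero.mpr hne)
    rw [map_sub, hAB, sub_self] at h1
    exact h1 rfl
  have hbpow : ∀ φ c g (τ : inertiaLoc p) (n : ℕ) x, b φ c g (r τ ^ n *ᵥ x)
      = resAct p g (chz z τ) ^ n * b φ c g x := by
    intro φ c g τ n x
    induction n with
    | zero => rw [pow_zero, pow_zero, Matrix.one_mulVec, one_mul]
    | succ n ih =>
      rw [pow_succ', ← Matrix.mulVec_mulVec, hbτ, ih, pow_succ']; ring
  -- 3. commutativity
  have hcomm : ∀ τ τ' : inertiaLoc p, r τ * r τ' = r τ' * r τ := by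
    intro τ τ'
    apply hrel
    intro φ c g x
    rw [← Matrix.mulVec_mulVec, ← Matrix.mulVec_mulVec, hbτ, hbτ, hbτ, hbτ]; ring
  -- 4. equal eigenvalues imply scalar
  haveI := Fintype.ofFinite k
  obtain ⟨n, hnprime, hncard⟩ := FiniteField.card k p
  have hscalar : ∀ (τ : inertiaLoc p) (α : k), (r τ).trace = α + α → (r τ).det = α * α →
      r τ = α • (1 : M₂ k) := by
    intro τ α htr hdet
    have hN : (r τ - α • (1 : M₂ k)) ^ 2 = 0 := by
      have h1 := cayley_two (r (τ : GalLoc p))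
      rw [sq, sub_mul, mul_sub, mul_sub, h1, htr, hdet]
      simp only [smul_mul_assoc, mul_smul_comm, mul_one, one_mul, add_smul, smul_smul]
      abel
    have hq : r (τ : GalLoc p) ^ (p ^ (n : ℕ)) = α • (1 : M₂ k) := by
      have h1 : r (τ : GalLoc p) = (r τ - α • (1 : M₂ k)) + α • (1 : M₂ k) := by abel
      have hc : Commute (r (τ : GalLoc p) - α • (1 : M₂ k)) (α • (1 : M₂ k)) :=
        (Commute.one_right _).smul_right α
      have h2 : (r (τ : GalLoc p) - α • (1 : M₂ k)) ^ (p ^ (n : ℕ)) = 0 := by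
        have h3 : 2 ≤ p ^ (n : ℕ) := by
          calc 2 ≤ p := hp.out.two_le
            _ = p ^ 1 := (pow_one p).symm
            _ ≤ p ^ (n : ℕ) := Nat.pow_le_pow_right hp.out.pos n.2
        exact pow_eq_zero_of_le h3 hN
      have h4 : (α • (1 : M₂ k)) ^ (p ^ (n : ℕ)) = α • (1 : M₂ k) := by
        rw [smul_pow, one_pow, ← hncard, FiniteField.pow_card]
      conv_lhs => rw [h1]
      rw [add_pow_char_pow_of_commute _ _ hc, h2, h4, zero_add]
    have hq2 : r (τ : GalLoc p) ^ (p ^ (n : ℕ) * p ^ (n : ℕ)) = r (τ : GalLoc p) ^ (p ^ (n : ℕ)) := by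
      rw [pow_mul, hq, smul_pow, one_pow, ← hncard, FiniteField.pow_card]
    rw [← hq]
    -- `χ ^ q = χ`
    have hm₀0 : m₀ ≠ 0 := by
      intro h0
      apply hz
      rw [hzdef, h0, hφ₀.2]
    have h5 : chz z (τ : GalLoc p) ^ (p ^ (n : ℕ)) = chz z (τ : GalLoc p) := by
      have h6 := hbpow ⟨φ₀, hφ₀⟩ 1 1 τ (p ^ (n : ℕ) * p ^ (n : ℕ)) m₀
      rw [hq2, hbpow, hb, map_one, Matrix.one_mulVec, one_smul, hm₀, mul_one, mul_one,
        resAct_one] at h6
      have h7 : (chz z (τ : GalLoc p) ^ (p ^ (n : ℕ)) - chz z (τ : GalLoc p)) ^ (p ^ (n : ℕ)) = 0 := by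
        rw [sub_pow_char_pow, ← pow_mul]
        exact sub_eq_zero.mpr h6.symm
      exact sub_eq_zero.mp (pow_eq_zero_iff (pow_ne_zero _ hp.out.ne_zero) |>.mp h7)
    apply hrel
    intro φ c g x
    rw [hbτ, hbpow, ← map_pow, h5]
  -- 5. an element of inertia with distinct eigenvalues
  obtain ⟨τ₀, α, δ, hαδ, htr0, hdet0⟩ : ∃ (τ₀ : inertiaLoc p) (α δ : k), α ≠ δ ∧
      (r τ₀).trace = α + δ ∧ (r τ₀).det = α * δ := by
    by_contra hcon
    push Not at hcon
    have hsc : ∀ τ : inertiaLoc p, ∃ α : k, r τ = α • (1 : M₂ k) := by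
      intro τ
      obtain ⟨α, δ, hc⟩ := hsplit τ
      obtain ⟨h1, h2⟩ := tr_det_of_charpoly hc
      by_cases hαδ : α = δ
      · subst hαδ
        exact ⟨α, hscalar τ α h1 h2⟩
      · exact absurd h2 (hcon τ α δ hαδ h1)
    obtain ⟨α, δ, hc⟩ := hsplit F
    obtain ⟨h1, h2⟩ := tr_det_of_charpoly hc
    obtain ⟨v, hv0, hv⟩ := exists_eigenvector h1 h2
    obtain ⟨g, hg⟩ := hr v hv0
    obtain ⟨H, hH, hHr⟩ := hlc
    obtain ⟨j, t, ht, m, hm, rfl⟩ := exists_decomp hF hH g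
    obtain ⟨a, ha⟩ := hsc ⟨t, ht⟩
    have hFj : ∀ j : ℕ, r F ^ j *ᵥ v = α ^ j • v := by
      intro j
      induction j with
      | zero => rw [pow_zero, pow_zero, Matrix.one_mulVec, one_smul]
      | succ j ih => rw [pow_succ, ← Matrix.mulVec_mulVec, hv, Matrix.mulVec_smul, ih, smul_smul,
          pow_succ, mul_comm]
    apply hg (a * α ^ j)
    rw [hHr _ m hm, hrmul]
    change r t = a • (1 : M₂ k) at ha
    rw [ha, Matrix.smul_mulVec, Matrix.one_mulVec, Matrix.mulVec_smul, map_pow, hFj, smul_smul]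
  -- 6. the eigenvector `v₁`
  obtain ⟨v₁, hv₁0, hv₁⟩ := exists_eigenvector htr0 hdet0
  have heig : ∀ w : Fin 2 → k, r τ₀ *ᵥ w = α • w → ∃ a : k, w = a • v₁ := by
    intro w hw
    by_contra hcon
    push Not at hcon
    have hdet : v₁ 0 * w 1 - v₁ 1 * w 0 ≠ 0 := by
      intro h0
      obtain ⟨a, ha⟩ := exists_smul_of_det hv₁0 (sub_eq_zero.mp h0)
      exact hcon a ha
    have h1 : r (τ₀ : GalLoc p) = α • (1 : M₂ k) := by
      apply Matrix.ext_of_mulVec_single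
      intro i
      obtain ⟨x, y, hxy⟩ := exists_combination hdet (Pi.single i 1)
      rw [hxy, Matrix.mulVec_add, Matrix.mulVec_smul, Matrix.mulVec_smul, hv₁, hw,
        Matrix.smul_mulVec, Matrix.one_mulVec, smul_add, smul_comm x α, smul_comm y α]
    rw [h1] at htr0
    simp only [Matrix.trace_smul, Matrix.trace_one, Fintype.card_fin, smul_eq_mul] at htr0
    apply hαδ
    push_cast at htr0
    linear_combination htr0
  have hθ : ∀ τ : inertiaLoc p, ∃ a : k, r τ *ᵥ v₁ = a • v₁ := by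
    intro τ
    apply heig
    rw [Matrix.mulVec_mulVec, hcomm, ← Matrix.mulVec_mulVec, hv₁, Matrix.mulVec_smul]
  choose θ hθ using hθ
  have hsmul_inj : ∀ {a a' : k} {v : Fin 2 → k}, v ≠ 0 → a • v = a' • v → a = a' := by
    intro a a' v hv h1
    by_contra hne
    rw [← sub_eq_zero, ← sub_smul] at h1
    rcases smul_eq_zero.mp h1 with h2 | h2
    · exact hne (sub_eq_zero.mp h2)
    · exact hv h2
  have hθ0 : ∀ τ, θ τ ≠ 0 := by
    intro τ h0
    have h1 := hθ τ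
    rw [h0, zero_smul] at h1
    apply hv₁0
    rw [← hrinv τ v₁, h1, Matrix.mulVec_zero]
  have hθmul : ∀ τ τ', θ (τ * τ') = θ τ * θ τ' := by
    intro τ τ'
    apply hsmul_inj hv₁0
    rw [← hθ, Subgroup.coe_mul, hrmul, hθ τ', Matrix.mulVec_smul, hθ τ, smul_smul, mul_comm]
  let χ : inertiaLoc p →* kˣ :=
    { toFun := fun τ => Units.mk0 (θ τ) (hθ0 τ)
      map_one' := by
        ext
        change θ 1 = 1
        apply hsmul_inj hv₁0
        rw [← hθ, OneMemClass.coe_one, map_one, Matrix.one_mulVec, one_smul]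
      map_mul' := fun τ τ' => by ext; exact hθmul τ τ' }
  have hχ : ∀ τ, ((χ τ : kˣ) : k) = θ τ := fun _ => rfl
  -- 7. relations with Frobenius
  have hbF : ∀ τ : inertiaLoc p, r (F * τ * F⁻¹) = r τ ^ p := by
    intro τ
    apply hrel
    intro φ c g x
    have h1 := hbτ φ c g ⟨F * τ * F⁻¹, conj_mem_inertia F τ⟩ x
    rw [hbpow, ← map_pow, h1]
    change resAct p g (chz z (F * (τ : GalLoc p) * F⁻¹)) * _ = _
    rw [chz_conj hz F τ.2, hF]
  have hFτ : ∀ τ : inertiaLoc p, r (F⁻¹ * τ * F) ^ p = r τ := by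
    intro τ
    have h1 := hbF ⟨F⁻¹ * τ * F, conj_mem_inertia' F τ⟩
    rw [← h1]
    congr 1
    change F * (F⁻¹ * (τ : GalLoc p) * F) * F⁻¹ = τ
    group
  -- the second vector
  set v₂ := r F *ᵥ v₁ with hv₂
  have hFmove : ∀ (τ : GalLoc p) v, r τ *ᵥ (r F *ᵥ v) = r F *ᵥ (r (F⁻¹ * τ * F) *ᵥ v) := by
    intro τ v
    rw [← hrmul, ← hrmul]
    congr 2
    group
  have hv₂τ : ∀ τ : inertiaLoc p, r τ *ᵥ v₂ = θ ⟨F⁻¹ * τ * F, conj_mem_inertia' F τ⟩ • v₂ := by
    intro τ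
    rw [hv₂, hFmove, hθ ⟨F⁻¹ * τ * F, conj_mem_inertia' F τ⟩, Matrix.mulVec_smul]
  have hv₂0 : v₂ ≠ 0 := by
    intro h0
    apply hv₁0
    rw [← hrinv F v₁, ← hv₂, h0, Matrix.mulVec_zero]
  -- a vector stable under inertia and Frobenius gives a stable line
  have hnostab : ∀ v : Fin 2 → k, v ≠ 0 → (∀ τ : inertiaLoc p, ∃ a : k, r τ *ᵥ v = a • v) →
      ∀ a : k, r F *ᵥ v ≠ a • v := by
    intro v hv0 hvτ a hva
    obtain ⟨g, hg⟩ := hr v hv0
    obtain ⟨H, hH, hHr⟩ := hlc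
    obtain ⟨j, t, ht, m, hm, rfl⟩ := exists_decomp hF hH g
    obtain ⟨a', ha'⟩ := hvτ ⟨t, ht⟩
    have hFj : ∀ j : ℕ, r F ^ j *ᵥ v = a ^ j • v := by
      intro j
      induction j with
      | zero => rw [pow_zero, pow_zero, Matrix.one_mulVec, one_smul]
      | succ j ih => rw [pow_succ, ← Matrix.mulVec_mulVec, hva, Matrix.mulVec_smul, ih, smul_smul,
          pow_succ, mul_comm]
    apply hg (a' * a ^ j)
    rw [hHr _ m hm, hrmul]
    change r t *ᵥ v = a' • v at ha'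
    rw [ha', Matrix.mulVec_smul, map_pow, hFj, smul_smul]
  have hdet : v₁ 0 * v₂ 1 - v₁ 1 * v₂ 0 ≠ 0 := by
    intro h0
    obtain ⟨a, ha⟩ := exists_smul_of_det hv₁0 (sub_eq_zero.mp h0)
    exact hnostab v₁ hv₁0 (fun τ => ⟨_, hθ τ⟩) a (hv₂.symm.trans ha)
  -- `F v₂ ∈ k v₁`
  set θ₂ : inertiaLoc p → k := fun τ => θ ⟨F⁻¹ * τ * F, conj_mem_inertia' F τ⟩ with hθ₂
  have hθα : θ τ₀ = α := hsmul_inj hv₁0 ((hθ τ₀).symm.trans hv₁)
  have hθ₂α : θ₂ τ₀ ≠ α := by
    intro h0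
    obtain ⟨a, ha⟩ := heig v₂ (by rw [hv₂τ, ← h0])
    apply hdet
    rw [ha]
    simp only [Pi.smul_apply, smul_eq_mul]; ring
  obtain ⟨x, y, hxy⟩ := exists_combination hdet (r F *ᵥ v₂)
  have hFv₂τ : ∀ τ : inertiaLoc p, ∃ e : k, r τ *ᵥ (r F *ᵥ v₂) = e • (r F *ᵥ v₂) := by
    intro τ
    refine ⟨θ₂ ⟨F⁻¹ * τ * F, conj_mem_inertia' F τ⟩, ?_⟩
    rw [hFmove, hv₂τ ⟨F⁻¹ * τ * F, conj_mem_inertia' F τ⟩, Matrix.mulVec_smul]
  have hlin : ∀ {a b a' b' : k}, a • v₁ + b • v₂ = a' • v₁ + b' • v₂ → a = a' ∧ b = b' := by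
    intro a b a' b' h1
    have e0 := congrFun h1 0
    have e1 := congrFun h1 1
    simp only [Pi.add_apply, Pi.smul_apply, smul_eq_mul] at e0 e1
    constructor
    · have : (a - a') * (v₁ 0 * v₂ 1 - v₁ 1 * v₂ 0) = 0 := by
        linear_combination (v₂ 1) * e0 - (v₂ 0) * e1
      exact sub_eq_zero.mp ((mul_eq_zero.mp this).resolve_right hdet)
    · have : (b - b') * (v₁ 0 * v₂ 1 - v₁ 1 * v₂ 0) = 0 := by
        linear_combination (v₁ 0) * e1 - (v₁ 1) * e0
      exact sub_eq_zero.mp ((mul_eq_zero.mp this).resolve_right hdet)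
  have hy0 : y = 0 := by
    obtain ⟨e, he⟩ := hFv₂τ τ₀
    rw [hxy, Matrix.mulVec_add, Matrix.mulVec_smul, Matrix.mulVec_smul, hθ, hv₂τ, smul_smul,
      smul_smul, smul_add, smul_smul, smul_smul] at he
    obtain ⟨h1, h2⟩ := hlin he
    by_contra hy
    have h3 : θ₂ τ₀ = e := by
      have : y * θ₂ τ₀ = y * e := by rw [mul_comm y e]; exact h2
      exact mul_left_cancel₀ hy this
    have h4 : x = 0 := by
      by_contra hx
      have : x * θ τ₀ = x * e := by rw [mul_comm x e]; exact h1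
      have h5 := mul_left_cancel₀ hx this
      exact hθ₂α (by rw [h3, ← h5, hθα])
    rw [h4, zero_smul, zero_add] at hxy
    exact hnostab v₂ hv₂0 (fun τ => ⟨_, hv₂τ τ⟩) y hxy
  rw [hy0, zero_smul, add_zero] at hxy
  -- 8. `θ ^ (p²) = θ`
  have hrpow : ∀ (τ : inertiaLoc p) (n : ℕ), r τ ^ n *ᵥ v₁ = θ τ ^ n • v₁ := by
    intro τ n
    induction n with
    | zero => rw [pow_zero, pow_zero, Matrix.one_mulVec, one_smul]
    | succ n ih => rw [pow_succ, ← Matrix.mulVec_mulVec, hθ, Matrix.mulVec_smul, ih, smul_smul,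
        pow_succ, mul_comm]
  have hθ₂p : ∀ τ, θ₂ τ ^ p = θ τ := by
    intro τ
    apply hsmul_inj hv₁0
    rw [← hrpow, ← hθ τ]
    change r (F⁻¹ * (τ : GalLoc p) * F) ^ p *ᵥ v₁ = _
    rw [hFτ]
  have hx0 : x ≠ 0 := by
    rintro rfl
    rw [zero_smul] at hxy
    apply hv₂0
    rw [← hrinv F v₂, hxy, Matrix.mulVec_zero]
  have hθ₂₂ : ∀ τ : inertiaLoc p, θ₂ ⟨F⁻¹ * τ * F, conj_mem_inertia' F τ⟩ = θ τ := by
    intro τ
    have h1 : r τ *ᵥ (r F *ᵥ v₂) = θ₂ ⟨F⁻¹ * τ * F, conj_mem_inertia' F τ⟩ • (r F *ᵥ v₂) := by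
      rw [hFmove, hv₂τ ⟨F⁻¹ * τ * F, conj_mem_inertia' F τ⟩, Matrix.mulVec_smul]
    rw [hxy, Matrix.mulVec_smul, hθ, smul_smul, smul_smul] at h1
    have h2 := hsmul_inj hv₁0 h1
    rw [mul_comm] at h2
    exact (mul_right_cancel₀ hx0 h2).symm
  have hθp : ∀ τ, θ τ ^ p = θ₂ τ := by
    intro τ
    have h1 := hθ₂p ⟨F⁻¹ * τ * F, conj_mem_inertia' F τ⟩
    rw [hθ₂₂] at h1
    exact h1
  -- 9. assembly
  set P : M₂ k := !![v₁ 0, v₂ 0; v₁ 1, v₂ 1] with hP
  have hPdet : IsUnit P.det := by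
    rw [isUnit_iff_ne_zero, hP, Matrix.det_fin_two_of]
    intro h0
    apply hdet
    linear_combination h0
  have hcol : ∀ (A : M₂ k) (a b c d : k), A *ᵥ v₁ = a • v₁ + c • v₂ → A *ᵥ v₂ = b • v₁ + d • v₂ →
      P⁻¹ * A * P = !![a, b; c, d] := by
    intro A a b c d h1 h2
    have h3 : A * P = P * !![a, b; c, d] := by
      have e1 := congrFun h1 0
      have e2 := congrFun h1 1
      have e3 := congrFun h2 0
      have e4 := congrFun h2 1
      simp only [Matrix.mulVec, dotProduct, Fin.sum_univ_two, Pi.add_apply, Pi.smul_apply,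
        smul_eq_mul] at e1 e2 e3 e4
      rw [hP]
      ext i j
      fin_cases i <;> fin_cases j <;> simp [Matrix.mul_apply, Fin.sum_univ_two]
      · linear_combination e1
      · linear_combination e3
      · linear_combination e2
      · linear_combination e4
    rw [Matrix.mul_assoc, h3, ← Matrix.mul_assoc, Matrix.nonsing_inv_mul _ hPdet, one_mul]
  let r' : GalLoc p →* M₂ k :=
    { toFun := fun g => P⁻¹ * r g * P
      map_one' := by rw [map_one, mul_one, Matrix.nonsing_inv_mul _ hPdet]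
      map_mul' := fun g g' => by
        rw [map_mul]
        calc P⁻¹ * (r g * r g') * P = P⁻¹ * r g * 1 * r g' * P := by
              simp only [mul_one, Matrix.mul_assoc]
          _ = P⁻¹ * r g * (P * P⁻¹) * r g' * P := by rw [Matrix.mul_nonsing_inv _ hPdet]
          _ = _ := by simp only [Matrix.mul_assoc] }
  refine ⟨P, r', χ, x, 1, hPdet, fun g => ?_, ?_⟩
  · change r g * P = P * (P⁻¹ * r g * P)
    rw [← Matrix.mul_assoc, ← Matrix.mul_assoc, Matrix.mul_nonsing_inv _ hPdet, one_mul]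
  · refine ⟨fun τ => ?_, ?_, fun τ => ?_, τ₀, ?_⟩
    · refine hcol _ _ _ _ _ ?_ ?_
      · rw [zero_smul, add_zero]; exact hθ τ
      · rw [zero_smul, zero_add, hv₂τ, hχ, hθp]
    · refine hcol _ _ _ _ _ ?_ ?_
      · rw [zero_smul, zero_add, one_smul]
      · rw [zero_smul, add_zero]; exact hxy
    · rw [hχ, sq, pow_mul, hθp, hθ₂p]
    · rw [hχ, hθp, hθα]; exact hθ₂α

end Irr

end Fermat.Agent.Flat
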