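import Fermat.Agent.Flat.Hopf

/-!
# Closure properties of flat modules (F1)
-/

set_option autoImplicit false

open TensorProduct

namespace Fermat.Agent.Flat

section Sub

variable {R : Type*} [CommRing R] {Ω : Type*} [Field Ω]
  [Algebra R Ω] {G : Type*} [Group G] [MulSemiringAction G Ω]
  {M : Type*} [AddCommGroup M] {ρ : G →* AddMonoid.End M} {O : Subalgebra R (M → Ω)}
  {M' : Type*} [AddCommGroup M'] {ρ' : G →* AddMonoid.End M'}

theorem IsOrder.sub (h : IsOrder ρ O) (i : M' →+ M) (hi : Function.Injective i)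
    (hρ : ∀ g m, i (ρ' g m) = ρ g (i m)) : IsOrder ρ' (O.map (precomp R i)) where
  fg := by
    have := h.fg.map (precomp R (Ω := Ω) i).toLinearMap
    exact this
  equivariant := by
    rintro _ ⟨φ, hφ, rfl⟩ g m
    have := h.equivariant φ hφ g (i m)
    rw [← hρ] at this
    exact this
  separates := by
    intro m n hmn
    apply hi
    exact h.separates _ _ (fun φ hφ => hmn _ ⟨φ, hφ, rfl⟩)
  add_mem := by
    rintro _ ⟨φ, hφ, rfl⟩
    obtain ⟨n, a, b, ha, hb, hab⟩ := mem_tens_iff.mp (h.add_mem φ hφ)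
    refine mem_tens_iff.mpr ⟨n, fun j => precomp R i (a j), fun j => precomp R i (b j),
      fun j => ⟨a j, ha j, rfl⟩, fun j => ⟨b j, hb j, rfl⟩, fun x y => ?_⟩
    have := hab (i x) (i y)
    simp only at this
    rw [← map_add] at this
    exact this

theorem IsFlat.of_injective (h : IsFlat R (Ω := Ω) ρ) (i : M' →+ M)
    (hi : Function.Injective i) (hρ : ∀ g m, i (ρ' g m) = ρ g (i m)) :
    IsFlat R (Ω := Ω) ρ' := by
  obtain ⟨O, hO⟩ := h
  exact ⟨_, hO.sub i hi hρ⟩

end Sub

section Span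

variable {R : Type*} [CommRing R] {Ω : Type*} [Field Ω] [Algebra R Ω]

/-- A point-separating algebra of functions on a finite set spans all functions. -/
theorem span_eq_top_of_separates {X : Type*} [Finite X] (O : Subalgebra R (X → Ω))
    (hsep : ∀ x y : X, (∀ φ ∈ O, φ x = φ y) → x = y) :
    Submodule.span Ω (O : Set (X → Ω)) = ⊤ := by
  classical
  haveI := Fintype.ofFinite X
  set S := Algebra.adjoin Ω (O : Set (X → Ω)) with hS
  have hSspan : Subalgebra.toSubmodule S = Submodule.span Ω (O : Set (X → Ω)) := by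
    rw [hS, Algebra.adjoin_eq_span]
    congr 1
    have : Submonoid.closure (O : Set (X → Ω)) = O.toSubmonoid :=
      Submonoid.closure_eq O.toSubmonoid
    rw [this]; rfl
  rw [← hSspan, eq_top_iff]
  intro f _
  have hδ : ∀ x : X, (Pi.single x 1 : X → Ω) ∈ S := by
    intro x
    have hy : ∀ y : X, y ≠ x → ∃ φ ∈ O, φ x ≠ φ y := by
      intro y hy
      by_contra hcon
      push Not at hcon
      exact hy (hsep x y hcon).symm
    choose! φ hφO hφ using hy
    have : (Pi.single x 1 : X → Ω) = ∏ y ∈ Finset.univ.erase x,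
        ((φ y x - φ y y)⁻¹ • (φ y - algebraMap Ω (X → Ω) (φ y y))) := by
      funext z
      rw [Finset.prod_apply]
      by_cases hz : z = x
      · subst hz
        rw [Pi.single_eq_same]
        symm
        apply Finset.prod_eq_one
        intro y hy
        have := sub_ne_zero.mpr (hφ y (Finset.ne_of_mem_erase hy))
        simp [this]
      · rw [Pi.single_eq_of_ne hz]
        symm
        refine Finset.prod_eq_zero (Finset.mem_erase.mpr ⟨hz, Finset.mem_univ z⟩) ?_
        simp
    rw [this]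
    refine prod_mem fun y hy => ?_
    refine S.smul_mem (sub_mem ?_ (S.algebraMap_mem _)) _
    exact Algebra.subset_adjoin (hφO y (Finset.ne_of_mem_erase hy))
  have : f = ∑ x, f x • (Pi.single x 1 : X → Ω) := by
    funext z
    simp [Finset.sum_apply, Pi.single_apply]
  rw [this]
  exact sum_mem fun x _ => Submodule.smul_mem _ _ (hδ x)

theorem sum_smul_basis {A : Type*} [AddCommMonoid A] [Module R A] {n : ℕ}
    (b : Module.Basis (Fin n) R A) {ι : Type*} (s : Finset ι) (c : ι → Ω) (a : ι → A)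
    {Z : Type*} (T : A →ₗ[R] (Z → Ω)) : ∑ i ∈ s, c i • T (a i)
      = ∑ j, (∑ i ∈ s, c i * algebraMap R Ω (b.repr (a i) j)) • T (b j) := by
  have h1 : ∀ i, T (a i) = ∑ j, algebraMap R Ω (b.repr (a i) j) • T (b j) := by
    intro i
    conv_lhs => rw [← b.sum_repr (a i)]
    rw [map_sum]
    refine Finset.sum_congr rfl fun j _ => ?_
    rw [map_smul]
    funext x; simp [Algebra.smul_def]
  simp only [Finset.sum_smul]
  rw [Finset.sum_comm]
  refine Finset.sum_congr rfl fun i _ => ?_
  rw [h1 i, Finset.smul_sum]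
  refine Finset.sum_congr rfl fun j _ => ?_
  rw [smul_smul]

/-- `R`-linear maps out of a good module preserve `Ω`-linear relations. -/
theorem Good.relation {A : Type*} [AddCommMonoid A] [Module R A] {X : Type*}
    {α : A →ₗ[R] (X → Ω)} (h : Good α) {Y : Type*} (L : A →ₗ[R] (Y → Ω))
    {ι : Type*} (s : Finset ι) (c : ι → Ω) (a : ι → A) (hrel : ∑ i ∈ s, c i • α (a i) = 0) :
    ∑ i ∈ s, c i • L (a i) = 0 := by
  obtain ⟨n, b, hb⟩ := h
  rw [sum_smul_basis b] at hrel
  have h2 := Fintype.linearIndependent_iff.mp hb _ hrel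
  rw [sum_smul_basis b]
  exact Finset.sum_eq_zero fun j _ => by rw [h2 j, zero_smul]

end Span

section Descent

variable {R : Type*} [CommRing R] [IsDomain R] [IsPrincipalIdealRing R] {Ω : Type*} [Field Ω]
  [Algebra R Ω] {G : Type*} [Group G] [MulSemiringAction G Ω] [Setup R Ω G]

/-- Descent: an equivariant function which is a combination, with coefficients integral over `R`,
of elements of `O` lies in `O`. -/
theorem mem_of_integral_comb {X : Type*} (act : G → X → X)
    (hact : ∀ g, Function.Surjective (act g)) (O : Submodule R (X → Ω)) (hfg : O.FG)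
    (hO : ∀ φ ∈ O, ∀ g x, φ (act g x) = g • φ x) {f : X → Ω}
    (hf : f ∈ Submodule.span (integralClosure R Ω) (O : Set (X → Ω)))
    (hfe : ∀ g x, f (act g x) = g • f x) : f ∈ O := by
  obtain ⟨n, b, hb⟩ := good_of_equivariant act hact O hfg hO
  have h1 : f ∈ Submodule.span (integralClosure R Ω) (Set.range fun i => ((b i : O) : X → Ω)) := by
    refine Submodule.span_le.mpr ?_ hf
    intro φ hφ
    have : φ = ∑ i, (b.repr ⟨φ, hφ⟩ i) • ((b i : O) : X → Ω) := by
      have := congrArg (fun z : O => (z : X → Ω)) (b.sum_repr ⟨φ, hφ⟩)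
      simp only [Submodule.coe_sum, Submodule.coe_smul] at this
      exact this.symm
    rw [SetLike.mem_coe, this]
    refine sum_mem fun i _ => ?_
    have h2 : (b.repr ⟨φ, hφ⟩ i) • ((b i : O) : X → Ω)
        = (algebraMap R (integralClosure R Ω) (b.repr ⟨φ, hφ⟩ i)) • ((b i : O) : X → Ω) := by
      funext x
      simp only [Pi.smul_apply, Algebra.smul_def]
      rfl
    rw [h2]
    exact Submodule.smul_mem _ _ (Submodule.subset_span ⟨i, rfl⟩)
  obtain ⟨c, hc⟩ := (Submodule.mem_span_range_iff_exists_fun _).mp h1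
  have hfix : ∀ g : G, ∀ i, g • (c i : Ω) = c i := by
    intro g
    have h3 : ∑ i, (g • (c i : Ω) - c i) • ((b i : O) : X → Ω) = 0 := by
      funext x
      obtain ⟨y, rfl⟩ := hact g x
      have h4 := hfe g y
      rw [← hc] at h4
      have h4' : ∑ i, (c i : Ω) * ((b i : O) : X → Ω) (act g y)
          = g • ∑ i, (c i : Ω) * ((b i : O) : X → Ω) y := by
        simp only [Finset.sum_apply, Pi.smul_apply] at h4
        exact h4
      rw [Finset.smul_sum] at h4'
      simp only [Finset.sum_apply, Pi.smul_apply, smul_eq_mul, sub_mul, Finset.sum_sub_distrib,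
        Pi.zero_apply, sub_eq_zero]
      rw [h4']
      refine Finset.sum_congr rfl fun i _ => ?_
      rw [smul_mul']
      congr 1
      exact hO _ (b i).2 g y
    have h6 := Fintype.linearIndependent_iff.mp hb _ h3
    exact fun i => sub_eq_zero.mp (h6 i)
  have hr : ∀ i, ∃ r : R, algebraMap R Ω r = c i := fun i =>
    integral_mem_range G (c i).2 (fun g => hfix g i)
  choose r hr using hr
  have : f = ∑ i, r i • ((b i : O) : X → Ω) := by
    rw [← hc]
    refine Finset.sum_congr rfl fun i _ => ?_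
    funext x
    simp only [Pi.smul_apply, Algebra.smul_def, hr i]
    rfl
  rw [this]
  exact sum_mem fun i _ => O.smul_mem _ (b i).2

end Descent

section Quot

variable {R : Type*} [CommRing R] [IsDomain R] [IsPrincipalIdealRing R] {Ω : Type*} [Field Ω]
  [Algebra R Ω] {G : Type*} [Group G] [MulSemiringAction G Ω] [Setup R Ω G]
  {M : Type*} [AddCommGroup M] {ρ : G →* AddMonoid.End M} {O : Subalgebra R (M → Ω)}
  {M'' : Type*} [AddCommGroup M''] {ρ'' : G →* AddMonoid.End M''}

/-- A function of an order taking at `m` a value different from its values on a finite set. -/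
theorem exists_generic [Infinite R] (hinj : Function.Injective (algebraMap R Ω))
    (hsep : ∀ m n : M, (∀ φ ∈ O, φ m = φ n) → m = n) (m : M)
    (S : Finset M) (hS : m ∉ S) : ∃ h ∈ O, ∀ s ∈ S, h m ≠ h s := by
  classical
  induction S using Finset.induction_on with
  | empty => exact ⟨1, O.one_mem, by simp⟩
  | insert a S ha ih =>
    obtain ⟨h, hO, hh⟩ := ih (fun h => hS (Finset.mem_insert_of_mem h))
    obtain ⟨φ, hφO, hφ⟩ : ∃ φ ∈ O, φ m ≠ φ a := by
      by_contra hcon
      push Not at hcon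
      exact hS (by rw [hsep m a hcon]; exact Finset.mem_insert_self _ _)
    have hfin : (⋃ s ∈ insert a S, {r : R | (h m - h s) + algebraMap R Ω r * (φ m - φ s) = 0}).Finite := by
      refine Set.Finite.biUnion (Finset.finite_toSet _) (fun s hs => Set.Subsingleton.finite ?_)
      intro r hr r' hr'
      change _ = _ at hr hr'
      have hne : φ m - φ s ≠ 0 := by
        intro h0
        rw [h0, mul_zero, add_zero, sub_eq_zero] at hr
        rcases Finset.mem_insert.mp hs with rfl | hs
        · exact hφ (sub_eq_zero.mp h0)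
        · exact hh s hs hr
      apply hinj
      have : algebraMap R Ω r * (φ m - φ s) = algebraMap R Ω r' * (φ m - φ s) := by
        linear_combination hr - hr'
      exact mul_right_cancel₀ hne this
    obtain ⟨r, hr⟩ := hfin.exists_notMem
    refine ⟨h + r • φ, O.add_mem hO (O.smul_mem hφO r), fun s hs => ?_⟩
    intro heq
    apply hr
    refine Set.mem_biUnion hs ?_
    change _ = _
    simp only [Pi.add_apply, Pi.smul_apply] at heq
    rw [Algebra.smul_def, Algebra.smul_def] at heq
    linear_combination heq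

omit [IsDomain R] [IsPrincipalIdealRing R] [Setup R Ω G] in
/-- translates are integral combinations -/
theorem IsOrder.translate_mem (h : IsOrder ρ O) {φ : M → Ω} (hφ : φ ∈ O) (k : M) :
    (fun m => φ (m + k)) ∈ Algebra.adjoin (integralClosure R Ω) (O : Set (M → Ω)) := by
  obtain ⟨n, a, b, ha, hb, hab⟩ := mem_tens_iff.mp (h.add_mem φ hφ)
  have : (fun m => φ (m + k)) = ∑ i, (⟨b i k, h.isIntegral (hb i) k⟩ : integralClosure R Ω) • a i := by
    funext m
    rw [Finset.sum_apply]
    refine (hab m k).trans (Finset.sum_congr rfl fun i _ => ?_)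
    rw [mul_comm]; rfl
  rw [this]
  exact sum_mem fun i _ => Subalgebra.smul_mem _ (Algebra.subset_adjoin (ha i)) _

omit [IsDomain R] [IsPrincipalIdealRing R] in
theorem adjoin_eq_span' {X : Type*} (O : Subalgebra R (X → Ω)) {f : X → Ω}
    (hf : f ∈ Algebra.adjoin (integralClosure R Ω) (O : Set (X → Ω))) :
    f ∈ Submodule.span (integralClosure R Ω) ((Subalgebra.toSubmodule O : Submodule R (X → Ω)) : Set (X → Ω)) := by
  have h1 : f ∈ Subalgebra.toSubmodule (Algebra.adjoin (integralClosure R Ω) (O : Set (X → Ω))) := hf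
  rw [Algebra.adjoin_eq_span] at h1
  have : Submonoid.closure (O : Set (X → Ω)) = O.toSubmonoid :=
    Submonoid.closure_eq O.toSubmonoid
  rw [this] at h1
  exact h1

theorem IsOrder.mem_of_adjoin (h : IsOrder ρ O) {f : M → Ω}
    (hf : f ∈ Algebra.adjoin (integralClosure R Ω) (O : Set (M → Ω)))
    (hfe : ∀ g m, f (ρ g m) = g • f m) : f ∈ O :=
  mem_of_integral_comb (fun g m => ρ g m) (act_surjective ρ) (Subalgebra.toSubmodule O) h.fg
    h.equivariant (adjoin_eq_span' O hf) hfe

/-- norm along a finite stable subgroup -/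
theorem IsOrder.norm_mem (h : IsOrder ρ O) (K : AddSubgroup M) [Fintype K]
    (hK : ∀ g, ∀ k ∈ K, ρ g k ∈ K) {φ : M → Ω} (hφ : φ ∈ O) (r : R) :
    (fun m => ∏ k : K, (algebraMap R Ω r - φ (m + k))) ∈ O := by
  refine h.mem_of_adjoin ?_ ?_
  · have : (fun m => ∏ k : K, (algebraMap R Ω r - φ (m + k)))
        = ∏ k : K, (algebraMap (integralClosure R Ω) (M → Ω) (algebraMap R _ r)
            - fun m => φ (m + k)) := by
      funext m
      rw [Finset.prod_apply]; rfl
    rw [this]
    refine prod_mem fun k _ => sub_mem (Subalgebra.algebraMap_mem _ _) (h.translate_mem hφ _)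
  · intro g m
    rw [Finset.smul_prod']
    let e : K ≃ K := Equiv.ofBijective (fun k => ⟨ρ g k, hK g k k.2⟩) (by
      constructor
      · intro k k' hkk'
        have h1 : ρ g k = ρ g k' := congrArg Subtype.val hkk'
        have h2 : (ρ g⁻¹ * ρ g) (k : M) = (ρ g⁻¹ * ρ g) (k' : M) := congrArg (ρ g⁻¹) h1
        rw [← map_mul, inv_mul_cancel, map_one] at h2
        exact Subtype.ext h2
      · intro k
        refine ⟨⟨ρ g⁻¹ k, hK _ _ k.2⟩, ?_⟩
        apply Subtype.ext
        have : (ρ g * ρ g⁻¹) (k : M) = k := by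
          rw [← map_mul, mul_inv_cancel, map_one]; rfl
        exact this)
    rw [← Equiv.prod_comp e]
    refine Finset.prod_congr rfl fun k _ => ?_
    rw [smul_sub, Setup.smul_algebraMap, ← h.equivariant φ hφ g, map_add]
    rfl

variable (q : M →+ M'')

/-- pulled back order -/
def quotOrder (O : Subalgebra R (M → Ω)) (q : M →+ M'') : Subalgebra R (M'' → Ω) :=
  O.comap (precomp R q)

omit [IsDomain R] [IsPrincipalIdealRing R] in
theorem mem_quotOrder {φ : M'' → Ω} : φ ∈ quotOrder O q ↔ (fun m => φ (q m)) ∈ O := Iff.rfl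

theorem IsOrder.quot_separates [Infinite R] [Finite M] (h : IsOrder ρ O)
    (hq : Function.Surjective q) (hρ : ∀ g m, q (ρ g m) = ρ'' g (q m)) (m'' n'' : M'')
    (hmn : ∀ φ ∈ quotOrder O q, φ m'' = φ n'') : m'' = n'' := by
  classical
  by_contra hne
  haveI := Fintype.ofFinite M
  obtain ⟨m, rfl⟩ := hq m''
  obtain ⟨n, rfl⟩ := hq n''
  obtain ⟨φ, hφO, hφ⟩ := exists_generic (O := O) (Setup.inj (R := R) (Ω := Ω) (G := G))
    h.separates m (Finset.univ.filter fun x => q x = q n) (by
      simpa using hne)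
  set K := q.ker with hKdef
  have hK : ∀ g, ∀ k ∈ K, ρ g k ∈ K := by
    intro g k hk
    rw [AddMonoidHom.mem_ker] at hk ⊢
    rw [hρ, hk, map_zero]
  haveI : Fintype K := Fintype.ofFinite K
  -- the two polynomials
  let P : M → Polynomial Ω := fun x => ∏ k : K, (Polynomial.X - Polynomial.C (φ (x + k)))
  have hP : P m ≠ P n := by
    intro heq
    have h1 : (P m).eval (φ m) = 0 := by
      simp only [P, Polynomial.eval_prod]
      refine Finset.prod_eq_zero (Finset.mem_univ (0 : K)) ?_
      simp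
    rw [heq] at h1
    simp only [P, Polynomial.eval_prod, Polynomial.eval_sub, Polynomial.eval_X,
      Polynomial.eval_C] at h1
    obtain ⟨k, _, hk⟩ := Finset.prod_eq_zero_iff.mp h1
    refine hφ (n + k) ?_ (sub_eq_zero.mp hk)
    have : q (k : M) = 0 := k.2
    simp [map_add, this]
  apply hP
  apply Polynomial.eq_of_infinite_eval_eq
  refine Set.Infinite.mono ?_ (Set.infinite_range_of_injective
    (Setup.inj (R := R) (Ω := Ω) (G := G)))
  rintro _ ⟨r, rfl⟩
  have hN := h.norm_mem K hK hφO r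
  set N : M → Ω := fun m => ∏ k : K, (algebraMap R Ω r - φ (m + k)) with hNdef
  have hinv : ∀ x y : M, q x = q y → N x = N y := by
    intro x y hxy
    have hd : y - x ∈ K := by rw [AddMonoidHom.mem_ker, map_sub, hxy, sub_self]
    simp only [hNdef]
    rw [← Equiv.prod_comp (Equiv.addRight (⟨y - x, hd⟩ : K))]
    refine Finset.prod_congr rfl fun k _ => ?_
    congr 2
    change x + ((k : M) + (y - x)) = y + k
    abel
  obtain ⟨s, hs⟩ := hq.hasRightInverse
  have hN' : (fun y => N (s y)) ∈ quotOrder O q := by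
    rw [mem_quotOrder]
    have : (fun m => N (s (q m))) = N := by
      funext x; exact hinv _ _ (hs (q x))
    rw [this]; exact hN
  have h1 := hmn _ hN'
  rw [hinv _ _ (hs (q m)), hinv _ _ (hs (q n))] at h1
  simp only [P, Set.mem_ofPred_eq, Polynomial.eval_prod, Polynomial.eval_sub, Polynomial.eval_X,
      Polynomial.eval_C]
  exact h1

omit [Setup R Ω G] in
theorem exists_retraction {A : Type*} [AddCommGroup A] [Module R A] [Module.Finite R A]
    (N : Submodule R A) (hN : ∀ (r : R) (a : A), r ≠ 0 → r • a ∈ N → a ∈ N) :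
    ∃ π : A →ₗ[R] A, (∀ a, π a ∈ N) ∧ ∀ a ∈ N, π a = a := by
  haveI : Module.IsTorsionFree R (A ⧸ N) := by
    refine Module.IsTorsionFree.mk ?_
    intro r hr x y hxy
    obtain ⟨x, rfl⟩ := N.mkQ_surjective x
    obtain ⟨y, rfl⟩ := N.mkQ_surjective y
    have h1 : N.mkQ (r • (x - y)) = 0 := by
      rw [smul_sub, map_sub, map_smul, map_smul, sub_eq_zero]; exact hxy
    rw [← sub_eq_zero, ← map_sub]
    rw [Submodule.mkQ_apply, Submodule.Quotient.mk_eq_zero] at h1 ⊢
    exact hN r _ (isRegular_iff_ne_zero.mp hr) h1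
  haveI : Module.Free R (A ⧸ N) := Module.free_of_finite_type_torsion_free'
  obtain ⟨s, hs⟩ := Module.projective_lifting_property N.mkQ LinearMap.id N.mkQ_surjective
  refine ⟨LinearMap.id - s ∘ₗ N.mkQ, fun a => ?_, fun a ha => ?_⟩
  · rw [← Submodule.Quotient.mk_eq_zero, ← Submodule.mkQ_apply]
    have := LinearMap.congr_fun hs (N.mkQ a)
    simp only [LinearMap.comp_apply, LinearMap.id_apply] at this
    simp only [LinearMap.sub_apply, LinearMap.id_apply, LinearMap.comp_apply, map_sub, this,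
      sub_self]
  · have : N.mkQ a = 0 := by rwa [Submodule.mkQ_apply, Submodule.Quotient.mk_eq_zero]
    simp [LinearMap.sub_apply, this]

/-- the submodule of functions of an order invariant under `ker q`. -/
def invSub (O : Subalgebra R (M → Ω)) (q : M →+ M'') : Submodule R O where
  carrier := {φ | ∀ x y, q x = q y → (φ : M → Ω) x = (φ : M → Ω) y}
  add_mem' := by
    intro φ ψ hφ hψ x y hxy
    change (φ : M → Ω) x + (ψ : M → Ω) x = (φ : M → Ω) y + (ψ : M → Ω) y
    rw [hφ x y hxy, hψ x y hxy]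
  zero_mem' := fun _ _ _ => rfl
  smul_mem' := by
    intro r φ hφ x y hxy
    change r • (φ : M → Ω) x = r • (φ : M → Ω) y
    rw [hφ x y hxy]

theorem IsOrder.proj_comb [Infinite R] [Finite M] (h : IsOrder ρ O)
    (hq : Function.Surjective q) (hρ : ∀ g m, q (ρ g m) = ρ'' g (q m))
    (π : O →ₗ[R] O) (hπ : ∀ a ∈ invSub O q, π a = a) {n : ℕ} (c : Fin n → Ω) (a : Fin n → O)
    (hinv : ∀ x y, q x = q y → ∑ i, c i * (a i : M → Ω) x = ∑ i, c i * (a i : M → Ω) y) (x : M) :
    ∑ i, c i * (π (a i) : M → Ω) x = ∑ i, c i * (a i : M → Ω) x := by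
  haveI : Finite M'' := Finite.of_surjective _ hq
  obtain ⟨s, hs⟩ := hq.hasRightInverse
  have htop := span_eq_top_of_separates (quotOrder O q)
    (fun m n hmn => h.quot_separates q hq hρ m n hmn)
  have hmem : (fun y => ∑ i, c i * (a i : M → Ω) (s y)) ∈
      Submodule.span Ω (quotOrder O q : Set (M'' → Ω)) := by rw [htop]; trivial
  obtain ⟨m, l, ψ, hψ⟩ := Submodule.mem_span_set'.mp hmem
  let ψ' : Fin m → O := fun j => ⟨fun x => (ψ j : M'' → Ω) (q x), (ψ j).2⟩
  have hψ' : ∀ j, ψ' j ∈ invSub O q := by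
    intro j x y hxy
    change (ψ j : M'' → Ω) (q x) = (ψ j : M'' → Ω) (q y)
    rw [hxy]
  have hrel0 : ∀ x, ∑ i, c i * (a i : M → Ω) x = ∑ j, l j * (ψ' j : M → Ω) x := by
    intro x
    have h1 := congrFun hψ (q x)
    simp only [Finset.sum_apply, Pi.smul_apply, smul_eq_mul] at h1
    rw [hinv x (s (q x)) (hs (q x)).symm, ← h1]
  have hrel := h.good.relation (O.val.toLinearMap ∘ₗ π) Finset.univ
    (Sum.elim c (fun j => - l j)) (Sum.elim a ψ') (by
      funext x
      rw [Finset.sum_apply, Fintype.sum_sum_type]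
      simp only [Sum.elim_inl, Sum.elim_inr, Pi.smul_apply, smul_eq_mul, Pi.zero_apply]
      have := hrel0 x
      simp only [neg_mul, Finset.sum_neg_distrib, ← sub_eq_add_neg]
      exact sub_eq_zero.mpr this)
  have h2 := congrFun hrel x
  rw [Finset.sum_apply, Fintype.sum_sum_type] at h2
  simp only [Sum.elim_inl, Sum.elim_inr, Pi.smul_apply, smul_eq_mul, Pi.zero_apply, neg_mul,
    Finset.sum_neg_distrib, LinearMap.comp_apply] at h2
  rw [hrel0 x]
  have h3 : ∀ j, π (ψ' j) = ψ' j := fun j => hπ _ (hψ' j)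
  simp only [h3, ← sub_eq_add_neg] at h2
  exact sub_eq_zero.mp h2

theorem IsOrder.quot [Infinite R] [Finite M] (h : IsOrder ρ O)
    (hq : Function.Surjective q) (hρ : ∀ g m, q (ρ g m) = ρ'' g (q m)) :
    IsOrder ρ'' (quotOrder O q) where
  fg := by
    have hinj : Function.Injective (precomp R (Ω := Ω) q).toLinearMap := by
      intro f f' hff'
      funext y
      obtain ⟨x, rfl⟩ := hq y
      exact congrFun hff' x
    refine Submodule.fg_of_fg_map_injective _ hinj ?_
    have hle : (Subalgebra.toSubmodule (quotOrder O q)).map (precomp R (Ω := Ω) q).toLinearMap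
        ≤ Subalgebra.toSubmodule O := by
      rintro _ ⟨φ, hφ, rfl⟩
      exact hφ
    haveI : IsNoetherian R (Subalgebra.toSubmodule O) := isNoetherian_of_fg_of_noetherian _ h.fg
    have := IsNoetherian.noetherian (Submodule.comap (Subalgebra.toSubmodule O).subtype
      ((Subalgebra.toSubmodule (quotOrder O q)).map (precomp R (Ω := Ω) q).toLinearMap))
    have h2 := this.map (Subalgebra.toSubmodule O).subtype
    rwa [Submodule.map_comap_subtype, inf_eq_right.mpr hle] at h2
  equivariant := by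
    intro φ hφ g y
    obtain ⟨x, rfl⟩ := hq y
    have := h.equivariant _ hφ g x
    rw [← hρ]; exact this
  separates m n hmn := h.quot_separates q hq hρ m n hmn
  add_mem := by
    intro φ hφ
    haveI : Module.Finite R O := Module.Finite.iff_fg.mpr h.fg
    have hinjR := Setup.inj (R := R) (Ω := Ω) (G := G)
    obtain ⟨π, hπN, hπ⟩ := exists_retraction (invSub O q) (by
      intro r φ hr hφ x y hxy
      have h1 : r • (φ : M → Ω) x = r • (φ : M → Ω) y := hφ x y hxy
      rw [Algebra.smul_def, Algebra.smul_def] at h1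
      exact mul_left_cancel₀ (fun h => hr (hinjR (by rw [h, map_zero]))) h1)
    obtain ⟨n, a, b, ha, hb, hab⟩ := mem_tens_iff.mp (h.add_mem _ hφ)
    replace hab : ∀ x y, φ (q (x + y)) = ∑ i, a i x * b i y := hab
    let a' : Fin n → O := fun i => ⟨a i, ha i⟩
    let b' : Fin n → O := fun i => ⟨b i, hb i⟩
    have h1 : ∀ x y, φ (q (x + y)) = ∑ i, (π (a' i) : M → Ω) x * b i y := by
      intro x y
      have := h.proj_comb q hq hρ π hπ (fun i => b i y) a' (by
        intro x₁ x₂ hx
        have e1 : ∀ x, ∑ i, b i y * (a' i : M → Ω) x = φ (q (x + y)) := by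
          intro x
          rw [hab]
          exact Finset.sum_congr rfl fun i _ => mul_comm _ _
        rw [e1, e1, map_add, map_add, hx]) x
      rw [hab, Finset.sum_congr rfl (fun i _ => mul_comm _ _), ← this,
        Finset.sum_congr rfl (fun i _ => mul_comm _ _)]
    have h2 : ∀ x y, φ (q (x + y)) = ∑ i, (π (a' i) : M → Ω) x * (π (b' i) : M → Ω) y := by
      intro x y
      have := h.proj_comb q hq hρ π hπ (fun i => (π (a' i) : M → Ω) x) b' (by
        intro y₁ y₂ hy
        have e1 : ∀ y, ∑ i, (π (a' i) : M → Ω) x * (b' i : M → Ω) y = φ (q (x + y)) := by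
          intro y
          rw [h1]
        rw [e1, e1, map_add, map_add, hy]) y
      rw [h1]
      exact this.symm
    obtain ⟨s, hs⟩ := hq.hasRightInverse
    have hfac : ∀ c : O, c ∈ invSub O q → (fun y => (c : M → Ω) (s y)) ∈ quotOrder O q := by
      intro c hc
      rw [mem_quotOrder]
      have : (fun m => (c : M → Ω) (s (q m))) = c := by
        funext x; exact hc _ _ (hs (q x))
      rw [this]; exact c.2
    refine mem_tens_iff.mpr ⟨n, fun i y => (π (a' i) : M → Ω) (s y),
      fun i y => (π (b' i) : M → Ω) (s y), fun i => hfac _ (hπN _), fun i => hfac _ (hπN _), ?_⟩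
    intro x y
    rw [← h2, map_add, hs x, hs y]

theorem IsFlat.of_surjective [Infinite R] [Finite M] (h : IsFlat R (Ω := Ω) ρ) (q : M →+ M'')
    (hq : Function.Surjective q) (hρ : ∀ g m, q (ρ g m) = ρ'' g (q m)) :
    IsFlat R (Ω := Ω) ρ'' := by
  obtain ⟨O, hO⟩ := h
  exact ⟨_, hO.quot q hq hρ⟩

end Quot

section Pair

variable {R : Type*} [CommRing R] {Ω : Type*} [Field Ω]
  [Algebra R Ω] {G : Type*} [Group G] [MulSemiringAction G Ω]
  {M : Type*} [AddCommGroup M] {ρ : G →* AddMonoid.End M}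
  {M₁ : Type*} [AddCommGroup M₁] {ρ₁ : G →* AddMonoid.End M₁}
  {M₂ : Type*} [AddCommGroup M₂] {ρ₂ : G →* AddMonoid.End M₂}
  {O₁ : Subalgebra R (M₁ → Ω)} {O₂ : Subalgebra R (M₂ → Ω)}

/-- The algebra generated by the pullbacks of two algebras of functions. -/
noncomputable def pairOrder (O₁ : Subalgebra R (M₁ → Ω)) (O₂ : Subalgebra R (M₂ → Ω))
    (p₁ : M → M₁) (p₂ : M → M₂) : Subalgebra R (M → Ω) :=
  (Algebra.TensorProduct.lift ((precomp R p₁).comp O₁.val) ((precomp R p₂).comp O₂.val)
    (fun _ _ => Commute.all _ _)).range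

theorem pairOrder_induction {p₁ : M → M₁} {p₂ : M → M₂} {C : (M → Ω) → Prop}
    (h0 : C 0) (hadd : ∀ f g, C f → C g → C (f + g))
    (hmul : ∀ a ∈ O₁, ∀ b ∈ O₂, C (fun m => a (p₁ m) * b (p₂ m)))
    {f : M → Ω} (hf : f ∈ pairOrder O₁ O₂ p₁ p₂) : C f := by
  obtain ⟨w, rfl⟩ := hf
  change C (Algebra.TensorProduct.lift ((precomp R p₁).comp O₁.val) ((precomp R p₂).comp O₂.val)
    (fun _ _ => Commute.all _ _) w)
  induction w using TensorProduct.induction_on with
  | zero => rw [map_zero]; exact h0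
  | add z w hz hw => rw [map_add]; exact hadd _ _ hz hw
  | tmul a b =>
    rw [Algebra.TensorProduct.lift_tmul]
    exact hmul a.1 a.2 b.1 b.2

theorem mul_mem_pairOrder {p₁ : M → M₁} {p₂ : M → M₂} {a : M₁ → Ω} (ha : a ∈ O₁)
    {b : M₂ → Ω} (hb : b ∈ O₂) : (fun m => a (p₁ m) * b (p₂ m)) ∈ pairOrder O₁ O₂ p₁ p₂ := by
  refine ⟨(⟨a, ha⟩ : O₁) ⊗ₜ (⟨b, hb⟩ : O₂), ?_⟩
  change Algebra.TensorProduct.lift _ _ _ _ = _
  rw [Algebra.TensorProduct.lift_tmul]
  rfl

theorem IsOrder.pair (h₁ : IsOrder ρ₁ O₁) (h₂ : IsOrder ρ₂ O₂) (p₁ : M →+ M₁) (p₂ : M →+ M₂)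
    (hp₁ : ∀ g m, p₁ (ρ g m) = ρ₁ g (p₁ m)) (hp₂ : ∀ g m, p₂ (ρ g m) = ρ₂ g (p₂ m))
    (hinj : ∀ m n, p₁ m = p₁ n → p₂ m = p₂ n → m = n) :
    IsOrder ρ (pairOrder O₁ O₂ p₁ p₂) where
  fg := by
    haveI : Module.Finite R O₁ := Module.Finite.iff_fg.mpr h₁.fg
    haveI : Module.Finite R O₂ := Module.Finite.iff_fg.mpr h₂.fg
    exact Module.Finite.iff_fg.mp (Module.Finite.range
      (Algebra.TensorProduct.lift ((precomp R p₁).comp O₁.val) ((precomp R p₂).comp O₂.val)
        (fun _ _ => Commute.all _ _)).toLinearMap)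
  equivariant := by
    intro φ hφ g m
    refine pairOrder_induction (C := fun φ => φ (ρ g m) = g • φ m) ?_ ?_ ?_ hφ
    · simp
    · intro f f' hf hf'
      simp only [Pi.add_apply, smul_add, hf, hf']
    · intro a ha b hb
      change a (p₁ (ρ g m)) * b (p₂ (ρ g m)) = g • (a (p₁ m) * b (p₂ m))
      rw [hp₁, hp₂, h₁.equivariant a ha, h₂.equivariant b hb, smul_mul']
  separates := by
    intro m n hmn
    apply hinj
    · refine h₁.separates _ _ (fun a ha => ?_)
      have := hmn _ (mul_mem_pairOrder (p₁ := p₁) (p₂ := p₂) ha O₂.one_mem)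
      simpa using this
    · refine h₂.separates _ _ (fun b hb => ?_)
      have := hmn _ (mul_mem_pairOrder (p₁ := p₁) (p₂ := p₂) O₁.one_mem hb)
      simpa using this
  add_mem := by
    intro φ hφ
    refine pairOrder_induction (C := fun φ => (fun z : M × M => φ (z.1 + z.2)) ∈
      tens (Subalgebra.toSubmodule (pairOrder O₁ O₂ p₁ p₂))
        (Subalgebra.toSubmodule (pairOrder O₁ O₂ p₁ p₂))) ?_ ?_ ?_ hφ
    · exact Submodule.zero_mem _
    · intro f g hf hg
      exact Submodule.add_mem _ hf hg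
    · intro a ha b hb
      obtain ⟨n, c, d, hc, hd, hcd⟩ := mem_tens_iff.mp (h₁.add_mem a ha)
      obtain ⟨n', c', d', hc', hd', hcd'⟩ := mem_tens_iff.mp (h₂.add_mem b hb)
      have : (fun z : M × M => a (p₁ (z.1 + z.2)) * b (p₂ (z.1 + z.2)))
          = ∑ i, ∑ j, fun z : M × M => (c i (p₁ z.1) * c' j (p₂ z.1))
              * (d i (p₁ z.2) * d' j (p₂ z.2)) := by
        funext z
        simp only [Finset.sum_apply, map_add]
        have e1 := hcd (p₁ z.1) (p₁ z.2)
        have e2 := hcd' (p₂ z.1) (p₂ z.2)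
        simp only at e1 e2
        rw [e1, e2, Finset.sum_mul_sum]
        refine Finset.sum_congr rfl fun i _ => Finset.sum_congr rfl fun j _ => ?_
        ring
      rw [this]
      refine sum_mem fun i _ => sum_mem fun j _ => ?_
      exact mem_tens_iff.mpr ⟨1, fun _ m => c i (p₁ m) * c' j (p₂ m),
        fun _ m => d i (p₁ m) * d' j (p₂ m), fun _ => mul_mem_pairOrder (hc i) (hc' j),
        fun _ => mul_mem_pairOrder (hd i) (hd' j), fun x y => by simp⟩

theorem IsFlat.of_pair (h₁ : IsFlat R (Ω := Ω) ρ₁) (h₂ : IsFlat R (Ω := Ω) ρ₂) (p₁ : M →+ M₁)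
    (p₂ : M →+ M₂) (hp₁ : ∀ g m, p₁ (ρ g m) = ρ₁ g (p₁ m))
    (hp₂ : ∀ g m, p₂ (ρ g m) = ρ₂ g (p₂ m))
    (hinj : ∀ m n, p₁ m = p₁ n → p₂ m = p₂ n → m = n) : IsFlat R (Ω := Ω) ρ := by
  obtain ⟨O₁, h₁⟩ := h₁
  obtain ⟨O₂, h₂⟩ := h₂
  exact ⟨_, h₁.pair h₂ p₁ p₂ hp₁ hp₂ hinj⟩

theorem isFlat_of_subsingleton [Setup R Ω G] [Subsingleton M] : IsFlat R (Ω := Ω) ρ := by
  refine ⟨⊥, ⟨?_, ?_, fun m n _ => Subsingleton.elim m n, ?_⟩⟩
  · exact Subalgebra.fg_bot_toSubmodule
  · intro φ hφ g m
    obtain ⟨r, rfl⟩ := Algebra.mem_bot.mp hφ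
    rw [Pi.algebraMap_apply, Pi.algebraMap_apply, Setup.smul_algebraMap]
  · intro φ hφ
    exact mem_tens_iff.mpr ⟨1, fun _ => φ, fun _ => 1, fun _ => hφ, fun _ => Subalgebra.one_mem _,
      fun x y => by simp [Subsingleton.elim (x + y) x]⟩

/-- componentwise action on `ι → M` -/
def piRep (ι : Type*) (ρ : G →* AddMonoid.End M) : G →* AddMonoid.End (ι → M) where
  toFun g := { toFun := fun f i => ρ g (f i)
               map_zero' := by funext i; simp
               map_add' := fun f f' => by funext i; simp }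
  map_one' := by
    apply AddMonoidHom.ext
    intro f
    funext i
    change ρ 1 (f i) = f i
    rw [map_one]; rfl
  map_mul' g g' := by
    apply AddMonoidHom.ext
    intro f
    funext i
    change ρ (g * g') (f i) = ρ g (ρ g' (f i))
    rw [map_mul]; rfl

@[simp] theorem piRep_apply {ι : Type*} (g : G) (f : ι → M) (i : ι) :
    piRep ι ρ g f i = ρ g (f i) := rfl

theorem IsFlat.piRep_fin [Setup R Ω G] (h : IsFlat R (Ω := Ω) ρ) (n : ℕ) :
    IsFlat R (Ω := Ω) (piRep (Fin n) ρ) := by
  induction n with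
  | zero => exact isFlat_of_subsingleton
  | succ n ih =>
    refine IsFlat.of_pair h ih (Pi.evalAddMonoidHom (fun _ : Fin (n + 1) => M) 0)
      { toFun := fun f i => f i.succ, map_zero' := rfl, map_add' := fun _ _ => rfl }
      (fun _ _ => rfl) (fun _ _ => rfl) ?_
    intro f g h0 h1
    funext i
    refine Fin.cases h0 (fun j => congrFun h1 j) i

end Pair

end Fermat.Agent.Flat
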