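import Mathlib

/-!
# Counting lemmas
-/

set_option autoImplicit false

namespace Fermat.Agent.Flat

variable {p : ℕ} [hp : Fact p.Prime]

/-- cardinality of an image in terms of an auxiliary map -/
theorem card_map_le {A B H : Type*} [AddCommGroup A] [AddCommGroup B] [AddCommGroup H]
    (mk : A →+ H) (Z' : AddSubgroup A) (Λ : Z' →+ B) {S : Set B} (hS : S.Finite)
    (hΛ : ∀ z, Λ z ∈ S) (hker : ∀ z : Z', Λ z = 0 → mk z = 0) :
    Finite (Z'.map mk) ∧ Nat.card (Z'.map mk) ≤ Nat.card S := by
  have hsec : ∀ l : Z'.map mk, ∃ z : Z', mk z = l := fun l => by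
    obtain ⟨z, hz, h⟩ := l.2
    exact ⟨⟨z, hz⟩, h⟩
  choose s hs using hsec
  haveI : Finite S := hS.to_subtype
  let f : Z'.map mk → S := fun l => ⟨Λ (s l), hΛ _⟩
  have hf : Function.Injective f := by
    intro l l' h
    have h1 : Λ (s l) = Λ (s l') := congrArg Subtype.val h
    have h2 := hker (s l - s l') (by rw [map_sub, h1, sub_self])
    rw [AddSubgroup.coe_sub, map_sub, hs, hs, sub_eq_zero] at h2
    exact Subtype.ext h2
  exact ⟨Finite.of_injective f hf, Nat.card_le_card_of_injective f hf⟩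

theorem card_map_mul_le {A H : Type*} [AddCommGroup A] [AddCommGroup H]
    (mk : A →+ H) (Z' : AddSubgroup A) [Finite Z'] (D : AddSubgroup A) (hD : D ≤ Z')
    (hDk : ∀ d ∈ D, mk d = 0) : Nat.card (Z'.map mk) * Nat.card D ≤ Nat.card Z' := by
  have hsec : ∀ l : Z'.map mk, ∃ z : Z', mk z = l := fun l => by
    obtain ⟨z, hz, h⟩ := l.2
    exact ⟨⟨z, hz⟩, h⟩
  choose s hs using hsec
  rw [← Nat.card_prod]
  let f : Z'.map mk × D → Z' := fun x => s x.1 + ⟨x.2, hD x.2.2⟩
  apply Nat.card_le_card_of_injective f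
  rintro ⟨l, d⟩ ⟨l', d'⟩ h
  have h1 : mk (s l : A) + mk (d : A) = mk (s l' : A) + mk (d' : A) := by
    rw [← map_add, ← map_add]
    exact congrArg (fun z : Z' => mk (z : A)) h
  rw [hDk _ d.2, hDk _ d'.2, add_zero, add_zero, hs, hs] at h1
  have h2 : l = l' := Subtype.ext h1
  subst h2
  have h3 := add_left_cancel h
  have h4 : (d : A) = (d' : A) := congrArg (fun z : Z' => (z : A)) h3
  exact Prod.ext rfl (Subtype.ext h4)

/-- from cardinalities to dimensions -/
theorem finrank_le_of_card {H : Type*} [AddCommGroup H] [Module (ZMod p) H]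
    (L : Submodule (ZMod p) H) [Finite L] {n : ℕ} (h : Nat.card L ≤ p ^ n) :
    Module.finrank (ZMod p) L ≤ n := by
  haveI := Fintype.ofFinite L
  haveI : Module.Finite (ZMod p) L := Module.Finite.of_finite
  have h1 : Nat.card L = p ^ Module.finrank (ZMod p) L := by
    rw [Nat.card_eq_fintype_card, Module.card_eq_pow_finrank (K := ZMod p), ZMod.card]
  rw [h1] at h
  exact (Nat.pow_le_pow_iff_right hp.out.one_lt).mp h

theorem card_eq_pow {H : Type*} [AddCommGroup H] [Module (ZMod p) H] [Finite H] :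
    Nat.card H = p ^ Module.finrank (ZMod p) H := by
  haveI := Fintype.ofFinite H
  haveI : Module.Finite (ZMod p) H := Module.Finite.of_finite
  rw [Nat.card_eq_fintype_card, Module.card_eq_pow_finrank (K := ZMod p), ZMod.card]

end Fermat.Agent.Flat
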