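import Fermat.Agent.Flat.Mc

/-!
# Families of characters attached to `k`-valued homomorphisms
-/

set_option autoImplicit false

open GaloisRep Fermat.Agent.CFT.Loc Fermat.Agent.CFT Matrix

namespace Fermat.Agent.Flat

variable {p : ℕ} [hp : Fact p.Prime]

section QuotRep

variable {G : Type*} [Group G] {M : Type*} [AddCommGroup M]

/-- the induced action on a quotient -/
noncomputable def quotRep (ρ : G →* AddMonoid.End M) (K : AddSubgroup M)
    (hK : ∀ g, ∀ x ∈ K, ρ g x ∈ K) : G →* AddMonoid.End (M ⧸ K) where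
  toFun g := QuotientAddGroup.map K K (ρ g) (fun x hx => hK g x hx)
  map_one' := by
    apply AddMonoidHom.ext
    intro x
    obtain ⟨x, rfl⟩ := QuotientAddGroup.mk_surjective x
    change ((ρ 1 x : M) : M ⧸ K) = _
    rw [map_one]; rfl
  map_mul' g h := by
    apply AddMonoidHom.ext
    intro x
    obtain ⟨x, rfl⟩ := QuotientAddGroup.mk_surjective x
    change ((ρ (g * h) x : M) : M ⧸ K) = ((ρ g (ρ h x) : M) : M ⧸ K)
    rw [map_mul]; rfl

theorem quotRep_mk (ρ : G →* AddMonoid.End M) (K : AddSubgroup M)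
    (hK : ∀ g, ∀ x ∈ K, ρ g x ∈ K) (g : G) (x : M) :
    quotRep ρ K hK g (x : M ⧸ K) = ((ρ g x : M) : M ⧸ K) := rfl

end QuotRep

section Fam

variable {k : Type*} [Field k] [CharP k p]

/-- nondegenerate functionals -/
def NonDeg (φ₀ : k →+ ZMod p) : Prop := ∀ x, (∀ b, φ₀ (b * x) = 0) → x = 0

/-- the family attached to `f` -/
def fam (φ₀ : k →+ ZMod p) (f : GalLoc p → k) (b : k) (σ : GalLoc p) : ZMod p := φ₀ (b * f σ)

omit [CharP k p] in
theorem phi_nat_mul (φ₀ : k →+ ZMod p) (n : ℕ) (x : k) : φ₀ ((n : k) * x) = n * φ₀ x := by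
  rw [← nsmul_eq_mul, map_nsmul, nsmul_eq_mul]

omit [CharP k p] in
theorem phi_val_mul (φ₀ : k →+ ZMod p) (a : ZMod p) (x : k) :
    φ₀ ((a.val : k) * x) = a * φ₀ x := by
  rw [phi_nat_mul, ZMod.natCast_zmod_val]

variable {π ζ : PadicAlgCl p} {f : GalLoc p → k}

omit [CharP k p] in
theorem kfam_fam (φ₀ : k →+ ZMod p) (hadd : ∀ σ ∈ Gt π, ∀ τ ∈ Gt π, f (σ * τ) = f σ + f τ)
    (hlc : (locLevels p).LC f) {W : Type*} [AddCommGroup W] (j : W →+ k) :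
    KFam π (fun w => fam φ₀ f (j w)) where
  add w w' σ _ := by rw [fam, map_add, add_mul, map_add]; rfl
  mul w σ hσ τ hτ := by rw [fam, hadd σ hσ τ hτ, mul_add, map_add]; rfl
  lc w := by
    have h1 := (hlc.comp (fun x => φ₀ (j w * x)))
    exact h1.precomp (Levels.cont_subtype (𝓛 := locLevels p) (Gt π))

omit [CharP k p] in
theorem eq_zero_of_kat (hπ : IsPi π) (hζ : IsPrimitiveRoot ζ p) {φ₀ : k →+ ZMod p}
    (hφ : NonDeg φ₀) (h : KAt ζ π (fam φ₀ f) (p * (p + 1))) {σ : GalLoc p} (hσ : σ ∈ Gt π) :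
    f σ = 0 := hφ _ (fun b => h.eq_zero hπ hζ b σ hσ)

end Fam

section Idx

variable {π ζ : PadicAlgCl p} {W : Type*} [AddCommGroup W] {g : W → GalLoc p → ZMod p} {i : ℕ}

theorem psi_eq_of_resAct {σ : GalLoc p} (hσ : σ ∈ inertiaLoc p) (x : ResF p) :
    resAct p σ x = x := mem_inertiaLoc_iff.mp hσ x

/-- vanishing of leading coefficients: a module over `k₂` -/
theorem lead_eq_zero_of_idx (hπ : IsPi π) (hζ : ζ ^ p = 1) (hg : KFam π g) (h : KAt ζ π g i)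
    (hi : 1 ≤ i) (hdvd : ¬ p ∣ i) {k₂ : Type*} [Field k₂] [CharP k₂ p] [Module k₂ W]
    (lam : k₂ →+* ResF p) {σ₀ : inertiaLoc p} (hord : orderOf (hπ.psiI σ₀) = p ^ 2 - 1)
    {a : ZMod p} (ha : (σ₀ : GalLoc p) ζ = ζ ^ a.val) {x : k₂} (hx : x ^ (p ^ 2) = x) {m : ℕ}
    (hlx : lam x = psi π (σ₀ : GalLoc p) ^ m)
    (hT : ∀ w, ∀ σ ∈ Gt π, a * g w ((σ₀ : GalLoc p)⁻¹ * σ * σ₀) = g (x • w) σ)
    (h1 : ¬ i ≡ m [MOD p ^ 2 - 1]) (h2 : ¬ i ≡ m * p [MOD p ^ 2 - 1]) (w : W) :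
    lead hπ hζ hg h hi hdvd w = 0 := by
  by_contra hne
  have h3 : ∀ w, lead hπ hζ hg h hi hdvd (x • w)
      = psi π (σ₀ : GalLoc p) ^ i * lead hπ hζ hg h hi hdvd w := fun w => by
    rw [lead_conj hπ hζ hg h hi hdvd (σ₀ : GalLoc p) ha (hT w), psi_eq_of_resAct σ₀.2, mul_comm]
  rcases idx_alg lam (lead hπ hζ hg h hi hdvd) x hx _ h3 hne with h4 | h4
  · rw [hlx, psi_pow_eq_iff hπ hord] at h4
    exact h1 h4
  · rw [hlx, ← pow_mul, psi_pow_eq_iff hπ hord] at h4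
    exact h2 h4

/-- vanishing of leading coefficients: natural multiples -/
theorem lead_eq_zero_of_nat (hπ : IsPi π) (hζ : ζ ^ p = 1) (hg : KFam π g) (h : KAt ζ π g i)
    (hi : 1 ≤ i) (hdvd : ¬ p ∣ i) {σ₀ : inertiaLoc p} (hord : orderOf (hπ.psiI σ₀) = p ^ 2 - 1)
    {a : ZMod p} (ha : (σ₀ : GalLoc p) ζ = ζ ^ a.val) {n m : ℕ}
    (hn : (n : ResF p) = psi π (σ₀ : GalLoc p) ^ m)
    (hT : ∀ w, ∀ σ ∈ Gt π, a * g w ((σ₀ : GalLoc p)⁻¹ * σ * σ₀) = g (n • w) σ)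
    (h1 : ¬ i ≡ m [MOD p ^ 2 - 1]) (w : W) :
    lead hπ hζ hg h hi hdvd w = 0 := by
  by_contra hne
  have h3 : lead hπ hζ hg h hi hdvd (n • w)
      = psi π (σ₀ : GalLoc p) ^ i * lead hπ hζ hg h hi hdvd w := by
    rw [lead_conj hπ hζ hg h hi hdvd (σ₀ : GalLoc p) ha (hT w), psi_eq_of_resAct σ₀.2, mul_comm]
  rw [map_nsmul, nsmul_eq_mul, hn] at h3
  have h4 := mul_right_cancel₀ hne h3
  rw [psi_pow_eq_iff hπ hord] at h4
  exact h1 h4.symm

theorem modEq_cases {i m N : ℕ} (hm : m < N) (hi : i < 2 * N) (h : i ≡ m [MOD N]) :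
    i = m ∨ i = m + N := by
  rcases lt_or_ge i N with h1 | h1
  · left
    unfold Nat.ModEq at h
    rwa [Nat.mod_eq_of_lt h1, Nat.mod_eq_of_lt hm] at h
  · right
    have h2 : i = (i - N) + N := by omega
    unfold Nat.ModEq at h
    rw [h2, Nat.add_mod_right, Nat.mod_eq_of_lt (by omega : i - N < N), Nat.mod_eq_of_lt hm] at h
    omega

end Idx

end Fermat.Agent.Flat
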