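import Fermat.Agent.Flat.KumLead

/-!
# Additive families of homomorphisms `Gt π → 𝔽_p`
-/

set_option autoImplicit false

open GaloisRep Fermat.Agent.CFT.Loc Fermat.Agent.CFT

namespace Fermat.Agent.Flat

variable {p : ℕ} [hp : Fact p.Prime]

/-- an additive family of homomorphisms `Gt π → 𝔽_p`. -/
structure KFam (π : PadicAlgCl p) {W : Type*} [AddCommGroup W] (g : W → GalLoc p → ZMod p) :
    Prop where
  add : ∀ w w', ∀ σ ∈ Gt π, g (w + w') σ = g w σ + g w' σ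
  mul : ∀ w, ∀ σ ∈ Gt π, ∀ τ ∈ Gt π, g w (σ * τ) = g w σ + g w τ
  lc : ∀ w, ((locLevels p).restrict (Gt π)).LC (fun σ : Gt π => g w (σ : GalLoc p))

/-- all members of the family have index at least `i` -/
def KAt (ζ π : PadicAlgCl p) {W : Type*} (g : W → GalLoc p → ZMod p) (i : ℕ) : Prop :=
  ∀ w, ∃ y, Kum ζ π (g w) i y

variable {π ζ : PadicAlgCl p} {W : Type*} [AddCommGroup W] {g : W → GalLoc p → ZMod p} {i : ℕ}

/-- the leading coefficients -/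
noncomputable def lead (hπ : IsPi π) (hζ : ζ ^ p = 1) (hg : KFam π g) (h : KAt ζ π g i)
    (hi : 1 ≤ i) (hdvd : ¬ p ∣ i) : W →+ ResF p :=
  AddMonoidHom.mk' (fun w => lc π i (h w).choose) (fun w w' => by
    have h1 := (h w).choose_spec.mul hπ hζ (h w').choose_spec hi
    rw [← Kum.lc_mul hπ (h w).choose_spec (h w').choose_spec hi]
    exact (h (w + w')).choose_spec.lc_unique hπ hζ h1 (hg.add w w') hi hdvd)

theorem lead_eq (hπ : IsPi π) (hζ : ζ ^ p = 1) (hg : KFam π g) (h : KAt ζ π g i)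
    (hi : 1 ≤ i) (hdvd : ¬ p ∣ i) {w : W} {g' : GalLoc p → ZMod p}
    (hg' : ∀ σ ∈ Gt π, g' σ = g w σ) {y : PadicAlgCl p} (hy : Kum ζ π g' i y) :
    lead hπ hζ hg h hi hdvd w = lc π i y :=
  (h w).choose_spec.lc_unique hπ hζ hy (fun σ hσ => (hg' σ hσ).symm) hi hdvd

theorem lead_conj (hπ : IsPi π) (hζ : ζ ^ p = 1) (hg : KFam π g) (h : KAt ζ π g i)
    (hi : 1 ≤ i) (hdvd : ¬ p ∣ i) (τ : GalLoc p) {a : ZMod p} (ha : τ ζ = ζ ^ a.val)
    {w w' : W} (hT : ∀ σ ∈ Gt π, a * g w (τ⁻¹ * σ * τ) = g w' σ) :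
    lead hπ hζ hg h hi hdvd w' =
      resAct p τ (lead hπ hζ hg h hi hdvd w) * psi π τ ^ i := by
  obtain ⟨y, hy⟩ := h w
  rw [lead_eq hπ hζ hg h hi hdvd (fun σ _ => rfl) hy, ← hy.lc_conj hπ τ]
  exact lead_eq hπ hζ hg h hi hdvd hT (hy.conj hπ hζ τ ha)

theorem KAt.succ_of_dvd (hπ : IsPi π) (hζ : ζ ^ p = 1) (h : KAt ζ π g i)
    (hi : 1 ≤ i) (hlt : i < p * (p + 1)) (hdvd : p ∣ i) : KAt ζ π g (i + 1) := fun w => by
  obtain ⟨y, hy⟩ := h w
  exact hy.step hπ hζ hlt hi hdvd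

theorem KAt.succ_of_lead (hπ : IsPi π) (hζ : ζ ^ p = 1) (hg : KFam π g) (h : KAt ζ π g i)
    (hi : 1 ≤ i) (hlt : i < p * (p + 1)) (hdvd : ¬ p ∣ i)
    (h0 : ∀ w, lead hπ hζ hg h hi hdvd w = 0) : KAt ζ π g (i + 1) := fun w => by
  obtain ⟨y, hy⟩ := h w
  have h1 := h0 w
  rw [lead_eq hπ hζ hg h hi hdvd (fun σ _ => rfl) hy, hy.lc_eq_zero_iff hπ] at h1
  exact ⟨y, hy.discrete hπ hζ hlt h1⟩

theorem KAt.eq_zero (hπ : IsPi π) (hζ : IsPrimitiveRoot ζ p) (h : KAt ζ π g (p * (p + 1)))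
    (w : W) : ∀ σ ∈ Gt π, g w σ = 0 := by
  obtain ⟨y, hy⟩ := h w
  exact hy.eq_zero hπ hζ

theorem KAt.climb (hπ : IsPi π) (hζ : ζ ^ p = 1) (hg : KFam π g) {i₀ i₁ : ℕ} (h01 : i₀ ≤ i₁)
    (h1 : i₁ ≤ p * (p + 1)) (hi0 : 1 ≤ i₀) (h : KAt ζ π g i₀)
    (H : ∀ i, i₀ ≤ i → i < i₁ → ∀ (h : KAt ζ π g i) (hi : 1 ≤ i) (hdvd : ¬ p ∣ i),
      ∀ w, lead hπ hζ hg h hi hdvd w = 0) : KAt ζ π g i₁ := by
  induction i₁, h01 using Nat.le_induction with
  | base => exact h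
  | succ i₁ h01 ih =>
    have h2 := ih (by omega) (fun i hi hi' => H i hi (by omega))
    by_cases hdvd : p ∣ i₁
    · exact h2.succ_of_dvd hπ hζ (by omega) (by omega) hdvd
    · exact h2.succ_of_lead hπ hζ hg (by omega) (by omega) hdvd
        (H i₁ h01 (by omega) h2 (by omega) hdvd)

/-- start of the induction -/
theorem KAt.one_of_conj (hπ : IsPi π) (hζ : IsPrimitiveRoot ζ p) (hg : KFam π g) (τ : GalLoc p)
    {a : ZMod p} (ha : τ ζ = ζ ^ a.val) (T : W → W)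
    (hT : ∀ w, ∀ σ ∈ Gt π, a * g w (τ⁻¹ * σ * τ) = g (T w) σ)
    (hsurj : ∀ w, ∃ w', T w' = w + w') : KAt ζ π g 1 := by
  intro w
  obtain ⟨w', hw'⟩ := hsurj w
  obtain ⟨y, hy0, hy⟩ := exists_raw hπ hζ (hg.lc w') (hg.mul w')
  have hζp := hζ.pow_eq_one
  refine exists_one hπ hζp (y := τ y / y) (n := 0) (fun σ hσ => ?_) ?_
  · have h1 := hy _ (hπ.conj_mem τ hσ)
    have h2 : σ (τ y) = τ ((τ⁻¹ * σ * τ) y) := by
      rw [← AlgEquiv.mul_apply, ← AlgEquiv.mul_apply]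
      congr 1
      group
    have h3 := pow_zmod_mul hζp a.val (g w' (τ⁻¹ * σ * τ))
    rw [ZMod.natCast_zmod_val] at h3
    rw [map_div₀, h2, h1, map_mul, map_pow, ha, ← h3, hT w' σ hσ, hw', hy σ hσ,
      hg.add w w' σ hσ, pow_zmod_add hζp]
    have hz : ζ ≠ 0 := hζ.ne_zero hp.out.ne_zero
    field_simp
  · rw [norm_div, norm_apply, div_self (norm_pos_iff.mpr hy0).ne', one_pow, mul_zero, zpow_zero]

/-! ### possible indices -/

theorem idx_alg {κ k₂ W : Type*} [Field κ] [CharP κ p] [Field k₂] [CharP k₂ p] [AddCommGroup W]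
    [Module k₂ W] (lam : k₂ →+* κ) (a : W →+ κ) (x : k₂) (hx : x ^ (p ^ 2) = x) (y : κ)
    (h : ∀ w, a (x • w) = y * a w) {w : W} (ha : a w ≠ 0) : y = lam x ∨ y = lam x ^ p := by
  have hxp : (x ^ p) ^ p = x := by rw [← pow_mul, ← sq]; exact hx
  obtain ⟨s, hs⟩ := exists_nat_of_pow_eq (p := p) (x := x + x ^ p)
    (by rw [add_pow_char, hxp, add_comm])
  obtain ⟨n, hn⟩ := exists_nat_of_pow_eq (p := p) (x := x * x ^ p)
    (by rw [mul_pow, hxp, mul_comm])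
  have h1 : x * x = s * x - n := by rw [← hs, ← hn]; ring
  have h2 : x • x • w = s • (x • w) - n • w := by
    rw [smul_smul, h1, sub_smul, mul_smul, Nat.cast_smul_eq_nsmul, Nat.cast_smul_eq_nsmul]
  have h3 := congrArg a h2
  rw [h, h, map_sub, map_nsmul, map_nsmul, h, nsmul_eq_mul, nsmul_eq_mul] at h3
  have h4 : (s : κ) = lam x + lam x ^ p := by
    rw [← map_natCast lam, ← hs, map_add, map_pow]
  have h5 : (n : κ) = lam x * lam x ^ p := by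
    rw [← map_natCast lam, ← hn, map_mul, map_pow]
  rw [h4, h5] at h3
  have h6 : (y - lam x) * (y - lam x ^ p) * a w = 0 := by linear_combination h3
  rcases mul_eq_zero.mp h6 with h7 | h7
  · rcases mul_eq_zero.mp h7 with h8 | h8
    · exact Or.inl (sub_eq_zero.mp h8)
    · exact Or.inr (sub_eq_zero.mp h8)
  · exact absurd h7 ha

theorem psi_pow_eq_iff (hπ : IsPi π) {σ₀ : inertiaLoc p} (hord : orderOf (hπ.psiI σ₀) = p ^ 2 - 1)
    {m n : ℕ} : psi π (σ₀ : GalLoc p) ^ m = psi π (σ₀ : GalLoc p) ^ n ↔ m ≡ n [MOD p ^ 2 - 1] := by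
  rw [← hord, ← pow_eq_pow_iff_modEq, Units.ext_iff, Units.val_pow_eq_pow_val,
    Units.val_pow_eq_pow_val, IsPi.psiI_apply]

end Fermat.Agent.Flat
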