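import Fermat.Agent.Flat.LocMain
import Fermat.Agent.TW.FlatInterface
import Fermat.Agent.CycChar.Basic

/-!
# The bound for the local flat condition
-/

set_option autoImplicit false

open GaloisRep Fermat.Agent.CFT.Loc Fermat.Agent.CFT Matrix Fermat.Agent.TW Fermat.Agent.DefRing

namespace Fermat.Agent.Flat

local notation "M₂" => Matrix (Fin 2) (Fin 2)

variable {p : ℕ} [hp : Fact p.Prime]

/-- local bound for a representation equal to `adRep` -/
theorem locBound_of_eq {k : Type} [Field k] [Algebra (ZMod p) k] {r : GalLoc p →* M₂ k}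
    (h : LocBound p r) (ρ' : Representation (ZMod p) (GalLoc p) (sl k))
    (hρ' : ρ' = adRep (p := p) r 1) :
    ∃ L : Submodule (ZMod p) (H1 (locLevels p) ρ'),
      Module.finrank (ZMod p) L ≤ Module.finrank (ZMod p) ρ'.invariants +
        Module.finrank (ZMod p) k ∧
      ∀ c : ↥(Z1 (locLevels p) ρ'),
        (∀ hc : IsCoc r (fun g => (c.1 g : M₂ k)), FlatC r (fun g => (c.1 g : M₂ k)) hc) →
        H1.mk (locLevels p) ρ' c ∈ L := by
  subst hρ'
  obtain ⟨L, hL, hmem⟩ := h
  exact ⟨L, hL, fun c hc => hmem c (hc (isCoc_cM c))⟩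

section Realize

variable {k : Type} [Field k] {r : Γ →* M₂ k} {ρ : GaloisRepAdic (DualNumber k)}

/-- the additive identification of `k² × k²` with the space of the deformation -/
noncomputable def epsMap (b : Module.Basis (Fin 2) (DualNumber k) ρ.V) :
    (Fin 2 → k) × (Fin 2 → k) →+ ρ.V :=
  AddMonoidHom.mk' (fun x => b.equivFun.symm (fun i => TrivSqZeroExt.inl (x.1 i) +
    TrivSqZeroExt.inr (x.2 i))) (fun x y => by
      rw [← map_add]
      congr 1
      funext i
      simp only [Prod.fst_add, Prod.snd_add, Pi.add_apply, TrivSqZeroExt.inl_add,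
        TrivSqZeroExt.inr_add]
      abel)

theorem epsMap_apply (b : Module.Basis (Fin 2) (DualNumber k) ρ.V)
    (x : (Fin 2 → k) × (Fin 2 → k)) : epsMap b x = b.equivFun.symm
      (fun i => TrivSqZeroExt.inl (x.1 i) + TrivSqZeroExt.inr (x.2 i)) := rfl

theorem epsMap_injective (b : Module.Basis (Fin 2) (DualNumber k) ρ.V) :
    Function.Injective (epsMap b) := by
  intro x y hxy
  rw [epsMap_apply, epsMap_apply] at hxy
  have h1 := b.equivFun.symm.injective hxy
  refine Prod.ext (funext fun i => ?_) (funext fun i => ?_)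
  · have h2 := congrArg TrivSqZeroExt.fst (congrFun h1 i)
    simpa using h2
  · have h2 := congrArg TrivSqZeroExt.snd (congrFun h1 i)
    simpa using h2

theorem epsMap_equivariant {b : Module.Basis (Fin 2) (DualNumber k) ρ.V} {c : Γ → M₂ k}
    (hb : ∀ σ, LinearMap.toMatrix b b (ρ.ρ σ) = defMat r c σ) (σ : Γ)
    (x : (Fin 2 → k) × (Fin 2 → k)) :
    ρ.ρ σ (epsMap b x) = epsMap b (r σ *ᵥ x.1, r σ *ᵥ x.2 + c σ *ᵥ (r σ *ᵥ x.1)) := by
  rw [epsMap_apply, epsMap_apply]
  apply b.equivFun.injective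
  rw [LinearEquiv.apply_symm_apply]
  have h1 := LinearMap.toMatrix_mulVec_repr b b (ρ.ρ σ) (b.equivFun.symm
      (fun i => TrivSqZeroExt.inl (x.1 i) + TrivSqZeroExt.inr (x.2 i)))
  have h2 : ∀ v : ρ.V, b.equivFun v = ⇑(b.repr v) := fun v => rfl
  rw [h2, ← h1, hb, ← h2, LinearEquiv.apply_symm_apply]
  funext i
  simp only [defMat, Matrix.mulVec, dotProduct, Fin.sum_univ_two, Matrix.add_apply,
    Matrix.map_apply, Matrix.mul_apply, Pi.add_apply]
  ext
  · simp [TrivSqZeroExt.fst_add, TrivSqZeroExt.fst_mul]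
  · simp [TrivSqZeroExt.snd_add, TrivSqZeroExt.snd_mul]
    ring

theorem flatC_of_realizes [Finite k] {c : Γ → M₂ k} (hρ : Realizes ρ (defMat r c))
    (hfl : ρ.IsFlatAt p) (hc : IsCoc (r.comp (localGaloisToGlobal p))
      (fun g => c (localGaloisToGlobal p g))) :
    FlatC (r.comp (localGaloisToGlobal p)) (fun g => c (localGaloisToGlobal p g)) hc := by
  obtain ⟨b, hb⟩ := hρ
  haveI : Finite (DualNumber k) := inferInstanceAs (Finite (k × k))
  haveI : Finite (DualNumber k ⧸ (⊥ : Ideal (DualNumber k))) :=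
    Finite.of_surjective _ (Ideal.Quotient.mk_surjective (I := (⊥ : Ideal (DualNumber k))))
  have h1 := ((isFlatAt_iff ρ p).mp hfl).2 ⊥ inferInstance
  have h2 := h1.toLocal
  refine IsFlat.of_injective h2 ((Submodule.mkQ (⊥ • (⊤ : Submodule (DualNumber k) ρ.V))).toAddMonoidHom.comp
    (epsMap b)) ?_ ?_
  · intro x y hxy
    change Submodule.mkQ _ (epsMap b x) = Submodule.mkQ _ (epsMap b y) at hxy
    apply epsMap_injective b
    have h3 := (Submodule.Quotient.eq _).mp hxy
    have h4 : ((⊥ : Ideal (DualNumber k)) • (⊤ : Submodule (DualNumber k) ρ.V)) = ⊥ :=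
      Submodule.bot_smul _
    rw [h4, Submodule.mem_bot] at h3
    exact sub_eq_zero.mp h3
  · intro g x
    change Submodule.mkQ _ (epsMap b _) = Submodule.mkQ _ (ρ.ρ (localGaloisToGlobal p g) (epsMap b x))
    rw [epsMap_equivariant hb]
    rfl

end Realize

section Main

variable {k : Type} [Field k] [Algebra (ZMod p) k] [Finite k] {r : Γ →* M₂ k}

theorem det_cyc (hdet : ∀ σ, (r σ).det = algebraMap (ZMod p) k (ExtCitation.cycloChar p σ : ZMod p))
    (τ : GalLoc p) {ζ : PadicAlgCl p} {a : ℕ} (hζ : IsPrimitiveRoot ζ p) (ha : τ ζ = ζ ^ a) :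
    (r (localGaloisToGlobal p τ)).det = a := by
  haveI : NeZero p := ⟨hp.out.ne_zero⟩
  obtain ⟨ζ', hζ'⟩ : ∃ ζ' : AlgebraicClosure ℚ, IsPrimitiveRoot ζ' p :=
    HasEnoughRootsOfUnity.exists_primitiveRoot (AlgebraicClosure ℚ) p
  have h1 : IsPrimitiveRoot (padicEmbedding p ζ') p :=
    hζ'.map_of_injective (padicEmbedding p).injective
  obtain ⟨m, -, hm⟩ := h1.eq_pow_of_pow_eq_one hζ.pow_eq_one
  have h2 := CycChar.apply_eq_pow_cycloChar p (localGaloisToGlobal p τ) hζ'.pow_eq_one
  set e := ((ExtCitation.cycloChar p (localGaloisToGlobal p τ) : (ZMod p)ˣ) : ZMod p) with he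
  have h3 : τ ζ = ζ ^ e.val := by
    rw [← hm, map_pow, ← padicEmbedding_localGaloisToGlobal, h2, map_pow, ← pow_mul, ← pow_mul,
      mul_comm]
  have h4 : ζ ^ e.val = ζ ^ a := by rw [← h3, ha]
  have h5 : e = (a : ZMod p) := by
    have h6 : ζ ^ a = ζ ^ (a % p) := by
      conv_lhs => rw [← Nat.div_add_mod a p]
      rw [pow_add, pow_mul, hζ.pow_eq_one, one_pow, one_mul]
    have h7 := hζ.pow_inj (ZMod.val_lt e) (Nat.mod_lt a hp.out.pos) (h4.trans h6)
    rw [← ZMod.natCast_zmod_val e, h7, ZMod.natCast_mod]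
  rw [hdet, ← he, h5, map_natCast]

omit [Finite k] in
theorem adRep_comp_loc : (adRep (p := p) r 1).comp (localGaloisToGlobal p) =
    adRep (p := p) (r.comp (localGaloisToGlobal p)) 1 := by
  apply MonoidHom.ext
  intro g
  apply LinearMap.ext
  intro m
  apply Subtype.ext
  change ((adRep (p := p) r 1 (localGaloisToGlobal p g) m : sl k) : M₂ k) = _
  rw [adRep_one_apply, adRep_one_apply]
  change r (localGaloisToGlobal p g) * m * r (localGaloisToGlobal p g)⁻¹ =
    r (localGaloisToGlobal p g) * m * r (localGaloisToGlobal p g⁻¹)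
  rw [map_inv (localGaloisToGlobal p) g]

/-- The bound for the local flat condition. -/
theorem flatLocalBound (hp2 : p ≠ 2)
    (hlev : ∃ L : IntermediateField ℚ (AlgebraicClosure ℚ), FiniteDimensional ℚ L ∧
      ∀ σ : Γ, (∀ x ∈ L, σ x = x) → r σ = 1)
    (hdet : ∀ σ, (r σ).det = algebraMap (ZMod p) k (ExtCitation.cycloChar p σ : ZMod p))
    (hsplit : ∀ σ, ∃ α β : k,
      (r σ).charpoly = (Polynomial.X - Polynomial.C α) * (Polynomial.X - Polynomial.C β)) :
    FlatLocalBound p r := by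
  haveI : CharP k p := charP_of_injective_algebraMap (algebraMap (ZMod p) k).injective p
  have hlc : (locLevels p).LC (r.comp (localGaloisToGlobal p)) := by
    obtain ⟨L, hL, hLr⟩ := hlev
    have h1 : (galLevels ℚ (AlgebraicClosure ℚ)).LC r :=
      ⟨L.fixingSubgroup, fixingSubgroup_mem_galLevels L, fun g s hs => by
        rw [map_mul, hLr s (fun x hx => (IntermediateField.mem_fixingSubgroup_iff L s).mp hs x hx),
          mul_one]⟩
    exact h1.precomp (Levels.cont_comap (𝓛 := galLevels ℚ (AlgebraicClosure ℚ))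
      (localGaloisToGlobal p))
  have hb := locBound hp2 hlc (fun τ _ ζ a hζ ha => det_cyc hdet τ hζ ha)
    (fun σ => hsplit (localGaloisToGlobal p σ))
  obtain ⟨L, hL, hmem⟩ := locBound_of_eq hb
    (locRep (adRep (p := p) r 1) (ExtCitation.pPrime p)) adRep_comp_loc
  refine ⟨L, ?_, fun ρ S c hρ hfl => ?_⟩
  · have h1 : Module.finrank (ZMod p)
        (locRep (adRep (p := p) r 1) (ExtCitation.pPrime p)).invariants =
        h0loc (adRep (p := p) r 1) (ExtCitation.pPrime p) := by
      rw [h0loc]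
      have h2 : (locRep (adRep (p := p) r 1) (ExtCitation.pPrime p)).invariants =
          invOn (adRep (p := p) r 1) (Set.range (localGaloisToGlobal (ExtCitation.pPrime p))) := by
        ext x
        constructor
        · rintro hx _ ⟨g, rfl⟩
          exact hx g
        · intro hx g
          exact hx _ ⟨g, rfl⟩
      rw [h2]
    rw [← h1]
    exact hL
  · exact hmem ⟨fun g => c.1 (localGaloisToGlobal p g), _⟩ (fun hc => flatC_of_realizes hρ hfl hc)

end Main

end Fermat.Agent.Flat
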