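import Mathlib

/-!
# Fixed points of Frobenius-semilinear maps
-/

set_option autoImplicit false

namespace Fermat.Agent.Flat

variable {p : ℕ} [hp : Fact p.Prime]

/-- `𝔽_p`-linearly independent fixed points of a semilinear map are linearly independent. -/
theorem linearIndependent_of_frob {κ : Type*} [Field κ] [CharP κ p] [Algebra (ZMod p) κ]
    {E : Type*} [AddCommGroup E] [Module κ E] [Module (ZMod p) E] [IsScalarTower (ZMod p) κ E]
    (hfix : ∀ x : κ, x ^ p = x → ∃ a : ZMod p, algebraMap (ZMod p) κ a = x)
    (Φ : E → E) (hadd : ∀ v w, Φ (v + w) = Φ v + Φ w) (hsmul : ∀ (c : κ) v, Φ (c • v) = c ^ p • Φ v)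
    {ι : Type*} (v : ι → E) (hv : ∀ i, Φ (v i) = v i) (hli : LinearIndependent (ZMod p) v) :
    LinearIndependent κ v := by
  classical
  have hΦ0 : Φ 0 = 0 := by
    have := hsmul 0 0
    rwa [zero_smul, zero_pow hp.out.ne_zero, zero_smul] at this
  have hsum : ∀ (s : Finset ι) (f : ι → E), Φ (∑ i ∈ s, f i) = ∑ i ∈ s, Φ (f i) := by
    intro s f
    induction s using Finset.induction_on with
    | empty => simp [hΦ0]
    | insert a s ha ih => rw [Finset.sum_insert ha, hadd, ih, Finset.sum_insert ha]
  rw [linearIndependent_iff'] at hli ⊢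
  intro s
  induction s using Finset.induction_on with
  | empty => intro c _ i hi; simp at hi
  | insert a s ha ih =>
    intro c hc
    by_cases hca : c a = 0
    · rw [Finset.sum_insert ha, hca, zero_smul, zero_add] at hc
      intro i hi
      rcases Finset.mem_insert.mp hi with rfl | hi
      · exact hca
      · exact ih c hc i hi
    · exfalso
      set c' : ι → κ := fun i => (c a)⁻¹ * c i with hc'
      have h1 : ∑ i ∈ insert a s, c' i • v i = 0 := by
        have : ∑ i ∈ insert a s, c' i • v i = (c a)⁻¹ • ∑ i ∈ insert a s, c i • v i := by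
          rw [Finset.smul_sum]
          exact Finset.sum_congr rfl fun i _ => by rw [hc', smul_smul]
        rw [this, hc, smul_zero]
      have ha1 : c' a = 1 := inv_mul_cancel₀ hca
      have hg : ∑ i ∈ insert a s, (c' i ^ p) • v i = 0 := by
        have h2 := congrArg Φ h1
        rw [hsum, hΦ0] at h2
        rw [← h2]
        exact Finset.sum_congr rfl fun i _ => by rw [hsmul, hv]
      have hfix' : ∀ i ∈ insert a s, c' i ^ p = c' i := by
        intro i hi
        rcases Finset.mem_insert.mp hi with rfl | hi
        · rw [ha1, one_pow]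
        · have h2 : ∑ i ∈ s, (c' i ^ p - c' i) • v i = 0 := by
            have h3 : ∑ i ∈ insert a s, (c' i ^ p - c' i) • v i = 0 := by
              simp only [sub_smul, Finset.sum_sub_distrib, hg, h1, sub_zero]
            rw [Finset.sum_insert ha, ha1, one_pow, sub_self, zero_smul, zero_add] at h3
            exact h3
          exact sub_eq_zero.mp (ih _ h2 i hi)
      choose! r hr using fun i (hi : i ∈ insert a s) => hfix _ (hfix' i hi)
      have h4 : ∑ i ∈ insert a s, r i • v i = 0 := by
        rw [← h1]
        refine Finset.sum_congr rfl fun i hi => ?_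
        rw [← hr i hi, algebraMap_smul]
      have h5 := hli _ _ h4 a (Finset.mem_insert_self _ _)
      have h6 := hr a (Finset.mem_insert_self _ _)
      rw [h5, ha1, map_zero] at h6
      exact zero_ne_one h6

/-- elements fixed by Frobenius -/
theorem exists_algebraMap_of_pow {κ : Type*} [Field κ] [CharP κ p] [Algebra (ZMod p) κ] {x : κ}
    (hx : x ^ p = x) : ∃ a : ZMod p, algebraMap (ZMod p) κ a = x := by
  classical
  have hp1 := hp.out.one_lt
  set P : Polynomial κ := Polynomial.X ^ p - Polynomial.X with hP
  have hP0 : P ≠ 0 := FiniteField.X_pow_card_sub_X_ne_zero κ hp1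
  have hf : Function.Injective (algebraMap (ZMod p) κ) := (algebraMap (ZMod p) κ).injective
  have hroots : ∀ a : ZMod p, algebraMap (ZMod p) κ a ∈ P.roots.toFinset := by
    intro a
    rw [Multiset.mem_toFinset, Polynomial.mem_roots hP0, Polynomial.IsRoot, hP]
    simp only [Polynomial.eval_sub, Polynomial.eval_pow, Polynomial.eval_X]
    rw [← map_pow, ZMod.pow_card, sub_self]
  have hcard : (Finset.univ.image (algebraMap (ZMod p) κ)).card = p := by
    rw [Finset.card_image_of_injective _ hf, Finset.card_univ, ZMod.card]
  have hle : P.roots.toFinset.card ≤ p := by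
    refine (Multiset.toFinset_card_le _).trans ((Polynomial.card_roots' P).trans ?_)
    rw [hP, FiniteField.X_pow_card_sub_X_natDegree_eq κ hp1]
  have heq : Finset.univ.image (algebraMap (ZMod p) κ) = P.roots.toFinset := by
    apply Finset.eq_of_subset_of_card_le
    · intro y hy
      obtain ⟨a, _, rfl⟩ := Finset.mem_image.mp hy
      exact hroots a
    · rw [hcard]; exact hle
  have hx' : x ∈ P.roots.toFinset := by
    rw [Multiset.mem_toFinset, Polynomial.mem_roots hP0, Polynomial.IsRoot, hP]
    simp [hx]
  rw [← heq] at hx'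
  obtain ⟨a, _, rfl⟩ := Finset.mem_image.mp hx'
  exact ⟨a, rfl⟩

theorem card_frobfix {κ : Type*} [Field κ] [CharP κ p] {k : Type*} [Field k] [Algebra (ZMod p) k]
    [Finite k] {t : k} (ht : t ≠ 0) :
    {a : k →+ κ | ∀ w, a (t * w) = a w ^ p}.Finite ∧
      Nat.card {a : k →+ κ | ∀ w, a (t * w) = a w ^ p} ≤ Nat.card k := by
  classical
  letI : Algebra (ZMod p) κ := ZMod.algebra κ p
  haveI : Module.Finite (ZMod p) k := Module.Finite.of_finite
  let E := k →ₗ[ZMod p] κ
  let S : Submodule (ZMod p) E :=
    { carrier := {a | ∀ w, a (t * w) = a w ^ p}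
      add_mem' := fun {a b} ha hb w => by
        rw [LinearMap.add_apply, LinearMap.add_apply, ha, hb, add_pow_char]
      zero_mem' := fun w => by
        rw [LinearMap.zero_apply, LinearMap.zero_apply, zero_pow hp.out.ne_zero]
      smul_mem' := fun c a ha w => by
        rw [LinearMap.smul_apply, LinearMap.smul_apply, ha, Algebra.smul_def, Algebra.smul_def,
          mul_pow, ← map_pow (algebraMap (ZMod p) κ), ZMod.pow_card] }
  let Φ : E → E := fun a =>
    { toFun := fun w => a (t⁻¹ * w) ^ p
      map_add' := fun x y => by rw [mul_add, map_add, add_pow_char]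
      map_smul' := fun c x => by
        rw [mul_smul_comm, map_smul, Algebra.smul_def, mul_pow,
          ← map_pow (algebraMap (ZMod p) κ), ZMod.pow_card, RingHom.id_apply, Algebra.smul_def] }
  have hΦS : ∀ a : S, Φ a = a := by
    intro a
    apply LinearMap.ext
    intro w
    change (a : E) (t⁻¹ * w) ^ p = (a : E) w
    rw [← a.2, mul_inv_cancel_left₀ ht]
  have hrank : Module.rank (ZMod p) S ≤ Module.finrank (ZMod p) k := by
    refine rank_le (fun s hs => ?_)
    have h1 : LinearIndependent (ZMod p) (fun i : s => ((i : S) : E)) :=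
      hs.map' S.subtype (Submodule.ker_subtype S)
    have h2 := linearIndependent_of_frob (κ := κ) (fun x hx => exists_algebraMap_of_pow hx) Φ
      (fun v w => by
        apply LinearMap.ext
        intro x
        change (v + w) (t⁻¹ * x) ^ p = v (t⁻¹ * x) ^ p + w (t⁻¹ * x) ^ p
        rw [LinearMap.add_apply, add_pow_char])
      (fun c v => by
        apply LinearMap.ext
        intro x
        change (c • v (t⁻¹ * x)) ^ p = c ^ p • (v (t⁻¹ * x) ^ p)
        rw [smul_eq_mul, smul_eq_mul, mul_pow])
      (fun i : s => ((i : S) : E)) (fun i => hΦS i) h1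
    have h3 := h2.fintype_card_le_finrank
    rw [Fintype.card_coe, Module.finrank_linearMap, Module.finrank_self, mul_one] at h3
    exact h3
  haveI : Module.Finite (ZMod p) S := by
    rw [← Module.rank_lt_aleph0_iff]
    exact hrank.trans_lt Cardinal.natCast_lt_aleph0
  haveI : Finite S := Module.finite_of_finite (ZMod p)
  have hScard : Nat.card S ≤ Nat.card k := by
    haveI := Fintype.ofFinite S
    haveI := Fintype.ofFinite k
    rw [Nat.card_eq_fintype_card, Nat.card_eq_fintype_card, Module.card_eq_pow_finrank (K := ZMod p),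
      Module.card_eq_pow_finrank (K := ZMod p) (V := k), ZMod.card]
    apply Nat.pow_le_pow_right hp.out.pos
    exact Module.finrank_le_of_rank_le hrank
  let f : {a : k →+ κ | ∀ w, a (t * w) = a w ^ p} → S := fun a =>
    ⟨a.1.toZModLinearMap p, fun w => a.2 w⟩
  have hf : Function.Injective f := by
    intro a b hab
    apply Subtype.ext
    apply AddMonoidHom.ext
    intro w
    have h1 := congrArg (fun z : S => (z : E) w) hab
    exact h1
  haveI : Finite {a : k →+ κ | ∀ w, a (t * w) = a w ^ p} := Finite.of_injective f hf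
  exact ⟨Set.toFinite _, (Nat.card_le_card_of_injective f hf).trans hScard⟩

end Fermat.Agent.Flat
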