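import Fermat.Agent.Flat.Basic

/-!
# The Hopf algebra of an order (F0)
-/

set_option autoImplicit false

open TensorProduct

namespace Fermat.Agent.Flat

section Pre

variable {R : Type*} [CommRing R] {Ω : Type*} [Field Ω] [Algebra R Ω]

variable (R) in
/-- precomposition as an algebra hom -/
def precomp {X Y : Type*} (f : X → Y) : (Y → Ω) →ₐ[R] (X → Ω) where
  toFun φ := fun x => φ (f x)
  map_one' := rfl
  map_mul' _ _ := rfl
  map_zero' := rfl
  map_add' _ _ := rfl
  commutes' _ := rfl

@[simp] theorem precomp_apply {X Y : Type*} (f : X → Y) (φ : Y → Ω) (x : X) :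
    precomp R f φ x = φ (f x) := rfl

/-- the algebra map `A ⊗ B → (X × Y → Ω)`. -/
noncomputable def tmulAlg {A B : Type*} [CommRing A] [CommRing B] [Algebra R A] [Algebra R B]
    {X Y : Type*} (α : A →ₐ[R] (X → Ω)) (β : B →ₐ[R] (Y → Ω)) :
    A ⊗[R] B →ₐ[R] (X × Y → Ω) :=
  Algebra.TensorProduct.lift ((precomp R Prod.fst).comp α) ((precomp R Prod.snd).comp β)
    (fun _ _ => Commute.all _ _)

theorem tmulAlg_tmul {A B : Type*} [CommRing A] [CommRing B] [Algebra R A] [Algebra R B]
    {X Y : Type*} (α : A →ₐ[R] (X → Ω)) (β : B →ₐ[R] (Y → Ω)) (a : A) (b : B) (z : X × Y) :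
    tmulAlg α β (a ⊗ₜ b) z = α a z.1 * β b z.2 := by
  simp [tmulAlg]

theorem tmulAlg_toLinearMap {A B : Type*} [CommRing A] [CommRing B] [Algebra R A] [Algebra R B]
    {X Y : Type*} (α : A →ₐ[R] (X → Ω)) (β : B →ₐ[R] (Y → Ω)) :
    (tmulAlg α β).toLinearMap = tmulFun α.toLinearMap β.toLinearMap := by
  apply TensorProduct.ext'
  intro a b
  funext z
  rw [tmulFun_tmul]
  exact tmulAlg_tmul α β a b z

end Pre

/-- Data of an `R`-algebra `A` of functions on `M` closed under the group operations. -/
structure HopfData (R : Type*) [CommRing R] (Ω : Type*) [Field Ω] [Algebra R Ω]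
    (M : Type*) [AddCommGroup M] (A : Type*) [CommRing A] [Algebra R A] where
  inj : Function.Injective (algebraMap R Ω)
  α : A →ₐ[R] (M → Ω)
  good : Good (Ω := Ω) α.toLinearMap
  add_mem : ∀ a : A, ∃ z : A ⊗[R] A, tmulAlg α α z = fun z : M × M => α a (z.1 + z.2)
  zero_mem : ∀ a : A, ∃ r : R, algebraMap R Ω r = α a 0
  neg_mem : ∀ a : A, ∃ b : A, α b = fun m => α a (-m)

namespace HopfData

variable {R : Type*} [CommRing R] {Ω : Type*} [Field Ω] [Algebra R Ω]
  {M : Type*} [AddCommGroup M] {A : Type*} [CommRing A] [Algebra R A] (D : HopfData R Ω M A)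

theorem α_injective : Function.Injective D.α := D.good.injective D.inj

theorem T2_injective : Function.Injective (tmulAlg D.α D.α) := by
  have h : Good (Ω := Ω) (tmulAlg D.α D.α).toLinearMap := by
    rw [tmulAlg_toLinearMap]; exact D.good.tmul D.good
  exact h.injective D.inj

theorem T3_injective : Function.Injective (tmulAlg D.α (tmulAlg D.α D.α)) := by
  have h : Good (Ω := Ω) (tmulAlg D.α (tmulAlg D.α D.α)).toLinearMap := by
    rw [tmulAlg_toLinearMap, tmulAlg_toLinearMap]; exact D.good.tmul (D.good.tmul D.good)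
  exact h.injective D.inj

/-- the comultiplication -/
noncomputable def comul : A →ₐ[R] A ⊗[R] A :=
  ((AlgEquiv.ofInjective (tmulAlg D.α D.α) D.T2_injective).symm.toAlgHom).comp
    (((precomp R (fun z : M × M => z.1 + z.2)).comp D.α).codRestrict (tmulAlg D.α D.α).range
      (fun a => D.add_mem a))

theorem T2_comul (a : A) (z : M × M) :
    tmulAlg D.α D.α (D.comul a) z = D.α a (z.1 + z.2) := by
  have h1 := AlgEquiv.apply_symm_apply (AlgEquiv.ofInjective (tmulAlg D.α D.α) D.T2_injective)
    (((precomp R (fun z : M × M => z.1 + z.2)).comp D.α).codRestrict (tmulAlg D.α D.α).range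
      (fun a => D.add_mem a) a)
  have h2 := congrArg (fun f : (tmulAlg D.α D.α).range => (f : M × M → Ω) z) h1
  exact h2

/-- evaluation at zero -/
noncomputable def counit : A →ₐ[R] R :=
  (AlgEquiv.ofInjective (Algebra.ofId R Ω) D.inj).symm.toAlgHom.comp
    (((Pi.evalAlgHom R (fun _ : M => Ω) 0).comp D.α).codRestrict (Algebra.ofId R Ω).range
      (fun a => D.zero_mem a))

theorem algebraMap_counit (a : A) : algebraMap R Ω (D.counit a) = D.α a 0 := by
  have h1 := AlgEquiv.apply_symm_apply (AlgEquiv.ofInjective (Algebra.ofId R Ω) D.inj)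
    (((Pi.evalAlgHom R (fun _ : M => Ω) 0).comp D.α).codRestrict (Algebra.ofId R Ω).range
      (fun a => D.zero_mem a) a)
  have h2 := congrArg (fun f : (Algebra.ofId R Ω).range => (f : Ω)) h1
  exact h2

/-- the antipode -/
noncomputable def antipode : A →ₐ[R] A :=
  ((AlgEquiv.ofInjective D.α D.α_injective).symm.toAlgHom).comp
    (((precomp R (fun m : M => -m)).comp D.α).codRestrict D.α.range (fun a => D.neg_mem a))

theorem α_antipode (a : A) (m : M) : D.α (D.antipode a) m = D.α a (-m) := by
  have h1 := AlgEquiv.apply_symm_apply (AlgEquiv.ofInjective D.α D.α_injective)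
    (((precomp R (fun m : M => -m)).comp D.α).codRestrict D.α.range (fun a => D.neg_mem a) a)
  have h2 := congrArg (fun f : D.α.range => (f : M → Ω) m) h1
  exact h2

theorem T3_assoc_map (w : A ⊗[R] A) (x y z : M) :
    tmulAlg D.α (tmulAlg D.α D.α)
      (Algebra.TensorProduct.assoc R R R A A A (Algebra.TensorProduct.map D.comul (.id R A) w))
      (x, y, z) = tmulAlg D.α D.α w (x + y, z) := by
  induction w using TensorProduct.induction_on with
  | zero => simp
  | add w w' h h' => simp only [map_add, Pi.add_apply, h, h']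
  | tmul a b =>
    rw [Algebra.TensorProduct.map_tmul, AlgHom.id_apply, tmulAlg_tmul]
    have key : ∀ u : A ⊗[R] A, tmulAlg D.α (tmulAlg D.α D.α)
        (Algebra.TensorProduct.assoc R R R A A A (u ⊗ₜ[R] b)) (x, y, z)
        = tmulAlg D.α D.α u (x, y) * D.α b z := by
      intro u
      induction u using TensorProduct.induction_on with
      | zero => simp
      | add u u' h h' => simp only [TensorProduct.add_tmul, map_add, Pi.add_apply, h, h', add_mul]
      | tmul c d =>
        rw [Algebra.TensorProduct.assoc_tmul, tmulAlg_tmul, tmulAlg_tmul, tmulAlg_tmul]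
        ring
    rw [key, T2_comul]

theorem T3_map (w : A ⊗[R] A) (x y z : M) :
    tmulAlg D.α (tmulAlg D.α D.α) (Algebra.TensorProduct.map (.id R A) D.comul w)
      (x, y, z) = tmulAlg D.α D.α w (x, y + z) := by
  induction w using TensorProduct.induction_on with
  | zero => simp
  | add w w' h h' => simp only [map_add, Pi.add_apply, h, h']
  | tmul a b =>
    rw [Algebra.TensorProduct.map_tmul, AlgHom.id_apply, tmulAlg_tmul, tmulAlg_tmul, T2_comul]

/-- the bialgebra structure -/
noncomputable abbrev bialgebra : Bialgebra R A :=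
  Bialgebra.ofAlgHom D.comul D.counit
    (by
      apply AlgHom.ext
      intro a
      apply D.T3_injective
      funext ⟨x, y, z⟩
      have h1 := D.T3_assoc_map (D.comul a) x y z
      have h2 := D.T3_map (D.comul a) x y z
      rw [T2_comul] at h1 h2
      refine h1.trans (Eq.trans ?_ h2.symm)
      change D.α a (x + y + z) = D.α a (x + (y + z))
      rw [add_assoc])
    (by
      apply AlgHom.ext
      intro a
      apply (Algebra.TensorProduct.lid R A).injective
      apply D.α_injective
      funext x
      have key : ∀ w : A ⊗[R] A, D.α (Algebra.TensorProduct.lid R A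
          (Algebra.TensorProduct.map D.counit (.id R A) w)) x = tmulAlg D.α D.α w (0, x) := by
        intro w
        induction w using TensorProduct.induction_on with
        | zero => simp
        | add w w' h h' => simp only [map_add, Pi.add_apply, h, h']
        | tmul b c =>
          rw [Algebra.TensorProduct.map_tmul, tmulAlg_tmul, Algebra.TensorProduct.lid_tmul,
            AlgHom.id_apply, map_smul, Pi.smul_apply, Algebra.smul_def, algebraMap_counit]
      refine (key (D.comul a)).trans ?_
      rw [T2_comul]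
      simp)
    (by
      apply AlgHom.ext
      intro a
      apply (Algebra.TensorProduct.rid R R A).injective
      apply D.α_injective
      funext x
      have key : ∀ w : A ⊗[R] A, D.α (Algebra.TensorProduct.rid R R A
          (Algebra.TensorProduct.map (.id R A) D.counit w)) x = tmulAlg D.α D.α w (x, 0) := by
        intro w
        induction w using TensorProduct.induction_on with
        | zero => simp
        | add w w' h h' => simp only [map_add, Pi.add_apply, h, h']
        | tmul b c =>
          rw [Algebra.TensorProduct.map_tmul, tmulAlg_tmul, Algebra.TensorProduct.rid_tmul,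
            AlgHom.id_apply, map_smul, Pi.smul_apply, Algebra.smul_def, algebraMap_counit,
            mul_comm]
      refine (key (D.comul a)).trans ?_
      rw [T2_comul]
      simp)

/-- the Hopf algebra structure -/
noncomputable abbrev hopf : HopfAlgebra R A :=
  letI := D.bialgebra
  HopfAlgebra.ofAlgHom D.antipode
    (by
      apply AlgHom.ext
      intro a
      apply D.α_injective
      funext x
      have key : ∀ w : A ⊗[R] A, D.α (Algebra.TensorProduct.lift D.antipode (.id R A)
          (fun _ ↦ Commute.all _) w) x = tmulAlg D.α D.α w (-x, x) := by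
        intro w
        induction w using TensorProduct.induction_on with
        | zero => simp
        | add w w' h h' => simp only [map_add, Pi.add_apply, h, h']
        | tmul b c =>
          rw [Algebra.TensorProduct.lift_tmul, tmulAlg_tmul, AlgHom.id_apply, map_mul,
            Pi.mul_apply, α_antipode]
      refine (key (D.comul a)).trans ?_
      rw [T2_comul, neg_add_cancel, ← algebraMap_counit]
      change _ = D.α (algebraMap R A (D.counit a)) x
      rw [AlgHom.commutes]; rfl)
    (by
      apply AlgHom.ext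
      intro a
      apply D.α_injective
      funext x
      have key : ∀ w : A ⊗[R] A, D.α (Algebra.TensorProduct.lift (.id R A) D.antipode
          (fun _ _ ↦ Commute.all _ _) w) x = tmulAlg D.α D.α w (x, -x) := by
        intro w
        induction w using TensorProduct.induction_on with
        | zero => simp
        | add w w' h h' => simp only [map_add, Pi.add_apply, h, h']
        | tmul b c =>
          rw [Algebra.TensorProduct.lift_tmul, tmulAlg_tmul, AlgHom.id_apply, map_mul,
            Pi.mul_apply, α_antipode]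
      refine (key (D.comul a)).trans ?_
      rw [T2_comul, add_neg_cancel, ← algebraMap_counit]
      change _ = D.α (algebraMap R A (D.counit a)) x
      rw [AlgHom.commutes]; rfl)

theorem isCocomm : letI := D.hopf; Coalgebra.IsCocomm R A := by
  letI := D.hopf
  refine ⟨?_⟩
  apply LinearMap.ext
  intro a
  apply D.T2_injective
  funext ⟨x, y⟩
  have key : ∀ w : A ⊗[R] A, tmulAlg D.α D.α (TensorProduct.comm R A A w) (x, y)
      = tmulAlg D.α D.α w (y, x) := by
    intro w
    induction w using TensorProduct.induction_on with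
    | zero => simp
    | add w w' h h' => simp only [map_add, Pi.add_apply, h, h']
    | tmul b c =>
      rw [TensorProduct.comm_tmul, tmulAlg_tmul, tmulAlg_tmul]; ring
  refine (key (D.comul a)).trans ?_
  change _ = tmulAlg D.α D.α (D.comul a) (x, y)
  rw [T2_comul, T2_comul]
  change D.α a (y + x) = D.α a (x + y)
  rw [add_comm]

/-- the `Ω`-algebra map `Ω ⊗ A → (M → Ω)`. -/
noncomputable def TΩ : Ω ⊗[R] A →ₐ[Ω] (M → Ω) :=
  Algebra.TensorProduct.lift (Algebra.ofId Ω (M → Ω)) D.α (fun _ _ => Commute.all _ _)

theorem TΩ_tmul (c : Ω) (a : A) (m : M) : D.TΩ (c ⊗ₜ a) m = c * D.α a m := by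
  simp [TΩ, Algebra.ofId_apply]

theorem TΩ_injective : Function.Injective D.TΩ := by
  obtain ⟨n, b, hb⟩ := D.good
  rw [injective_iff_map_eq_zero]
  intro z hz
  have h1 : ∑ i, ((b.baseChange Ω).repr z i) • D.α (b i) = 0 := by
    rw [← hz]
    conv_rhs => rw [← (b.baseChange Ω).sum_repr z]
    rw [map_sum]
    refine Finset.sum_congr rfl fun i _ => ?_
    rw [map_smul, Module.Basis.baseChange_apply]
    congr 1
    funext m
    rw [TΩ_tmul, one_mul]
  have h2 := Fintype.linearIndependent_iff.mp hb _ h1
  have : (b.baseChange Ω).repr z = 0 := by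
    ext i; exact h2 i
  simpa using this

theorem exists_eval [Finite M] (x : A →ₐ[R] Ω) : ∃ m : M, ∀ a, x a = D.α a m := by
  by_contra hcon
  push Not at hcon
  choose φ hφ using hcon
  haveI := Fintype.ofFinite M
  set z : Ω ⊗[R] A := ∏ m : M, ((1 : Ω) ⊗ₜ[R] φ m - (D.α (φ m) m) ⊗ₜ[R] (1 : A)) with hz
  have h1 : D.TΩ z = 0 := by
    funext n
    rw [hz, map_prod, Finset.prod_apply, Pi.zero_apply]
    refine Finset.prod_eq_zero (Finset.mem_univ n) ?_
    rw [map_sub, Pi.sub_apply, TΩ_tmul, TΩ_tmul, map_one, Pi.one_apply, mul_one, one_mul, sub_self]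
  have h2 : z = 0 := D.TΩ_injective (by rw [h1, map_zero])
  have h3 := congrArg (Algebra.TensorProduct.lift (AlgHom.id Ω Ω) x (fun _ _ => Commute.all _ _)) h2
  rw [hz, map_prod, map_zero] at h3
  refine Finset.prod_ne_zero_iff.mpr (fun m _ => ?_) h3
  rw [map_sub, Algebra.TensorProduct.lift_tmul, Algebra.TensorProduct.lift_tmul, map_one, map_one,
    one_mul, mul_one, AlgHom.id_apply]
  exact sub_ne_zero.mpr (hφ m)

/-- the points of the Hopf algebra -/
noncomputable def pt (m : M) : A →ₐ[R] Ω := (Pi.evalAlgHom R (fun _ : M => Ω) m).comp D.α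

@[simp] theorem pt_apply (m : M) (a : A) : D.pt m a = D.α a m := rfl

theorem pt_bijective [Finite M] (hsep : ∀ m n : M, (∀ a, D.α a m = D.α a n) → m = n) :
    Function.Bijective (fun m => WithConv.toConv (D.pt m)) := by
  constructor
  · intro m n h
    refine hsep m n (fun a => ?_)
    have := congrArg (fun f : WithConv (A →ₐ[R] Ω) => f.ofConv a) h
    exact this
  · intro x
    obtain ⟨m, hm⟩ := D.exists_eval x.ofConv
    refine ⟨m, ?_⟩
    apply WithConv.ofConv_injective
    apply AlgHom.ext
    intro a
    exact (hm a).symm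

theorem pt_mul (m n : M) : letI := D.hopf
    WithConv.toConv (D.pt m) * WithConv.toConv (D.pt n) = WithConv.toConv (D.pt (m + n)) := by
  letI := D.hopf
  apply WithConv.ofConv_injective
  apply AlgHom.ext
  intro a
  have key : ∀ w : A ⊗[R] A, Algebra.TensorProduct.lift (D.pt m) (D.pt n)
      (fun _ _ ↦ .all ..) w = tmulAlg D.α D.α w (m, n) := by
    intro w
    induction w using TensorProduct.induction_on with
    | zero => simp
    | add w w' h h' => simp only [map_add, Pi.add_apply, h, h']
    | tmul b c =>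
      rw [Algebra.TensorProduct.lift_tmul, tmulAlg_tmul]; rfl
  refine (AlgHom.convMul_apply _ _ a).trans ?_
  refine (key (D.comul a)).trans ?_
  rw [T2_comul]; rfl

end HopfData

section Main

variable {R : Type*} [CommRing R] [IsDomain R] [IsPrincipalIdealRing R] {Ω : Type*} [Field Ω]
  [Algebra R Ω] {G : Type*} [Group G] [MulSemiringAction G Ω] [Setup R Ω G]
  {M : Type*} [AddCommGroup M] {ρ : G →* AddMonoid.End M} {O : Subalgebra R (M → Ω)}

variable (G) in
theorem integral_mem_range {x : Ω} (hx : IsIntegral R x) (hg : ∀ g : G, g • x = x) :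
    ∃ r : R, algebraMap R Ω r = x := by
  obtain ⟨r, s, hs, h⟩ := Setup.exists_frac (R := R) (G := G) x hg
  have hinj := Setup.inj (R := R) (Ω := Ω) (G := G)
  let K := FractionRing R
  letI : Algebra K Ω := (IsFractionRing.lift (A := R) (K := K) (g := algebraMap R Ω) hinj).toAlgebra
  haveI : IsScalarTower R K Ω := IsScalarTower.of_algebraMap_eq (fun r => by
    change _ = IsFractionRing.lift (A := R) (K := K) (g := algebraMap R Ω) hinj (algebraMap R K r)
    rw [IsFractionRing.lift_algebraMap])
  have hs0 : algebraMap R Ω s ≠ 0 := fun h' => hs (hinj (by rw [h', map_zero]))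
  set y : K := algebraMap R K r / algebraMap R K s with hy
  have hxy : algebraMap K Ω y = x := by
    rw [hy, map_div₀, ← IsScalarTower.algebraMap_apply, ← IsScalarTower.algebraMap_apply, ← h]
    field_simp
  have hyi : IsIntegral R y := by
    rw [← hxy] at hx
    exact (isIntegral_algebraMap_iff (algebraMap K Ω).injective).mp hx
  obtain ⟨t, ht⟩ := IsIntegrallyClosed.isIntegral_iff.mp hyi
  refine ⟨t, ?_⟩
  rw [← hxy, ← ht, ← IsScalarTower.algebraMap_apply]

omit [IsDomain R] [IsPrincipalIdealRing R] [Setup R Ω G] in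
theorem IsOrder.isIntegral (h : IsOrder ρ O) {φ : M → Ω} (hφ : φ ∈ O) (m : M) :
    IsIntegral R (φ m) := by
  haveI : Module.Finite R O := Module.Finite.iff_fg.mpr h.fg
  have h1 : IsIntegral R (⟨φ, hφ⟩ : O) := Algebra.IsIntegral.isIntegral _
  have h2 := h1.map ((Pi.evalAlgHom R (fun _ : M => Ω) m).comp O.val)
  exact h2

theorem IsOrder.apply_zero (h : IsOrder ρ O) {φ : M → Ω} (hφ : φ ∈ O) :
    ∃ r : R, algebraMap R Ω r = φ 0 :=
  integral_mem_range G (h.isIntegral hφ 0) (fun g => by
    have := h.equivariant φ hφ g 0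
    rw [map_zero] at this
    exact this.symm)

theorem IsOrder.nsmul_mem (h : IsOrder ρ O) (k : ℕ) :
    ∀ {φ : M → Ω}, φ ∈ O → (fun m => φ (k • m)) ∈ O := by
  induction k with
  | zero =>
    intro φ hφ
    obtain ⟨r, hr⟩ := h.apply_zero hφ
    have : (fun m : M => φ (0 • m)) = algebraMap R (M → Ω) r := by
      funext m
      rw [zero_smul, Pi.algebraMap_apply, hr]
    rw [this]; exact O.algebraMap_mem _
  | succ k ih =>
    intro φ hφ
    obtain ⟨n, a, b, ha, hb, hab⟩ := mem_tens_iff.mp (h.add_mem φ hφ)
    have : (fun m : M => φ ((k + 1) • m)) = ∑ i, (fun m => a i (k • m)) * b i := by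
      funext m
      rw [Finset.sum_apply, add_smul, one_smul]
      exact hab (k • m) m
    rw [this]
    exact sum_mem fun i _ => mul_mem (ih (ha i)) (hb i)

theorem IsOrder.neg_mem' [Finite M] (h : IsOrder ρ O) {φ : M → Ω} (hφ : φ ∈ O) :
    (fun m => φ (-m)) ∈ O := by
  have : (fun m => φ (-m)) = fun m => φ ((Nat.card M - 1) • m) := by
    funext m
    congr 1
    rw [neg_eq_iff_add_eq_zero]
    have : m + (Nat.card M - 1) • m = Nat.card M • m := by
      conv_rhs => rw [show Nat.card M = 1 + (Nat.card M - 1) by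
        have := Nat.card_pos (α := M); omega, add_smul, one_smul]
    rw [this]; exact card_nsmul_eq_zero'
  rw [this]; exact h.nsmul_mem _ hφ

/-- the Hopf data of an order -/
noncomputable def IsOrder.hopfData [Finite M] (h : IsOrder ρ O) : HopfData R Ω M O where
  inj := Setup.inj (R := R) (Ω := Ω) (G := G)
  α := O.val
  good := h.good
  add_mem a := by
    obtain ⟨z, hz⟩ := h.add_mem a.1 a.2
    refine ⟨z, ?_⟩
    have : tmulFun (Subalgebra.toSubmodule O).subtype (Subalgebra.toSubmodule O).subtype
        = (tmulAlg O.val O.val).toLinearMap := by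
      rw [tmulAlg_toLinearMap]; rfl
    rw [this] at hz
    exact hz
  zero_mem a := h.apply_zero a.2
  neg_mem a := ⟨⟨_, h.neg_mem' a.2⟩, rfl⟩

end Main

/-- `M` is the generic fibre of a finite flat cocommutative Hopf algebra over `R`. -/
def HopfModel (R : Type) [CommRing R] {Ω : Type} [Field Ω] [Algebra R Ω]
    {G : Type*} [Group G] [MulSemiringAction G Ω] {M : Type} [AddCommGroup M]
    (ρ : G →* AddMonoid.End M) : Prop :=
  ∃ (H : Type) (_ : CommRing H) (_ : HopfAlgebra R H), Module.Finite R H ∧ Module.Flat R H ∧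
    Coalgebra.IsCocomm R H ∧ ∃ e : WithConv (H →ₐ[R] Ω) ≃ M,
      (∀ f g : WithConv (H →ₐ[R] Ω), e (f * g) = e f + e g) ∧
      ∀ (σ : G) (f g : WithConv (H →ₐ[R] Ω)), (∀ h : H, g h = σ • (f h)) → e g = ρ σ (e f)

theorem IsFlat.hopfModel {R : Type} [CommRing R] [IsDomain R] [IsPrincipalIdealRing R]
    {Ω : Type} [Field Ω] [Algebra R Ω]
    {G : Type*} [Group G] [MulSemiringAction G Ω] [Setup R Ω G] {M : Type} [AddCommGroup M]
    [Finite M] {ρ : G →* AddMonoid.End M} (hρ : IsFlat R (Ω := Ω) ρ) :
    HopfModel R (Ω := Ω) ρ := by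
  obtain ⟨O, h⟩ := hρ
  set D := h.hopfData with hD
  haveI := torsionFree_of_inj (Setup.inj (R := R) (Ω := Ω) (G := G)) M (Subalgebra.toSubmodule O)
  haveI hfin : Module.Finite R O := Module.Finite.iff_fg.mpr h.fg
  haveI : Module.IsTorsionFree R O := this
  haveI : Module.Free R O := Module.free_of_finite_type_torsion_free'
  have hsep : ∀ m n : M, (∀ a, D.α a m = D.α a n) → m = n := fun m n hmn =>
    h.separates m n (fun φ hφ => hmn ⟨φ, hφ⟩)
  let E : M ≃ WithConv (O →ₐ[R] Ω) :=
    Equiv.ofBijective (fun m => WithConv.toConv (D.pt m)) (D.pt_bijective hsep)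
  refine ⟨O, inferInstance, D.hopf, hfin, inferInstance, D.isCocomm, E.symm, ?_, ?_⟩
  · intro f g
    rw [Equiv.symm_apply_eq]
    have h1 := D.pt_mul (E.symm f) (E.symm g)
    have h2 : WithConv.toConv (D.pt (E.symm f)) = f := E.apply_symm_apply f
    have h3 : WithConv.toConv (D.pt (E.symm g)) = g := E.apply_symm_apply g
    rw [h2, h3] at h1
    exact h1
  · intro σ f g hfg
    rw [Equiv.symm_apply_eq]
    apply WithConv.ofConv_injective
    apply AlgHom.ext
    intro a
    have h2 : WithConv.toConv (D.pt (E.symm f)) = f := E.apply_symm_apply f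
    have h3 : D.pt (ρ σ (E.symm f)) a = σ • D.pt (E.symm f) a :=
      h.equivariant a.1 a.2 σ _
    refine (hfg a).trans ?_
    refine Eq.trans ?_ h3.symm
    conv_lhs => rw [← h2]

theorem HopfModel.isFlat {R : Type} [CommRing R]
    {Ω : Type} [Field Ω] [Algebra R Ω]
    {G : Type*} [Group G] [MulSemiringAction G Ω] [Setup R Ω G] {M : Type} [AddCommGroup M]
    {ρ : G →* AddMonoid.End M} (hρ : HopfModel R (Ω := Ω) ρ) :
    IsFlat R (Ω := Ω) ρ := by
  obtain ⟨H, _, _, hfin, hflat, hcocomm, e, hadd, hgal⟩ := hρ
  let F : H →ₐ[R] (M → Ω) := AlgHom.pi (fun m => (e.symm m).ofConv)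
  have hF : ∀ (h : H) (m : M), F h m = (e.symm m).ofConv h := fun h m => rfl
  refine ⟨F.range, ?_, ?_, ?_, ?_⟩
  · have : Module.Finite R F.range := Module.Finite.of_surjective F.rangeRestrict.toLinearMap
      F.rangeRestrict_surjective
    exact Module.Finite.iff_fg.mp this
  · rintro φ ⟨h, rfl⟩ g m
    let g' : H →ₐ[R] Ω := AlgHom.mk'
      (((MulSemiringAction.toRingHom G Ω g)).comp (e.symm m).ofConv.toRingHom) (fun r x => by
        change g • ((e.symm m).ofConv (r • x)) = r • (g • ((e.symm m).ofConv x))
        rw [map_smul, Setup.smul_smul'])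
    have h1 := hgal g (e.symm m) (WithConv.toConv g') (fun h => rfl)
    rw [Equiv.apply_symm_apply] at h1
    change F h (ρ g m) = g • F h m
    rw [hF, ← h1, Equiv.symm_apply_apply]
    rfl
  · intro m n hmn
    apply e.symm.injective
    apply WithConv.ofConv_injective
    apply AlgHom.ext
    intro h
    exact hmn (F h) ⟨h, rfl⟩
  · rintro φ ⟨h, rfl⟩
    rw [mem_tens_iff]
    have key : ∀ w : H ⊗[R] H, ∃ (n : ℕ) (a : Fin n → (M → Ω)) (b : Fin n → (M → Ω)),
        (∀ i, a i ∈ F.range) ∧ (∀ i, b i ∈ F.range) ∧
        ∀ x y, Algebra.TensorProduct.lift (e.symm x).ofConv (e.symm y).ofConv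
          (fun _ _ ↦ .all ..) w = ∑ i, a i x * b i y := by
      intro w
      induction w using TensorProduct.induction_on with
      | zero => exact ⟨0, Fin.elim0, Fin.elim0, fun i => i.elim0, fun i => i.elim0, by simp⟩
      | tmul a b =>
        refine ⟨1, fun _ => F a, fun _ => F b, fun _ => ⟨a, rfl⟩, fun _ => ⟨b, rfl⟩, ?_⟩
        intro x y
        simp [hF]
      | add z w hz hw =>
        obtain ⟨n, a, b, ha, hb, h⟩ := hz
        obtain ⟨m, a', b', ha', hb', h'⟩ := hw
        refine ⟨n + m, Fin.append a a', Fin.append b b', ?_, ?_, ?_⟩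
        · intro i; refine Fin.addCases (fun i => ?_) (fun i => ?_) i
          · simpa using ha i
          · simpa using ha' i
        · intro i; refine Fin.addCases (fun i => ?_) (fun i => ?_) i
          · simpa using hb i
          · simpa using hb' i
        · intro x y
          rw [map_add, h, h', Fin.sum_univ_add]
          simp
    obtain ⟨n, a, b, ha, hb, hab⟩ := key (Coalgebra.comul h)
    refine ⟨n, a, b, ha, hb, fun x y => ?_⟩
    rw [← hab x y]
    have h1 : e.symm (x + y) = e.symm x * e.symm y := by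
      rw [Equiv.symm_apply_eq, hadd, Equiv.apply_symm_apply, Equiv.apply_symm_apply]
    change (e.symm (x + y)).ofConv h = _
    rw [h1]
    exact AlgHom.convMul_apply _ _ h

end Fermat.Agent.Flat
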