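import Fermat.Agent.Flat.Line

/-!
# The tame field `L = ℚ_p^nr(π)` and Kummer extensions of index `i`
-/

set_option autoImplicit false

open GaloisRep Fermat.Agent.CFT.Loc

namespace Fermat.Agent.Flat

variable {p : ℕ} [hp : Fact p.Prime]

/-- Teichmüller-type lifts: the residue field of `W` is everything. -/
theorem exists_Wring_lift (r : ResF p) : ∃ w : PadicAlgCl p, w ∈ Wring p ∧ rd p w = r := by
  by_cases hr : r = 0
  · exact ⟨0, (Wring p).zero_mem, by rw [rd_zero, hr]⟩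
  obtain ⟨x, hx, rfl⟩ := rd_surjective r
  -- finite order
  have hint : IsIntegral ℚ_[p] x := (Algebra.IsAlgebraic.isAlgebraic x).isIntegral
  let K : IntermediateField ℚ_[p] (PadicAlgCl p) := IntermediateField.adjoin ℚ_[p] {x}
  haveI : FiniteDimensional ℚ_[p] K := IntermediateField.adjoin.finiteDimensional hint
  have hmem : rd p x ∈ resSub p K :=
    ⟨x, hx, IntermediateField.mem_adjoin_simple_self _ x, (rd_of_le hx).symm⟩
  set u : resSub p K := ⟨rd p x, hmem⟩ with hu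
  have hu0 : u ≠ 0 := fun h => hr (congrArg Subtype.val h)
  haveI : Finite (resSub p K) := finite_resSub p K
  haveI := Fintype.ofFinite (resSub p K)
  set n := Fintype.card (resSub p K) - 1 with hn
  have hun : (rd p x) ^ n = 1 := congrArg Subtype.val (FiniteField.pow_card_sub_one_eq_one u hu0)
  haveI : CharP (resSub p K) p := inferInstance
  obtain ⟨m, _, hcard⟩ := FiniteField.card (resSub p K) p
  have hncop : n.Coprime p := by
    rw [hn, hcard]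
    have h1 : 1 ≤ p ^ (m : ℕ) := Nat.one_le_pow _ _ hp.out.pos
    have : Nat.Coprime (p ^ (m : ℕ) - 1) (p ^ (m : ℕ)) := by
      rw [Nat.coprime_comm]
      have := Nat.coprime_self_sub_right (n := p ^ (m : ℕ)) (m := 1) h1
      rw [this]; exact Nat.coprime_one_right _
    exact Nat.Coprime.coprime_dvd_right (dvd_pow_self p m.ne_zero) this
  have hn0 : 0 < n := by
    rcases Nat.eq_zero_or_pos n with h | h
    · rw [h] at hncop
      exact absurd hncop (by simpa using hp.out.one_lt.ne')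
    · exact h
  -- root
  have hsplit : (Polynomial.X ^ n - 1 : Polynomial (PadicAlgCl p)).Splits := IsAlgClosed.splits _
  have hmonic : (Polynomial.X ^ n - 1 : Polynomial (PadicAlgCl p)).Monic :=
    Polynomial.monic_X_pow_sub_C (1 : PadicAlgCl p) hn0.ne'
  have hprod := hsplit.eq_prod_roots_of_monic hmonic
  have heval := congrArg (Polynomial.eval x) hprod
  rw [Polynomial.eval_multiset_prod, Multiset.map_map] at heval
  simp only [Polynomial.eval_sub, Polynomial.eval_pow, Polynomial.eval_X, Polynomial.eval_one,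
    Function.comp_def, Polynomial.eval_C] at heval
  have hlt : ‖x ^ n - 1‖ < 1 := by
    rw [← rd_eq_iff (norm_pow_le' hx n) (by rw [norm_one]), rd_pow hx, hun, rd_one]
  rw [heval] at hlt
  have hex : ∃ ζ ∈ (Polynomial.X ^ n - 1 : Polynomial (PadicAlgCl p)).roots, ‖x - ζ‖ < 1 := by
    by_contra hcon
    push Not at hcon
    have : 1 ≤ ‖(Multiset.map (fun a => x - a)
        (Polynomial.X ^ n - 1 : Polynomial (PadicAlgCl p)).roots).prod‖ := by
      have hgen : ∀ s : Multiset (PadicAlgCl p), (∀ ζ ∈ s, 1 ≤ ‖x - ζ‖) →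
          1 ≤ ‖(Multiset.map (fun a => x - a) s).prod‖ := by
        intro s
        induction s using Multiset.induction_on with
        | empty => intro _; simp
        | cons a s ih =>
          intro hs
          rw [Multiset.map_cons, Multiset.prod_cons, norm_mul]
          have h1 := hs a (Multiset.mem_cons_self _ _)
          have h2 := ih (fun ζ hζ => hs ζ (Multiset.mem_cons_of_mem hζ))
          nlinarith
      exact hgen _ hcon
    exact absurd hlt (not_lt.mpr this)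
  obtain ⟨ζ, hζroot, hζx⟩ := hex
  have hζn : ζ ^ n = 1 := by
    have := (Polynomial.mem_roots hmonic.ne_zero).mp hζroot
    rw [Polynomial.IsRoot, Polynomial.eval_sub, Polynomial.eval_pow, Polynomial.eval_X,
      Polynomial.eval_one, sub_eq_zero] at this
    exact this
  have hζnorm : ‖ζ‖ = 1 := by
    have h1 : ‖ζ‖ ^ n = 1 := by rw [← norm_pow, hζn, norm_one]
    exact (pow_eq_one_iff_of_nonneg (norm_nonneg _) hn0.ne').mp h1
  have hζ0 : ζ ≠ 0 := norm_pos_iff.mp (by rw [hζnorm]; exact one_pos)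
  refine ⟨ζ, ⟨hζnorm.le, fun σ hσ => ?_⟩, ?_⟩
  · have h1 : σ ζ / ζ = 1 := by
      refine root_eq_one hncop ?_ ?_
      · rw [div_pow, ← map_pow, hζn, map_one, div_one]
      · have h2 : ‖σ ζ / ζ‖ ≤ 1 := by rw [norm_div, norm_apply, hζnorm, div_one]
        have h3 : rd p (σ ζ / ζ) * rd p ζ = rd p ζ := by
          rw [← rd_mul h2 hζnorm.le, div_mul_cancel₀ _ hζ0, rd_inertia hσ hζnorm.le]
        exact mul_right_cancel₀ (rd_ne_zero_of_norm_eq_one hζnorm) (by rw [h3, one_mul])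
    rwa [div_eq_one_iff_eq hζ0] at h1
  · exact ((rd_eq_iff hx hζnorm.le).mpr hζx).symm

/-- the Galois group of `L = ℚ_p^nr(π)`. -/
def Gt (π : PadicAlgCl p) : Subgroup (GalLoc p) where
  carrier := {σ | σ ∈ inertiaLoc p ∧ σ π = π}
  mul_mem' := by
    rintro σ τ ⟨hσ, hσ'⟩ ⟨hτ, hτ'⟩
    exact ⟨mul_mem hσ hτ, by rw [AlgEquiv.mul_apply, hτ', hσ']⟩
  one_mem' := ⟨one_mem _, rfl⟩
  inv_mem' := by
    rintro σ ⟨hσ, hσ'⟩
    refine ⟨inv_mem hσ, ?_⟩
    rw [← hσ', ← AlgEquiv.mul_apply, inv_mul_cancel, hσ']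
    rfl

theorem mem_Gt {π : PadicAlgCl p} {σ : GalLoc p} : σ ∈ Gt π ↔ σ ∈ inertiaLoc p ∧ σ π = π :=
  Iff.rfl

/-- the field `L` -/
def InL (π : PadicAlgCl p) (x : PadicAlgCl p) : Prop := ∀ σ ∈ Gt π, σ x = x

namespace IsPi

variable {π : PadicAlgCl p} (hπ : IsPi π)

include hπ

theorem mem_Gt_iff {σ : GalLoc p} : σ ∈ Gt π ↔ σ ∈ inertiaLoc p ∧ psi π σ = 1 := by
  rw [mem_Gt]
  refine and_congr_right fun _ => ⟨fun h => ?_, fun h => hπ.apply_eq_of_psi h⟩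
  rw [psi, h, div_self hπ.ne_zero, rd_one]

theorem norm_of_InL {x : PadicAlgCl p} (hx0 : x ≠ 0) (hx : InL π x) :
    ∃ m : ℤ, ‖x‖ = ‖π‖ ^ m := by
  obtain ⟨σ₀, hord, hgen⟩ := hπ.exists_generator
  let C := Subgroup.zpowers (hπ.psiI σ₀)
  have hcard : Nat.card C = p ^ 2 - 1 := by rw [Nat.card_zpowers, hord]
  haveI : Finite C := Nat.finite_of_card_ne_zero (by
    rw [hcard]
    have := hp.out.two_le
    have : 4 ≤ p ^ 2 := by nlinarith
    omega)
  let f : inertiaLoc p →* C := hπ.psiI.codRestrict C (fun τ => by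
    obtain ⟨n, hn⟩ := hgen τ
    refine ⟨n, ?_⟩
    ext
    change ((hπ.psiI σ₀ ^ (n : ℤ) : (ResF p)ˣ) : ResF p) = _
    rw [zpow_natCast, Units.val_pow_eq_pow_val, psiI_apply, psiI_apply, hn])
  obtain ⟨n, hn⟩ := norm_pow_card f hx0 (fun σ hσ => by
    refine hx σ ?_
    rw [hπ.mem_Gt_iff]
    refine ⟨σ.2, ?_⟩
    have := congrArg (fun z : C => ((z : (ResF p)ˣ) : ResF p)) hσ
    exact this)
  rw [hcard] at hn
  exact ⟨-n, hπ.zpow_norm_eq hn⟩

theorem zeta_InL {ζ : PadicAlgCl p} (hζ : ζ ^ p = 1) : InL π ζ := by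
  intro σ hσ
  rw [hπ.mem_Gt_iff] at hσ
  by_cases hζ1 : ζ = 1
  · rw [hζ1, map_one]
  have hprim : IsPrimitiveRoot ζ p := by
    have := (IsPrimitiveRoot.orderOf ζ)
    have h1 : orderOf ζ ∣ p := orderOf_dvd_of_pow_eq_one hζ
    rcases (Nat.dvd_prime hp.out).mp h1 with h | h
    · exact absurd (orderOf_eq_one_iff.mp h) hζ1
    · rwa [h] at this
  obtain ⟨a, _, ha⟩ := hprim.eq_pow_of_pow_eq_one (ξ := σ ζ) (by rw [← map_pow, hζ, map_one])
  have h1 := hπ.psi_cyc hprim hσ.1 ha.symm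
  rw [hσ.2, one_pow] at h1
  have h2 : ((a : ℕ) : ResF p) = ((1 : ℕ) : ResF p) := by rw [← h1]; simp
  have h3 := (CharP.natCast_eq_natCast (ResF p) p).mp h2
  rw [← ha, pow_eq_pow_mod a hζ, h3, ← pow_eq_pow_mod 1 hζ, pow_one]

end IsPi

section Kum

variable {π : PadicAlgCl p}

theorem pow_sub_one_eq_prod {ζ : PadicAlgCl p} (hζ : IsPrimitiveRoot ζ p) (y : PadicAlgCl p) :
    y ^ p - 1 = ∏ s ∈ Finset.range p, (y - ζ ^ s) := by
  have h1 := Polynomial.X_pow_sub_one_eq_prod hp.out.pos hζ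
  have h2 := congrArg (Polynomial.eval y) h1
  rw [Polynomial.eval_prod] at h2
  simp only [Polynomial.eval_sub, Polynomial.eval_pow, Polynomial.eval_X, Polynomial.eval_one,
    Polynomial.eval_C] at h2
  rw [h2]
  symm
  refine Finset.prod_bij (fun s _ => ζ ^ s) ?_ ?_ ?_ ?_
  · intro s _
    rw [Polynomial.mem_nthRootsFinset hp.out.pos, ← pow_mul, mul_comm, pow_mul, hζ.pow_eq_one,
      one_pow]
  · intro s hs t ht hst
    exact hζ.pow_inj (Finset.mem_range.mp hs) (Finset.mem_range.mp ht) hst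
  · intro w hw
    rw [Polynomial.mem_nthRootsFinset hp.out.pos] at hw
    obtain ⟨s, hs, h⟩ := hζ.eq_pow_of_pow_eq_one hw
    exact ⟨s, Finset.mem_range.mpr hs, h⟩
  · intro s _; rfl

theorem IsPi.norm_zeta_pow_le (hπ : IsPi π) {ζ : PadicAlgCl p} (hζ : IsPrimitiveRoot ζ p) (s : ℕ) :
    ‖ζ ^ s - 1‖ ≤ ‖π‖ ^ (p + 1) := by
  rw [← hπ.norm_zeta hζ]
  obtain ⟨hn, hr⟩ := rd_root_p hζ.pow_eq_one
  rw [← geom_sum_mul ζ s, norm_mul]
  calc _ ≤ 1 * ‖ζ - 1‖ := by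
        gcongr
        exact norm_sum_le' _ _ zero_le_one (fun i _ => norm_pow_le' hn.le i)
    _ = _ := one_mul _

theorem IsPi.norm_pow_sub_one_eq (hπ : IsPi π) {y : PadicAlgCl p}
    (h : ‖π‖ ^ (p + 1) < ‖y - 1‖) : ‖y ^ p - 1‖ = ‖y - 1‖ ^ p := by
  obtain ⟨ζ, hζ⟩ := exists_primitive (p := p)
  have h1 := congrArg norm (pow_sub_one_eq_prod hζ y)
  rw [norm_prod] at h1
  have heq : ∀ s ∈ Finset.range p, ‖y - ζ ^ s‖ = ‖y - 1‖ := by
    intro s hs'
    have hs := hπ.norm_zeta_pow_le hζ s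
    have : y - ζ ^ s = (y - 1) + (-(ζ ^ s - 1)) := by ring
    rw [this, IsUltrametricDist.norm_add_eq_max_of_norm_ne_norm, norm_neg, max_eq_left]
    · exact (hs.trans_lt h).le
    · rw [norm_neg]; exact (hs.trans_lt h).ne'
  rw [Finset.prod_congr rfl heq, Finset.prod_const, Finset.card_range] at h1
  exact h1

/-- `y` is a Kummer generator for `g : Gt π → 𝔽_p`, close to `1`. -/
structure Kum (ζ π : PadicAlgCl p) (g : GalLoc p → ZMod p) (i : ℕ) (y : PadicAlgCl p) :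
    Prop where
  gal : ∀ σ ∈ Gt π, σ y = ζ ^ (g σ).val * y
  near : ‖y - 1‖ ^ p ≤ ‖π‖ ^ i

theorem pow_le_pow_iff_p {a b : ℝ} (ha : 0 ≤ a) (hb : 0 ≤ b) : a ^ p ≤ b ^ p ↔ a ≤ b :=
  pow_le_pow_iff_left₀ ha hb hp.out.ne_zero

theorem pow_lt_pow_iff_p {a b : ℝ} (ha : 0 ≤ a) (hb : 0 ≤ b) : a ^ p < b ^ p ↔ a < b :=
  pow_lt_pow_iff_left₀ ha hb hp.out.ne_zero

namespace Kum

variable {ζ : PadicAlgCl p} {g g' : GalLoc p → ZMod p} {i : ℕ} {y y' : PadicAlgCl p}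

theorem norm_sub_lt (hπ : IsPi π) (h : Kum ζ π g i y) (hi : 1 ≤ i) : ‖y - 1‖ < 1 := by
  have h1 : ‖y - 1‖ ^ p < 1 ^ p := by
    rw [one_pow]
    exact h.near.trans_lt (pow_lt_one₀ hπ.norm_pos.le hπ.norm_lt_one (by omega))
  exact (pow_lt_pow_iff_p (norm_nonneg _) zero_le_one).mp h1

theorem norm_eq (hπ : IsPi π) (h : Kum ζ π g i y) (hi : 1 ≤ i) : ‖y‖ = 1 := by
  have h1 := h.norm_sub_lt hπ hi
  have : y = (y - 1) + 1 := by ring
  rw [this, IsUltrametricDist.norm_add_eq_max_of_norm_ne_norm, norm_one, max_eq_right h1.le]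
  rw [norm_one]; exact h1.ne

theorem ne_zero (hπ : IsPi π) (h : Kum ζ π g i y) (hi : 1 ≤ i) : y ≠ 0 :=
  norm_pos_iff.mp (by rw [h.norm_eq hπ hi]; exact one_pos)

theorem rd_eq (hπ : IsPi π) (h : Kum ζ π g i y) (hi : 1 ≤ i) : rd p y = 1 := by
  rw [← rd_one (p := p), rd_eq_iff (h.norm_eq hπ hi).le (by rw [norm_one])]
  exact h.norm_sub_lt hπ hi

theorem congr (h : Kum ζ π g i y) (hg : ∀ σ ∈ Gt π, g σ = g' σ) : Kum ζ π g' i y :=
  ⟨fun σ hσ => by rw [h.gal σ hσ, hg σ hσ], h.near⟩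

theorem mono (hπ : IsPi π) (h : Kum ζ π g i y) {j : ℕ} (hj : j ≤ i) : Kum ζ π g j y :=
  ⟨h.gal, h.near.trans (pow_le_pow_of_le_one hπ.norm_pos.le hπ.norm_lt_one.le hj)⟩

theorem norm_pow_le_of_max {a b c : ℝ} (hc : 0 ≤ c) {r : ℝ}
    (h : c ≤ max a b) (h1 : a ^ p ≤ r) (h2 : b ^ p ≤ r) : c ^ p ≤ r := by
  rcases le_max_iff.mp h with h | h
  · exact (pow_le_pow_left₀ hc h p).trans h1
  · exact (pow_le_pow_left₀ hc h p).trans h2

theorem mul (hπ : IsPi π) (hζ : ζ ^ p = 1) (h : Kum ζ π g i y) (h' : Kum ζ π g' i y')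
    (hi : 1 ≤ i) : Kum ζ π (fun σ => g σ + g' σ) i (y * y') := by
  refine ⟨fun σ hσ => ?_, ?_⟩
  · rw [map_mul, h.gal σ hσ, h'.gal σ hσ, pow_zmod_add hζ]; ring
  · have h1 : y * y' - 1 = (y - 1) * y' + (y' - 1) := by ring
    have h2 : ‖y * y' - 1‖ ≤ max ‖y - 1‖ ‖y' - 1‖ := by
      rw [h1]
      refine (IsUltrametricDist.norm_add_le_max _ _).trans ?_
      rw [norm_mul, h'.norm_eq hπ hi, mul_one]
    exact norm_pow_le_of_max (norm_nonneg _) h2 h.near h'.near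

theorem inv (hπ : IsPi π) (hζ : ζ ^ p = 1) (h : Kum ζ π g i y) (hi : 1 ≤ i) :
    Kum ζ π (fun σ => - g σ) i y⁻¹ := by
  have hy0 := h.ne_zero hπ hi
  refine ⟨fun σ hσ => ?_, ?_⟩
  · have h1 : ζ ^ (-g σ).val * ζ ^ (g σ).val = 1 := by
      rw [← pow_zmod_add hζ, neg_add_cancel, ZMod.val_zero, pow_zero]
    rw [map_inv₀, h.gal σ hσ, mul_inv]
    congr 1
    exact (eq_inv_of_mul_eq_one_left h1).symm
  · have h1 : y⁻¹ - 1 = -(y - 1) / y := by field_simp; ring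
    rw [h1, norm_div, h.norm_eq hπ hi, div_one, norm_neg]
    exact h.near

theorem one (hπ : IsPi π) : Kum ζ π (fun _ => 0) i 1 := by
  refine ⟨fun σ _ => by simp, ?_⟩
  rw [sub_self, norm_zero, zero_pow hp.out.ne_zero]
  exact pow_nonneg hπ.norm_pos.le _

theorem pow_InL (hζ : ζ ^ p = 1) (h : Kum ζ π g i y) : InL π (y ^ p) := by
  intro σ hσ
  rw [map_pow, h.gal σ hσ, mul_pow, ← pow_mul, mul_comm (g σ).val p, pow_mul, hζ, one_pow, one_mul]

theorem norm_cases (hπ : IsPi π) (hζ : ζ ^ p = 1) (h : Kum ζ π g i y) :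
    ‖y - 1‖ ≤ ‖π‖ ^ (p + 1) ∨
      (‖π‖ ^ (p + 1) < ‖y - 1‖ ∧ ∃ m : ℤ, ‖y - 1‖ ^ p = ‖π‖ ^ m) := by
  rcases le_or_gt ‖y - 1‖ (‖π‖ ^ (p + 1)) with h1 | h1
  · exact Or.inl h1
  · refine Or.inr ⟨h1, ?_⟩
    rw [← hπ.norm_pow_sub_one_eq h1]
    refine hπ.norm_of_InL ?_ ?_
    · intro h0
      have := hπ.norm_pow_sub_one_eq h1
      rw [h0, norm_zero] at this
      have h2 : 0 < ‖y - 1‖ ^ p := pow_pos (lt_trans (pow_pos hπ.norm_pos _) h1) _
      exact h2.ne this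
    · intro σ hσ
      rw [map_sub, map_one, h.pow_InL hζ σ hσ]

theorem discrete (hπ : IsPi π) (hζ : ζ ^ p = 1) (h : Kum ζ π g i y) (hi : i < p * (p + 1))
    (hlt : ‖y - 1‖ ^ p < ‖π‖ ^ i) : Kum ζ π g (i + 1) y := by
  refine ⟨h.gal, ?_⟩
  rcases h.norm_cases hπ hζ with h1 | ⟨h1, m, hm⟩
  · calc ‖y - 1‖ ^ p ≤ (‖π‖ ^ (p + 1)) ^ p := pow_le_pow_left₀ (norm_nonneg _) h1 p
      _ = ‖π‖ ^ (p * (p + 1)) := by rw [← pow_mul, mul_comm]
      _ ≤ ‖π‖ ^ (i + 1) := pow_le_pow_of_le_one hπ.norm_pos.le hπ.norm_lt_one.le hi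
  · rw [hm] at hlt ⊢
    rw [← zpow_natCast] at hlt ⊢
    have h2 := (zpow_lt_zpow_iff_right_of_lt_one₀ hπ.norm_pos hπ.norm_lt_one).mp hlt
    apply zpow_le_zpow_right_of_le_one₀ hπ.norm_pos hπ.norm_lt_one.le
    push_cast
    omega

theorem step (hπ : IsPi π) (hζ : ζ ^ p = 1) (h : Kum ζ π g i y) (hi : i < p * (p + 1))
    (hi1 : 1 ≤ i) (hdvd : p ∣ i) : ∃ y', Kum ζ π g (i + 1) y' := by
  obtain ⟨j, rfl⟩ := hdvd
  have hj : 1 ≤ j := by
    rcases Nat.eq_zero_or_pos j with rfl | h0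
    · omega
    · exact h0
  have hle : ‖(y - 1) / π ^ j‖ ≤ 1 := by
    rw [norm_div, norm_pow]
    apply div_le_one_of_le₀ _ (by positivity)
    rw [← pow_le_pow_iff_p (p := p) (norm_nonneg _) (by positivity), ← pow_mul, mul_comm j p]
    exact h.near
  obtain ⟨w, hw, hwr⟩ := exists_Wring_lift (rd p ((y - 1) / π ^ j))
  rw [mem_Wring] at hw
  have hπj : π ^ j ≠ 0 := pow_ne_zero _ hπ.ne_zero
  set z : PadicAlgCl p := 1 + w * π ^ j with hz
  have hzn : ‖z - 1‖ ≤ ‖π‖ ^ j := by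
    rw [hz, add_sub_cancel_left, norm_mul, norm_pow]
    calc _ ≤ 1 * ‖π‖ ^ j := by gcongr; exact hw.1
      _ = _ := one_mul _
  have hzlt : ‖z - 1‖ < 1 :=
    hzn.trans_lt (pow_lt_one₀ hπ.norm_pos.le hπ.norm_lt_one (by omega))
  have hz1 : ‖z‖ = 1 := by
    have : z = (z - 1) + 1 := by ring
    rw [this, IsUltrametricDist.norm_add_eq_max_of_norm_ne_norm, norm_one, max_eq_right hzlt.le]
    rw [norm_one]; exact hzlt.ne
  have hz0 : z ≠ 0 := norm_pos_iff.mp (by rw [hz1]; exact one_pos)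
  have hzL : InL π z := by
    intro σ hσ
    rw [hz, map_add, map_one, map_mul, map_pow, hw.2 σ hσ.1, hσ.2]
  have hdiff : ‖y / z - 1‖ < ‖π‖ ^ j := by
    have h1 : y / z - 1 = ((y - 1) / π ^ j - w) * π ^ j / z := by
      rw [hz]; rw [hz] at hz0; field_simp; ring
    rw [h1, norm_div, hz1, div_one, norm_mul, norm_pow]
    have h2 : ‖(y - 1) / π ^ j - w‖ < 1 := (rd_eq_iff hle hw.1).mp hwr.symm
    calc _ < 1 * ‖π‖ ^ j := by
          apply mul_lt_mul_of_pos_right h2 (pow_pos hπ.norm_pos _)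
      _ = _ := one_mul _
  have hK : Kum ζ π g (p * j) (y / z) := by
    refine ⟨fun σ hσ => ?_, ?_⟩
    · rw [map_div₀, hzL σ hσ, h.gal σ hσ]; ring
    · rw [mul_comm, pow_mul, pow_le_pow_iff_p (norm_nonneg _) (by positivity)]
      exact hdiff.le
  refine ⟨y / z, hK.discrete hπ hζ hi ?_⟩
  rw [mul_comm p j, pow_mul, pow_lt_pow_iff_p (norm_nonneg _) (by positivity)]
  exact hdiff

theorem eq_zero (hπ : IsPi π) (hζ : IsPrimitiveRoot ζ p) (h : Kum ζ π g (p * (p + 1)) y) :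
    ∀ σ ∈ Gt π, g σ = 0 := by
  intro σ hσ
  have hppos : 1 ≤ p * (p + 1) := Nat.mul_pos hp.out.pos (Nat.succ_pos _)
  have hζ1 : ζ - 1 ≠ 0 := by
    rw [sub_ne_zero]; exact hζ.ne_one hp.out.one_lt
  have hn := hπ.norm_zeta hζ
  have hle : ‖(y - 1) / (ζ - 1)‖ ≤ 1 := by
    rw [norm_div, hn]
    apply div_le_one_of_le₀ _ (by positivity)
    rw [← pow_le_pow_iff_p (p := p) (norm_nonneg _) (by positivity), ← pow_mul, mul_comm (p + 1) p]
    exact h.near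
  have hσζ : σ ζ = ζ := hπ.zeta_InL hζ.pow_eq_one σ hσ
  set s := ∑ k ∈ Finset.range (g σ).val, ζ ^ k with hs
  obtain ⟨hzn, hzr⟩ := rd_root_p hζ.pow_eq_one
  have hsn : ‖s‖ ≤ 1 := norm_sum_le' _ _ zero_le_one (fun i _ => norm_pow_le' hzn.le i)
  have hsr : rd p s = ((g σ).val : ResF p) := by
    rw [hs, rd_sum _ _ (fun i _ => norm_pow_le' hzn.le i)]
    rw [Finset.sum_congr rfl (fun i _ => by rw [rd_pow hzn.le, hzr, one_pow] :
      ∀ i ∈ Finset.range (g σ).val, rd p (ζ ^ i) = 1)]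
    simp
  have h1 : σ ((y - 1) / (ζ - 1)) = (y - 1) / (ζ - 1) + s * y := by
    rw [map_div₀, map_sub, map_sub, map_one, hσζ, h.gal σ hσ]
    have h2 : ζ ^ (g σ).val = s * (ζ - 1) + 1 := by rw [hs, geom_sum_mul]; ring
    rw [h2]; field_simp; ring
  have h2 := congrArg (rd p) h1
  rw [rd_inertia hσ.1 hle, rd_add hle (norm_mul_le' hsn (h.norm_eq hπ hppos).le),
    rd_mul hsn (h.norm_eq hπ hppos).le, h.rd_eq hπ hppos, mul_one, hsr] at h2
  have h3 : ((g σ).val : ResF p) = 0 := by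
    have := h2.symm
    rwa [add_eq_left] at this
  have h4 := (CharP.cast_eq_zero_iff (ResF p) p _).mp h3
  have h5 : (g σ).val = 0 := Nat.eq_zero_of_dvd_of_lt h4 (ZMod.val_lt _)
  exact (ZMod.val_eq_zero _).mp h5

end Kum

end Kum

end Fermat.Agent.Flat
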