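import Fermat.Agent.Flat.Index
import Fermat.Agent.CFT.Kummer
import Fermat.Agent.CFT.GalInst
import Fermat.Agent.CFT.Loc.LocLevels

/-!
# Leading coefficients of Kummer generators
-/

set_option autoImplicit false

open GaloisRep Fermat.Agent.CFT.Loc Fermat.Agent.CFT

namespace Fermat.Agent.Flat

variable {p : ℕ} [hp : Fact p.Prime]

/-- leading coefficient -/
noncomputable def lc (π : PadicAlgCl p) (i : ℕ) (y : PadicAlgCl p) : ResF p :=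
  rd p ((y - 1) ^ p / π ^ i)

variable {π ζ : PadicAlgCl p} {g g' : GalLoc p → ZMod p} {i : ℕ} {y y' : PadicAlgCl p}

theorem Kum.lc_norm (_hπ : IsPi π) (h : Kum ζ π g i y) : ‖(y - 1) ^ p / π ^ i‖ ≤ 1 := by
  rw [norm_div, norm_pow, norm_pow]
  exact div_le_one_of_le₀ h.near (pow_nonneg (norm_nonneg _) _)

theorem Kum.lc_eq_zero_iff (hπ : IsPi π) (h : Kum ζ π g i y) :
    lc π i y = 0 ↔ ‖y - 1‖ ^ p < ‖π‖ ^ i := by
  rw [lc, rd_eq_zero_iff (h.lc_norm hπ), norm_div, norm_pow, norm_pow,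
    div_lt_one (pow_pos hπ.norm_pos _)]

theorem Kum.lc_mul (hπ : IsPi π) (h : Kum ζ π g i y) (h' : Kum ζ π g' i y') (hi : 1 ≤ i) :
    lc π i (y * y') = lc π i y + lc π i y' := by
  obtain ⟨ϖ, hϖ⟩ := IsAlgClosed.exists_pow_nat_eq π hp.out.pos
  have hϖ0 : ϖ ≠ 0 := by
    rintro rfl
    rw [zero_pow hp.out.ne_zero] at hϖ
    exact hπ.ne_zero hϖ.symm
  have hnorm : ‖ϖ‖ ^ p = ‖π‖ := by rw [← norm_pow, hϖ]
  have hϖpos : 0 < ‖ϖ‖ := norm_pos_iff.mpr hϖ0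
  have key : ∀ {g : GalLoc p → ZMod p} {y : PadicAlgCl p}, Kum ζ π g i y →
      ‖(y - 1) / ϖ ^ i‖ ≤ 1 := by
    intro g y h
    rw [norm_div, norm_pow]
    apply div_le_one_of_le₀ _ (by positivity)
    rw [← pow_le_pow_iff_p (p := p) (norm_nonneg _) (by positivity), ← pow_mul, mul_comm i p,
      pow_mul, hnorm]
    exact h.near
  have hlc : ∀ y : PadicAlgCl p, (y - 1) ^ p / π ^ i = ((y - 1) / ϖ ^ i) ^ p := by
    intro y
    rw [div_pow, ← pow_mul, mul_comm i p, pow_mul, hϖ]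
  have e1 : (y * y' - 1) / ϖ ^ i = ((y - 1) / ϖ ^ i) * y' + (y' - 1) / ϖ ^ i := by
    field_simp; ring
  have e2 : ‖((y - 1) / ϖ ^ i) * y'‖ ≤ 1 := norm_mul_le' (key h) (h'.norm_eq hπ hi).le
  rw [lc, lc, lc, hlc, hlc, hlc, e1, rd_pow (norm_add_le' e2 (key h')), rd_pow (key h),
    rd_pow (key h'), rd_add e2 (key h'), rd_mul (key h) (h'.norm_eq hπ hi).le, h'.rd_eq hπ hi,
    mul_one, add_pow_char]

theorem lc_one : lc π i (1 : PadicAlgCl p) = 0 := by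
  rw [lc, sub_self, zero_pow hp.out.ne_zero, zero_div, rd_zero]

theorem Kum.lc_inv (hπ : IsPi π) (hζ : ζ ^ p = 1) (h : Kum ζ π g i y) (hi : 1 ≤ i) :
    lc π i y⁻¹ = - lc π i y := by
  have h1 := Kum.lc_mul hπ h (h.inv hπ hζ hi) hi
  rw [mul_inv_cancel₀ (h.ne_zero hπ hi), lc_one] at h1
  exact (neg_eq_of_add_eq_zero_right h1.symm).symm

theorem Kum.lc_zero_of_zero (hπ : IsPi π) (h : Kum ζ π g i y) (hg : ∀ σ ∈ Gt π, g σ = 0)
    (hdvd : ¬ p ∣ i) : lc π i y = 0 := by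
  rw [h.lc_eq_zero_iff hπ]
  have hL : InL π (y - 1) := by
    intro σ hσ
    rw [map_sub, map_one, h.gal σ hσ, hg σ hσ, ZMod.val_zero, pow_zero, one_mul]
  by_cases hy : y - 1 = 0
  · rw [hy, norm_zero, zero_pow hp.out.ne_zero]; exact pow_pos hπ.norm_pos _
  obtain ⟨m, hm⟩ := hπ.norm_of_InL hy hL
  refine lt_of_le_of_ne h.near ?_
  rw [hm]
  intro heq
  rw [← zpow_natCast, ← zpow_natCast, ← zpow_mul] at heq
  have h1 := zpow_right_injective₀ hπ.norm_pos hπ.norm_lt_one.ne heq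
  apply hdvd
  have : (p : ℤ) ∣ (i : ℤ) := ⟨m, by rw [← h1]; ring⟩
  exact_mod_cast this

theorem Kum.lc_unique (hπ : IsPi π) (hζ : ζ ^ p = 1) (h : Kum ζ π g i y) (h' : Kum ζ π g' i y')
    (hgg' : ∀ σ ∈ Gt π, g σ = g' σ) (hi : 1 ≤ i) (hdvd : ¬ p ∣ i) : lc π i y = lc π i y' := by
  have h1 := h.mul hπ hζ (h'.inv hπ hζ hi) hi
  have h2 := h1.lc_zero_of_zero hπ (fun σ hσ => by rw [hgg' σ hσ, add_neg_cancel]) hdvd
  rw [Kum.lc_mul hπ h (h'.inv hπ hζ hi) hi, h'.lc_inv hπ hζ hi] at h2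
  exact add_neg_eq_zero.mp h2

/-! ### conjugation -/

theorem IsPi.root_mem_Wring (hπ : IsPi π) (τ : GalLoc p) {σ : GalLoc p} (hσ : σ ∈ inertiaLoc p) :
    σ (τ π / π) = τ π / π := by
  set η := τ π / π with hη
  have hη1 : ‖η‖ = 1 := hπ.norm_root τ
  have hη0 : η ≠ 0 := norm_pos_iff.mp (by rw [hη1]; exact one_pos)
  have h1 : σ η / η = 1 := by
    refine root_eq_one sq_sub_one_coprime (n := p ^ 2 - 1) ?_ ?_
    · rw [div_pow, ← map_pow, hη, hπ.root, map_one, div_one]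
    · have h2 : ‖σ η / η‖ ≤ 1 := by rw [norm_div, norm_apply, hη1, div_one]
      have h3 : rd p (σ η / η) * rd p η = rd p η := by
        rw [← rd_mul h2 hη1.le, div_mul_cancel₀ _ hη0, rd_inertia hσ hη1.le]
      exact mul_right_cancel₀ (rd_ne_zero_of_norm_eq_one hη1) (by rw [h3, one_mul])
  rwa [div_eq_one_iff_eq hη0] at h1

theorem IsPi.conj_mem (hπ : IsPi π) (τ : GalLoc p) {σ : GalLoc p} (hσ : σ ∈ Gt π) :
    τ⁻¹ * σ * τ ∈ Gt π := by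
  refine ⟨?_, ?_⟩
  · have := (normal_inertiaLoc (l := p)).conj_mem σ hσ.1 τ⁻¹
    simpa using this
  · have h1 : τ π = (τ π / π) * π := (div_mul_cancel₀ _ hπ.ne_zero).symm
    have h2 : σ (τ π) = τ π := by
      conv_lhs => rw [h1]
      rw [map_mul, hπ.root_mem_Wring τ hσ.1, hσ.2, ← h1]
    rw [AlgEquiv.mul_apply, AlgEquiv.mul_apply, h2, ← AlgEquiv.mul_apply, inv_mul_cancel]
    rfl

theorem IsPi.conj_mem' (hπ : IsPi π) (τ : GalLoc p) {σ : GalLoc p} (hσ : σ ∈ Gt π) :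
    τ * σ * τ⁻¹ ∈ Gt π := by
  have := hπ.conj_mem τ⁻¹ hσ
  rwa [inv_inv] at this

theorem Kum.conj (hπ : IsPi π) (hζ : ζ ^ p = 1) (h : Kum ζ π g i y) (τ : GalLoc p) {a : ZMod p}
    (ha : τ ζ = ζ ^ a.val) : Kum ζ π (fun σ => a * g (τ⁻¹ * σ * τ)) i (τ y) := by
  refine ⟨fun σ hσ => ?_, ?_⟩
  · have h1 := h.gal _ (hπ.conj_mem τ hσ)
    have h2 : σ (τ y) = τ ((τ⁻¹ * σ * τ) y) := by
      rw [← AlgEquiv.mul_apply, ← AlgEquiv.mul_apply]
      congr 1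
      group
    have h3 := pow_zmod_mul hζ a.val (g (τ⁻¹ * σ * τ))
    rw [ZMod.natCast_zmod_val] at h3
    rw [h2, h1, map_mul, map_pow, ha, h3]
  · have : τ y - 1 = τ (y - 1) := by rw [map_sub, map_one]
    rw [this, norm_apply]
    exact h.near

theorem Kum.lc_conj (hπ : IsPi π) (h : Kum ζ π g i y) (τ : GalLoc p) :
    lc π i (τ y) = resAct p τ (lc π i y) * psi π τ ^ i := by
  have h1 : (τ y - 1) ^ p / π ^ i = τ ((y - 1) ^ p / π ^ i) * (τ π / π) ^ i := by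
    have hσπ : τ π ≠ 0 := fun h => hπ.ne_zero ((map_eq_zero_iff _ (AlgEquiv.injective _)).mp h)
    rw [map_div₀, map_pow, map_pow, map_sub, map_one, div_pow]
    have := hπ.ne_zero
    field_simp
  rw [lc, h1, rd_mul (by rw [norm_apply]; exact h.lc_norm hπ) (norm_pow_le' (hπ.norm_root τ).le i),
    rd_gal τ (h.lc_norm hπ), rd_pow (hπ.norm_root τ).le]
  rfl

/-! ### existence -/

/-- Kummer theory over `L` -/
theorem exists_raw (hπ : IsPi π) (hζ : IsPrimitiveRoot ζ p)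
    (hlc : ((locLevels p).restrict (Gt π)).LC (fun σ : Gt π => g (σ : GalLoc p)))
    (hmul : ∀ σ ∈ Gt π, ∀ τ ∈ Gt π, g (σ * τ) = g σ + g τ) :
    ∃ y : PadicAlgCl p, y ≠ 0 ∧ ∀ σ ∈ Gt π, σ y = ζ ^ (g σ).val * y := by
  have hG : IsGal ((locLevels p).restrict (Gt π)) (PadicAlgCl p) := by
    rw [locLevels_eq]
    exact isGal_galLevels.restrict (Gt π)
  haveI : NeZero p := ⟨hp.out.ne_zero⟩
  obtain ⟨y, hy0, hy, hκ⟩ := exists_kummer_eq (p := p) hζ hG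
    (fun σ : Gt π => hπ.zeta_InL hζ.pow_eq_one (σ : GalLoc p) σ.2)
    (κ := fun σ : Gt π => g (σ : GalLoc p)) hlc (fun σ τ => hmul _ σ.2 _ τ.2)
  refine ⟨y, hy0, fun σ hσ => ?_⟩
  have h1 := congrFun hκ ⟨σ, hσ⟩
  have h2 := kummer_spec hζ hy0 (hy ⟨σ, hσ⟩)
  rw [← h1] at h2
  exact h2

theorem raw_norm (hπ : IsPi π) (hζ : ζ ^ p = 1) (hy0 : y ≠ 0)
    (hy : ∀ σ ∈ Gt π, σ y = ζ ^ (g σ).val * y) : ∃ m : ℤ, ‖y‖ ^ p = ‖π‖ ^ m := by
  rw [← norm_pow]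
  refine hπ.norm_of_InL (pow_ne_zero _ hy0) (fun σ hσ => ?_)
  rw [map_pow, hy σ hσ, mul_pow, ← pow_mul, mul_comm (g σ).val p, pow_mul, hζ, one_pow, one_mul]

theorem exists_one (hπ : IsPi π) (hζ : ζ ^ p = 1)
    (hy : ∀ σ ∈ Gt π, σ y = ζ ^ (g σ).val * y) {n : ℤ} (hn : ‖y‖ ^ p = ‖π‖ ^ ((p : ℤ) * n)) :
    ∃ y', Kum ζ π g 1 y' := by
  have h1 : ‖y‖ = ‖π‖ ^ n := by
    rw [mul_comm, zpow_mul, zpow_natCast] at hn
    exact (pow_left_inj₀ (norm_nonneg _) (zpow_nonneg hπ.norm_pos.le _) hp.out.ne_zero).mp hn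
  set u := y / π ^ n with hu
  have hπn : π ^ n ≠ 0 := zpow_ne_zero _ hπ.ne_zero
  have hu1 : ‖u‖ = 1 := by
    rw [hu, norm_div, norm_zpow, h1]
    exact div_self (zpow_ne_zero _ hπ.norm_pos.ne')
  obtain ⟨w, hw, hwr⟩ := exists_Wring_lift (rd p u)
  rw [mem_Wring] at hw
  have hwr0 : rd p w ≠ 0 := by rw [hwr]; exact rd_ne_zero_of_norm_eq_one hu1
  have hw1 : ‖w‖ = 1 := norm_eq_one_of_rd_ne_zero hwr0
  have hw0 : w ≠ 0 := norm_pos_iff.mp (by rw [hw1]; exact one_pos)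
  have h2 : ‖u / w - 1‖ < 1 := by
    have e1 : u / w - 1 = (u - w) / w := by field_simp
    rw [e1, norm_div, hw1, div_one]
    exact (rd_eq_iff hu1.le hw1.le).mp hwr.symm
  have hK : Kum ζ π g 0 (u / w) := by
    refine ⟨fun σ hσ => ?_, ?_⟩
    · rw [map_div₀, hu, map_div₀, map_zpow₀, hσ.2, hw.2 σ hσ.1, hy σ hσ]
      ring
    · rw [pow_zero]
      exact pow_le_one₀ (norm_nonneg _) h2.le
  refine ⟨u / w, hK.discrete hπ hζ (Nat.mul_pos hp.out.pos (Nat.succ_pos _)) ?_⟩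
  rw [pow_zero]
  exact pow_lt_one₀ (norm_nonneg _) h2 hp.out.ne_zero

end Fermat.Agent.Flat
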