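import Fermat.Agent.Flat.Local
import Fermat.Agent.CFT.Loc.Unram

/-!
# Leading terms of functions in a local order
-/

set_option autoImplicit false

open GaloisRep Fermat.Agent.CFT.Loc

namespace Fermat.Agent.Flat

variable {p : ℕ} [hp : Fact p.Prime]

/-! ### reduction map -/

variable (p) in
open Classical in
/-- reduction (junk value `0` outside the unit ball) -/
noncomputable def rd (x : PadicAlgCl p) : ResF p := if h : ‖x‖ ≤ 1 then red p x h else 0

theorem rd_of_le {x : PadicAlgCl p} (h : ‖x‖ ≤ 1) : rd p x = red p x h := dif_pos h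

theorem rd_eq_iff {x y : PadicAlgCl p} (hx : ‖x‖ ≤ 1) (hy : ‖y‖ ≤ 1) :
    rd p x = rd p y ↔ ‖x - y‖ < 1 := by
  rw [rd_of_le hx, rd_of_le hy, red_eq_red_iff]

@[simp] theorem rd_zero : rd p 0 = 0 := by
  have h : ‖(0 : PadicAlgCl p)‖ ≤ 1 := by rw [norm_zero]; exact zero_le_one
  rw [rd_of_le h]
  exact map_zero (IsLocalRing.residue (padicIntegers p))

@[simp] theorem rd_one : rd p 1 = 1 := by
  have h : ‖(1 : PadicAlgCl p)‖ ≤ 1 := by rw [norm_one]
  rw [rd_of_le h]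
  exact map_one (IsLocalRing.residue (padicIntegers p))

theorem norm_add_le' {x y : PadicAlgCl p} {r : ℝ} (hx : ‖x‖ ≤ r) (hy : ‖y‖ ≤ r) : ‖x + y‖ ≤ r :=
  (IsUltrametricDist.norm_add_le_max _ _).trans (max_le hx hy)

theorem norm_add_lt' {x y : PadicAlgCl p} {r : ℝ} (hx : ‖x‖ < r) (hy : ‖y‖ < r) : ‖x + y‖ < r :=
  (IsUltrametricDist.norm_add_le_max _ _).trans_lt (max_lt hx hy)

theorem norm_sub_le' {x y : PadicAlgCl p} {r : ℝ} (hx : ‖x‖ ≤ r) (hy : ‖y‖ ≤ r) : ‖x - y‖ ≤ r := by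
  rw [sub_eq_add_neg]; exact norm_add_le' hx (by rwa [norm_neg])

theorem norm_sub_lt' {x y : PadicAlgCl p} {r : ℝ} (hx : ‖x‖ < r) (hy : ‖y‖ < r) : ‖x - y‖ < r := by
  rw [sub_eq_add_neg]; exact norm_add_lt' hx (by rwa [norm_neg])

theorem rd_add {x y : PadicAlgCl p} (hx : ‖x‖ ≤ 1) (hy : ‖y‖ ≤ 1) :
    rd p (x + y) = rd p x + rd p y := by
  rw [rd_of_le hx, rd_of_le hy, rd_of_le (norm_add_le' hx hy)]
  exact map_add (IsLocalRing.residue (padicIntegers p)) ⟨x, hx⟩ ⟨y, hy⟩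

theorem rd_neg {x : PadicAlgCl p} (hx : ‖x‖ ≤ 1) : rd p (-x) = -rd p x := by
  rw [rd_of_le hx, rd_of_le (by rwa [norm_neg])]
  exact map_neg (IsLocalRing.residue (padicIntegers p)) ⟨x, hx⟩

theorem rd_sub {x y : PadicAlgCl p} (hx : ‖x‖ ≤ 1) (hy : ‖y‖ ≤ 1) :
    rd p (x - y) = rd p x - rd p y := by
  rw [sub_eq_add_neg, rd_add hx (by rwa [norm_neg]), rd_neg hy, sub_eq_add_neg]

theorem norm_mul_le' {x y : PadicAlgCl p} (hx : ‖x‖ ≤ 1) (hy : ‖y‖ ≤ 1) : ‖x * y‖ ≤ 1 := by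
  rw [norm_mul]; exact mul_le_one₀ hx (norm_nonneg _) hy

theorem rd_mul {x y : PadicAlgCl p} (hx : ‖x‖ ≤ 1) (hy : ‖y‖ ≤ 1) :
    rd p (x * y) = rd p x * rd p y := by
  rw [rd_of_le hx, rd_of_le hy, rd_of_le (norm_mul_le' hx hy)]
  exact map_mul (IsLocalRing.residue (padicIntegers p)) ⟨x, hx⟩ ⟨y, hy⟩

theorem norm_pow_le' {x : PadicAlgCl p} (hx : ‖x‖ ≤ 1) (n : ℕ) : ‖x ^ n‖ ≤ 1 := by
  rw [norm_pow]; exact pow_le_one₀ (norm_nonneg _) hx

theorem rd_pow {x : PadicAlgCl p} (hx : ‖x‖ ≤ 1) (n : ℕ) : rd p (x ^ n) = rd p x ^ n := by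
  induction n with
  | zero => simp
  | succ n ih => rw [pow_succ, rd_mul (norm_pow_le' hx n) hx, ih, pow_succ]

theorem rd_eq_zero_iff {x : PadicAlgCl p} (hx : ‖x‖ ≤ 1) : rd p x = 0 ↔ ‖x‖ < 1 := by
  have h : ‖(0 : PadicAlgCl p)‖ ≤ 1 := by rw [norm_zero]; exact zero_le_one
  rw [← rd_zero (p := p), rd_eq_iff hx h, sub_zero]

theorem rd_eq_zero_of_lt {x : PadicAlgCl p} (hx : ‖x‖ < 1) : rd p x = 0 :=
  (rd_eq_zero_iff hx.le).mpr hx

theorem rd_ne_zero_of_norm_eq_one {x : PadicAlgCl p} (hx : ‖x‖ = 1) : rd p x ≠ 0 := by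
  intro h
  have := (rd_eq_zero_iff hx.le).mp h
  rw [hx] at this; exact lt_irrefl _ this

theorem norm_eq_one_of_rd_ne_zero {x : PadicAlgCl p} (hx : rd p x ≠ 0) : ‖x‖ = 1 := by
  have hle : ‖x‖ ≤ 1 := by
    by_contra hcon
    exact hx (dif_neg hcon)
  rcases hle.lt_or_eq with h | h
  · exact absurd (rd_eq_zero_of_lt h) hx
  · exact h

theorem rd_sum {ι : Type*} (s : Finset ι) (f : ι → PadicAlgCl p) (hf : ∀ i ∈ s, ‖f i‖ ≤ 1) :
    rd p (∑ i ∈ s, f i) = ∑ i ∈ s, rd p (f i) := by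
  classical
  induction s using Finset.induction_on with
  | empty => simp
  | insert a s ha ih =>
    rw [Finset.sum_insert ha, Finset.sum_insert ha,
      rd_add (hf a (Finset.mem_insert_self _ _)) ?_, ih (fun i hi => hf i (Finset.mem_insert_of_mem hi))]
    refine Finset.sum_induction _ (fun x => ‖x‖ ≤ 1) (fun a b ha hb => norm_add_le' ha hb)
      (by rw [norm_zero]; exact zero_le_one) (fun i hi => hf i (Finset.mem_insert_of_mem hi))

theorem norm_sum_le' {ι : Type*} (s : Finset ι) (f : ι → PadicAlgCl p) {r : ℝ} (hr : 0 ≤ r)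
    (hf : ∀ i ∈ s, ‖f i‖ ≤ r) : ‖∑ i ∈ s, f i‖ ≤ r :=
  Finset.sum_induction _ (fun x => ‖x‖ ≤ r) (fun _ _ ha hb => norm_add_le' ha hb)
      (by rw [norm_zero]; exact hr) hf

theorem rd_surjective (r : ResF p) : ∃ x : PadicAlgCl p, ‖x‖ ≤ 1 ∧ rd p x = r := by
  obtain ⟨x, hx, h⟩ := exists_red_eq r
  exact ⟨x, hx, by rw [rd_of_le hx, h]⟩

theorem rd_gal (g : GalLoc p) {x : PadicAlgCl p} (hx : ‖x‖ ≤ 1) :
    rd p (g x) = resAct p g (rd p x) := by
  rw [rd_of_le hx, rd_of_le (by rw [norm_apply]; exact hx)]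
  exact (resAct_red g _ hx).symm

theorem rd_inertia {σ : GalLoc p} (hσ : σ ∈ inertiaLoc p) {x : PadicAlgCl p} (hx : ‖x‖ ≤ 1) :
    rd p (σ x) = rd p x := by
  rw [rd_gal σ hx, mem_inertiaLoc_iff.mp hσ]

theorem norm_natCast_p : ‖(p : PadicAlgCl p)‖ = (p : ℝ)⁻¹ := by
  have := PadicAlgCl.norm_extends p (p : ℚ_[p])
  rw [Padic.norm_p] at this
  rw [← this]
  congr 1

theorem norm_natCast_le (n : ℕ) : ‖(n : PadicAlgCl p)‖ ≤ 1 := by
  induction n with
  | zero => rw [Nat.cast_zero, norm_zero]; exact zero_le_one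
  | succ n ih => rw [Nat.cast_succ]; exact norm_add_le' ih (by rw [norm_one])

theorem rd_natCast (n : ℕ) : rd p (n : PadicAlgCl p) = n := by
  induction n with
  | zero => simp
  | succ n ih => rw [Nat.cast_succ, rd_add (norm_natCast_le n) (by rw [norm_one]), ih, rd_one,
      Nat.cast_succ]

/-! ### orders -/

variable {M : Type*} [AddCommGroup M] {ρ : inertiaLoc p →* AddMonoid.End M}
  {O : Subalgebra (Wring p) (M → PadicAlgCl p)}

theorem norm_le_one_of_isIntegral {x : PadicAlgCl p} (hx : IsIntegral (Wring p) x) : ‖x‖ ≤ 1 := by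
  obtain ⟨P, hP, hPx⟩ := hx
  by_contra hcon
  push Not at hcon
  have h1 := hP.as_sum
  rw [h1, Polynomial.eval₂_add, Polynomial.eval₂_pow, Polynomial.eval₂_X,
    Polynomial.eval₂_finsetSum] at hPx
  have h2 : x ^ P.natDegree = -∑ i ∈ Finset.range P.natDegree,
      Polynomial.eval₂ (algebraMap (Wring p) (PadicAlgCl p)) x
        (Polynomial.C (P.coeff i) * Polynomial.X ^ i) := eq_neg_of_add_eq_zero_left hPx
  rcases Nat.eq_zero_or_pos P.natDegree with h0 | h0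
  · rw [h0] at h2
    simp at h2
  have h3 : ‖x ^ P.natDegree‖ ≤ ‖x‖ ^ (P.natDegree - 1) := by
    rw [h2, norm_neg]
    refine norm_sum_le' _ _ (by positivity) ?_
    intro i hi
    rw [Polynomial.eval₂_mul, Polynomial.eval₂_C, Polynomial.eval₂_pow, Polynomial.eval₂_X,
      norm_mul, norm_pow]
    have h4 : ‖algebraMap (Wring p) (PadicAlgCl p) (P.coeff i)‖ ≤ 1 := (P.coeff i).2.1
    calc _ ≤ 1 * ‖x‖ ^ i := by gcongr
      _ ≤ ‖x‖ ^ (P.natDegree - 1) := by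
        rw [one_mul]
        exact pow_le_pow_right₀ hcon.le (by have := Finset.mem_range.mp hi; omega)
  rw [norm_pow] at h3
  have h5 : ‖x‖ ^ (P.natDegree - 1) < ‖x‖ ^ P.natDegree :=
    pow_lt_pow_right₀ hcon (by omega)
  linarith

theorem IsOrder.norm_le_one (h : IsOrder ρ O) {φ : M → PadicAlgCl p} (hφ : φ ∈ O) (m : M) :
    ‖φ m‖ ≤ 1 := norm_le_one_of_isIntegral (h.isIntegral hφ m)

/-- the augmentation ideal -/
def IsJ (O : Subalgebra (Wring p) (M → PadicAlgCl p)) (φ : M → PadicAlgCl p) : Prop :=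
  φ ∈ O ∧ φ 0 = 0

theorem IsOrder.sub_const_isJ (h : IsOrder ρ O) {φ : M → PadicAlgCl p} (hφ : φ ∈ O) :
    IsJ O (fun m => φ m - φ 0) := by
  obtain ⟨r, hr⟩ := h.apply_zero hφ
  refine ⟨?_, sub_self _⟩
  have : (fun m => φ m - φ 0) = φ - algebraMap (Wring p) (M → PadicAlgCl p) r := by
    funext m
    rw [Pi.sub_apply, Pi.algebraMap_apply, hr]
  rw [this]
  exact sub_mem hφ (O.algebraMap_mem r)

theorem IsOrder.J_add (h : IsOrder ρ O) {φ : M → PadicAlgCl p} (hφ : IsJ O φ) :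
    ∃ (n : ℕ) (a b : Fin n → (M → PadicAlgCl p)), (∀ i, IsJ O (a i)) ∧ (∀ i, IsJ O (b i)) ∧
      ∀ x y, φ (x + y) = φ x + φ y + ∑ i, a i x * b i y := by
  obtain ⟨n, a, b, ha, hb, hab⟩ := mem_tens_iff.mp (h.add_mem φ hφ.1)
  replace hab : ∀ x y, φ (x + y) = ∑ i, a i x * b i y := hab
  refine ⟨n, fun i m => a i m - a i 0, fun i m => b i m - b i 0,
    fun i => h.sub_const_isJ (ha i), fun i => h.sub_const_isJ (hb i), fun x y => ?_⟩
  have h1 := hab x 0
  have h2 := hab 0 y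
  have h3 := hab 0 0
  rw [add_zero] at h1 h3
  rw [zero_add] at h2
  rw [hφ.2] at h3
  have : ∑ i, (a i x - a i 0) * (b i y - b i 0)
      = ∑ i, a i x * b i y - ∑ i, a i x * b i 0 - ∑ i, a i 0 * b i y + ∑ i, a i 0 * b i 0 := by
    rw [← Finset.sum_sub_distrib, ← Finset.sum_sub_distrib, ← Finset.sum_add_distrib]
    exact Finset.sum_congr rfl fun i _ => by ring
  rw [this, ← hab, ← h1, ← h2, ← h3]; ring

theorem IsOrder.exists_max [Finite M] (h : IsOrder ρ O) :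
    ∃ φ₀, IsJ O φ₀ ∧ ∃ m₀, ∀ φ, IsJ O φ → ∀ m, ‖φ m‖ ≤ ‖φ₀ m₀‖ := by
  classical
  haveI := Fintype.ofFinite M
  let J : Submodule (Wring p) (M → PadicAlgCl p) :=
    Subalgebra.toSubmodule O ⊓ LinearMap.ker (LinearMap.proj (R := Wring p)
      (φ := fun _ : M => PadicAlgCl p) 0)
  have hJ : ∀ φ, φ ∈ J ↔ IsJ O φ := fun φ => Iff.rfl
  have hfg : J.FG := by
    haveI : IsNoetherian (Wring p) (Subalgebra.toSubmodule O) :=
      isNoetherian_of_fg_of_noetherian _ h.fg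
    have h1 := IsNoetherian.noetherian (J.comap (Subalgebra.toSubmodule O).subtype)
    have h2 := h1.map (Subalgebra.toSubmodule O).subtype
    rwa [Submodule.map_comap_subtype, inf_eq_right.mpr inf_le_left] at h2
  obtain ⟨s, hs⟩ := hfg
  -- maximum over the finite set
  let T : Finset ((M → PadicAlgCl p) × M) := insert (0, 0) (s ×ˢ Finset.univ)
  obtain ⟨⟨φ₀, m₀⟩, hmem, hmax⟩ := T.exists_max_image (fun z => ‖z.1 z.2‖)
    ⟨_, Finset.mem_insert_self _ _⟩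
  refine ⟨φ₀, ?_, m₀, ?_⟩
  · rw [← hJ, ← hs]
    rcases Finset.mem_insert.mp hmem with h0 | h0
    · rw [(Prod.mk.inj h0).1]; exact Submodule.zero_mem _
    · exact Submodule.subset_span (Finset.mem_product.mp h0).1
  · intro φ hφ
    have hφ' : φ ∈ Submodule.span (Wring p) (s : Set (M → PadicAlgCl p)) := by
      rw [hs]; exact (hJ φ).mpr hφ
    clear hφ
    induction hφ' using Submodule.span_induction with
    | mem x hx =>
      intro m
      exact hmax (x, m) (Finset.mem_insert_of_mem (Finset.mem_product.mpr ⟨hx, Finset.mem_univ _⟩))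
    | zero => intro m; rw [Pi.zero_apply, norm_zero]; exact norm_nonneg _
    | add x y _ _ hx hy => intro m; exact norm_add_le' (hx m) (hy m)
    | smul a x _ hx =>
      intro m
      rw [Pi.smul_apply, Algebra.smul_def, norm_mul]
      calc _ ≤ 1 * ‖x m‖ := by gcongr; exact a.2.1
        _ ≤ _ := by rw [one_mul]; exact hx m

theorem IsOrder.equivariant' (h : IsOrder ρ O) {φ : M → PadicAlgCl p} (hφ : φ ∈ O)
    (σ : inertiaLoc p) (m : M) : φ (ρ σ m) = (σ : GalLoc p) (φ m) := h.equivariant φ hφ σ m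

/-! ### the bound -/

/-- combinations of functions in `J` with coefficients of norm `≤ t` -/
def JS (O : Subalgebra (Wring p) (M → PadicAlgCl p)) (t : ℝ) (f : M → PadicAlgCl p) : Prop :=
  ∃ (n : ℕ) (c : Fin n → PadicAlgCl p) (φ : Fin n → (M → PadicAlgCl p)),
    (∀ i, ‖c i‖ ≤ t) ∧ (∀ i, IsJ O (φ i)) ∧ ∀ m, f m = ∑ i, c i * φ i m

/-- difference operator -/
noncomputable def DD (x : M) (f : M → PadicAlgCl p) : M → PadicAlgCl p := fun y => f (y + x) - f y - f x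

theorem nsmul_formula (x : M) (k : ℕ) : ∀ (f : M → PadicAlgCl p), f 0 = 0 →
    f (k • x) = ∑ j ∈ Finset.range k, (Nat.choose k (j + 1) : PadicAlgCl p) * ((DD x)^[j] f) x := by
  induction k with
  | zero => intro f hf; simp [hf]
  | succ k ih =>
    intro f hf
    have h1 : f ((k + 1) • x) = f (k • x) + f x + DD x f (k • x) := by
      rw [DD, succ_nsmul]; ring
    have hD : DD x f 0 = 0 := by simp [DD, hf]
    rw [h1, ih f hf, ih (DD x f) hD, Finset.sum_range_succ']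
    simp only [Nat.choose_succ_succ k, Nat.cast_add, add_mul, Finset.sum_add_distrib]
    have e1 : ∑ j ∈ Finset.range k, (Nat.choose k (j + 1) : PadicAlgCl p) * ((DD x)^[j] (DD x f)) x
        = ∑ j ∈ Finset.range k, (Nat.choose k (j + 1) : PadicAlgCl p) * ((DD x)^[j + 1] f) x :=
      Finset.sum_congr rfl fun j _ => by rw [Function.iterate_succ_apply]
    have e2 : ∑ j ∈ Finset.range k, (Nat.choose k (j + 1 + 1) : PadicAlgCl p) * ((DD x)^[j + 1] f) x
        + (Nat.choose k (0 + 1) : PadicAlgCl p) * ((DD x)^[0] f) x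
        = ∑ j ∈ Finset.range k, (Nat.choose k (j + 1) : PadicAlgCl p) * ((DD x)^[j] f) x := by
      rw [← Finset.sum_range_succ' (fun j => (Nat.choose k (j + 1) : PadicAlgCl p) * ((DD x)^[j] f) x),
        Finset.sum_range_succ, Nat.choose_eq_zero_of_lt (Nat.lt_succ_self k)]
      simp
    rw [e1, ← e2]
    simp
    ring

theorem IsOrder.DD_mem (h : IsOrder ρ O) {s : ℝ} (hs : ∀ φ, IsJ O φ → ∀ m, ‖φ m‖ ≤ s) {t : ℝ}
    (ht : 0 ≤ t) {f : M → PadicAlgCl p} (hf : JS O t f) (x : M) : JS O (t * s) (DD x f) := by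
  obtain ⟨n, c, φ, hc, hφ, hf⟩ := hf
  choose N a b ha hb hab using fun i => h.J_add (hφ i)
  -- flatten
  have hfl : ∀ y, DD x f y = ∑ i, ∑ j, (c i * b i j x) * a i j y := by
    intro y
    simp only [DD, hf]
    rw [← Finset.sum_sub_distrib, ← Finset.sum_sub_distrib]
    refine Finset.sum_congr rfl fun i _ => ?_
    rw [hab i y x]
    have : c i * (φ i y + φ i x + ∑ j, a i j y * b i j x) - c i * φ i y - c i * φ i x
        = c i * ∑ j, a i j y * b i j x := by ring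
    rw [this, Finset.mul_sum]
    exact Finset.sum_congr rfl fun j _ => by ring
  let e := Fintype.equivFin (Σ i : Fin n, Fin (N i))
  refine ⟨Fintype.card (Σ i : Fin n, Fin (N i)), fun z => c (e.symm z).1 * b _ (e.symm z).2 x,
    fun z => a _ (e.symm z).2, fun z => ?_, fun z => ha _ _, fun y => ?_⟩
  · rw [norm_mul]
    exact mul_le_mul (hc _) (hs _ (hb _ _) x) (norm_nonneg _) ht
  · rw [hfl]
    have h1 := Equiv.sum_comp e.symm
      (fun z : Σ i : Fin n, Fin (N i) => c z.1 * b z.1 z.2 x * a z.1 z.2 y)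
    rw [Fintype.sum_sigma] at h1
    exact h1.symm

theorem JS_norm_le {s t : ℝ} (hs0 : 0 ≤ s) (ht : 0 ≤ t)
    (hs : ∀ φ, IsJ O φ → ∀ m, ‖φ m‖ ≤ s)
    {f : M → PadicAlgCl p} (hf : JS O t f) (m : M) : ‖f m‖ ≤ t * s := by
  obtain ⟨n, c, φ, hc, hφ, hf⟩ := hf
  rw [hf]
  refine norm_sum_le' _ _ (mul_nonneg ht hs0) (fun i _ => ?_)
  rw [norm_mul]
  exact mul_le_mul (hc i) (hs _ (hφ i) m) (norm_nonneg _) ht

theorem IsOrder.iterate_norm_le (h : IsOrder ρ O) {s : ℝ} (hs0 : 0 ≤ s)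
    (hs : ∀ φ, IsJ O φ → ∀ m, ‖φ m‖ ≤ s) {φ : M → PadicAlgCl p} (hφ : IsJ O φ) (x : M) (j : ℕ) :
    ‖((DD x)^[j] φ) x‖ ≤ s ^ (j + 1) := by
  have key : ∀ j, JS O (s ^ j) ((DD x)^[j] φ) := by
    intro j
    induction j with
    | zero => exact ⟨1, fun _ => 1, fun _ => φ, fun _ => by simp, fun _ => hφ, fun m => by simp⟩
    | succ j ih =>
      rw [Function.iterate_succ_apply', pow_succ]
      exact h.DD_mem hs (by positivity) ih x
  have := JS_norm_le hs0 (by positivity) hs (key j) x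
  rwa [← pow_succ] at this

/-- For a connected module killed by `p` the maximal value `s` satisfies `s ^ (p - 1) ≥ 1 / p`. -/
theorem IsOrder.bound (h : IsOrder ρ O) (hpM : ∀ m : M, p • m = 0) {φ₀ : M → PadicAlgCl p}
    (hφ₀ : IsJ O φ₀) (m₀ : M) (hs : ∀ φ, IsJ O φ → ∀ m, ‖φ m‖ ≤ ‖φ₀ m₀‖) (h0 : φ₀ m₀ ≠ 0)
    (h1 : ‖φ₀ m₀‖ < 1) : (p : ℝ)⁻¹ ≤ ‖φ₀ m₀‖ ^ (p - 1) := by
  set s := ‖φ₀ m₀‖ with hsdef
  have hspos : 0 < s := norm_pos_iff.mpr h0
  have hp2 : 2 ≤ p := hp.out.two_le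
  have hppos : (0 : ℝ) < p := by exact_mod_cast hp.out.pos
  have hf := nsmul_formula m₀ p φ₀ hφ₀.2
  have hsr : ∀ F : ℕ → PadicAlgCl p, ∑ j ∈ Finset.range p, F j
      = ∑ j ∈ Finset.range (p - 1), F (j + 1) + F 0 := by
    intro F
    have := Finset.sum_range_succ' F (p - 1)
    rwa [Nat.sub_add_cancel (by omega)] at this
  rw [hpM, hφ₀.2, hsr] at hf
  rw [zero_add, Nat.choose_one_right, Function.iterate_zero, id] at hf
  have h2 : (p : PadicAlgCl p) * φ₀ m₀ = -∑ j ∈ Finset.range (p - 1),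
      (Nat.choose p (j + 1 + 1) : PadicAlgCl p) * ((DD m₀)^[j + 1] φ₀) m₀ :=
    eq_neg_of_add_eq_zero_right hf.symm
  have h3 : (p : ℝ)⁻¹ * s ≤ max ((p : ℝ)⁻¹ * s ^ 2) (s ^ p) := by
    have : (p : ℝ)⁻¹ * s = ‖(p : PadicAlgCl p) * φ₀ m₀‖ := by
      rw [norm_mul, norm_natCast_p]
    rw [this, h2, norm_neg]
    refine norm_sum_le' _ _ (le_max_of_le_left (by positivity)) ?_
    intro j hj
    have hj' := Finset.mem_range.mp hj
    rw [norm_mul]
    by_cases hjp : j + 1 + 1 = p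
    · refine le_max_of_le_right ?_
      rw [hjp, Nat.choose_self, Nat.cast_one, norm_one, one_mul]
      have := h.iterate_norm_le hspos.le hs hφ₀ m₀ (j + 1)
      rwa [hjp] at this
    · refine le_max_of_le_left ?_
      have hdvd : p ∣ Nat.choose p (j + 1 + 1) :=
        hp.out.dvd_choose_self (by omega) (by omega)
      obtain ⟨c, hc⟩ := hdvd
      have e1 : ‖((Nat.choose p (j + 1 + 1) : ℕ) : PadicAlgCl p)‖ ≤ (p : ℝ)⁻¹ := by
        rw [hc, Nat.cast_mul, norm_mul, norm_natCast_p]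
        calc _ ≤ (p : ℝ)⁻¹ * 1 := by gcongr; exact norm_natCast_le c
          _ = _ := mul_one _
      have e2 := h.iterate_norm_le hspos.le hs hφ₀ m₀ (j + 1)
      have e3 : s ^ (j + 1 + 1) ≤ s ^ 2 := pow_le_pow_of_le_one hspos.le h1.le (by omega)
      exact mul_le_mul e1 (e2.trans e3) (norm_nonneg _) (by positivity)
  rcases le_max_iff.mp h3 with h4 | h4
  · exfalso
    have : s ≤ s ^ 2 := le_of_mul_le_mul_left h4 (by positivity)
    nlinarith
  · have : s ^ p = s ^ (p - 1) * s := by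
      rw [← pow_succ, show p - 1 + 1 = p by omega]
    rw [this] at h4
    exact le_of_mul_le_mul_right h4 hspos

end Fermat.Agent.Flat
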