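import Fermat.Agent.Flat.Tame

/-!
# Orders on lines over the field with `p²` elements
-/

set_option autoImplicit false

open GaloisRep Fermat.Agent.CFT.Loc

namespace Fermat.Agent.Flat

variable {p : ℕ} [hp : Fact p.Prime]

section General

variable {M : Type*} [AddCommGroup M] {ρ : inertiaLoc p →* AddMonoid.End M}
  {O : Subalgebra (Wring p) (M → PadicAlgCl p)}

/-- the connected part of `M` -/
def connPart (h : IsOrder ρ O) : AddSubgroup M where
  carrier := {m | ∀ φ, IsJ O φ → ‖φ m‖ < 1}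
  zero_mem' := fun φ hφ => by rw [hφ.2, norm_zero]; exact one_pos
  add_mem' := by
    intro x y hx hy φ hφ
    obtain ⟨n, a, b, ha, hb, hab⟩ := h.J_add hφ
    rw [hab]
    refine norm_add_lt' (norm_add_lt' (hx φ hφ) (hy φ hφ)) ?_
    refine Finset.sum_induction _ (fun x => ‖x‖ < 1) (fun _ _ ha hb => norm_add_lt' ha hb)
      (by rw [norm_zero]; exact one_pos) (fun i _ => ?_)
    rw [norm_mul]
    exact mul_lt_one_of_nonneg_of_lt_one_left (norm_nonneg _) (hx _ (ha i))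
      (h.norm_le_one (hb i).1 y)
  neg_mem' := by
    intro x hx φ hφ
    obtain ⟨n, a, b, ha, hb, hab⟩ := h.J_add hφ
    have h1 := hab x (-x)
    rw [add_neg_cancel, hφ.2] at h1
    have h2 : φ (-x) = -(φ x + ∑ i, a i x * b i (-x)) := by linear_combination -h1
    rw [h2, norm_neg]
    refine norm_add_lt' (hx φ hφ) ?_
    refine Finset.sum_induction _ (fun x => ‖x‖ < 1) (fun _ _ ha hb => norm_add_lt' ha hb)
      (by rw [norm_zero]; exact one_pos) (fun i _ => ?_)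
    rw [norm_mul]
    exact mul_lt_one_of_nonneg_of_lt_one_left (norm_nonneg _) (hx _ (ha i))
      (h.norm_le_one (hb i).1 _)

theorem mem_connPart {h : IsOrder ρ O} {m : M} :
    m ∈ connPart h ↔ ∀ φ, IsJ O φ → ‖φ m‖ < 1 := Iff.rfl

theorem sub_mem_connPart (h : IsOrder ρ O) (σ : inertiaLoc p) (m : M) :
    ρ σ m - m ∈ connPart h := by
  intro φ hφ
  obtain ⟨n, a, b, ha, hb, hab⟩ := h.J_add hφ
  have hle : ∀ ψ, IsJ O ψ → ∀ x, ‖ψ x‖ ≤ 1 := fun ψ hψ x => h.norm_le_one hψ.1 x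
  rw [sub_eq_add_neg, hab, ← rd_eq_zero_iff]
  · have hsum : ∀ x y, rd p (∑ i, a i x * b i y) = ∑ i, rd p (a i x) * rd p (b i y) := by
      intro x y
      rw [rd_sum _ _ (fun i _ => norm_mul_le' (hle _ (ha i) _) (hle _ (hb i) _))]
      exact Finset.sum_congr rfl fun i _ => rd_mul (hle _ (ha i) _) (hle _ (hb i) _)
    have hsle : ∀ x y, ‖∑ i, a i x * b i y‖ ≤ 1 := fun x y =>
      norm_sum_le' _ _ zero_le_one
        (fun i _ => norm_mul_le' (hle _ (ha i) _) (hle _ (hb i) _))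
    have hinv : ∀ ψ, IsJ O ψ → rd p (ψ (ρ σ m)) = rd p (ψ m) := by
      intro ψ hψ
      rw [h.equivariant' hψ.1, rd_inertia σ.2 (hle ψ hψ m)]
    rw [rd_add (norm_add_le' (hle _ hφ _) (hle _ hφ _)) (hsle _ _),
      rd_add (hle _ hφ _) (hle _ hφ _), hsum, hinv φ hφ,
      Finset.sum_congr rfl (fun i _ => by rw [hinv _ (ha i)])]
    have h2 := hab m (-m)
    rw [add_neg_cancel, hφ.2] at h2
    rw [← hsum, ← rd_add (hle _ hφ _) (hle _ hφ _), ← rd_add (norm_add_le' (hle _ hφ _) (hle _ hφ _))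
      (hsle _ _), ← h2, rd_zero]
  · exact norm_add_le' (norm_add_le' (hle _ hφ _) (hle _ hφ _)) (norm_sum_le' _ _ zero_le_one
        (fun i _ => norm_mul_le' (hle _ (ha i) _) (hle _ (hb i) _)))

end General

/-- In characteristic `p`, elements fixed by Frobenius are natural numbers. -/
theorem exists_nat_of_pow_eq {F : Type*} [Field F] [CharP F p] {x : F} (hx : x ^ p = x) :
    ∃ a : ℕ, x = a := by
  classical
  have hp1 := hp.out.one_lt
  set P : Polynomial F := Polynomial.X ^ p - Polynomial.X with hP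
  have hP0 : P ≠ 0 := FiniteField.X_pow_card_sub_X_ne_zero F hp1
  let f : ZMod p → F := fun a => (ZMod.castHom dvd_rfl F) a
  have hf : Function.Injective f := (ZMod.castHom dvd_rfl F).injective
  have hroots : ∀ a : ZMod p, f a ∈ P.roots.toFinset := by
    intro a
    rw [Multiset.mem_toFinset, Polynomial.mem_roots hP0, Polynomial.IsRoot, hP]
    simp only [Polynomial.eval_sub, Polynomial.eval_pow, Polynomial.eval_X, f]
    rw [← map_pow, ZMod.pow_card, sub_self]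
  have hcard : (Finset.univ.image f).card = p := by
    rw [Finset.card_image_of_injective _ hf, Finset.card_univ, ZMod.card]
  have hle : P.roots.toFinset.card ≤ p := by
    refine (Multiset.toFinset_card_le _).trans ((Polynomial.card_roots' P).trans ?_)
    rw [hP, FiniteField.X_pow_card_sub_X_natDegree_eq F hp1]
  have heq : Finset.univ.image f = P.roots.toFinset := by
    apply Finset.eq_of_subset_of_card_le
    · intro y hy
      obtain ⟨a, _, rfl⟩ := Finset.mem_image.mp hy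
      exact hroots a
    · rw [hcard]; exact hle
  have hx' : x ∈ P.roots.toFinset := by
    rw [Multiset.mem_toFinset, Polynomial.mem_roots hP0, Polynomial.IsRoot, hP]
    simp [hx]
  rw [← heq] at hx'
  obtain ⟨a, _, rfl⟩ := Finset.mem_image.mp hx'
  refine ⟨a.val, ?_⟩
  simp only [f]
  conv_lhs => rw [← ZMod.natCast_zmod_val a]
  rw [map_natCast]

section Line

variable {k₂ : Type*} [Field k₂] [CharP k₂ p]

/-- multiplication action of a character -/
noncomputable def mulRep (χ : inertiaLoc p →* k₂ˣ) : inertiaLoc p →* AddMonoid.End k₂ where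
  toFun σ := AddMonoidHom.mulLeft (χ σ : k₂)
  map_one' := by
    apply AddMonoidHom.ext
    intro x
    change ((χ 1 : k₂ˣ) : k₂) * x = x
    rw [map_one, Units.val_one, one_mul]
  map_mul' σ τ := by
    apply AddMonoidHom.ext
    intro x
    change ((χ (σ * τ) : k₂ˣ) : k₂) * x = (χ σ : k₂) * ((χ τ : k₂) * x)
    rw [map_mul, Units.val_mul, mul_assoc]

omit [CharP k₂ p] in
@[simp] theorem mulRep_apply (χ : inertiaLoc p →* k₂ˣ) (σ : inertiaLoc p) (x : k₂) :
    mulRep χ σ x = (χ σ : k₂) * x := rfl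

/-- A character with values in `𝔽_{p²}` whose norm to `𝔽_p` is the cyclotomic character. -/
structure TameChar (π : PadicAlgCl p) (χ : inertiaLoc p →* k₂ˣ) : Prop where
  card : Nat.card k₂ = p ^ 2
  cyc : ∀ (σ : inertiaLoc p) (a : ℕ), psi π (σ : GalLoc p) ^ (p + 1) = (a : ResF p) →
    ((χ σ : k₂ˣ) : k₂) ^ (p + 1) = (a : k₂)

variable {π : PadicAlgCl p} (hπ : IsPi π) {χ : inertiaLoc p →* k₂ˣ}

theorem psi_pow_succ_nat (hπ : IsPi π) (σ : GalLoc p) :
    ∃ a : ℕ, psi π σ ^ (p + 1) = (a : ResF p) := by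
  apply exists_nat_of_pow_eq
  have h1 := hπ.psi_pow σ
  have h2 : (p + 1) * p = (p ^ 2 - 1) + (p + 1) := by
    have : 1 ≤ p ^ 2 := Nat.one_le_pow _ _ hp.out.pos
    zify [this]; ring
  rw [← pow_mul, h2, pow_add, h1, one_mul]

/-- Generator data. -/
theorem TameChar.exists_gen (hp2 : p ≠ 2) (hχ : TameChar π χ) (hπ : IsPi π) :
    ∃ σ₀ : inertiaLoc p, orderOf (hπ.psiI σ₀) = p ^ 2 - 1 ∧
      ((χ σ₀ : k₂ˣ) : k₂) ^ p ≠ (χ σ₀ : k₂) ∧ ∀ x : k₂, ∃ a b : ℕ, x = a + b * (χ σ₀ : k₂) := by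
  classical
  obtain ⟨σ₀, hord, -⟩ := hπ.exists_generator
  have h3 : 3 ≤ p := by have := hp.out.two_le; omega
  set t : k₂ := (χ σ₀ : k₂) with ht
  obtain ⟨a₀, ha₀⟩ := psi_pow_succ_nat hπ (σ₀ : GalLoc p)
  have hta : t ^ (p + 1) = a₀ := hχ.cyc σ₀ a₀ ha₀
  have hnot : t ^ p ≠ t := by
    intro htp
    have ht0 : t ≠ 0 := Units.ne_zero _
    have ht1 : t ^ (p - 1) = 1 := by
      have : t ^ (p - 1) * t = t := by rw [← pow_succ, Nat.sub_add_cancel (by omega), htp]
      exact mul_right_cancel₀ ht0 (by rw [this, one_mul])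
    -- then `a₀ ^ ((p-1)/2) = 1` in `k₂`
    have hodd : Odd p := hp.out.odd_of_ne_two hp2
    obtain ⟨m, hm⟩ := hodd
    have h1 : ((a₀ : k₂)) ^ m = 1 := by
      rw [← hta, ← pow_mul, show (p + 1) * m = (p - 1) * (m + 1) by
        rw [hm]; simp; ring, pow_mul, ht1, one_pow]
    -- transfer to `ResF p`
    have h2 : ((a₀ : ResF p)) ^ m = 1 := by
      have h3 : ((a₀ ^ m : ℕ) : k₂) = ((1 : ℕ) : k₂) := by push_cast; exact h1
      have h4 := (CharP.natCast_eq_natCast k₂ p).mp h3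
      have h5 := (CharP.natCast_eq_natCast (ResF p) p).mpr h4
      push_cast at h5; exact h5
    rw [← ha₀, ← pow_mul] at h2
    have h6 : (hπ.psiI σ₀) ^ ((p + 1) * m) = 1 := by
      ext
      rw [Units.val_pow_eq_pow_val, IsPi.psiI_apply, h2, Units.val_one]
    have h7 := orderOf_dvd_of_pow_eq_one h6
    rw [hord] at h7
    have h8 : (p + 1) * m < p ^ 2 - 1 := by
      have : p ^ 2 - 1 = (p + 1) * (2 * m) := by
        rw [hm]
        have : (2 * m + 1) ^ 2 = (2 * m + 1 + 1) * (2 * m) + 1 := by ring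
        omega
      rw [this]
      have hm1 : 1 ≤ m := by omega
      have : (p + 1) * (2 * m) = (p + 1) * m + (p + 1) * m := by ring
      have : 0 < (p + 1) * m := by positivity
      omega
    have h9 : 0 < (p + 1) * m := by
      have hm1 : 1 ≤ m := by omega
      positivity
    exact absurd (Nat.le_of_dvd h9 h7) (not_le.mpr h8)
  refine ⟨σ₀, hord, hnot, ?_⟩
  -- surjectivity of `(a, b) ↦ a + b t`
  have h0 : p ^ 2 ≠ 0 := pow_ne_zero _ hp.out.ne_zero
  haveI : Finite k₂ := Nat.finite_of_card_ne_zero (by rw [hχ.card]; exact h0)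
  haveI := Fintype.ofFinite k₂
  let ι : ZMod p →+* k₂ := ZMod.castHom dvd_rfl k₂
  let f : ZMod p × ZMod p → k₂ := fun ab => ι ab.1 + ι ab.2 * t
  have hfrob : ∀ a : ZMod p, (ι a) ^ p = ι a := fun a => by rw [← map_pow, ZMod.pow_card]
  have hf : Function.Injective f := by
    rintro ⟨a, b⟩ ⟨a', b'⟩ hab
    have h1 : ι a + ι b * t = ι a' + ι b' * t := hab
    by_cases hbb : b = b'
    · subst hbb
      have := ι.injective (add_right_cancel h1)
      rw [this]
    · exfalso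
      have h2 : ι (b' - b) ≠ 0 := by
        rw [Ne, map_eq_zero]
        exact sub_ne_zero.mpr (Ne.symm hbb)
      have h3 : t = ι ((a - a') / (b' - b)) := by
        rw [map_div₀, eq_div_iff h2, map_sub, map_sub]
        linear_combination (-1 : k₂) * h1
      exact hnot (by rw [h3]; exact hfrob _)
  have hcard : Fintype.card (ZMod p × ZMod p) = Fintype.card k₂ := by
    rw [Fintype.card_prod, ZMod.card, ← Nat.card_eq_fintype_card, hχ.card, sq]
  have hsurj := ((Fintype.bijective_iff_injective_and_card f).mpr ⟨hf, hcard⟩).2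
  intro x
  obtain ⟨⟨a, b⟩, hab⟩ := hsurj x
  refine ⟨a.val, b.val, ?_⟩
  rw [← hab]
  change ι a + ι b * t = _
  have h1 : ∀ c : ZMod p, ι c = (c.val : k₂) := by
    intro c
    conv_lhs => rw [← ZMod.natCast_zmod_val c]
    rw [map_natCast]
  rw [h1, h1]

/-- lead analysis of a line -/
theorem lead_line (hp2 : p ≠ 2) (hχ : TameChar π χ) (hπ : IsPi π)
    {O : Subalgebra (Wring p) (k₂ → PadicAlgCl p)} (h : IsOrder (mulRep χ) O) :
    ∃ i : ℕ, (i = 1 ∨ i = p) ∧ ∃ lam : k₂ →+* ResF p,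
      (∀ φ, IsJ O φ → ∀ x, ‖φ x‖ ≤ ‖π‖ ^ i) ∧
      (∀ φ, IsJ O φ → ∃ c, ∀ x, rd p (φ x / π ^ i) = c * lam x) ∧
      (∃ φ, IsJ O φ ∧ ∀ x, x ≠ 0 → ‖φ x‖ = ‖π‖ ^ i) ∧
      ∀ σ : inertiaLoc p, lam (χ σ : k₂) = psi π (σ : GalLoc p) ^ i := by
  classical
  have h3 : 3 ≤ p := by have := hp.out.two_le; omega
  obtain ⟨σ₀, hord, hnot, hspan⟩ := hχ.exists_gen hp2 hπ
  set t : k₂ := (χ σ₀ : k₂) with ht
  haveI : Finite k₂ := Nat.finite_of_card_ne_zero (by rw [hχ.card]; exact pow_ne_zero _ hp.out.ne_zero)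
  have ht1 : t - 1 ≠ 0 := by
    intro h0
    have : t = 1 := sub_eq_zero.mp h0
    exact hnot (by rw [this, one_pow])
  -- connectedness
  have hconn : ∀ φ, IsJ O φ → ∀ x, ‖φ x‖ < 1 := by
    intro φ hφ x
    have h1 := sub_mem_connPart h σ₀ (x / (t - 1))
    rw [mulRep_apply, ← ht, show t * (x / (t - 1)) - x / (t - 1) = x by field_simp] at h1
    exact h1 φ hφ
  obtain ⟨φ₀, hφ₀, x₀, hmax⟩ := h.exists_max
  -- nonzero
  have hne : φ₀ x₀ ≠ 0 := by
    intro h0
    have h1 : (1 : k₂) = 0 := by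
      apply h.separates
      intro φ hφ
      have h2 := hmax _ (h.sub_const_isJ hφ) 1
      rw [h0, norm_zero] at h2
      exact sub_eq_zero.mp (norm_le_zero_iff.mp h2)
    exact one_ne_zero h1
  have hx₀ : x₀ ≠ 0 := by
    rintro rfl
    exact hne hφ₀.2
  -- the norm of `φ₀ x₀`
  obtain ⟨n, hn⟩ := norm_pow_card χ hne (fun σ hσ => by
    have h1 := h.equivariant' hφ₀.1 σ x₀
    rw [mulRep_apply, hσ, Units.val_one, one_mul] at h1
    exact h1.symm)
  have hcardu : Nat.card k₂ˣ = p ^ 2 - 1 := by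
    rw [Nat.card_units, hχ.card]
  rw [hcardu] at hn
  have hnorm := hπ.zpow_norm_eq hn
  have hlt := hconn φ₀ hφ₀ x₀
  have hppos : (0 : ℝ) < p := by exact_mod_cast hp.out.pos
  have hpM : ∀ m : k₂, p • m = 0 := fun m => by
    rw [nsmul_eq_mul, CharP.cast_eq_zero, zero_mul]
  have hbound := h.bound hpM hφ₀ x₀ hmax hne hlt
  -- exponent
  obtain ⟨i, hi⟩ : ∃ i : ℕ, -n = i := by
    have : 0 < -n := by
      by_contra hcon
      push Not at hcon
      rw [hnorm] at hlt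
      have := one_le_zpow_of_nonpos₀ hπ.norm_pos hπ.norm_lt_one.le hcon
      linarith
    exact ⟨(-n).toNat, by omega⟩
  rw [hi, zpow_natCast] at hnorm
  have hi1 : 1 ≤ i := by
    by_contra hcon
    have : i = 0 := by omega
    rw [hnorm, this, pow_zero] at hlt
    exact lt_irrefl _ hlt
  have hi2 : i ≤ p + 1 := by
    rw [hnorm, ← hπ.norm_pow, ← pow_mul] at hbound
    have h4 := (pow_le_pow_iff_right_of_lt_one₀ hπ.norm_pos hπ.norm_lt_one).mp hbound
    have h5 : p ^ 2 - 1 = (p + 1) * (p - 1) := by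
      have := Nat.sq_sub_sq p 1
      simpa using this
    rw [h5] at h4
    exact Nat.le_of_mul_le_mul_right h4 (by omega)
  have hπi : π ^ i ≠ 0 := pow_ne_zero _ hπ.ne_zero
  have hdiv : ∀ φ, IsJ O φ → ∀ x, ‖φ x / π ^ i‖ ≤ 1 := by
    intro φ hφ x
    rw [norm_div, norm_pow, ← hnorm]
    exact div_le_one_of_le₀ (hmax φ hφ x) (norm_nonneg _)
  -- the leading terms
  have hadd : ∀ φ, IsJ O φ → ∀ x y, rd p (φ (x + y) / π ^ i)
      = rd p (φ x / π ^ i) + rd p (φ y / π ^ i) := by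
    intro φ hφ x y
    obtain ⟨N, a, b, ha, hb, hab⟩ := h.J_add hφ
    rw [hab, add_div, add_div]
    have hsmall : ‖(∑ i, a i x * b i y) / π ^ i‖ < 1 := by
      rw [Finset.sum_div]
      refine Finset.sum_induction _ (fun x => ‖x‖ < 1) (fun _ _ ha hb => norm_add_lt' ha hb)
        (by rw [norm_zero]; exact one_pos) (fun j _ => ?_)
      rw [mul_comm (a j x), mul_div_assoc, norm_mul]
      exact mul_lt_one_of_nonneg_of_lt_one_left (norm_nonneg _) (hconn _ (hb j) _)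
        (hdiv _ (ha j) _)
    rw [rd_add (norm_add_le' (hdiv _ hφ _) (hdiv _ hφ _)) hsmall.le, rd_eq_zero_of_lt hsmall,
      add_zero, rd_add (hdiv _ hφ _) (hdiv _ hφ _)]
  have heq : ∀ φ, IsJ O φ → ∀ (σ : inertiaLoc p) x, rd p (φ ((χ σ : k₂) * x) / π ^ i)
      = psi π (σ : GalLoc p) ^ i * rd p (φ x / π ^ i) := by
    intro φ hφ σ x
    have h1 := h.equivariant' hφ.1 σ x
    rw [mulRep_apply] at h1
    have h2 : φ ((χ σ : k₂) * x) / π ^ i
        = ((σ : GalLoc p) π / π) ^ i * (σ : GalLoc p) (φ x / π ^ i) := by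
      rw [h1, map_div₀, map_pow, div_pow]
      have : (σ : GalLoc p) π ≠ 0 := fun h =>
        hπ.ne_zero ((map_eq_zero_iff _ (AlgEquiv.injective _)).mp h)
      field_simp
    rw [h2, rd_mul (norm_pow_le' (hπ.norm_root _).le i) (by rw [norm_apply]; exact hdiv _ hφ _),
      rd_pow (hπ.norm_root _).le, rd_inertia σ.2 (hdiv _ hφ _)]
    rfl
  let Λ : (φ : k₂ → PadicAlgCl p) → IsJ O φ → k₂ →+ ResF p := fun φ hφ =>
    AddMonoidHom.mk' (fun x => rd p (φ x / π ^ i)) (hadd φ hφ)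
  have hΛ : ∀ φ hφ x, Λ φ hφ x = rd p (φ x / π ^ i) := fun _ _ _ => rfl
  have hΛab : ∀ φ hφ (a b : ℕ), Λ φ hφ (a + b * t)
      = (a + b * psi π (σ₀ : GalLoc p) ^ i) * Λ φ hφ 1 := by
    intro φ hφ a b
    have h1 : ((a : k₂) + b * t) = a • (1 : k₂) + b • (t * 1) := by
      rw [nsmul_eq_mul, nsmul_eq_mul]; ring
    rw [h1, map_add, map_nsmul, map_nsmul, hΛ φ hφ (t * 1), ht, heq φ hφ, ← hΛ φ hφ 1,
      nsmul_eq_mul, nsmul_eq_mul]
    ring
  have hΛ1 : Λ φ₀ hφ₀ 1 ≠ 0 := by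
    intro h0
    obtain ⟨a, b, hab⟩ := hspan x₀
    have h1 := hΛab φ₀ hφ₀ a b
    rw [← hab, h0, mul_zero, hΛ φ₀ hφ₀] at h1
    have h2 : ‖φ₀ x₀ / π ^ i‖ = 1 := by
      rw [norm_div, norm_pow, hnorm]
      exact div_self (pow_ne_zero _ hπ.norm_pos.ne')
    exact rd_ne_zero_of_norm_eq_one h2 h1
  -- the ring hom
  have hmulab : ∀ (a b : ℕ) x, Λ φ₀ hφ₀ ((a + b * t) * x)
      = (a + b * psi π (σ₀ : GalLoc p) ^ i) * Λ φ₀ hφ₀ x := by
    intro a b x
    have h1 : ((a : k₂) + b * t) * x = a • x + b • (t * x) := by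
      rw [nsmul_eq_mul, nsmul_eq_mul]; ring
    rw [h1, map_add, map_nsmul, map_nsmul, hΛ φ₀ hφ₀ (t * x), ht, heq φ₀ hφ₀, ← hΛ φ₀ hφ₀ x,
      nsmul_eq_mul, nsmul_eq_mul]
    ring
  let lam : k₂ →+* ResF p :=
    { toFun := fun x => Λ φ₀ hφ₀ x / Λ φ₀ hφ₀ 1
      map_one' := div_self hΛ1
      map_zero' := by rw [map_zero, zero_div]
      map_add' := fun x y => by rw [map_add, add_div]
      map_mul' := fun x y => by
        obtain ⟨a, b, rfl⟩ := hspan x
        rw [hmulab, hΛab φ₀ hφ₀]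
        field_simp }
  have hlam : ∀ a b : ℕ, lam (a + b * t) = a + b * psi π (σ₀ : GalLoc p) ^ i := by
    intro a b
    change Λ φ₀ hφ₀ (a + b * t) / Λ φ₀ hφ₀ 1 = _
    rw [hΛab φ₀ hφ₀]
    exact mul_div_cancel_right₀ _ hΛ1
  have hlamχ : ∀ σ : inertiaLoc p, lam (χ σ : k₂) = psi π (σ : GalLoc p) ^ i := by
    intro σ
    change Λ φ₀ hφ₀ (χ σ : k₂) / Λ φ₀ hφ₀ 1 = _
    have h1 := heq φ₀ hφ₀ σ 1
    rw [mul_one] at h1
    rw [hΛ φ₀ hφ₀ (χ σ : k₂), h1, ← hΛ φ₀ hφ₀]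
    exact mul_div_cancel_right₀ _ hΛ1
  refine ⟨i, ?_, lam, ?_, ?_, ?_, hlamχ⟩
  · -- congruence
    obtain ⟨a₀, ha₀⟩ := psi_pow_succ_nat hπ (σ₀ : GalLoc p)
    have h4 := hχ.cyc σ₀ a₀ ha₀
    have h5 : psi π (σ₀ : GalLoc p) ^ (i * (p + 1)) = psi π (σ₀ : GalLoc p) ^ (p + 1) := by
      rw [pow_mul, ← hlamχ, ← map_pow, h4, map_natCast, ha₀]
    have h6 : (hπ.psiI σ₀) ^ (i * (p + 1)) = (hπ.psiI σ₀) ^ (p + 1) := by
      ext
      rw [Units.val_pow_eq_pow_val, Units.val_pow_eq_pow_val, IsPi.psiI_apply, h5]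
    have h7 := pow_eq_pow_iff_modEq.mp h6
    rw [hord] at h7
    have h8 : p ^ 2 - 1 = (p - 1) * (p + 1) := by
      have := Nat.sq_sub_sq p 1
      rw [mul_comm]; simpa using this
    have h9 : i * (p + 1) ≡ 1 * (p + 1) [MOD (p - 1) * (p + 1)] := by
      rw [← h8, one_mul]; exact h7
    have h10 : i ≡ 1 [MOD p - 1] := Nat.ModEq.mul_right_cancel' (by omega) h9
    have h11 : (p - 1) ∣ i - 1 := (Nat.modEq_iff_dvd' hi1).mp h10.symm
    obtain ⟨c, hc⟩ := h11
    rcases Nat.eq_zero_or_pos c with rfl | hc0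
    · left; omega
    · right
      have : c = 1 := by
        by_contra hne
        have hc2 : 2 ≤ c := by omega
        have : (p - 1) * 2 ≤ (p - 1) * c := Nat.mul_le_mul_left _ hc2
        omega
      subst this
      omega
  · intro φ hφ x
    rw [← hnorm]; exact hmax φ hφ x
  · intro φ hφ
    refine ⟨Λ φ hφ 1, fun x => ?_⟩
    obtain ⟨a, b, rfl⟩ := hspan x
    rw [← hΛ φ hφ, hΛab φ hφ, hlam, mul_comm]
  · refine ⟨φ₀, hφ₀, fun x hx => ?_⟩
    have h4 : rd p (φ₀ x / π ^ i) ≠ 0 := by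
      rw [← hΛ φ₀ hφ₀]
      have h5 : lam x ≠ 0 := (map_ne_zero lam).mpr hx
      intro h6
      apply h5
      change Λ φ₀ hφ₀ x / Λ φ₀ hφ₀ 1 = 0
      rw [h6, zero_div]
    have h5 := norm_eq_one_of_rd_ne_zero h4
    rw [norm_div, norm_pow] at h5
    exact (div_eq_one_iff_eq (pow_ne_zero _ hπ.norm_pos.ne')).mp h5

end Line

/-! ### the cyclotomic character -/

section Cyc

theorem rd_root_p {ζ : PadicAlgCl p} (hζ : ζ ^ p = 1) : ‖ζ‖ = 1 ∧ rd p ζ = 1 := by
  have hnorm : ‖ζ‖ = 1 := by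
    have h1 : ‖ζ‖ ^ p = 1 := by rw [← norm_pow, hζ, norm_one]
    exact (pow_eq_one_iff_of_nonneg (norm_nonneg _) hp.out.ne_zero).mp h1
  refine ⟨hnorm, ?_⟩
  have h1 : rd p ζ ^ p = 1 := by rw [← rd_pow hnorm.le, hζ, rd_one]
  have h2 : (rd p ζ - 1) ^ p = 0 := by
    rw [sub_pow_char, h1, one_pow, sub_self]
  exact sub_eq_zero.mp (pow_eq_zero_iff hp.out.ne_zero |>.mp h2)

theorem norm_pow_sub_one {ζ : PadicAlgCl p} (hζ : ζ ^ p = 1) {a : ℕ} (ha : (a : ResF p) ≠ 0) :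
    ‖ζ ^ a - 1‖ = ‖ζ - 1‖ := by
  obtain ⟨hn, hr⟩ := rd_root_p hζ
  have h1 : ζ ^ a - 1 = (∑ i ∈ Finset.range a, ζ ^ i) * (ζ - 1) := (geom_sum_mul _ _).symm
  rw [h1, norm_mul]
  have h2 : rd p (∑ i ∈ Finset.range a, ζ ^ i) = a := by
    rw [rd_sum _ _ (fun i _ => norm_pow_le' hn.le i)]
    rw [Finset.sum_congr rfl (fun i _ => by rw [rd_pow hn.le, hr, one_pow] :
      ∀ i ∈ Finset.range a, rd p (ζ ^ i) = 1)]
    simp
  rw [norm_eq_one_of_rd_ne_zero (by rw [h2]; exact ha), one_mul]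

theorem norm_zeta_sub_one {ζ : PadicAlgCl p} (hζ : IsPrimitiveRoot ζ p) :
    ‖ζ - 1‖ ^ (p - 1) = (p : ℝ)⁻¹ := by
  have hp1 : p - 1 + 1 = p := Nat.sub_add_cancel hp.out.one_lt.le
  have h1 : ∏ k ∈ Finset.range (p - 1), (1 - ζ ^ (k + 1)) = (p : PadicAlgCl p) := by
    have h2 : IsPrimitiveRoot ζ ((p - 1) + 1) := by rw [hp1]; exact hζ
    have := h2.prod_one_sub_pow_eq_order
    rw [this]
    have h3 : ((p - 1 : ℕ) : PadicAlgCl p) + 1 = ((p - 1 + 1 : ℕ) : PadicAlgCl p) := by push_cast; ring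
    rw [h3]
    exact congrArg _ hp1
  have h4 := congrArg norm h1
  rw [norm_prod, norm_natCast_p] at h4
  rw [← h4]
  rw [Finset.prod_congr rfl (fun k hk => ?_), Finset.prod_const, Finset.card_range]
  rw [← norm_neg, neg_sub]
  refine norm_pow_sub_one hζ.pow_eq_one ?_
  intro h0
  have h5 := (CharP.cast_eq_zero_iff (ResF p) p (k + 1)).mp h0
  have h6 := Nat.le_of_dvd (Nat.succ_pos _) h5
  have := Finset.mem_range.mp hk
  omega

theorem IsPi.norm_zeta {π : PadicAlgCl p} (hπ : IsPi π) {ζ : PadicAlgCl p}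
    (hζ : IsPrimitiveRoot ζ p) : ‖ζ - 1‖ = ‖π‖ ^ (p + 1) := by
  have h1 := norm_zeta_sub_one hζ
  have hp1 : p - 1 ≠ 0 := by have := hp.out.two_le; omega
  have h2 : (‖π‖ ^ (p + 1)) ^ (p - 1) = (p : ℝ)⁻¹ := by
    rw [← pow_mul, ← hπ.norm_pow]
    congr 1
    have := Nat.sq_sub_sq p 1
    simpa using this.symm
  exact (pow_left_inj₀ (norm_nonneg _) (by positivity) hp1).mp (h1.trans h2.symm)

/-- `ψ^{p+1}` is the cyclotomic character. -/
theorem IsPi.psi_cyc {π : PadicAlgCl p} (hπ : IsPi π) {ζ : PadicAlgCl p}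
    (hζ : IsPrimitiveRoot ζ p) {σ : GalLoc p} (hσ : σ ∈ inertiaLoc p) {a : ℕ}
    (ha : σ ζ = ζ ^ a) : psi π σ ^ (p + 1) = (a : ResF p) := by
  have hnz := hπ.norm_zeta hζ
  set u := (ζ - 1) / π ^ (p + 1) with hu
  have hπp : π ^ (p + 1) ≠ 0 := pow_ne_zero _ hπ.ne_zero
  have hunorm : ‖u‖ = 1 := by
    rw [hu, norm_div, hnz, _root_.norm_pow]
    exact div_self (pow_ne_zero _ hπ.norm_pos.ne')
  obtain ⟨hζn, hζr⟩ := rd_root_p hζ.pow_eq_one
  set g := ∑ i ∈ Finset.range a, ζ ^ i with hg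
  have hgr : rd p g = a := by
    rw [hg, rd_sum _ _ (fun i _ => norm_pow_le' hζn.le i)]
    rw [Finset.sum_congr rfl (fun i _ => by rw [rd_pow hζn.le, hζr, one_pow] :
      ∀ i ∈ Finset.range a, rd p (ζ ^ i) = 1)]
    simp
  have hgn : ‖g‖ ≤ 1 := norm_sum_le' _ _ zero_le_one (fun i _ => norm_pow_le' hζn.le i)
  have h1 : σ u * (σ π / π) ^ (p + 1) = g * u := by
    have hσπ : σ π ≠ 0 := fun h => hπ.ne_zero ((map_eq_zero_iff _ (AlgEquiv.injective _)).mp h)
    rw [hu, map_div₀, map_sub, map_one, ha, map_pow, div_pow,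
      ← geom_sum_mul ζ a, ← hg]
    field_simp
  have h2 := congrArg (rd p) h1
  rw [rd_mul (by rw [norm_apply]; exact hunorm.le) (norm_pow_le' (hπ.norm_root _).le _),
    rd_mul hgn hunorm.le, rd_inertia hσ hunorm.le, rd_pow (hπ.norm_root _).le, hgr, mul_comm] at h2
  exact mul_right_cancel₀ (rd_ne_zero_of_norm_eq_one hunorm) h2

end Cyc

section K1

variable {k₂ : Type*} [Field k₂] [CharP k₂ p]

theorem pow_zmod_add {ζ : PadicAlgCl p} (hζ : ζ ^ p = 1) (a b : ZMod p) :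
    ζ ^ (a + b).val = ζ ^ a.val * ζ ^ b.val := by
  rw [← pow_add, ZMod.val_add, ← pow_eq_pow_mod _ hζ]

theorem pow_zmod_mul {ζ : PadicAlgCl p} (hζ : ζ ^ p = 1) (n : ℕ) (b : ZMod p) :
    ζ ^ ((n : ZMod p) * b).val = (ζ ^ n) ^ b.val := by
  rw [← pow_mul, ZMod.val_mul, ← pow_eq_pow_mod _ hζ, pow_mul, pow_mul, ZMod.val_natCast,
    ← pow_eq_pow_mod _ hζ]

theorem exists_primitive : ∃ ζ : PadicAlgCl p, IsPrimitiveRoot ζ p := by
  haveI : NeZero ((p : ℕ) : PadicAlgCl p) := ⟨by exact_mod_cast hp.out.ne_zero⟩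
  exact HasEnoughRootsOfUnity.exists_primitiveRoot (PadicAlgCl p) p

/-- K1: on a line, the functions of `J` have maximal value exactly `‖π‖`. -/
theorem line_max (hp2 : p ≠ 2) {π : PadicAlgCl p} (hπ : IsPi π) {χ : inertiaLoc p →* k₂ˣ}
    (hχ : TameChar π χ) {O : Subalgebra (Wring p) (k₂ → PadicAlgCl p)}
    (h : IsOrder (mulRep χ) O) :
    (∀ φ, IsJ O φ → ∀ x, ‖φ x‖ ≤ ‖π‖) ∧ (∃ φ, IsJ O φ ∧ ∀ x, x ≠ 0 → ‖φ x‖ = ‖π‖) ∧
      ∃ lam : k₂ →+* ResF p, ∀ σ : inertiaLoc p, lam (χ σ : k₂) = psi π (σ : GalLoc p) := by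
  classical
  obtain ⟨ζ, hζ⟩ := exists_primitive (p := p)
  haveI : Finite k₂ := Nat.finite_of_card_ne_zero (by rw [hχ.card]; exact pow_ne_zero _ hp.out.ne_zero)
  haveI := Fintype.ofFinite k₂
  letI : Algebra (ZMod p) k₂ := ZMod.algebra k₂ p
  obtain ⟨T, hT⟩ : ∃ T : Module.Dual (ZMod p) k₂, T 1 ≠ 0 := by
    by_contra hcon
    push Not at hcon
    exact one_ne_zero ((Module.forall_dual_apply_eq_zero_iff (ZMod p) (1 : k₂)).mp hcon)
  let χ' : inertiaLoc p →* k₂ˣ := χ ^ p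
  have hχ'ap : ∀ σ, ((χ' σ : k₂ˣ) : k₂) = (χ σ : k₂) ^ p := fun σ => by
    change (((χ ^ p) σ : k₂ˣ) : k₂) = _
    rw [MonoidHom.pow_apply, Units.val_pow_eq_pow_val]
  have hχ' : TameChar π χ' := by
    refine ⟨hχ.card, fun σ a ha => ?_⟩
    rw [hχ'ap, ← pow_mul, mul_comm, pow_mul, hχ.cyc σ a ha]
    have : ((a : k₂)) ^ p = a := by
      have := map_natCast (frobenius k₂ p) a
      rwa [frobenius_def] at this
    exact this
  let e : k₂ → k₂ → PadicAlgCl p := fun c x => ζ ^ (T (c * x)).val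
  have he : Pairing (mulRep χ) (mulRep χ') e := by
    refine ⟨?_, ?_, ?_, ?_, ?_, ?_⟩
    · intro a b x
      change ζ ^ (T ((a + b) * x)).val = ζ ^ (T (a * x)).val * ζ ^ (T (b * x)).val
      rw [add_mul, map_add, pow_zmod_add hζ.pow_eq_one]
    · intro a x y
      change ζ ^ (T (a * (x + y))).val = ζ ^ (T (a * x)).val * ζ ^ (T (a * y)).val
      rw [mul_add, map_add, pow_zmod_add hζ.pow_eq_one]
    · intro a
      change ζ ^ (T (a * 0)).val = 1
      rw [mul_zero, map_zero, ZMod.val_zero, pow_zero]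
    · intro x
      change ζ ^ (T (0 * x)).val = 1
      rw [zero_mul, map_zero, ZMod.val_zero, pow_zero]
    · intro σ a x
      obtain ⟨i, _, hi⟩ := hζ.eq_pow_of_pow_eq_one (ξ := (σ : GalLoc p) ζ)
        (by rw [← map_pow, hζ.pow_eq_one, map_one])
      have h1 := hχ.cyc σ i (hπ.psi_cyc hζ σ.2 hi.symm)
      change ζ ^ (T (mulRep χ' σ a * mulRep χ σ x)).val = (σ : GalLoc p) (ζ ^ (T (a * x)).val)
      rw [mulRep_apply, mulRep_apply, hχ'ap, map_pow, ← hi]
      have h2 : (χ σ : k₂) ^ p * a * ((χ σ : k₂) * x) = (i : ZMod p) • (a * x) := by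
        rw [Algebra.smul_def, map_natCast, ← h1]; ring
      rw [h2, map_smul, smul_eq_mul, pow_zmod_mul hζ.pow_eq_one]
    · intro a b hab
      by_contra hne
      have h1 : T (a * (a - b)⁻¹) = T (b * (a - b)⁻¹) := by
        apply ZMod.val_injective p
        exact hζ.pow_inj (ZMod.val_lt _) (ZMod.val_lt _) (hab (a - b)⁻¹)
      have h2 : T ((a - b) * (a - b)⁻¹) = 0 := by
        rw [sub_mul, map_sub, h1, sub_self]
      rw [mul_inv_cancel₀ (sub_ne_zero.mpr hne)] at h2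
      exact hT h2
  obtain ⟨n, ⟨D⟩⟩ := h.exists_dualBasis e
  have h' : IsOrder (mulRep χ') (D.dual h he) := D.isOrder_dual h he
  obtain ⟨i, hi, lam, hle, hlead, ⟨φ₀, hφ₀, hφ₀'⟩, hlamχ⟩ := lead_line hp2 hχ hπ h
  obtain ⟨i', hi', lam', hle', hlead', -, -⟩ := lead_line hp2 hχ' hπ h'
  -- the pairing in terms of `J`
  have hpair : ∀ c x, e c x - 1 = ∑ j, (D.b j c - D.b j 0) * (D.a j x - D.a j 0) := by
    intro c x
    have e1 : ∑ j, (D.b j c - D.b j 0) * (D.a j x - D.a j 0)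
        = ∑ j, D.b j c * D.a j x - ∑ j, D.b j c * D.a j 0 - ∑ j, D.b j 0 * D.a j x
          + ∑ j, D.b j 0 * D.a j 0 := by
      rw [← Finset.sum_sub_distrib, ← Finset.sum_sub_distrib, ← Finset.sum_add_distrib]
      exact Finset.sum_congr rfl fun j _ => by ring
    rw [e1, ← D.expand, ← D.expand, ← D.expand, ← D.expand, he.zero_right, he.zero_left,
      he.zero_right]
    ring
  have hJ : ∀ j, IsJ O (fun x => D.a j x - D.a j 0) := fun j => h.sub_const_isJ (D.a_mem j)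
  have hJ' : ∀ j, IsJ (D.dual h he) (fun c => D.b j c - D.b j 0) := fun j =>
    h'.sub_const_isJ (D.b_mem_dual h he j)
  have hi1 : i = 1 := by
    rcases hi with hi | hi
    · exact hi
    exfalso
    have hπpos := hπ.norm_pos
    -- a pair with nontrivial pairing
    have hnt : rd p ((e 1 1 - 1) / π ^ (p + 1)) ≠ 0 := by
      apply rd_ne_zero_of_norm_eq_one
      have h1 : ((T 1).val : ResF p) ≠ 0 := by
        intro h0
        have h2 := (CharP.cast_eq_zero_iff (ResF p) p (T 1).val).mp h0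
        have h3 : (T 1).val = 0 := Nat.eq_zero_of_dvd_of_lt h2 (ZMod.val_lt _)
        exact hT ((ZMod.val_eq_zero _).mp h3)
      rw [norm_div, norm_pow]
      change ‖ζ ^ (T (1 * 1)).val - 1‖ / _ = 1
      rw [one_mul, norm_pow_sub_one hζ.pow_eq_one h1, hπ.norm_zeta hζ]
      exact div_self (pow_ne_zero _ hπpos.ne')
    have hterm : ∀ j c x, ‖(D.b j c - D.b j 0) * (D.a j x - D.a j 0) / π ^ (p + 1)‖
        ≤ ‖π‖ ^ (i' + i) / ‖π‖ ^ (p + 1) := by
      intro j c x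
      rw [norm_div, norm_mul, norm_pow, pow_add ‖π‖ i' i]
      have e1 := hle' _ (hJ' j) c
      have e2 := hle _ (hJ j) x
      exact div_le_div_of_nonneg_right (mul_le_mul e1 e2 (norm_nonneg _) (by positivity))
        (by positivity)
    rcases hi' with hi' | hi'
    · -- rank one
      choose α hα using fun j => hlead _ (hJ j)
      choose β hβ using fun j => hlead' _ (hJ' j)
      have hrank : ∀ c x, rd p ((e c x - 1) / π ^ (p + 1)) = (∑ j, β j * α j) * (lam' c * lam x) := by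
        intro c x
        rw [hpair, Finset.sum_div, rd_sum _ _ (fun j _ => ?_), Finset.sum_mul]
        · refine Finset.sum_congr rfl fun j _ => ?_
          have e3 : (D.b j c - D.b j 0) * (D.a j x - D.a j 0) / π ^ (p + 1)
              = ((D.b j c - D.b j 0) / π ^ i') * ((D.a j x - D.a j 0) / π ^ i) := by
            rw [hi, hi', div_mul_div_comm, ← pow_add, add_comm 1 p]
          have e4 : ‖(D.b j c - D.b j 0) / π ^ i'‖ ≤ 1 := by
            rw [norm_div, norm_pow]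
            exact div_le_one_of_le₀ (hle' _ (hJ' j) c) (by positivity)
          have e5 : ‖(D.a j x - D.a j 0) / π ^ i‖ ≤ 1 := by
            rw [norm_div, norm_pow]
            exact div_le_one_of_le₀ (hle _ (hJ j) x) (by positivity)
          rw [e3, rd_mul e4 e5]
          have e6 : rd p ((D.a j x - D.a j 0) / π ^ i) = α j * lam x := hα j x
          have e7 : rd p ((D.b j c - D.b j 0) / π ^ i') = β j * lam' c := hβ j c
          rw [e6, e7]; ring
        · refine (hterm j c x).trans ?_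
          rw [hi, hi', add_comm 1 p]
          exact (div_self (pow_ne_zero _ hπpos.ne')).le
      -- an isotropic vector
      obtain ⟨x, hx0, hTx⟩ : ∃ x : k₂, x ≠ 0 ∧ T x = 0 := by
        have hninj : ¬ Function.Injective T := by
          intro hinj
          have h1 := Fintype.card_le_of_injective T hinj
          rw [ZMod.card, ← Nat.card_eq_fintype_card, hχ.card] at h1
          have := hp.out.two_le
          nlinarith
        rw [injective_iff_map_eq_zero] at hninj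
        push Not at hninj
        obtain ⟨x, hx, hx0⟩ := hninj
        exact ⟨x, hx0, hx⟩
      have h1 := hrank 1 x
      have h2 : e 1 x = 1 := by
        change ζ ^ (T (1 * x)).val = 1
        rw [one_mul, hTx, ZMod.val_zero, pow_zero]
      rw [h2, sub_self, zero_div, rd_zero, map_one, one_mul] at h1
      have h3 : lam x ≠ 0 := (map_ne_zero lam).mpr hx0
      have h4 : (∑ j, β j * α j) = 0 := (mul_eq_zero.mp h1.symm).resolve_right h3
      apply hnt
      rw [hrank, h4, zero_mul]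
    · -- too small
      apply hnt
      apply rd_eq_zero_of_lt
      rw [hpair, Finset.sum_div]
      refine Finset.sum_induction _ (fun x => ‖x‖ < 1) (fun _ _ ha hb => norm_add_lt' ha hb)
        (by rw [norm_zero]; exact one_pos) (fun j _ => ?_)
      refine (hterm j 1 1).trans_lt ?_
      rw [div_lt_one (by positivity), hi, hi']
      apply pow_lt_pow_right_of_lt_one₀ hπpos hπ.norm_lt_one
      have := hp.out.two_le
      omega
  subst hi1
  simp only [pow_one] at hle hφ₀' hlamχ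
  exact ⟨hle, ⟨φ₀, hφ₀, hφ₀'⟩, lam, hlamχ⟩

end K1

end Fermat.Agent.Flat
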