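import Fermat.Agent.Flat.TameGen

/-!
# Inertia acts on a flat line by `1` or by the cyclotomic character
-/

set_option autoImplicit false

open GaloisRep Fermat.Agent.CFT.Loc Fermat.Agent.CFT

namespace Fermat.Agent.Flat

variable {p : ℕ} [hp : Fact p.Prime]

theorem conj_mem_inertia (F : GalLoc p) (τ : inertiaLoc p) :
    F * (τ : GalLoc p) * F⁻¹ ∈ inertiaLoc p :=
  (normal_inertiaLoc (l := p)).conj_mem _ τ.2 F

theorem conj_mem_inertia' (F : GalLoc p) (τ : inertiaLoc p) :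
    F⁻¹ * (τ : GalLoc p) * F ∈ inertiaLoc p := by
  have := (normal_inertiaLoc (l := p)).conj_mem _ τ.2 F⁻¹
  rwa [inv_inv] at this

/-- Inertia acts on a flat line by `1` or by the cyclotomic character. -/
theorem line_char {k : Type*} [Field k] [CharP k p] [Finite k]
    {u : inertiaLoc p →* kˣ} {O : Subalgebra (Wring p) (k → PadicAlgCl p)}
    (h : IsOrder (mulRep u) O) {F : GalLoc p} (hF : ∀ r, resAct p F r = r ^ p)
    (hu : ∀ τ : inertiaLoc p, u ⟨F * τ * F⁻¹, conj_mem_inertia F τ⟩ = u τ)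
    {ζ : PadicAlgCl p} (hζ : IsPrimitiveRoot ζ p) :
    (∀ τ, u τ = 1) ∨ (∀ (τ : inertiaLoc p) (a : ℕ), (τ : GalLoc p) ζ = ζ ^ a →
      ((u τ : kˣ) : k) = a) := by
  classical
  by_cases hc : ∀ τ, u τ = 1
  · exact Or.inl hc
  right
  push Not at hc
  obtain ⟨τ₁, hτ₁⟩ := hc
  have hconn : ∀ x : k, x ∈ connPart h := by
    intro x
    have hne : ((u τ₁ : kˣ) : k) - 1 ≠ 0 := by
      rw [sub_ne_zero]
      intro h1
      exact hτ₁ (Units.ext h1)
    have h1 := sub_mem_connPart h τ₁ (x / (((u τ₁ : kˣ) : k) - 1))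
    rw [mulRep_apply] at h1
    have h2 : ((u τ₁ : kˣ) : k) * (x / (((u τ₁ : kˣ) : k) - 1)) - x / (((u τ₁ : kˣ) : k) - 1) = x := by
      field_simp
    rwa [h2] at h1
  obtain ⟨φ₀, hφ₀, m₀, hmax⟩ := h.exists_max
  set z := φ₀ m₀ with hzdef
  have hz : z ≠ 0 := by
    intro h0
    have h1 : (1 : k) = 0 := by
      refine h.separates _ _ (fun φ hφ => ?_)
      have h2 := hmax _ (h.sub_const_isJ hφ) 1
      rw [h0, norm_zero] at h2
      exact sub_eq_zero.mp (norm_le_zero_iff.mp h2)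
    exact one_ne_zero h1
  have hz1 : ‖z‖ < 1 := hconn m₀ φ₀ hφ₀
  have hm₀ : rd p (φ₀ m₀ / z) = 1 := by rw [← hzdef, div_self hz, rd_one]
  -- `χ` is a natural number
  have hchi : ∀ τ : inertiaLoc p, ∃ a : ℕ, chz z (τ : GalLoc p) = a := by
    intro τ
    apply exists_nat_of_pow_eq
    have h1 := lead_equiv h hz hmax hφ₀ τ m₀
    have h2 := lead_equiv h hz hmax hφ₀ ⟨F * τ * F⁻¹, conj_mem_inertia F τ⟩ m₀
    rw [mulRep_apply, hu τ, ← mulRep_apply, h1, hm₀, mul_one, mul_one, chz_conj hz F τ.2, hF] at h2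
    exact h2.symm
  have hunat : ∀ (τ : inertiaLoc p) (a : ℕ), chz z (τ : GalLoc p) = a → ((u τ : kˣ) : k) = a := by
    intro τ a ha
    by_contra hne
    set d := ((u τ : kˣ) : k) - a with hd
    have hd0 : d ≠ 0 := sub_ne_zero.mpr hne
    let b : k →+ ResF p := AddMonoidHom.mk' (fun x => rd p (φ₀ (m₀ / d * x) / z)) (fun x y => by
      rw [mul_add]; exact lead_add h hz hz1 hmax hφ₀ _ _)
    have hb : ∀ x, b x = rd p (φ₀ (m₀ / d * x) / z) := fun _ => rfl
    have h1 : b (((u τ : kˣ) : k) * 1) = chz z (τ : GalLoc p) * b 1 := by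
      rw [hb, hb, ← lead_equiv h hz hmax hφ₀, mulRep_apply]
      congr 3
      ring
    have h2 : b d = 0 := by
      have h3 : d = ((u τ : kˣ) : k) * 1 - a • (1 : k) := by rw [hd, nsmul_eq_mul]; ring
      rw [h3, map_sub, map_nsmul, h1, ha, nsmul_eq_mul, sub_self]
    rw [hb, div_mul_cancel₀ _ hd0, hm₀] at h2
    exact one_ne_zero h2
  -- the value group
  have hpow : ∀ τ : inertiaLoc p, u τ ^ (p - 1) = 1 := by
    intro τ
    obtain ⟨a, ha⟩ := hchi τ
    have h1 := hunat τ a ha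
    have h2 : ((u τ : kˣ) : k) ^ p = ((u τ : kˣ) : k) := by
      rw [h1]
      have := map_natCast (frobenius k p) a
      rwa [frobenius_def] at this
    ext
    rw [Units.val_pow_eq_pow_val, Units.val_one]
    rw [← pow_sub_one_mul hp.out.ne_zero] at h2
    exact mul_right_cancel₀ (Units.ne_zero _) (by rw [h2, one_mul])
  haveI : Finite u.range := inferInstance
  have hdvd : Nat.card u.range ∣ p - 1 := by
    obtain ⟨g, hg⟩ := IsCyclic.exists_generator (α := u.range)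
    rw [← orderOf_eq_card_of_forall_mem_zpowers hg]
    apply orderOf_dvd_of_pow_eq_one
    obtain ⟨_, τ, rfl⟩ := g
    exact Subtype.ext (hpow τ)
  obtain ⟨n, hn⟩ := norm_pow_card u.rangeRestrict hz (fun σ hσ => by
    have h1 : u σ = 1 := congrArg Subtype.val hσ
    have h2 := h.equivariant' hφ₀.1 σ m₀
    rw [mulRep_apply, h1, Units.val_one, one_mul] at h2
    exact h2.symm)
  obtain ⟨c, hc⟩ := hdvd
  have hn' : ‖z‖ ^ (p - 1) = (p : ℝ) ^ (n * c) := by
    rw [hc, pow_mul, hn, zpow_mul]; norm_cast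
  have hbound := h.bound (fun m => by rw [nsmul_eq_mul, CharP.cast_eq_zero, zero_mul]) hφ₀ m₀ hmax
    hz hz1
  have hp1 := one_lt_p (p := p)
  have hp10 : p - 1 ≠ 0 := by have := hp.out.two_le; omega
  have hval : ‖z‖ ^ (p - 1) = (p : ℝ)⁻¹ := by
    rw [hn'] at hbound ⊢
    have h1 : (p : ℝ) ^ (n * c) < 1 := by
      rw [← hn']; exact pow_lt_one₀ (norm_nonneg _) hz1 hp10
    have h2 : n * c < 0 := by
      by_contra hcon
      push Not at hcon
      exact absurd (one_le_zpow₀ hp1.le hcon) (not_le.mpr h1)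
    have h3 : -1 ≤ n * c := by
      rw [← zpow_neg_one] at hbound
      exact (zpow_le_zpow_iff_right₀ hp1).mp hbound
    have h4 : n * c = -1 := by omega
    rw [h4, zpow_neg_one]
  have hnorm : ‖ζ - 1‖ = ‖z‖ :=
    (pow_left_inj₀ (norm_nonneg _) (norm_nonneg _) hp10).mp ((norm_zeta_sub_one hζ).trans hval.symm)
  intro τ a ha
  obtain ⟨a', ha'⟩ := hchi τ
  have h1 := chz_zeta hζ ha
  rw [chz_unit hz hnorm τ.2, ha'] at h1
  have h2 := (CharP.natCast_eq_natCast (ResF p) p).mp h1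
  rw [hunat τ a' ha']
  exact (CharP.natCast_eq_natCast k p).mpr h2

end Fermat.Agent.Flat
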