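import Fermat.Agent.Flat.SuperK
import Fermat.Agent.Flat.Count
import Fermat.Agent.TW.Ad

/-!
# The local bound: definition and the irreducible case
-/

set_option autoImplicit false

open GaloisRep Fermat.Agent.CFT.Loc Fermat.Agent.CFT Matrix Fermat.Agent.TW

namespace Fermat.Agent.Flat

local notation "M₂" => Matrix (Fin 2) (Fin 2)

variable {p : ℕ} [hp : Fact p.Prime] {k : Type} [Field k] [Algebra (ZMod p) k]
  {r : GalLoc p →* M₂ k}

/-- the underlying matrix valued cocycle -/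
def cM (c : ↥(Z1 (locLevels p) (adRep (p := p) r 1))) (g : GalLoc p) : M₂ k := (c.1 g : M₂ k)

theorem isCoc_cM (c : ↥(Z1 (locLevels p) (adRep (p := p) r 1))) : IsCoc r (cM c) := by
  intro g h
  have h1 := (mem_Z1.mp c.2).2 g h
  have h2 := congrArg (fun m : sl k => (m : M₂ k)) h1
  rw [cM, cM, cM]
  simp only [Submodule.coe_add] at h2
  rw [h2, adRep_one_apply, add_comm]

theorem lc_cM (c : ↥(Z1 (locLevels p) (adRep (p := p) r 1))) : (locLevels p).LC (cM c) :=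
  (mem_Z1.mp c.2).1.comp (fun m : sl k => (m : M₂ k))

theorem tr_cM (c : ↥(Z1 (locLevels p) (adRep (p := p) r 1))) (g : GalLoc p) :
    (cM c g).trace = 0 := mem_sl.mp (c.1 g).2

theorem mk_eq_zero_of_dmat {c : ↥(Z1 (locLevels p) (adRep (p := p) r 1))} {m : M₂ k}
    (hm : m.trace = 0) (h : ∀ g, cM c g = dmat r m g) :
    H1.mk (locLevels p) (adRep (p := p) r 1) c = 0 := by
  rw [H1.mk_eq_zero, mem_B1]
  refine ⟨⟨m, mem_sl.mpr hm⟩, fun g => Subtype.ext ?_⟩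
  rw [Submodule.coe_sub, adRep_one_apply]
  exact h g

/-- the local bound -/
def LocBound (p : ℕ) [hp : Fact p.Prime] {k : Type} [Field k] [Algebra (ZMod p) k]
    (r : GalLoc p →* M₂ k) : Prop :=
  ∃ L : Submodule (ZMod p) (H1 (locLevels p) (adRep (p := p) r 1)),
    Module.finrank (ZMod p) L ≤ Module.finrank (ZMod p) (adRep (p := p) r 1).invariants +
      Module.finrank (ZMod p) k ∧
    ∀ c : ↥(Z1 (locLevels p) (adRep (p := p) r 1)), FlatC r (cM c) (isCoc_cM c) →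
      H1.mk (locLevels p) (adRep (p := p) r 1) c ∈ L

section Family

variable {π ζ : PadicAlgCl p}

theorem kat_add (hπ : IsPi π) (hζ : ζ ^ p = 1) {φ₀ : k →+ ZMod p} {f f' : GalLoc p → k} {i : ℕ}
    (hi : 1 ≤ i) (h : KAt ζ π (fam φ₀ f) i) (h' : KAt ζ π (fam φ₀ f') i) {f'' : GalLoc p → k}
    (hf : ∀ σ ∈ Gt π, f'' σ = f σ + f' σ) : KAt ζ π (fam φ₀ f'') i := fun b => by
  obtain ⟨y, hy⟩ := h b
  obtain ⟨y', hy'⟩ := h' b
  exact ⟨y * y', (hy.mul hπ hζ hy' hi).congr (fun σ hσ => by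
    rw [fam, fam, fam, hf σ hσ, mul_add, map_add])⟩

theorem kat_neg (hπ : IsPi π) (hζ : ζ ^ p = 1) {φ₀ : k →+ ZMod p} {f : GalLoc p → k} {i : ℕ}
    (hi : 1 ≤ i) (h : KAt ζ π (fam φ₀ f) i) {f'' : GalLoc p → k}
    (hf : ∀ σ ∈ Gt π, f'' σ = - f σ) : KAt ζ π (fam φ₀ f'') i := fun b => by
  obtain ⟨y, hy⟩ := h b
  exact ⟨y⁻¹, (hy.inv hπ hζ hi).congr (fun σ hσ => by
    rw [fam, fam, hf σ hσ, mul_neg, map_neg])⟩

theorem kat_zero (hπ : IsPi π) {φ₀ : k →+ ZMod p} {i : ℕ} {f'' : GalLoc p → k}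
    (hf : ∀ σ ∈ Gt π, f'' σ = 0) : KAt ζ π (fam φ₀ f'') i := fun b =>
  ⟨1, (Kum.one hπ).congr (fun σ hσ => by rw [fam, hf σ hσ, mul_zero, map_zero])⟩

end Family

section Super

variable [CharP k p] [Finite k] {F : GalLoc p} {χ : inertiaLoc p →* kˣ} {β γ : k}
  {π ζ : PadicAlgCl p}

theorem SD.locBound (hS : SD p r F χ β γ π ζ) (hlcr : (locLevels p).LC r) : LocBound p r := by
  classical
  obtain ⟨P, T, hP, hT⟩ := exists_PT p k
  obtain ⟨σ₀, a, hord, ha, hak, haκ, hgen⟩ := hS.gen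
  obtain ⟨lam, hlam⟩ := hS.exists_lam
  obtain ⟨aF, haF⟩ := exists_zmod_val hS.hζ (F * F)
  have hp3 := hS.three_le
  have hpp : 3 * p ≤ p ^ 2 := by rw [sq]; exact Nat.mul_le_mul_right p hp3
  have hp4 : p * (p + 1) = p ^ 2 + p := by ring
  have hζp := hS.hζ.pow_eq_one
  set φ₀ := phi0 P T with hφ₀
  have hi1 : 1 ≤ p ^ 2 + 1 := by omega
  have hdvd1 : ¬ p ∣ p ^ 2 + 1 := by
    intro h
    have h3 : p ∣ 1 := (Nat.dvd_add_right (dvd_pow_self p two_ne_zero)).mp h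
    have := Nat.le_of_dvd one_pos h3
    omega
  let A := ↥(Z1 (locLevels p) (adRep (p := p) r 1))
  have hcadd : ∀ (c c' : A) g, cM (c + c') g = cM c g + cM c' g := fun _ _ _ => rfl
  have hcneg : ∀ (c : A) g, cM (-c) g = -cM c g := fun _ _ => rfl
  have hczero : ∀ g, cM (0 : A) g = 0 := fun _ => rfl
  let Z' : AddSubgroup A :=
    { carrier := {c | (∀ σ ∈ Gt π, cM c σ 0 0 = 0) ∧
        KAt ζ π (fam φ₀ (fun σ => cM c σ 0 1)) (p ^ 2 + 1)}
      add_mem' := fun {c c'} hc hc' => ⟨fun σ hσ => by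
          rw [hcadd, Matrix.add_apply, hc.1 σ hσ, hc'.1 σ hσ, add_zero],
        kat_add hS.hπ hζp hi1 hc.2 hc'.2 (fun σ _ => by rw [hcadd, Matrix.add_apply])⟩
      zero_mem' := ⟨fun σ _ => by rw [hczero, Matrix.zero_apply],
        kat_zero hS.hπ (fun σ _ => by rw [hczero, Matrix.zero_apply])⟩
      neg_mem' := fun {c} hc => ⟨fun σ hσ => by
          rw [hcneg, Matrix.neg_apply, hc.1 σ hσ, neg_zero],
        kat_neg hS.hπ hζp hi1 hc.2 (fun σ _ => by rw [hcneg, Matrix.neg_apply])⟩ }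
  have hZ' : ∀ c : A, c ∈ Z' ↔ (∀ σ ∈ Gt π, cM c σ 0 0 = 0) ∧
      KAt ζ π (fam φ₀ (fun σ => cM c σ 0 1)) (p ^ 2 + 1) := fun _ => Iff.rfl
  have hfam : ∀ c : A, KFam π (fam φ₀ (fun σ => cM c σ 0 1)) := fun c =>
    hS.kfam (isCoc_cM c) (lc_cM c) φ₀ 1 (AddMonoidHom.id k)
  let Λ : Z' →+ (k →+ ResF p) := AddMonoidHom.mk'
    (fun c => lead hS.hπ hζp (hfam c) c.2.2 hi1 hdvd1) (fun c c' => by
      apply AddMonoidHom.ext
      intro b
      obtain ⟨y, hy⟩ := c.2.2 b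
      obtain ⟨y', hy'⟩ := c'.2.2 b
      rw [AddMonoidHom.add_apply, lead_eq hS.hπ hζp (hfam c) c.2.2 hi1 hdvd1 (fun _ _ => rfl) hy,
        lead_eq hS.hπ hζp (hfam c') c'.2.2 hi1 hdvd1 (fun _ _ => rfl) hy',
        ← Kum.lc_mul hS.hπ hy hy' hi1]
      refine lead_eq hS.hπ hζp (hfam _) _ hi1 hdvd1 (fun σ _ => ?_) (hy.mul hS.hπ hζp hy' hi1)
      change fam φ₀ (fun σ => cM (c : A) σ 0 1) b σ + fam φ₀ (fun σ => cM (c' : A) σ 0 1) b σ =
        fam φ₀ (fun σ => cM ((c : A) + (c' : A)) σ 0 1) b σ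
      rw [fam, fam, fam, hcadd, Matrix.add_apply, mul_add, map_add])
  have hΛ : ∀ c : Z', Λ c = lead hS.hπ hζp (hfam c) c.2.2 hi1 hdvd1 := fun _ => rfl
  -- the target set
  set x : K2 p k := (chi2 χ hS.form.sq σ₀ : K2 p k) ^ (2 * p) with hx
  have hlx : lam x = psi π (σ₀ : GalLoc p) ^ (2 * p) := by rw [hx, map_pow, hlam]
  have hxp : x ^ p ≠ x := by
    intro h1
    have h3 := congrArg lam h1
    rw [map_pow, hlx, ← pow_mul, psi_pow_eq_iff hS.hπ hord] at h3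
    have h4 : 2 * p * p ≡ 2 [MOD p ^ 2 - 1] := by
      have h1 : 2 * p * p = 2 * (p ^ 2 - 1) + 2 := by
        have : 2 * p * p = 2 * p ^ 2 := by ring
        rw [this]; omega
      rw [h1]
      exact (Nat.modEq_iff_dvd' (by omega)).mpr ⟨2, by omega⟩ |>.symm
    rcases modEq_cases (by omega : 2 < p ^ 2 - 1) (by omega) (h3.symm.trans h4) with h5 | h5 <;>
      omega
  let S : Set (k →+ ResF p) := {a | (∀ b, a (x • b) = psi π (σ₀ : GalLoc p) ^ (p ^ 2 + 1) * a b) ∧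
    ∀ b, a b ^ (p ^ 2) = (aF.val : ResF p) * a b}
  obtain ⟨hSfin, hScard⟩ := card_semilin (κ := ResF p) hS.card_K2 hxp (S := S)
    (fun a ha => ha.1) (fun a ha => ha.2)
  have hpsiF : psi π (F * F) = 1 := by
    rw [psi, AlgEquiv.mul_apply, hS.fix, hS.fix, div_self hS.hπ.ne_zero, rd_one]
  have hΛS : ∀ c, Λ c ∈ S := by
    intro c
    refine ⟨fun b => ?_, fun b => ?_⟩
    · rw [hΛ, lead_conj hS.hπ hζp (hfam c) c.2.2 hi1 hdvd1 (σ₀ : GalLoc p) ha
        (w := b) (w' := x • b) (fun σ hσ => hS.rel01 (isCoc_cM (c : A)) φ₀ σ₀ hak b hσ),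
        psi_eq_of_resAct σ₀.2, mul_comm]
    · have h1 := lead_conj hS.hπ hζp (hfam c) c.2.2 hi1 hdvd1 (F * F) haF
        (w := b) (w' := aF.val • b) (fun σ hσ => by
          rw [fam, fam, ← phi_val_mul]
          congr 1
          rw [hS.conj_frob2 (isCoc_cM (c : A)) hσ, nsmul_eq_mul]
          ring)
      rw [hpsiF, one_pow, mul_one, resAct_mul_apply, hS.frob, hS.frob, ← pow_mul, ← sq,
        map_nsmul, nsmul_eq_mul] at h1
      rw [hΛ]
      exact h1.symm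
  have hker : ∀ c : Z', Λ c = 0 → (H1.mk (locLevels p) (adRep (p := p) r 1)) (c : A) = 0 := by
    intro c hc
    have hg := hfam (c : A)
    have hlead : ∀ w, lead hS.hπ hζp (hfam c) c.2.2 hi1 hdvd1 w = 0 := fun w => by
      rw [← hΛ, hc]; rfl
    have h1 := c.2.2.succ_of_lead hS.hπ hζp hg hi1 (by omega) hdvd1 hlead
    have hx2 : x ^ (p ^ 2) = x := Subtype.ext x.2
    have hmod : 2 * p * p ≡ 2 [MOD p ^ 2 - 1] := by
      have h1 : 2 * p * p = 2 * (p ^ 2 - 1) + 2 := by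
        have : 2 * p * p = 2 * p ^ 2 := by ring
        rw [this]; omega
      rw [h1]
      exact (Nat.modEq_iff_dvd' (by omega)).mpr ⟨2, by omega⟩ |>.symm
    have h2 := h1.climb hS.hπ hζp hg (i₁ := p * (p + 1)) (by omega) le_rfl (by omega)
      (fun i hi hi' h hi1 hdvd w => by
        refine lead_eq_zero_of_idx hS.hπ hζp hg h hi1 hdvd lam hord ha hx2 hlx
          (fun b σ hσ => hS.rel01 (isCoc_cM (c : A)) φ₀ σ₀ hak b hσ) ?_ ?_ w
        · intro h5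
          rcases modEq_cases (by omega : 2 * p < p ^ 2 - 1) (by omega) h5 with h6 | h6
          · exact hdvd ⟨2, by omega⟩
          · omega
        · intro h5
          rcases modEq_cases (by omega : 2 < p ^ 2 - 1) (by omega) (h5.trans hmod) with h6 | h6 <;>
            omega)
    have h01 : ∀ σ ∈ Gt π, cM (c : A) σ 0 1 = 0 := fun σ hσ =>
      eq_zero_of_kat hS.hπ hS.hζ (phi0_nonDeg hP hT) h2 hσ
    have h00 : ∀ σ ∈ Gt π, cM (c : A) σ 0 0 = 0 := c.2.1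
    have h10 : ∀ σ ∈ Gt π, cM (c : A) σ 1 0 = 0 := by
      intro σ hσ
      have h3 := (hS.conj_frob (isCoc_cM (c : A)) (tr_cM (c : A)) hσ).2
      rw [h01 _ (hS.hπ.conj_mem F hσ), mul_zero] at h3
      exact (mul_eq_zero.mp h3.symm).resolve_left hS.bg_ne_zero.1
    have h0 : ∀ σ ∈ Gt π, cM (c : A) σ = 0 := by
      intro σ hσ
      have h3 := tr_cM (c : A) σ
      rw [Matrix.trace_fin_two, h00 σ hσ, zero_add] at h3
      ext i j
      fin_cases i <;> fin_cases j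
      · exact h00 σ hσ
      · exact h01 σ hσ
      · exact h10 σ hσ
      · exact h3
    obtain ⟨m, hm, hcm⟩ := hS.exists_dmat (isCoc_cM (c : A)) (lc_cM (c : A)) hlcr (tr_cM (c : A)) h0
    exact mk_eq_zero_of_dmat hm hcm
  obtain ⟨hfin, hcard⟩ := card_map_le
    (H1.mk (locLevels p) (adRep (p := p) r 1)).toAddMonoidHom Z' Λ hSfin hΛS hker
  refine ⟨AddSubgroup.toZModSubmodule p
    (Z'.map (H1.mk (locLevels p) (adRep (p := p) r 1)).toAddMonoidHom), ?_, fun c hc => ?_⟩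
  · haveI : Finite (AddSubgroup.toZModSubmodule p
      (Z'.map (H1.mk (locLevels p) (adRep (p := p) r 1)).toAddMonoidHom)) := hfin
    refine (finrank_le_of_card _ (n := Module.finrank (ZMod p) k) ?_).trans (Nat.le_add_left _ _)
    rw [← card_eq_pow]
    exact hcard.trans hScard
  · refine ⟨c, (hZ' c).mpr ⟨?_, ?_⟩, rfl⟩
    · exact hS.zero00 (isCoc_cM c) (lc_cM c) (tr_cM c) hc
    · exact hS.kat01 (isCoc_cM c) (lc_cM c) hc hP hT

end Super

end Fermat.Agent.Flat
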