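import Fermat.Agent.Flat.RedClass

/-!
# The local bound
-/

set_option autoImplicit false

open GaloisRep Fermat.Agent.CFT.Loc Fermat.Agent.CFT Matrix Fermat.Agent.TW

namespace Fermat.Agent.Flat

local notation "M₂" => Matrix (Fin 2) (Fin 2)

variable {p : ℕ} [hp : Fact p.Prime]

/-- The local bound for flat classes. -/
theorem locBound {k : Type} [Field k] [Algebra (ZMod p) k] [CharP k p] [Finite k]
    {r : GalLoc p →* M₂ k} (hp2 : p ≠ 2) (hlc : (locLevels p).LC r)
    (hdet : ∀ τ ∈ inertiaLoc p, ∀ (ζ : PadicAlgCl p) (a : ℕ), IsPrimitiveRoot ζ p →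
      τ ζ = ζ ^ a → (r τ).det = a)
    (hsplit : ∀ σ, ∃ α β : k,
      (r σ).charpoly = (Polynomial.X - Polynomial.C α) * (Polynomial.X - Polynomial.C β)) :
    LocBound p r := by
  classical
  by_cases hex : ∃ c : ↥(Z1 (locLevels p) (adRep (p := p) r 1)), FlatC r (cM c) (isCoc_cM c)
  · obtain ⟨c, hc⟩ := hex
    have hfl := hc.flatV
    obtain ⟨π, hπ⟩ : ∃ π : PadicAlgCl p, IsPi π := exists_isPi
    obtain ⟨ζ, hζ⟩ : ∃ ζ : PadicAlgCl p, IsPrimitiveRoot ζ p := exists_primitive
    obtain ⟨F, hF, hFπ⟩ := hπ.exists_frob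
    by_cases hline : NoLine r
    · obtain ⟨O, hO⟩ := hfl
      obtain ⟨σ₀, a, ha, hne⟩ := exists_cyc_ne hp2 hπ hζ k
      obtain ⟨P, r', χ, β, γ, hP, h, hform⟩ := exists_superForm hO hlc hline
        ⟨σ₀, σ₀.2, fun h1 => by
          have h2 := hdet σ₀ σ₀.2 ζ a.val hζ ha
          rw [h1, Matrix.det_one] at h2
          exact hne h2.symm⟩ hsplit hF
      have hS : SD p r' F χ β γ π ζ :=
        { hp2 := hp2
          form := hform
          hπ := hπ
          hζ := hζ
          frob := hF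
          fix := hFπ
          cyc := fun τ a ha => by
            have h1 := hdet τ τ.2 ζ a hζ ha
            rw [← det_conj hP h, hform.inertia, Matrix.det_fin_two_of, mul_zero, sub_zero] at h1
            rw [pow_succ', h1]
          flat := FlatV_conj hP h ⟨O, hO⟩ }
      exact (hS.locBound (LC_conj hP h hlc)).conj hP h
    · obtain ⟨P, r', hP, h, hR⟩ := exists_RD hp2 hπ hζ hF hFπ hfl hlc
        (fun τ hτ a ha => hdet τ hτ ζ a hζ ha) hline
      exact hR.locBound.conj hP h
  · exact ⟨⊥, by rw [finrank_bot]; exact Nat.zero_le _, fun c hc => absurd ⟨c, hc⟩ hex⟩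

end Fermat.Agent.Flat
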