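import Fermat.Agent.Flat.BaseChange
import Fermat.Agent.Flat.Global
import Fermat.Agent.CFT.Loc.ValueGroup

/-!
# The local setting: `Ω = ℚ̄_p`, `G =` inertia group, `R = W` = ring of integers of `ℚ_p^nr`
-/

set_option autoImplicit false

open GaloisRep Fermat.Agent.CFT.Loc

namespace Fermat.Agent.Flat

variable (p : ℕ) [hp : Fact p.Prime]

/-- the ring of integers of the maximal unramified extension -/
def Wring : Subring (PadicAlgCl p) where
  carrier := {x | ‖x‖ ≤ 1 ∧ ∀ σ ∈ inertiaLoc p, σ x = x}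
  mul_mem' := by
    rintro x y ⟨hx, hx'⟩ ⟨hy, hy'⟩
    refine ⟨?_, fun σ hσ => by rw [map_mul, hx' σ hσ, hy' σ hσ]⟩
    rw [norm_mul]
    exact mul_le_one₀ hx (norm_nonneg _) hy
  one_mem' := ⟨by rw [norm_one], fun σ _ => map_one σ⟩
  add_mem' := by
    rintro x y ⟨hx, hx'⟩ ⟨hy, hy'⟩
    exact ⟨(IsUltrametricDist.norm_add_le_max _ _).trans (max_le hx hy),
      fun σ hσ => by rw [map_add, hx' σ hσ, hy' σ hσ]⟩
  zero_mem' := ⟨by rw [norm_zero]; exact zero_le_one, fun σ _ => map_zero σ⟩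
  neg_mem' := by
    rintro x ⟨hx, hx'⟩
    exact ⟨by rwa [norm_neg], fun σ hσ => by rw [map_neg, hx' σ hσ]⟩

variable {p}

theorem mem_Wring {x : PadicAlgCl p} :
    x ∈ Wring p ↔ ‖x‖ ≤ 1 ∧ ∀ σ ∈ inertiaLoc p, σ x = x := Iff.rfl

/-- value group of `ℚ_p^nr` -/
theorem exists_norm_eq_zpow {x : PadicAlgCl p} (hx : x ≠ 0) (h : ∀ σ ∈ inertiaLoc p, σ x = x) :
    ∃ n : ℤ, ‖x‖ = (p : ℝ) ^ n := by
  obtain ⟨z, hz, hzx⟩ := exists_norm_eq_of_inertia (K := (⊥ : IntermediateField ℚ_[p] (PadicAlgCl p)))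
    hx (fun g hg _ => h g hg)
  obtain ⟨q, rfl⟩ := IntermediateField.mem_bot.mp hz
  have hq : q ≠ 0 := by
    rintro rfl
    rw [map_zero, norm_zero] at hzx
    exact hx (norm_eq_zero.mp hzx.symm)
  refine ⟨-q.valuation, ?_⟩
  rw [← hzx]
  have := PadicAlgCl.norm_extends p q
  rw [Padic.norm_eq_zpow_neg_valuation hq] at this
  exact this

theorem one_lt_p : (1 : ℝ) < p := by exact_mod_cast hp.out.one_lt

theorem inertia_smul_def (σ : inertiaLoc p) (x : PadicAlgCl p) : σ • x = (σ : GalLoc p) x := rfl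

instance setupLocal : Setup (Wring p) (PadicAlgCl p) (inertiaLoc p) where
  inj := Subtype.val_injective
  smul_algebraMap σ r := r.2.2 σ σ.2
  exists_frac x hx := by
    have hx' : ∀ σ ∈ inertiaLoc p, σ x = x := fun σ hσ => hx ⟨σ, hσ⟩
    rcases le_total ‖x‖ 1 with h | h
    · refine ⟨⟨x, h, hx'⟩, 1, one_ne_zero, ?_⟩
      rw [map_one, one_mul]; rfl
    · have hx0 : x ≠ 0 := by
        rintro rfl
        rw [norm_zero] at h
        exact absurd h (by norm_num)
      refine ⟨1, ⟨x⁻¹, ?_, fun σ hσ => by rw [map_inv₀, hx' σ hσ]⟩, ?_, ?_⟩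
      · rw [norm_inv]; exact inv_le_one_of_one_le₀ h
      · intro h0
        have := congrArg Subtype.val h0
        exact inv_ne_zero hx0 this
      · rw [map_one]
        exact inv_mul_cancel₀ hx0

instance isPrincipalIdealRing_Wring : IsPrincipalIdealRing (Wring p) where
  principal I := by
    classical
    by_cases hI : I = ⊥
    · exact ⟨0, by rw [hI]; simp⟩
    obtain ⟨y, hyI, hy0⟩ := Submodule.exists_mem_ne_zero_of_ne_bot hI
    have hex : ∃ n : ℕ, ∃ x ∈ I, ‖(x : PadicAlgCl p)‖ = (p : ℝ) ^ (-(n : ℤ)) := by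
      obtain ⟨n, hn⟩ := exists_norm_eq_zpow (x := (y : PadicAlgCl p))
        (fun h => hy0 (Subtype.ext h)) y.2.2
      have hn0 : n ≤ 0 := by
        by_contra hcon
        push Not at hcon
        have := one_lt_zpow₀ (one_lt_p (p := p)) hcon
        rw [← hn] at this
        exact absurd y.2.1 (not_le.mpr this)
      refine ⟨(-n).toNat, y, hyI, ?_⟩
      rw [hn]; congr 1; omega
    obtain ⟨x, hxI, hx⟩ := Nat.find_spec hex
    refine ⟨x, le_antisymm ?_ ?_⟩
    · intro z hz
      have hppos : (0 : ℝ) < p := by linarith [one_lt_p (p := p)]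
      have hx0 : (x : PadicAlgCl p) ≠ 0 := by
        intro h0
        rw [h0, norm_zero] at hx
        exact absurd hx (zpow_pos hppos _).ne
      by_cases hz0 : (z : PadicAlgCl p) = 0
      · rw [show z = 0 from Subtype.ext hz0]; exact Submodule.zero_mem _
      have hle : ‖(z : PadicAlgCl p)‖ ≤ ‖(x : PadicAlgCl p)‖ := by
        obtain ⟨n, hn⟩ := exists_norm_eq_zpow hz0 z.2.2
        have hn0 : n ≤ 0 := by
          by_contra hcon
          push Not at hcon
          have := one_lt_zpow₀ (one_lt_p (p := p)) hcon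
          rw [← hn] at this
          exact absurd z.2.1 (not_le.mpr this)
        have h1 := Nat.find_min' hex (m := (-n).toNat) ⟨z, hz, by rw [hn]; congr 1; omega⟩
        rw [hx, hn]
        exact zpow_le_zpow_right₀ (one_lt_p (p := p)).le (by omega)
      refine Submodule.mem_span_singleton.mpr ⟨⟨z / x, ?_, fun σ hσ => by
        rw [map_div₀, z.2.2 σ hσ, x.2.2 σ hσ]⟩, ?_⟩
      · rw [norm_div]; exact div_le_one_of_le₀ hle (norm_nonneg _)
      · apply Subtype.ext
        change (z : PadicAlgCl p) / x * x = z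
        exact div_mul_cancel₀ _ hx0
    · rw [Submodule.span_singleton_le_iff_mem]; exact hxI

instance infinite_Wring : Infinite (Wring p) :=
  Infinite.of_injective (fun n : ℕ => (n : Wring p)) (fun a b h => by
    have := congrArg (fun z : Wring p => (z : PadicAlgCl p)) h
    simpa using this)

theorem ratLocalizedAt_norm_le (x : ratLocalizedAt p) :
    ‖algebraMap ℚ (PadicAlgCl p) (x : ℚ)‖ ≤ 1 := by
  have h1 : ‖((x : ℚ) : ℚ_[p])‖ ≤ 1 := by
    apply Padic.norm_rat_le_one
    intro hdvd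
    have h2 : Nat.Coprime (x : ℚ).den p := x.2
    exact hp.out.one_lt.ne' (Nat.Coprime.eq_one_of_dvd (Nat.Coprime.symm h2) hdvd)
  have h2 := PadicAlgCl.norm_extends p ((x : ℚ) : ℚ_[p])
  have h3 : algebraMap ℚ (PadicAlgCl p) (x : ℚ) = (((x : ℚ) : ℚ_[p]) : PadicAlgCl p) := by
    rw [IsScalarTower.algebraMap_apply ℚ ℚ_[p] (PadicAlgCl p)]
    rfl
  rw [h3, h2]; exact h1

variable (p) in
/-- `ℤ_(p) → W` -/
noncomputable def toWring : ratLocalizedAt p →+* Wring p :=
  ((algebraMap ℚ (PadicAlgCl p)).comp (ratLocalizedAt p).subtype).codRestrict (Wring p)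
    (fun x => ⟨ratLocalizedAt_norm_le x, fun σ _ => by
      change σ (algebraMap ℚ (PadicAlgCl p) (x : ℚ)) = algebraMap ℚ (PadicAlgCl p) (x : ℚ)
      rw [IsScalarTower.algebraMap_apply ℚ ℚ_[p] (PadicAlgCl p)]
      exact AlgEquiv.commutes σ _⟩)

/-- the local Galois action on inertia -/
noncomputable def inertiaToGlobal : inertiaLoc p →* GalGlob :=
  (localGaloisToGlobal p).comp (inertiaLoc p).subtype

theorem IsFlat.toLocal {M : Type*} [AddCommGroup M] {ρ : GalGlob →* AddMonoid.End M}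
    (h : IsFlat (ratLocalizedAt p) (Ω := AlgebraicClosure ℚ) ρ) :
    IsFlat (Wring p) (Ω := PadicAlgCl p) (ρ.comp (inertiaToGlobal (p := p))) := by
  obtain ⟨O, hO⟩ := h
  refine ⟨_, hO.baseChange (padicEmbedding p).toRingHom (toWring p) (inertiaToGlobal (p := p))
    ?_ ?_ (fun _ _ => rfl) (fun g r => r.2.2 g g.2)⟩
  · intro r
    change padicEmbedding p (algebraMap ℚ (AlgebraicClosure ℚ) (r : ℚ)) = _
    rw [AlgHom.commutes]
    rfl
  · intro g x
    exact padicEmbedding_localGaloisToGlobal p (g : GalLoc p) x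

end Fermat.Agent.Flat
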