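import Fermat.Agent.Flat.Classify

/-!
# The module `V ⊕ εV` attached to a cocycle
-/

set_option autoImplicit false

open GaloisRep Fermat.Agent.CFT.Loc Fermat.Agent.CFT Matrix

namespace Fermat.Agent.Flat

local notation "M₂" => Matrix (Fin 2) (Fin 2)

section Coc

variable {G : Type*} [Group G] {k : Type*} [Field k] {r : G →* M₂ k}

/-- cocycles with values in matrices -/
def IsCoc (r : G →* M₂ k) (c : G → M₂ k) : Prop :=
  ∀ g h, c (g * h) = c g + r g * c h * r g⁻¹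

theorem mul_inv_r (g : G) : r g * r g⁻¹ = 1 := by rw [← map_mul, mul_inv_cancel, map_one]
theorem inv_mul_r (g : G) : r g⁻¹ * r g = 1 := by rw [← map_mul, inv_mul_cancel, map_one]

theorem IsCoc.one {c : G → M₂ k} (hc : IsCoc r c) : c 1 = 0 := by
  have h1 := hc 1 1
  rw [mul_one, inv_one, map_one, one_mul, mul_one] at h1
  exact left_eq_add.mp h1

/-- the coboundary of a matrix -/
def dmat (r : G →* M₂ k) (m : M₂ k) (g : G) : M₂ k := r g * m * r g⁻¹ - m

theorem isCoc_dmat (m : M₂ k) : IsCoc r (dmat r m) := by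
  intro g h
  rw [dmat, dmat, dmat, mul_sub, sub_mul]
  have h1 : r (g * h) * m * r (g * h)⁻¹ = r g * (r h * m * r h⁻¹) * r g⁻¹ := by
    rw [_root_.mul_inv_rev, map_mul, map_mul]
    simp only [Matrix.mul_assoc]
  rw [h1]; abel

theorem IsCoc.add {c c' : G → M₂ k} (hc : IsCoc r c) (hc' : IsCoc r c') :
    IsCoc r (fun g => c g + c' g) := by
  intro g h
  simp only
  rw [hc, hc', mul_add, add_mul]; abel

theorem isCoc_zero : IsCoc r (fun _ => 0) := fun g h => by simp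

theorem IsCoc.neg {c : G → M₂ k} (hc : IsCoc r c) : IsCoc r (fun g => - c g) := by
  intro g h
  simp only
  rw [hc, mul_neg, neg_mul]; abel

/-- the action on `V ⊕ εV` -/
noncomputable def epsRep (r : G →* M₂ k) (c : G → M₂ k) (hc : IsCoc r c) :
    G →* AddMonoid.End ((Fin 2 → k) × (Fin 2 → k)) where
  toFun g := AddMonoidHom.mk' (fun x => (r g *ᵥ x.1, r g *ᵥ x.2 + c g *ᵥ (r g *ᵥ x.1)))
    (fun x y => by
      ext1
      · simp [Matrix.mulVec_add]
      · simp only [Prod.fst_add, Prod.snd_add, Matrix.mulVec_add]; abel)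
  map_one' := by
    apply AddMonoidHom.ext
    intro x
    change (r 1 *ᵥ x.1, r 1 *ᵥ x.2 + c 1 *ᵥ (r 1 *ᵥ x.1)) = x
    rw [map_one, hc.one, Matrix.one_mulVec, Matrix.one_mulVec, Matrix.zero_mulVec, add_zero]
  map_mul' g h := by
    apply AddMonoidHom.ext
    intro x
    change (r (g * h) *ᵥ x.1, r (g * h) *ᵥ x.2 + c (g * h) *ᵥ (r (g * h) *ᵥ x.1)) =
      (r g *ᵥ (r h *ᵥ x.1), r g *ᵥ (r h *ᵥ x.2 + c h *ᵥ (r h *ᵥ x.1)) +
        c g *ᵥ (r g *ᵥ (r h *ᵥ x.1)))
    refine Prod.ext ?_ ?_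
    · change r (g * h) *ᵥ x.1 = r g *ᵥ (r h *ᵥ x.1)
      rw [map_mul, Matrix.mulVec_mulVec]
    · change r (g * h) *ᵥ x.2 + c (g * h) *ᵥ (r (g * h) *ᵥ x.1) =
        r g *ᵥ (r h *ᵥ x.2 + c h *ᵥ (r h *ᵥ x.1)) + c g *ᵥ (r g *ᵥ (r h *ᵥ x.1))
      simp only [Matrix.mulVec_add, Matrix.mulVec_mulVec, hc g h, map_mul,
        ← Matrix.mul_assoc, add_mul, Matrix.add_mulVec]
      have h1 : r g * c h * r g⁻¹ * r g * r h = r g * c h * r h := by
        rw [Matrix.mul_assoc (r g * c h), inv_mul_r, mul_one]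
      rw [h1]; abel

@[simp] theorem epsRep_apply (c : G → M₂ k) (hc : IsCoc r c) (g : G)
    (x : (Fin 2 → k) × (Fin 2 → k)) :
    epsRep r c hc g x = (r g *ᵥ x.1, r g *ᵥ x.2 + c g *ᵥ (r g *ᵥ x.1)) := rfl

/-- conjugation relation for elements acting trivially -/
theorem IsCoc.conj {c : G → M₂ k} (hc : IsCoc r c) (τ : G) {σ : G} (hσ : r σ = 1) :
    c (τ⁻¹ * σ * τ) = r τ⁻¹ * c σ * r τ := by
  have hσ' : r σ⁻¹ = 1 := by
    have := mul_inv_r (r := r) σ
    rwa [hσ, one_mul] at this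
  have h1 : c τ⁻¹ + r τ⁻¹ * c τ * r τ = 0 := by
    have h2 := hc τ⁻¹ τ
    rw [inv_mul_cancel, hc.one, inv_inv] at h2
    exact h2.symm
  rw [hc, hc, _root_.mul_inv_rev, map_mul, map_mul, hσ, hσ', mul_one, one_mul, inv_inv]
  calc c τ⁻¹ + r τ⁻¹ * c σ * r τ + r τ⁻¹ * c τ * r τ
      = (c τ⁻¹ + r τ⁻¹ * c τ * r τ) + r τ⁻¹ * c σ * r τ := by abel
    _ = _ := by rw [h1, zero_add]

end Coc

section Flat

variable {p : ℕ} [hp : Fact p.Prime] {k : Type*} [Field k] [CharP k p] [Finite k]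
  {r : GalLoc p →* M₂ k}

/-- `V` is flat -/
def FlatV (r : GalLoc p →* M₂ k) : Prop :=
  IsFlat (Wring p) (Ω := PadicAlgCl p) ((vecRep r).comp (inertiaLoc p).subtype)

/-- `V ⊕ εV` is flat -/
def FlatC (r : GalLoc p →* M₂ k) (c : GalLoc p → M₂ k) (hc : IsCoc r c) : Prop :=
  IsFlat (Wring p) (Ω := PadicAlgCl p) ((epsRep r c hc).comp (inertiaLoc p).subtype)

omit [CharP k p] in
theorem FlatC.flatV {c : GalLoc p → M₂ k} {hc : IsCoc r c} (h : FlatC r c hc) : FlatV r :=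
  h.of_surjective (AddMonoidHom.fst _ _) (fun v => ⟨(v, 0), rfl⟩) (fun _ _ => rfl)

omit [CharP k p] [Finite k] in
theorem FlatV.flatC_zero (h : FlatV r) : FlatC r (fun _ => 0) isCoc_zero := by
  refine IsFlat.of_pair h h (AddMonoidHom.fst _ _) (AddMonoidHom.snd _ _) (fun _ _ => rfl)
    (fun g x => ?_) (fun x y h1 h2 => Prod.ext h1 h2)
  change r g *ᵥ x.2 + (0 : M₂ k) *ᵥ _ = r g *ᵥ x.2
  rw [Matrix.zero_mulVec, add_zero]

omit [CharP k p] [Finite k] in
theorem FlatC.add_dmat {c : GalLoc p → M₂ k} {hc : IsCoc r c} (h : FlatC r c hc) (m : M₂ k)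
    {c' : GalLoc p → M₂ k} (hc' : IsCoc r c') (hcc' : ∀ g, c' g = c g + dmat r m g) :
    FlatC r c' hc' := by
  let Ψ : ((Fin 2 → k) × (Fin 2 → k)) →+ ((Fin 2 → k) × (Fin 2 → k)) :=
    AddMonoidHom.mk' (fun x => (x.1, x.2 + m *ᵥ x.1)) (fun x y => by
      ext1
      · rfl
      · simp only [Prod.fst_add, Prod.snd_add, Matrix.mulVec_add]; abel)
  refine IsFlat.of_injective h Ψ ?_ ?_
  · intro x y hxy
    change (x.1, x.2 + m *ᵥ x.1) = (y.1, y.2 + m *ᵥ y.1) at hxy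
    have h1 : x.1 = y.1 := (Prod.mk.inj hxy).1
    have h2 : x.2 + m *ᵥ x.1 = y.2 + m *ᵥ y.1 := (Prod.mk.inj hxy).2
    rw [h1] at h2
    exact Prod.ext h1 (add_right_cancel h2)
  · intro g x
    change (r g *ᵥ x.1, r g *ᵥ x.2 + c' g *ᵥ (r g *ᵥ x.1) + m *ᵥ (r g *ᵥ x.1))
      = (r g *ᵥ x.1, r g *ᵥ (x.2 + m *ᵥ x.1) + c g *ᵥ (r g *ᵥ x.1))
    refine Prod.ext rfl ?_
    change r g *ᵥ x.2 + c' g *ᵥ (r g *ᵥ x.1) + m *ᵥ (r g *ᵥ x.1)
      = r g *ᵥ (x.2 + m *ᵥ x.1) + c g *ᵥ (r g *ᵥ x.1)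
    simp only [hcc', dmat, Matrix.mulVec_add, Matrix.mulVec_mulVec, add_mul, sub_mul,
      Matrix.add_mulVec, Matrix.sub_mulVec]
    have h1 : r (g : GalLoc p) * m * r (g : GalLoc p)⁻¹ * r (g : GalLoc p) = r (g : GalLoc p) * m := by
      rw [Matrix.mul_assoc, inv_mul_r, mul_one]
    rw [h1]; abel

end Flat

/-! ### the field with `p²` elements inside `k` -/

section K2

variable (p : ℕ) [hp : Fact p.Prime] (k : Type*) [Field k] [CharP k p]

/-- elements with `x ^ (p ^ 2) = x` -/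
def K2 : Subfield k where
  carrier := {x | x ^ (p ^ 2) = x}
  mul_mem' := fun {a b} ha hb => by
    change (a * b) ^ (p ^ 2) = a * b
    rw [mul_pow]; exact congrArg₂ (· * ·) ha hb
  one_mem' := one_pow _
  add_mem' := fun {a b} ha hb => by
    change (a + b) ^ (p ^ 2) = a + b
    rw [add_pow_char_pow]; exact congrArg₂ (· + ·) ha hb
  zero_mem' := zero_pow (pow_ne_zero _ hp.out.ne_zero)
  neg_mem' := fun {a} ha => by
    change (-a) ^ (p ^ 2) = -a
    have h := sub_pow_char_pow (R := k) (p := p) (n := 2) 0 a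
    rw [zero_sub, zero_pow (pow_ne_zero _ hp.out.ne_zero), zero_sub] at h
    rw [h]; exact congrArg _ ha
  inv_mem' := fun a ha => by
    change (a⁻¹) ^ (p ^ 2) = a⁻¹
    rw [inv_pow]; exact congrArg _ ha

variable {p k}

theorem mem_K2 {x : k} : x ∈ K2 p k ↔ x ^ (p ^ 2) = x := Iff.rfl

instance charP_K2 : CharP (K2 p k) p := inferInstance

theorem card_K2 [Finite k] {x : k} (hx : x ^ (p ^ 2) = x) (hx' : x ^ p ≠ x) :
    Nat.card (K2 p k) = p ^ 2 := by
  classical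
  haveI := Fintype.ofFinite (K2 p k)
  obtain ⟨n, -, hn⟩ := FiniteField.card (K2 p k) p
  have hp1 := hp.out.one_lt
  have hp2 : 1 < p ^ 2 := Nat.one_lt_pow two_ne_zero hp1
  have hle : Fintype.card (K2 p k) ≤ p ^ 2 := by
    set P : Polynomial k := Polynomial.X ^ (p ^ 2) - Polynomial.X with hP
    have hP0 : P ≠ 0 := FiniteField.X_pow_card_sub_X_ne_zero k hp2
    have h1 : ∀ y : K2 p k, (y : k) ∈ P.roots.toFinset := by
      intro y
      rw [Multiset.mem_toFinset, Polynomial.mem_roots hP0, Polynomial.IsRoot, hP]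
      simp only [Polynomial.eval_sub, Polynomial.eval_pow, Polynomial.eval_X]
      exact sub_eq_zero.mpr y.2
    have h2 : (Finset.univ.image (fun y : K2 p k => (y : k))).card = Fintype.card (K2 p k) := by
      rw [Finset.card_image_of_injective _ Subtype.val_injective, Finset.card_univ]
    rw [← h2]
    calc _ ≤ P.roots.toFinset.card := Finset.card_le_card (by
          intro y hy
          obtain ⟨z, -, rfl⟩ := Finset.mem_image.mp hy
          exact h1 z)
      _ ≤ Multiset.card P.roots := Multiset.toFinset_card_le _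
      _ ≤ P.natDegree := Polynomial.card_roots' P
      _ = p ^ 2 := by rw [hP, FiniteField.X_pow_card_sub_X_natDegree_eq k hp2]
  rw [Nat.card_eq_fintype_card, hn]
  rw [hn] at hle
  have hn2 : (n : ℕ) ≤ 2 := (Nat.pow_le_pow_iff_right hp1).mp hle
  have hn1 : (n : ℕ) ≠ 1 := by
    intro h1
    apply hx'
    have := FiniteField.pow_card (⟨x, hx⟩ : K2 p k)
    rw [hn, h1, pow_one] at this
    exact congrArg Subtype.val this
  have hn0 : 0 < (n : ℕ) := n.2
  have h2 : (n : ℕ) = 2 := by clear hle; omega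
  rw [h2]

/-- a non-natural element and `1` span -/
theorem span_one_of_not_nat {k₂ : Type*} [Field k₂] [CharP k₂ p] (hcard : Nat.card k₂ = p ^ 2)
    {t : k₂} (ht : t ^ p ≠ t) (x : k₂) : ∃ a b : ℕ, x = a + b * t := by
  classical
  haveI : Finite k₂ := Nat.finite_of_card_ne_zero (by rw [hcard]; exact pow_ne_zero _ hp.out.ne_zero)
  haveI := Fintype.ofFinite k₂
  let f : ZMod p × ZMod p → k₂ := fun z => (z.1.val : k₂) + (z.2.val : k₂) * t
  have hcast : ∀ a : ZMod p, ((a.val : ℕ) : k₂) = ZMod.castHom dvd_rfl k₂ a := by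
    intro a
    conv_rhs => rw [← ZMod.natCast_zmod_val a]
    rw [map_natCast]
  have hfrob : ∀ a : ZMod p, (ZMod.castHom dvd_rfl k₂ a) ^ p = ZMod.castHom dvd_rfl k₂ a := by
    intro a; rw [← map_pow, ZMod.pow_card]
  have hf : Function.Injective f := by
    rintro ⟨a, b⟩ ⟨a', b'⟩ h
    simp only [f, hcast] at h
    have h1 : ZMod.castHom dvd_rfl k₂ (a - a') = ZMod.castHom dvd_rfl k₂ (b' - b) * t := by
      rw [map_sub, map_sub]; linear_combination h
    by_cases hb : b' - b = 0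
    · rw [hb, map_zero, zero_mul] at h1
      have h2 := (ZMod.castHom dvd_rfl k₂).injective (h1.trans (map_zero _).symm)
      rw [sub_eq_zero.mp h2, sub_eq_zero.mp hb]
    · exfalso
      apply ht
      have h3 : ZMod.castHom dvd_rfl k₂ (b' - b) ≠ 0 := (map_ne_zero _).mpr hb
      have h2 : t = ZMod.castHom dvd_rfl k₂ (a - a') / ZMod.castHom dvd_rfl k₂ (b' - b) := by
        rw [h1]; field_simp
      rw [h2, div_pow, hfrob, hfrob]
  have hcard2 : Fintype.card (ZMod p × ZMod p) = Fintype.card k₂ := by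
    rw [Fintype.card_prod, ZMod.card, ← Nat.card_eq_fintype_card, hcard, sq]
  obtain ⟨⟨a, b⟩, hab⟩ := ((Fintype.bijective_iff_injective_and_card f).mpr ⟨hf, hcard2⟩).2 x
  exact ⟨a.val, b.val, hab.symm⟩

end K2

end Fermat.Agent.Flat
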