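import Fermat.Agent.Flat.RedK

/-!
# The local bound in the reducible case
-/

set_option autoImplicit false

open GaloisRep Fermat.Agent.CFT.Loc Fermat.Agent.CFT Matrix Fermat.Agent.TW

namespace Fermat.Agent.Flat

local notation "M₂" => Matrix (Fin 2) (Fin 2)

variable {p : ℕ} [hp : Fact p.Prime]

theorem card_le_of_two {A B C : Type*} [AddCommGroup A] [AddCommGroup B] [Finite B]
    (Λ₁ : A →+ B) (Λ₂ : A → C) {S : Set C} (hS : S.Finite)
    (hΛ₂ : ∀ z, Λ₁ z = 0 → Λ₂ z ∈ S)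
    (hinj : ∀ z z', Λ₁ z = 0 → Λ₁ z' = 0 → Λ₂ z = Λ₂ z' → z = z') :
    Finite A ∧ Nat.card A ≤ Nat.card B * Nat.card S := by
  classical
  haveI : Finite S := hS.to_subtype
  have hs : ∀ b : B, ∃ a : A, (∃ a', Λ₁ a' = b) → Λ₁ a = b := by
    intro b
    by_cases h : ∃ a', Λ₁ a' = b
    · obtain ⟨a, ha⟩ := h
      exact ⟨a, fun _ => ha⟩
    · exact ⟨0, fun h' => absurd h' h⟩
  choose s hs using hs
  have h0 : ∀ z, Λ₁ (z - s (Λ₁ z)) = 0 := fun z => by
    rw [map_sub, hs _ ⟨z, rfl⟩, sub_self]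
  let f : A → B × S := fun z => (Λ₁ z, ⟨Λ₂ (z - s (Λ₁ z)), hΛ₂ _ (h0 z)⟩)
  have hf : Function.Injective f := by
    intro z z' hzz
    have h1 : Λ₁ z = Λ₁ z' := congrArg Prod.fst hzz
    have h2 : Λ₂ (z - s (Λ₁ z)) = Λ₂ (z' - s (Λ₁ z')) := congrArg (fun x => ((Prod.snd x : S) : C)) hzz
    have h3 := hinj _ _ (h0 z) (h0 z') h2
    rw [h1] at h3
    exact sub_left_injective h3
  haveI := Finite.of_injective f hf
  refine ⟨inferInstance, ?_⟩
  rw [← Nat.card_prod]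
  exact Nat.card_le_card_of_injective f hf

theorem card_le_range_mul {A B : Type*} [AddCommGroup A] [AddCommGroup B] (f : A →+ B) :
    Nat.card A = Nat.card f.ker * Nat.card f.range := by
  rw [← AddSubgroup.index_ker f, AddSubgroup.card_mul_index]

theorem exists_phi (p : ℕ) [hp : Fact p.Prime] (k : Type*) [Field k] [Algebra (ZMod p) k] :
    ∃ φ₀ : k →+ ZMod p, φ₀ 1 = 1 ∧ NonDeg φ₀ := by
  have h1 : LinearMap.ker (LinearMap.toSpanSingleton (ZMod p) k 1) = ⊥ :=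
    LinearMap.ker_toSpanSingleton (ZMod p) one_ne_zero
  obtain ⟨g, hg⟩ := LinearMap.exists_leftInverse_of_injective _ h1
  have h2 : g 1 = 1 := by
    have := LinearMap.congr_fun hg 1
    simpa using this
  refine ⟨g.toAddMonoidHom, h2, fun x hx => ?_⟩
  by_contra h0
  have h3 := hx x⁻¹
  rw [inv_mul_cancel₀ h0] at h3
  exact one_ne_zero (h2.symm.trans h3)

section

variable {k : Type} [Field k] [Algebra (ZMod p) k]
  {r : GalLoc p →* M₂ k}

theorem smooth_ad (hlc : (locLevels p).LC r) : Smooth (locLevels p) (adRep (p := p) r 1) := by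
  intro v
  obtain ⟨H, hH, hHr⟩ := hlc
  refine ⟨H, hH, fun s hs => Subtype.ext ?_⟩
  rw [adRep_one_apply]
  have h1 : r s = 1 := by
    have := hHr 1 s hs
    rwa [one_mul, map_one] at this
  have h2 : r s⁻¹ = 1 := by
    have := mul_inv_r (r := r) s
    rwa [h1, one_mul] at this
  rw [h1, h2, one_mul, mul_one]

/-- the coboundary map into cocycles -/
noncomputable def delta (hlc : (locLevels p).LC r) :
    sl k →+ ↥(Z1 (locLevels p) (adRep (p := p) r 1)) :=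
  ((d0 (adRep (p := p) r 1)).codRestrict (Z1 (locLevels p) (adRep (p := p) r 1))
    (fun m => B1_le_Z1 (smooth_ad hlc) ⟨m, rfl⟩)).toAddMonoidHom

theorem cM_delta (hlc : (locLevels p).LC r) (m : sl k) (g : GalLoc p) :
    cM (delta hlc m) g = dmat r (m : M₂ k) g := by
  change (((adRep (p := p) r 1 g m) - m : sl k) : M₂ k) = _
  rw [Submodule.coe_sub, adRep_one_apply]; rfl

theorem tr_dmat (m : M₂ k) (g : GalLoc p) : (dmat r m g).trace = 0 := by
  rw [dmat, Matrix.trace_sub, TW.trace_conj, sub_self]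

variable [CharP k p] [Finite k] {F : GalLoc p} {π ζ : PadicAlgCl p}

/-- (R4) correction by a coboundary -/
theorem RD.correct (hR : RD p r F π ζ) {c : GalLoc p → M₂ k} (hc : IsCoc r c)
    (hfl : FlatC r c hc) (hlc : (locLevels p).LC c) :
    ∃ w : k, ∀ g, (c g + dmat r !![0, 0; w, 0] g) 1 0 = 0 := by
  obtain ⟨w, hw⟩ := hR.exists_correct hc hfl
  set c' : GalLoc p → M₂ k := fun g => c g + dmat r !![0, 0; w, 0] g with hc'
  have hcc : IsCoc r c' := hc.add (isCoc_dmat _)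
  obtain ⟨σ₀, a, -, -, -, hu1, -⟩ := hR.gen
  have hI : ∀ τ ∈ inertiaLoc p, c' τ 1 0 = 0 := by
    intro τ hτ
    have h1 : c' τ 1 0 = c τ 1 0 + ((r τ * !![0, 0; w, 0] * r τ⁻¹) 1 0 - w) := rfl
    rw [h1, hR.conj10, hw τ hτ, hR.one τ hτ]
    simp; ring
  have hmul : ∀ g h, c' (g * h) 1 0 = c' g 1 0 + (r g 1 1 * (r g 0 0)⁻¹) * c' h 1 0 := by
    intro g h
    rw [hcc g h, Matrix.add_apply, hR.conj10]
  have hF : c' F 1 0 = 0 := by
    have h1 := hmul F σ₀
    have h2 := hmul (F * σ₀ * F⁻¹) F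
    have h3 : F * (σ₀ : GalLoc p) * F⁻¹ ∈ inertiaLoc p :=
      (normal_inertiaLoc (l := p)).conj_mem _ σ₀.2 F
    rw [inv_mul_cancel_right, h1, hI _ σ₀.2, hI _ h3, mul_zero, add_zero, zero_add,
      hR.one _ h3, hR.u_mul, hR.u_mul] at h2
    have h4 : r F 0 0 * r σ₀ 0 0 * r F⁻¹ 0 0 = r σ₀ 0 0 := by
      rw [(hR.rinv F).1]
      have := hR.u_ne F
      field_simp
    rw [h4, one_mul] at h2
    have hus := hR.u_ne (σ₀ : GalLoc p)
    have h5 : (r σ₀ 0 0 - 1) * c' F 1 0 = 0 := by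
      field_simp at h2
      linear_combination h2
    exact (mul_eq_zero.mp h5).resolve_left (sub_ne_zero.mpr hu1)
  exact ⟨w, fun g => scal_zero (d := fun g => c' g 1 0) hmul
    ((hlc.comp₂ (LC_dmat hR.lc _) (fun a b => a + b)).comp (fun m : M₂ k => m 1 0))
    hR.frob hI hF g⟩

/-- vanishing of a cocycle with trivial invariants -/
theorem RD.ext_zero (hR : RD p r F π ζ) {c : GalLoc p → M₂ k} (hc : IsCoc r c)
    (hlc : (locLevels p).LC c) (htr : ∀ g, (c g).trace = 0) (h10 : ∀ g, c g 1 0 = 0)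
    (h00 : ∀ τ ∈ inertiaLoc p, c τ 0 0 = 0) (hF0 : c F 0 0 = 0)
    (h01 : ∀ τ ∈ inertiaLoc p, c τ 0 1 = 0) (g : GalLoc p) : c g = 0 := by
  obtain ⟨σ₀, a, -, -, -, hu1, -⟩ := hR.gen
  have hd : ∀ g, c g 0 0 = 0 := scal_zero (d := fun g => c g 0 0) (θ := fun _ => 1)
    (fun g h => by rw [hc g h, Matrix.add_apply, hR.conj00 g (h10 h), one_mul])
    (hlc.comp (fun m : M₂ k => m 0 0)) hR.frob h00 hF0
  have hmul : ∀ g h, c (g * h) 0 1 = c g 0 1 + (r g 0 0 * (r g 1 1)⁻¹) * c h 0 1 := by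
    intro g h
    rw [hR.mul01 hc htr h10, hd h, mul_zero, sub_zero]
  have hF : c F 0 1 = 0 := by
    have h1 := hmul F σ₀
    have h2 := hmul (F * σ₀ * F⁻¹) F
    have h3 : F * (σ₀ : GalLoc p) * F⁻¹ ∈ inertiaLoc p :=
      (normal_inertiaLoc (l := p)).conj_mem _ σ₀.2 F
    rw [inv_mul_cancel_right, h1, h01 _ σ₀.2, h01 _ h3, mul_zero, add_zero, zero_add,
      hR.one _ h3, hR.u_mul, hR.u_mul] at h2
    have h4 : r F 0 0 * r σ₀ 0 0 * r F⁻¹ 0 0 = r σ₀ 0 0 := by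
      rw [(hR.rinv F).1]
      have := hR.u_ne F
      field_simp
    rw [h4, inv_one, mul_one] at h2
    have h5 : (r σ₀ 0 0 - 1) * c F 0 1 = 0 := by
      linear_combination -h2
    exact (mul_eq_zero.mp h5).resolve_left (sub_ne_zero.mpr hu1)
  have h01' : ∀ g, c g 0 1 = 0 := scal_zero (d := fun g => c g 0 1) hmul
    (hlc.comp (fun m : M₂ k => m 0 1)) hR.frob h01 hF
  have h11 := htr g
  rw [Matrix.trace_fin_two, hd g, zero_add] at h11
  ext i j
  fin_cases i <;> fin_cases j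
  · exact hd g
  · exact h01' g
  · exact h10 g
  · exact h11

theorem RD.locBound (hR : RD p r F π ζ) : LocBound p r := by
  classical
  obtain ⟨φ₀, hφ1, hφ₀⟩ := exists_phi p k
  obtain ⟨σ₀, a, hord, ha, hau, hu1, hgen⟩ := hR.gen
  obtain ⟨aF, haF⟩ := exists_zmod_val hR.hζ F
  have hp3 := hR.three_le
  have hpp : 3 * p ≤ p ^ 2 := by rw [sq]; exact Nat.mul_le_mul_right p hp3
  have hζp := hR.hζ.pow_eq_one
  have hi1 : 1 ≤ p ^ 2 - 1 := by omega
  have hdvd1 : ¬ p ∣ p ^ 2 - 1 := by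
    intro h
    have h3 : p ∣ (p ^ 2 - 1) + 1 - (p ^ 2 - 1) := Nat.dvd_sub
      (by rw [Nat.sub_add_cancel (by omega)]; exact dvd_pow_self p two_ne_zero) h
    rw [Nat.add_sub_cancel_left] at h3
    have := Nat.le_of_dvd one_pos h3
    omega
  let A := ↥(Z1 (locLevels p) (adRep (p := p) r 1))
  have hcadd : ∀ (c c' : A) g, cM (c + c') g = cM c g + cM c' g := fun _ _ _ => rfl
  have hcneg : ∀ (c : A) g, cM (-c) g = -cM c g := fun _ _ => rfl
  have hczero : ∀ g, cM (0 : A) g = 0 := fun _ => rfl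
  let Z' : AddSubgroup A :=
    { carrier := {c | (∀ g, cM c g 1 0 = 0) ∧ (∀ σ ∈ inertiaLoc p, cM c σ 0 0 = 0) ∧
        KAt ζ π (fam φ₀ (fun σ => cM c σ 0 1)) (p ^ 2 - 1)}
      add_mem' := fun {c c'} hc hc' => ⟨fun g => by
          rw [hcadd, Matrix.add_apply, hc.1 g, hc'.1 g, add_zero], fun σ hσ => by
          rw [hcadd, Matrix.add_apply, hc.2.1 σ hσ, hc'.2.1 σ hσ, add_zero],
        kat_add hR.hπ hζp hi1 hc.2.2 hc'.2.2 (fun σ _ => by rw [hcadd, Matrix.add_apply])⟩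
      zero_mem' := ⟨fun g => by rw [hczero]; rfl, fun σ _ => by rw [hczero]; rfl,
        kat_zero hR.hπ (fun σ _ => by rw [hczero]; rfl)⟩
      neg_mem' := fun {c} hc => ⟨fun g => by rw [hcneg, Matrix.neg_apply, hc.1 g, neg_zero],
        fun σ hσ => by rw [hcneg, Matrix.neg_apply, hc.2.1 σ hσ, neg_zero],
        kat_neg hR.hπ hζp hi1 hc.2.2 (fun σ _ => by rw [hcneg, Matrix.neg_apply])⟩ }
  have hZ' : ∀ c : A, c ∈ Z' ↔ (∀ g, cM c g 1 0 = 0) ∧ (∀ σ ∈ inertiaLoc p, cM c σ 0 0 = 0) ∧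
        KAt ζ π (fam φ₀ (fun σ => cM c σ 0 1)) (p ^ 2 - 1) := fun _ => Iff.rfl
  have hfam : ∀ c : Z', KFam π (fam φ₀ (fun σ => cM (c : A) σ 0 1)) := fun c =>
    hR.kfam01 (isCoc_cM (c : A)) (lc_cM (c : A)) (tr_cM (c : A)) c.2.1 c.2.2.1 φ₀
  -- flat cocycles
  have hflat : ∀ c : A, FlatC r (cM c) (isCoc_cM c) → (∀ g, cM c g 1 0 = 0) → c ∈ Z' := by
    intro c hfl h10
    have h00 := hR.diag_zero (isCoc_cM c) hfl (tr_cM c) (fun τ _ => h10 τ)
    exact (hZ' c).mpr ⟨h10, h00, hR.kat_climb (isCoc_cM c) (lc_cM c) (tr_cM c) h10 h00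
      (hR.kat_one (isCoc_cM c) hfl (lc_cM c) (tr_cM c) h10 h00 hφ1)⟩
  -- the target set
  set t : k := (aF.val : k) * r F 1 1 * (r F 0 0)⁻¹ with ht
  have haF0 : (aF.val : k) ≠ 0 := by
    intro h0
    have h1 := (CharP.cast_eq_zero_iff k p aF.val).mp h0
    have h2 : aF.val = 0 := Nat.eq_zero_of_dvd_of_lt h1 (ZMod.val_lt aF)
    rw [h2, pow_zero] at haF
    have h3 : ζ = 1 := (AlgEquiv.injective F) (by rw [haF, map_one])
    exact hR.hζ.ne_one hp.out.one_lt h3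
  have ht0 : t ≠ 0 := mul_ne_zero (mul_ne_zero haF0 (hR.q_ne F)) (inv_ne_zero (hR.u_ne F))
  obtain ⟨hSfin, hScard⟩ := card_frobfix (κ := ResF p) ht0
  set S₀ : Set (k →+ ResF p) := {a : k →+ ResF p | ∀ w, a (t * w) = a w ^ p} with hS₀
  let S : Set (k × (k →+ ResF p)) := Set.univ ×ˢ S₀
  have hSf : S.Finite := Set.finite_univ.prod hSfin
  have hSc : Nat.card S ≤ Nat.card k * Nat.card k := by
    rw [Nat.card_congr (Equiv.Set.prod (Set.univ : Set k) S₀), Nat.card_prod,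
      Nat.card_congr (Equiv.Set.univ k)]
    exact Nat.mul_le_mul_left _ hScard
  -- the maps
  let Λ₁ : Z' →+ k := AddMonoidHom.mk' (fun c => cM (c : A) F 0 0) (fun c c' => rfl)
  let Λ₂ : Z' →+ k × (k →+ ResF p) := AddMonoidHom.mk'
    (fun c => (cM (c : A) σ₀ 0 1, lead hR.hπ hζp (hfam c) c.2.2.2 hi1 hdvd1))
    (fun c c' => by
      refine Prod.ext rfl (AddMonoidHom.ext fun b => ?_)
      obtain ⟨y, hy⟩ := c.2.2.2 b
      obtain ⟨y', hy'⟩ := c'.2.2.2 b
      change lead hR.hπ hζp (hfam (c + c')) (c + c').2.2.2 hi1 hdvd1 b =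
        lead hR.hπ hζp (hfam c) c.2.2.2 hi1 hdvd1 b + lead hR.hπ hζp (hfam c') c'.2.2.2 hi1 hdvd1 b
      rw [lead_eq hR.hπ hζp (hfam c) c.2.2.2 hi1 hdvd1 (fun _ _ => rfl) hy,
        lead_eq hR.hπ hζp (hfam c') c'.2.2.2 hi1 hdvd1 (fun _ _ => rfl) hy',
        ← Kum.lc_mul hR.hπ hy hy' hi1]
      refine lead_eq hR.hπ hζp (hfam _) _ hi1 hdvd1 (fun σ _ => ?_) (hy.mul hR.hπ hζp hy' hi1)
      change fam φ₀ (fun σ => cM (c : A) σ 0 1) b σ + fam φ₀ (fun σ => cM (c' : A) σ 0 1) b σ =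
        fam φ₀ (fun σ => cM ((c : A) + (c' : A)) σ 0 1) b σ
      rw [fam, fam, fam, hcadd, Matrix.add_apply, mul_add, map_add])
  have hΛ₂S : ∀ c, Λ₁ c = 0 → Λ₂ c ∈ S := by
    intro c hc
    refine ⟨Set.mem_univ _, fun w => ?_⟩
    have hF0 : cM (c : A) F 0 0 = 0 := hc
    change lead hR.hπ hζp (hfam c) c.2.2.2 hi1 hdvd1 (t * w) =
      lead hR.hπ hζp (hfam c) c.2.2.2 hi1 hdvd1 w ^ p
    have h1 := lead_conj hR.hπ hζp (hfam c) c.2.2.2 hi1 hdvd1 F haF
      (w := w) (w' := t * w) (fun σ hσ => by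
        rw [fam, fam, ← phi_val_mul]
        congr 1
        have h2 := hR.conj_frob01 (isCoc_cM (c : A)) (tr_cM (c : A)) c.2.1 c.2.2.1 hF0 hσ
        have hu := hR.u_ne F
        rw [ht]
        field_simp
        linear_combination w * h2)
    have h2 : psi π F = 1 := by rw [psi, hR.fix, div_self hR.hπ.ne_zero, rd_one]
    rw [h2, one_pow, mul_one, hR.frob] at h1
    exact h1
  have hinj0 : ∀ c, Λ₁ c = 0 → Λ₂ c = 0 → c = 0 := by
    intro c hc1 hc2
    have hF0 : cM (c : A) F 0 0 = 0 := hc1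
    have hσ0 : cM (c : A) σ₀ 0 1 = 0 := (Prod.mk.inj hc2).1
    have hlead : lead hR.hπ hζp (hfam c) c.2.2.2 hi1 hdvd1 = 0 := (Prod.mk.inj hc2).2
    have hG : ∀ σ ∈ Gt π, cM (c : A) σ 0 1 = 0 := fun σ hσ =>
      hR.zero_of_lead (isCoc_cM (c : A)) (lc_cM (c : A)) (tr_cM (c : A)) c.2.1 c.2.2.1 hφ₀
        c.2.2.2 hi1 hdvd1 (fun w => by
          have := DFunLike.congr_fun hlead w
          exact this) hσ
    have hI := fun τ hτ => hR.inertia01 (isCoc_cM (c : A)) (tr_cM (c : A)) c.2.1 c.2.2.1 hG hgen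
      hσ0 (τ := τ) hτ
    have h0 := hR.ext_zero (isCoc_cM (c : A)) (lc_cM (c : A)) (tr_cM (c : A)) c.2.1 c.2.2.1 hF0 hI
    apply Subtype.ext
    apply Subtype.ext
    funext g
    exact Subtype.ext (h0 g)
  obtain ⟨hfin, hcard⟩ := card_le_of_two Λ₁ Λ₂ hSf hΛ₂S (fun c c' h1 h2 h3 => by
    have h4 := hinj0 (c - c') (by rw [map_sub, h1, h2, sub_zero]) (by rw [map_sub, h3, sub_self])
    exact sub_eq_zero.mp h4)
  haveI := hfin
  -- coboundaries
  let ut : k × k →+ sl k := AddMonoidHom.mk'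
    (fun x => ⟨!![x.1, x.2; 0, -x.1], by rw [mem_sl, Matrix.trace_fin_two_of, add_neg_cancel]⟩)
    (fun x y => Subtype.ext (by
      change (!![x.1 + y.1, x.2 + y.2; 0, -(x.1 + y.1)] : M₂ k) =
        !![x.1, x.2; 0, -x.1] + !![y.1, y.2; 0, -y.1]
      ext i j
      fin_cases i <;> fin_cases j <;> simp [add_comm]))
  let f : k × k →+ A := (delta hR.lc).comp ut
  have hDf : ∀ x, f x ∈ Z' := by
    intro x
    have hcm : ∀ g, cM (f x) g = dmat r !![x.1, x.2; 0, -x.1] g := fun g => cM_delta hR.lc _ g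
    refine hflat _ ?_ ?_
    · refine (hR.flat.flatC_zero).add_dmat !![x.1, x.2; 0, -x.1] (isCoc_cM (f x)) (fun g => ?_)
      rw [hcm, zero_add]
    · intro g
      rw [hcm, dmat, Matrix.sub_apply, hR.conj10]
      simp
  have hD : f.range ≤ Z' := by
    rintro _ ⟨x, rfl⟩
    exact hDf x
  have hDk : ∀ d ∈ f.range, (H1.mk (locLevels p) (adRep (p := p) r 1)).toAddMonoidHom d = 0 := by
    rintro _ ⟨x, rfl⟩
    exact mk_eq_zero_of_dmat (mem_sl.mp (ut x).2) (fun g => cM_delta hR.lc _ g)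
  have h1 := card_map_mul_le (H1.mk (locLevels p) (adRep (p := p) r 1)).toAddMonoidHom Z' f.range
    hD hDk
  have h2 := card_le_range_mul f
  have h3 : Nat.card f.ker ≤ Nat.card (adRep (p := p) r 1).invariants := by
    refine Nat.card_le_card_of_injective (fun x => ⟨ut x.1, ?_⟩) (fun x y hxy => ?_)
    · intro g
      have h4 := congrArg (fun c : A => c.1 g) (show f x.1 = 0 from x.2)
      exact sub_eq_zero.mp h4
    · have h4 : ut x.1 = ut y.1 := congrArg Subtype.val hxy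
      have h5 : (!![x.1.1, x.1.2; 0, -x.1.1] : M₂ k) = !![y.1.1, y.1.2; 0, -y.1.1] :=
        congrArg Subtype.val h4
      have h6 := congrFun (congrFun h5 0) 0
      have h7 := congrFun (congrFun h5 0) 1
      exact Subtype.ext (Prod.ext h6 h7)
  rw [Nat.card_prod] at h2
  set L := AddSubgroup.toZModSubmodule p
    (Z'.map (H1.mk (locLevels p) (adRep (p := p) r 1)).toAddMonoidHom) with hL
  have hLeq : Nat.card L =
    Nat.card (Z'.map (H1.mk (locLevels p) (adRep (p := p) r 1)).toAddMonoidHom) := rfl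
  haveI : Finite (Z'.map (H1.mk (locLevels p) (adRep (p := p) r 1)).toAddMonoidHom) := by
    have : Finite ((Z' : Set A)) := hfin
    exact (Set.Finite.image _ (Set.toFinite (Z' : Set A))).to_subtype
  haveI : Finite L := inferInstanceAs
    (Finite (Z'.map (H1.mk (locLevels p) (adRep (p := p) r 1)).toAddMonoidHom))
  refine ⟨L, ?_, fun c hc => ?_⟩
  · refine finrank_le_of_card _ ?_
    rw [pow_add, ← card_eq_pow, ← card_eq_pow, hLeq]
    set X := Nat.card (Z'.map (H1.mk (locLevels p) (adRep (p := p) r 1)).toAddMonoidHom)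
    set q := Nat.card k with hq
    have hq0 : 0 < q * q := Nat.mul_pos Nat.card_pos Nat.card_pos
    refine Nat.le_of_mul_le_mul_right (c := q * q) ?_ hq0
    calc X * (q * q) = Nat.card f.ker * (X * Nat.card f.range) := by rw [h2]; ring
      _ ≤ Nat.card (adRep (p := p) r 1).invariants * (q * (q * q)) :=
          Nat.mul_le_mul h3 (h1.trans (hcard.trans (Nat.mul_le_mul_left _ hSc)))
      _ = _ := by ring
  · obtain ⟨w, hw⟩ := hR.correct (isCoc_cM c) hc (lc_cM c)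
    have hwtr : (!![0, 0; w, 0] : M₂ k) ∈ sl k := by
      rw [mem_sl, Matrix.trace_fin_two_of, add_zero]
    set c' : A := c + delta hR.lc ⟨!![0, 0; w, 0], hwtr⟩ with hc'
    have hcm : ∀ g, cM c' g = cM c g + dmat r !![0, 0; w, 0] g := by
      intro g
      rw [hc', hcadd, cM_delta]
    have h4 : c' ∈ Z' := hflat c' (hc.add_dmat _ _ hcm) (fun g => by rw [hcm]; exact hw g)
    refine ⟨c', h4, ?_⟩
    change H1.mk (locLevels p) (adRep (p := p) r 1) c' = H1.mk (locLevels p) (adRep (p := p) r 1) c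
    rw [hc', map_add, mk_eq_zero_of_dmat (c := delta hR.lc ⟨!![0, 0; w, 0], hwtr⟩)
      (mem_sl.mp hwtr) (fun g => cM_delta hR.lc _ g), add_zero]

end

end Fermat.Agent.Flat
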