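import Fermat.Agent.Flat.Transport

/-!
# Classification of flat two-dimensional modules: the reducible case
-/

set_option autoImplicit false

open GaloisRep Fermat.Agent.CFT.Loc Fermat.Agent.CFT Matrix Fermat.Agent.TW

namespace Fermat.Agent.Flat

local notation "M₂" => Matrix (Fin 2) (Fin 2)

section LinAlg2

variable {k : Type*} [Field k]

/-- the matrix with given columns -/
def cols (v w : Fin 2 → k) : M₂ k := !![v 0, w 0; v 1, w 1]

theorem det_cols (v w : Fin 2 → k) : (cols v w).det = v 0 * w 1 - v 1 * w 0 := by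
  rw [cols, Matrix.det_fin_two_of]; ring

theorem cols_mul {A B : M₂ k} {v w : Fin 2 → k} (h : A * cols v w = cols v w * B) :
    A *ᵥ v = B 0 0 • v + B 1 0 • w ∧ A *ᵥ w = B 0 1 • v + B 1 1 • w := by
  have e : ∀ i j, (A * cols v w) i j = (cols v w * B) i j := fun i j => by rw [h]
  have e00 := e 0 0
  have e01 := e 0 1
  have e10 := e 1 0
  have e11 := e 1 1
  simp only [cols, Matrix.mul_apply, Fin.sum_univ_two, Matrix.of_apply, Matrix.cons_val',
    Matrix.cons_val_zero, Matrix.cons_val_one, Matrix.cons_val_fin_one] at e00 e01 e10 e11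
  constructor
  · funext i
    fin_cases i
    · simp only [Matrix.mulVec, dotProduct, Fin.sum_univ_two, Fin.zero_eta, Pi.add_apply,
        Pi.smul_apply, smul_eq_mul]
      linear_combination e00
    · simp only [Matrix.mulVec, dotProduct, Fin.sum_univ_two, Fin.mk_one, Pi.add_apply,
        Pi.smul_apply, smul_eq_mul]
      linear_combination e10
  · funext i
    fin_cases i
    · simp only [Matrix.mulVec, dotProduct, Fin.sum_univ_two, Fin.zero_eta, Pi.add_apply,
        Pi.smul_apply, smul_eq_mul]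
      linear_combination e01
    · simp only [Matrix.mulVec, dotProduct, Fin.sum_univ_two, Fin.mk_one, Pi.add_apply,
        Pi.smul_apply, smul_eq_mul]
      linear_combination e11

theorem lin_unique {v w : Fin 2 → k} (hdet : v 0 * w 1 - v 1 * w 0 ≠ 0) {a b a' b' : k}
    (h1 : a • v + b • w = a' • v + b' • w) : a = a' ∧ b = b' := by
  have e0 := congrFun h1 0
  have e1 := congrFun h1 1
  simp only [Pi.add_apply, Pi.smul_apply, smul_eq_mul] at e0 e1
  constructor
  · have : (a - a') * (v 0 * w 1 - v 1 * w 0) = 0 := by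
      linear_combination (w 1) * e0 - (w 0) * e1
    exact sub_eq_zero.mp ((mul_eq_zero.mp this).resolve_right hdet)
  · have : (b - b') * (v 0 * w 1 - v 1 * w 0) = 0 := by
      linear_combination (v 0) * e1 - (v 1) * e0
    exact sub_eq_zero.mp ((mul_eq_zero.mp this).resolve_right hdet)

theorem exists_complement {v : Fin 2 → k} (hv : v ≠ 0) :
    ∃ w : Fin 2 → k, v 0 * w 1 - v 1 * w 0 ≠ 0 := by
  by_cases h0 : v 0 = 0
  · have h1 : v 1 ≠ 0 := by
      intro h1
      apply hv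
      funext i
      fin_cases i
      · exact h0
      · exact h1
    exact ⟨![1, 0], by simpa using h1⟩
  · exact ⟨![0, 1], by simpa using h0⟩

end LinAlg2

variable {p : ℕ} [hp : Fact p.Prime]

/-- cyclotomic values are conjugation invariant -/
theorem cyc_conj {ζ : PadicAlgCl p} (hζ : IsPrimitiveRoot ζ p) (g τ : GalLoc p) {a : ℕ}
    (ha : τ ζ = ζ ^ a) : (g * τ * g⁻¹) ζ = ζ ^ a := by
  obtain ⟨b, hb⟩ := exists_zmod_val hζ g⁻¹
  have h1 : g (g⁻¹ ζ) = ζ := by rw [← AlgEquiv.mul_apply, mul_inv_cancel]; rfl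
  rw [AlgEquiv.mul_apply, AlgEquiv.mul_apply, hb, map_pow, ha, map_pow, map_pow]
  rw [hb, map_pow] at h1
  rw [← pow_mul, mul_comm, pow_mul, h1]

/-- the cyclotomic character is nontrivial on inertia -/
theorem exists_cyc_ne (hp2 : p ≠ 2) {π ζ : PadicAlgCl p} (hπ : IsPi π)
    (hζ : IsPrimitiveRoot ζ p) (k : Type*) [Field k] [CharP k p] :
    ∃ (σ₀ : inertiaLoc p) (a : ZMod p), (σ₀ : GalLoc p) ζ = ζ ^ a.val ∧ (a.val : k) ≠ 1 := by
  obtain ⟨σ₀, hord, -⟩ := hπ.exists_generator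
  obtain ⟨a, ha⟩ := exists_zmod_val hζ (σ₀ : GalLoc p)
  refine ⟨σ₀, a, ha, ?_⟩
  intro h1
  have h2 : ((a.val : ℕ) : k) = ((1 : ℕ) : k) := by rw [h1]; simp
  have h3 := (CharP.natCast_eq_natCast k p).mp h2
  have h4 := (CharP.natCast_eq_natCast (ResF p) p).mpr h3
  rw [← hπ.psi_cyc hζ σ₀.2 ha, Nat.cast_one] at h4
  have h5 : psi π (σ₀ : GalLoc p) ^ (p + 1) = psi π (σ₀ : GalLoc p) ^ 0 := by
    rw [pow_zero]; exact h4
  rw [psi_pow_eq_iff hπ hord] at h5
  have hp3 : 3 ≤ p := by have := hp.out.two_le; omega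
  have hpp : 3 * p ≤ p ^ 2 := by rw [sq]; exact Nat.mul_le_mul_right p hp3
  rcases modEq_cases (by omega : 0 < p ^ 2 - 1) (by omega) h5 with h3 | h3 <;> omega

section Red

variable {k : Type*} [Field k] [CharP k p] [Finite k]

/-- the character of a stable line is unramified or cyclotomic -/
theorem char_cases {F : GalLoc p} (hF : ∀ x, resAct p F x = x ^ p) {ζ : PadicAlgCl p}
    (hζ : IsPrimitiveRoot ζ p) {u : GalLoc p → k} (hu : ∀ g h, u (g * h) = u g * u h)
    (hu1 : u 1 = 1)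
    (hfl : ∀ (u' : inertiaLoc p →* kˣ), (∀ τ, ((u' τ : kˣ) : k) = u τ) →
      IsFlat (Wring p) (Ω := PadicAlgCl p) (mulRep u')) :
    (∀ τ ∈ inertiaLoc p, u τ = 1) ∨ (∀ τ ∈ inertiaLoc p, ∀ a : ℕ, τ ζ = ζ ^ a → u τ = a) := by
  have hinv : ∀ g, u g * u g⁻¹ = 1 := fun g => by rw [← hu, mul_inv_cancel, hu1]
  have hne : ∀ g, u g ≠ 0 := fun g => left_ne_zero_of_mul_eq_one (hinv g)
  let u' : inertiaLoc p →* kˣ :=
    { toFun := fun τ => Units.mk0 (u τ) (hne τ)
      map_one' := by ext; exact hu1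
      map_mul' := fun τ τ' => by ext; exact hu τ τ' }
  obtain ⟨O, hO⟩ := hfl u' (fun _ => rfl)
  rcases line_char hO hF (fun τ => by
      ext
      change u (F * τ * F⁻¹) = u τ
      rw [hu, hu, mul_comm (u F), mul_assoc, hinv, mul_one]) hζ with h | h
  · exact Or.inl (fun τ hτ => congrArg Units.val (h ⟨τ, hτ⟩))
  · exact Or.inr (fun τ hτ a ha => h ⟨τ, hτ⟩ a ha)

theorem exists_RD {r : GalLoc p →* M₂ k} (hp2 : p ≠ 2) {F : GalLoc p} {π ζ : PadicAlgCl p}
    (hπ : IsPi π) (hζ : IsPrimitiveRoot ζ p) (hF : ∀ x, resAct p F x = x ^ p) (hFπ : F π = π)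
    (hfl : FlatV r) (hlc : (locLevels p).LC r)
    (hdet : ∀ τ ∈ inertiaLoc p, ∀ a : ℕ, τ ζ = ζ ^ a → (r τ).det = a)
    (hred : ¬ NoLine r) :
    ∃ (P : M₂ k) (r' : GalLoc p →* M₂ k), IsUnit P.det ∧ (∀ g, r g * P = P * r' g) ∧
      RD p r' F π ζ := by
  classical
  -- first step: upper triangular form
  obtain ⟨P₁, r₁, hP₁, h₁, hup⟩ : ∃ (P : M₂ k) (r' : GalLoc p →* M₂ k), IsUnit P.det ∧
      (∀ g, r g * P = P * r' g) ∧ ∀ g, r' g 1 0 = 0 := by
    rw [NoLine] at hred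
    push Not at hred
    obtain ⟨v, hv, hvg⟩ := hred
    obtain ⟨w, hw⟩ := exists_complement hv
    have hP : IsUnit (cols v w).det := by rw [det_cols]; exact isUnit_iff_ne_zero.mpr hw
    obtain ⟨r', hr'⟩ := exists_conjRep r hP
    refine ⟨cols v w, r', hP, hr', fun g => ?_⟩
    obtain ⟨a, ha⟩ := hvg g
    have h1 := (cols_mul (hr' g)).1
    have h2 : a • v + (0 : k) • w = r' g 0 0 • v + r' g 1 0 • w := by
      rw [← h1, ha, zero_smul, add_zero]
    exact (lin_unique hw h2).2.symm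
  have hfl₁ := FlatV_conj hP₁ h₁ hfl
  have hlc₁ := LC_conj hP₁ h₁ hlc
  have hdet₁ : ∀ τ ∈ inertiaLoc p, ∀ a : ℕ, τ ζ = ζ ^ a → (r₁ τ).det = a := fun τ hτ a ha => by
    rw [det_conj hP₁ h₁, hdet τ hτ a ha]
  have hu : ∀ g h, r₁ (g * h) 0 0 = r₁ g 0 0 * r₁ h 0 0 := fun g h => by
    rw [map_mul, Matrix.mul_apply, Fin.sum_univ_two, hup h, mul_zero, add_zero]
  have hq : ∀ g h, r₁ (g * h) 1 1 = r₁ g 1 1 * r₁ h 1 1 := fun g h => by
    rw [map_mul, Matrix.mul_apply, Fin.sum_univ_two, hup g, zero_mul, zero_add]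
  have hu1 : r₁ 1 0 0 = 1 := by rw [map_one]; rfl
  have hq1 : r₁ 1 1 1 = 1 := by rw [map_one]; rfl
  have hdetuq : ∀ g, (r₁ g).det = r₁ g 0 0 * r₁ g 1 1 := fun g => by
    rw [Matrix.det_fin_two, hup g, mul_zero, sub_zero]
  have hrow : ∀ (M : M₂ k) (v : Fin 2 → k) (i : Fin 2), (M *ᵥ v) i = M i 0 * v 0 + M i 1 * v 1 := by
    intro M v i
    rw [Matrix.mulVec, dotProduct, Fin.sum_univ_two]
  have hucase := char_cases (u := fun g => r₁ g 0 0) hF hζ hu hu1 (fun u' hu' => by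
    refine IsFlat.of_injective hfl₁ (AddMonoidHom.single (fun _ : Fin 2 => k) 0) (fun x y hxy => ?_) (fun τ x => ?_)
    · have := congrFun hxy 0
      simpa using this
    · change (Pi.single 0 (((u' τ : kˣ) : k) * x) : Fin 2 → k) = r₁ τ *ᵥ Pi.single 0 x
      rw [hu']
      funext i
      rw [hrow]
      fin_cases i
      · simp
      · simp [hup])
  have hqcase := char_cases (u := fun g => r₁ g 1 1) hF hζ hq hq1 (fun u' hu' => by
    refine IsFlat.of_surjective hfl₁ (Pi.evalAddMonoidHom (fun _ : Fin 2 => k) 1)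
      (fun x => ⟨Pi.single 1 x, by simp⟩) (fun τ x => ?_)
    change (r₁ τ *ᵥ x) 1 = ((u' τ : kˣ) : k) * x 1
    rw [hrow, hu', hup, zero_mul, zero_add])
  obtain ⟨σ₀, a₀, ha₀, hne₀⟩ := exists_cyc_ne hp2 hπ hζ k
  have huq : ∀ τ ∈ inertiaLoc p, ∀ a : ℕ, τ ζ = ζ ^ a → r₁ τ 0 0 * r₁ τ 1 1 = a :=
    fun τ hτ a ha => by rw [← hdetuq, hdet₁ τ hτ a ha]
  have hune : ∀ g, r₁ g 0 0 ≠ 0 := fun g => left_ne_zero_of_mul_eq_one
    (b := r₁ g⁻¹ 0 0) (by rw [← hu, mul_inv_cancel, hu1])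
  rcases hucase with hu0 | hucyc
  · -- unramified sub: find a stable complement
    have hqcyc : ∀ τ ∈ inertiaLoc p, ∀ a : ℕ, τ ζ = ζ ^ a → r₁ τ 1 1 = a := fun τ hτ a ha => by
      have := huq τ hτ a ha
      rwa [hu0 τ hτ, one_mul] at this
    obtain ⟨O, hO⟩ := hfl₁
    set v' : Fin 2 → k := r₁ σ₀ *ᵥ (Pi.single 1 1) - Pi.single 1 1 with hv'
    have hv'1 : v' 1 = (a₀.val : k) - 1 := by
      rw [hv', Pi.sub_apply, hrow, hup, hqcyc σ₀ σ₀.2 _ ha₀]
      simp
    have hv'1ne : v' 1 ≠ 0 := by rw [hv'1]; exact sub_ne_zero.mpr hne₀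
    have hv'C : v' ∈ connPart hO := sub_mem_connPart hO σ₀ (Pi.single 1 1)
    clear_value v'
    have hC0 : ∀ x : k, (Pi.single 0 x : Fin 2 → k) ∈ connPart hO → x = 0 := by
      intro x hx
      exact conn_zero (A := k) hp2 hO (AddMonoidHom.single (fun _ : Fin 2 => k) 0) (fun x y hxy => by simpa using congrFun hxy 0)
        1 (fun τ x => by
          change (Pi.single 0 x : Fin 2 → k) = r₁ τ *ᵥ Pi.single 0 x
          funext i
          rw [hrow]
          fin_cases i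
          · simp [hu0 τ τ.2]
          · simp [hup]) (AddMonoidHom.id k) Function.surjective_id (fun _ _ => rfl)
        (fun a => by rw [nsmul_eq_mul, CharP.cast_eq_zero, zero_mul]) hx
    have hvI : ∀ τ ∈ inertiaLoc p, ∀ a : ℕ, τ ζ = ζ ^ a → r₁ τ *ᵥ v' = (a : k) • v' := by
      intro τ hτ a ha
      have h1 : r₁ τ *ᵥ v' - a • v' ∈ connPart hO := by
        have h2 := sub_mem_connPart hO ⟨τ, hτ⟩ v'
        have h3 : r₁ τ *ᵥ v' - a • v' = (r₁ τ *ᵥ v' - v') + (v' - a • v') := by abel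
        rw [h3]
        exact add_mem h2 (sub_mem hv'C (nsmul_mem hv'C a))
      have h2 : r₁ τ *ᵥ v' - a • v' = Pi.single 0 ((r₁ τ *ᵥ v') 0 - (a : k) * v' 0) := by
        funext i
        fin_cases i
        · simp
        · simp only [Fin.mk_one, Pi.sub_apply, nsmul_eq_mul]
          rw [hrow, hup, hqcyc τ hτ a ha]
          simp
      rw [h2] at h1
      have h3 := hC0 _ h1
      rw [h3, Pi.single_zero] at h2
      rw [sub_eq_zero.mp h2, Nat.cast_smul_eq_nsmul]
    have hΓ : ∀ g, r₁ g *ᵥ v' = r₁ g 1 1 • v' := by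
      intro g
      have hτv : ∀ τ ∈ inertiaLoc p, ∀ a : ℕ, τ ζ = ζ ^ a →
          r₁ τ *ᵥ (r₁ g *ᵥ v') = (a : k) • (r₁ g *ᵥ v') := by
        intro τ hτ a ha
        have h1 : r₁ τ *ᵥ (r₁ g *ᵥ v') = r₁ g *ᵥ (r₁ (g⁻¹ * τ * g) *ᵥ v') := by
          rw [Matrix.mulVec_mulVec, Matrix.mulVec_mulVec, ← map_mul, ← map_mul]
          congr 2; group
        have h2 : (g⁻¹ * τ * g) ζ = ζ ^ a := by
          have := cyc_conj hζ g⁻¹ τ ha
          rwa [inv_inv] at this
        rw [h1, hvI _ (conj_mem_inertia' g ⟨τ, hτ⟩) a h2, Matrix.mulVec_smul]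
      have h1 : r₁ g *ᵥ v' - r₁ g 1 1 • v' =
          Pi.single 0 ((r₁ g *ᵥ v') 0 - r₁ g 1 1 * v' 0) := by
        funext i
        fin_cases i
        · simp
        · simp only [Fin.mk_one, Pi.sub_apply, Pi.smul_apply, smul_eq_mul]
          rw [hrow, hup]
          simp
      set x := (r₁ g *ᵥ v') 0 - r₁ g 1 1 * v' 0 with hx
      have h2 : r₁ σ₀ *ᵥ (r₁ g *ᵥ v' - r₁ g 1 1 • v') =
          (a₀.val : k) • (r₁ g *ᵥ v' - r₁ g 1 1 • v') := by
        rw [Matrix.mulVec_sub, hτv σ₀ σ₀.2 _ ha₀, Matrix.mulVec_smul, hvI σ₀ σ₀.2 _ ha₀, smul_sub,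
          smul_comm (r₁ g 1 1)]
      rw [h1] at h2
      have h3 := congrFun h2 0
      rw [hrow, hu0 _ σ₀.2] at h3
      simp only [Pi.single_eq_same, Pi.smul_apply, smul_eq_mul, one_mul] at h3
      have h4 : (Pi.single 0 x : Fin 2 → k) 1 = 0 := by simp
      rw [h4, mul_zero, add_zero] at h3
      have h5 : ((a₀.val : k) - 1) * x = 0 := by linear_combination -h3
      have h6 : x = 0 := (mul_eq_zero.mp h5).resolve_left (sub_ne_zero.mpr hne₀)
      rw [h6, Pi.single_zero] at h1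
      exact sub_eq_zero.mp h1
    -- the new basis
    have hdetw : v' 0 * (Pi.single 0 1 : Fin 2 → k) 1 - v' 1 * (Pi.single 0 1 : Fin 2 → k) 0 ≠ 0 := by
      simpa using hv'1ne
    have hP₂ : IsUnit (cols v' (Pi.single 0 1)).det := by
      rw [det_cols]; exact isUnit_iff_ne_zero.mpr hdetw
    obtain ⟨r₂, h₂⟩ := exists_conjRep r₁ hP₂
    have hr₂ : ∀ g, r₂ g 0 0 = r₁ g 1 1 ∧ r₂ g 1 0 = 0 ∧ r₂ g 1 1 = r₁ g 0 0 := by
      intro g
      obtain ⟨e1, e2⟩ := cols_mul (h₂ g)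
      have e3 : r₁ g 1 1 • v' + (0 : k) • (Pi.single 0 1 : Fin 2 → k) =
          r₂ g 0 0 • v' + r₂ g 1 0 • Pi.single 0 1 := by
        rw [← e1, hΓ, zero_smul, add_zero]
      have e4 : (0 : k) • v' + r₁ g 0 0 • (Pi.single 0 1 : Fin 2 → k) =
          r₂ g 0 1 • v' + r₂ g 1 1 • Pi.single 0 1 := by
        rw [← e2, zero_smul, zero_add]
        funext i
        rw [hrow]
        fin_cases i
        · simp
        · simp [hup]
      have e5 := lin_unique hdetw e3
      have e6 := lin_unique hdetw e4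
      exact ⟨e5.1.symm, e5.2.symm, e6.2.symm⟩
    refine ⟨P₁ * cols v' (Pi.single 0 1), r₂, ?_, fun g => ?_, ?_⟩
    · rw [Matrix.det_mul]; exact hP₁.mul hP₂
    · rw [← Matrix.mul_assoc, h₁, Matrix.mul_assoc, h₂, ← Matrix.mul_assoc]
    · exact { hp2 := hp2
              upper := fun g => (hr₂ g).2.1
              one := fun τ hτ => by rw [(hr₂ τ).2.2, hu0 τ hτ]
              cyc := fun τ hτ a ha => by rw [(hr₂ τ).1, hqcyc τ hτ a ha]
              hπ := hπ
              hζ := hζ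
              frob := hF
              fix := hFπ
              flat := FlatV_conj hP₂ h₂ (FlatV_conj hP₁ h₁ hfl)
              lc := LC_conj hP₂ h₂ hlc₁ }
  · refine ⟨P₁, r₁, hP₁, h₁, ?_⟩
    exact { hp2 := hp2
            upper := hup
            one := fun τ hτ => by
              obtain ⟨a, ha⟩ := exists_zmod_val hζ τ
              have h1 := huq τ hτ _ ha
              rw [← hucyc τ hτ _ ha] at h1
              exact mul_left_cancel₀ (hune τ) (by rw [h1, mul_one])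
            cyc := hucyc
            hπ := hπ
            hζ := hζ
            frob := hF
            fix := hFπ
            flat := hfl₁
            lc := hlc₁ }

end Red

end Fermat.Agent.Flat
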