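import Fermat.Agent.Flat.RedZ

/-!
# Flat cocycles in the reducible case: Kummer indices
-/

set_option autoImplicit false

open GaloisRep Fermat.Agent.CFT.Loc Fermat.Agent.CFT Matrix

namespace Fermat.Agent.Flat

local notation "M₂" => Matrix (Fin 2) (Fin 2)

variable {p : ℕ} [hp : Fact p.Prime]

namespace RD

variable {k : Type*} [Field k] [CharP k p] [Finite k] {r : GalLoc p →* M₂ k} {F : GalLoc p}
  {π ζ : PadicAlgCl p} (hR : RD p r F π ζ)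

include hR

section

variable {c : GalLoc p → M₂ k} (hc : IsCoc r c)

include hc

theorem kfam01 (hlc : (locLevels p).LC c) (htr : ∀ g, (c g).trace = 0) (h10 : ∀ g, c g 1 0 = 0)
    (h00 : ∀ τ ∈ inertiaLoc p, c τ 0 0 = 0) (φ₀ : k →+ ZMod p) :
    KFam π (fam φ₀ (fun σ => c σ 0 1)) :=
  kfam_fam φ₀ (fun σ hσ τ hτ => by
    rw [hR.mul01_inertia hc htr h10 h00 hσ.1 hτ.1, hR.u_one hσ, one_mul])
    (hlc.comp (fun m : M₂ k => m 0 1)) (AddMonoidHom.id k)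

/-- (PR) for flat cocycles -/
theorem kat_one (hfl : FlatC r c hc) (hlc : (locLevels p).LC c) (htr : ∀ g, (c g).trace = 0)
    (h10 : ∀ g, c g 1 0 = 0) (h00 : ∀ τ ∈ inertiaLoc p, c τ 0 0 = 0) {φ₀ : k →+ ZMod p} {x₀ : k}
    (hx₀ : φ₀ x₀ = 1) : KAt ζ π (fam φ₀ (fun σ => c σ 0 1)) 1 := by
  intro b
  obtain ⟨O, hO⟩ := hfl
  have hfam := hR.kfam01 hc hlc htr h10 h00 φ₀
  have hζp := hR.hζ.pow_eq_one
  obtain ⟨y, hy0, hy⟩ := exists_raw hR.hπ hR.hζ (hfam.lc b) (hfam.mul b)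
  obtain ⟨m, hm⟩ := raw_norm hR.hπ hζp hy0 hy
  let ρ := (epsRep r c hc).comp (inertiaLoc p).subtype
  let K : AddSubgroup ((Fin 2 → k) × (Fin 2 → k)) :=
    { carrier := {x | x.1 1 = 0 ∧ x.2 1 = 0 ∧ φ₀ (x.2 0) = 0}
      add_mem' := fun {a b} ha hb => ⟨by rw [Prod.fst_add, Pi.add_apply, ha.1, hb.1, add_zero],
        by rw [Prod.snd_add, Pi.add_apply, ha.2.1, hb.2.1, add_zero],
        by rw [Prod.snd_add, Pi.add_apply, map_add, ha.2.2, hb.2.2, add_zero]⟩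
      zero_mem' := ⟨rfl, rfl, map_zero φ₀⟩
      neg_mem' := fun {a} ha => ⟨by rw [Prod.fst_neg, Pi.neg_apply, ha.1, neg_zero],
        by rw [Prod.snd_neg, Pi.neg_apply, ha.2.1, neg_zero],
        by rw [Prod.snd_neg, Pi.neg_apply, map_neg, ha.2.2, neg_zero]⟩ }
  have hmemK : ∀ x, x ∈ K ↔ x.1 1 = 0 ∧ x.2 1 = 0 ∧ φ₀ (x.2 0) = 0 := fun _ => Iff.rfl
  have hrow : ∀ (M : M₂ k) (v : Fin 2 → k) (i : Fin 2), (M *ᵥ v) i = M i 0 * v 0 + M i 1 * v 1 := by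
    intro M v i
    rw [Matrix.mulVec, dotProduct, Fin.sum_univ_two]
  have hu : ∀ τ : inertiaLoc p, ∃ a : ZMod p, r τ 0 0 = (a.val : k) := by
    intro τ
    obtain ⟨a, ha⟩ := exists_zmod_val hR.hζ (τ : GalLoc p)
    exact ⟨a, hR.cyc τ τ.2 a.val ha⟩
  have hK : ∀ g, ∀ x ∈ K, ρ g x ∈ K := by
    rintro τ ⟨v, w⟩ hx
    obtain ⟨h1, h2, h3⟩ := (hmemK _).mp hx
    simp only at h1 h2 h3
    obtain ⟨a, ha⟩ := hu τ
    rw [hmemK]
    change (r τ *ᵥ v) 1 = 0 ∧ (r τ *ᵥ w + c τ *ᵥ (r τ *ᵥ v)) 1 = 0 ∧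
      φ₀ ((r τ *ᵥ w + c τ *ᵥ (r τ *ᵥ v)) 0) = 0
    have e1 : (r τ *ᵥ v) 1 = 0 := by rw [hrow, hR.upper, h1]; ring
    refine ⟨e1, ?_, ?_⟩
    · rw [Pi.add_apply, hrow, hrow (c τ), e1, hR.upper, h10, h2]; ring
    · rw [Pi.add_apply, hrow, hrow (c τ), e1, h2, h00 τ τ.2, mul_zero, zero_mul, mul_zero,
        add_zero, add_zero, add_zero, ha, phi_val_mul, h3, mul_zero]
  have hq := hO.quot (ρ'' := quotRep ρ K hK) (QuotientAddGroup.mk' K)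
    (QuotientAddGroup.mk'_surjective K) (fun _ _ => rfl)
  let ι : ZMod p →+ ((Fin 2 → k) × (Fin 2 → k)) ⧸ K := AddMonoidHom.mk'
    (fun y => QuotientAddGroup.mk' K ((0 : Fin 2 → k),
      (Pi.single 0 (ZMod.castHom (dvd_refl p) k y * x₀) : Fin 2 → k)))
    (fun x y => by
      rw [← map_add]
      congr 1
      refine Prod.ext (add_zero _).symm ?_
      change (Pi.single 0 (ZMod.castHom (dvd_refl p) k (x + y) * x₀) : Fin 2 → k) =
        Pi.single 0 (ZMod.castHom (dvd_refl p) k x * x₀) +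
        Pi.single 0 (ZMod.castHom (dvd_refl p) k y * x₀)
      rw [← Pi.single_add, map_add, add_mul])
  have hcast : ∀ y : ZMod p, ZMod.castHom (dvd_refl p) k y = (y.val : k) := by
    intro y
    conv_lhs => rw [← ZMod.natCast_zmod_val y]
    rw [map_natCast]
  have hphi : ∀ y : ZMod p, φ₀ (ZMod.castHom (dvd_refl p) k y * x₀) = y := by
    intro y
    rw [hcast, phi_val_mul, hx₀, mul_one]
  have hι : Function.Injective ι := by
    rw [injective_iff_map_eq_zero]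
    intro y hy
    have h1 := (QuotientAddGroup.eq_zero_iff _).mp hy
    have h2 : φ₀ ((Pi.single 0 (ZMod.castHom (dvd_refl p) k y * x₀) : Fin 2 → k) 0) = 0 :=
      h1.2.2
    rwa [Pi.single_eq_same, hphi] at h2
  obtain ⟨ρ', hρ'⟩ := exists_restrict (quotRep ρ K hK) ι hι (fun τ x => by
    obtain ⟨a, ha⟩ := hu τ
    refine ⟨a * x, ?_⟩
    change QuotientAddGroup.mk' K (r τ *ᵥ (0 : Fin 2 → k),
      r τ *ᵥ (Pi.single 0 (ZMod.castHom (dvd_refl p) k x * x₀)) +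
        c τ *ᵥ (r τ *ᵥ (0 : Fin 2 → k))) =
      QuotientAddGroup.mk' K (0, Pi.single 0 (ZMod.castHom (dvd_refl p) k (a * x) * x₀))
    rw [Matrix.mulVec_zero, Matrix.mulVec_zero, add_zero]
    congr 2
    funext l
    rw [hrow]
    fin_cases l
    · simp only [Fin.zero_eta, Pi.single_eq_same]
      rw [ha, map_mul, hcast a]
      simp; ring
    · simp [hR.upper])
  obtain ⟨n, hn⟩ := peuRam hR.hπ hR.hζ hq ι hι ρ' hρ'
    (n := QuotientAddGroup.mk' K (Pi.single 1 b, 0)) (g := fam φ₀ (fun σ => c σ 0 1) b)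
    (fun σ hσ => by
      change QuotientAddGroup.mk' K (r σ *ᵥ (Pi.single 1 b), r σ *ᵥ (0 : Fin 2 → k) +
        c σ *ᵥ (r σ *ᵥ (Pi.single 1 b))) = QuotientAddGroup.mk' K (Pi.single 1 b, 0) +
        QuotientAddGroup.mk' K (0, Pi.single 0 (ZMod.castHom (dvd_refl p) k
          (fam φ₀ (fun σ => c σ 0 1) b σ) * x₀))
      rw [Matrix.mulVec_zero, zero_add, ← map_add]
      apply (QuotientAddGroup.eq).mpr
      rw [hmemK]
      have hq1 := hR.one σ hσ.1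
      have hc0 := h00 σ hσ.1
      have hc1 : c σ 1 1 = 0 := by
        have := htr σ
        rwa [Matrix.trace_fin_two, hc0, zero_add] at this
      refine ⟨?_, ?_, ?_⟩
      · change -(r σ *ᵥ Pi.single 1 b) 1 + ((Pi.single 1 b : Fin 2 → k) 1 + (0 : k)) = 0
        rw [hrow, hq1]
        simp
      · change -(c σ *ᵥ (r σ *ᵥ Pi.single 1 b)) 1 + ((0 : k) +
          (Pi.single 0 (ZMod.castHom (dvd_refl p) k (fam φ₀ (fun σ => c σ 0 1) b σ) * x₀) :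
            Fin 2 → k) 1) = 0
        rw [hrow, h10, hc1]
        simp
      · change φ₀ (-(c σ *ᵥ (r σ *ᵥ Pi.single 1 b)) 0 + ((0 : k) +
          (Pi.single 0 (ZMod.castHom (dvd_refl p) k (fam φ₀ (fun σ => c σ 0 1) b σ) * x₀) :
            Fin 2 → k) 0)) = 0
        rw [hrow, hc0, hrow, hrow, hR.upper, hq1, zero_add, map_add, map_neg,
          Pi.single_eq_same (M := fun _ : Fin 2 => k) 0, hphi]
        simp [fam, mul_comm])
    (hfam.mul b) hy0 hy hm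
  exact exists_one hR.hπ hζp (n := n) hy (by rw [hm, hn])

/-- the relation used for the climbing -/
theorem rel01 (htr : ∀ g, (c g).trace = 0) (h10 : ∀ g, c g 1 0 = 0)
    (h00 : ∀ τ ∈ inertiaLoc p, c τ 0 0 = 0) (φ₀ : k →+ ZMod p) {τ : GalLoc p}
    (hτ : τ ∈ inertiaLoc p) {a : ZMod p} (ha : (a.val : k) = r τ 0 0) (w : k) :
    ∀ σ ∈ Gt π, a * fam φ₀ (fun σ => c σ 0 1) w (τ⁻¹ * σ * τ) =
      fam φ₀ (fun σ => c σ 0 1) (1 • w) σ := by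
  intro σ hσ
  rw [fam, fam, ← phi_val_mul, one_smul, ← hR.conj_inertia01 hc htr h10 h00 hτ hσ, ha]
  congr 1; ring

/-- climbing -/
theorem kat_climb (hlc : (locLevels p).LC c) (htr : ∀ g, (c g).trace = 0)
    (h10 : ∀ g, c g 1 0 = 0) (h00 : ∀ τ ∈ inertiaLoc p, c τ 0 0 = 0) {φ₀ : k →+ ZMod p}
    (h : KAt ζ π (fam φ₀ (fun σ => c σ 0 1)) 1) :
    KAt ζ π (fam φ₀ (fun σ => c σ 0 1)) (p ^ 2 - 1) := by
  obtain ⟨σ₀, a, hord, ha, hau, -, -⟩ := hR.gen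
  have hp3 := hR.three_le
  have hpp : 3 * p ≤ p ^ 2 := by rw [sq]; exact Nat.mul_le_mul_right p hp3
  have hp4 : p * (p + 1) = p ^ 2 + p := by ring
  have hfam := hR.kfam01 hc hlc htr h10 h00 φ₀
  refine h.climb hR.hπ hR.hζ.pow_eq_one hfam (by omega) (by omega) le_rfl
    (fun i hi hi' h hi1 hdvd w => ?_)
  refine lead_eq_zero_of_nat hR.hπ hR.hζ.pow_eq_one hfam h hi1 hdvd hord ha (n := 1) (m := 0)
    (by rw [pow_zero, Nat.cast_one]) (hR.rel01 hc htr h10 h00 φ₀ σ₀.2 hau) ?_ w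
  intro h1
  rcases modEq_cases (by omega : 0 < p ^ 2 - 1) (by omega) h1 with h3 | h3 <;> omega

theorem zero_of_lead (hlc : (locLevels p).LC c) (htr : ∀ g, (c g).trace = 0)
    (h10 : ∀ g, c g 1 0 = 0) (h00 : ∀ τ ∈ inertiaLoc p, c τ 0 0 = 0) {φ₀ : k →+ ZMod p}
    (hφ₀ : NonDeg φ₀) (h : KAt ζ π (fam φ₀ (fun σ => c σ 0 1)) (p ^ 2 - 1))
    (hi1 : 1 ≤ p ^ 2 - 1) (hdvd1 : ¬ p ∣ p ^ 2 - 1)
    (h0 : ∀ w, lead hR.hπ hR.hζ.pow_eq_one (hR.kfam01 hc hlc htr h10 h00 φ₀) h hi1 hdvd1 w = 0)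
    {σ : GalLoc p} (hσ : σ ∈ Gt π) : c σ 0 1 = 0 := by
  obtain ⟨σ₀, a, hord, ha, hau, -, -⟩ := hR.gen
  have hp3 := hR.three_le
  have hpp : 3 * p ≤ p ^ 2 := by rw [sq]; exact Nat.mul_le_mul_right p hp3
  have hp4 : p * (p + 1) = p ^ 2 + p := by ring
  have hfam := hR.kfam01 hc hlc htr h10 h00 φ₀
  have h1 := h.succ_of_lead hR.hπ hR.hζ.pow_eq_one hfam hi1 (by omega) hdvd1 h0
  have h2 := h1.climb hR.hπ hR.hζ.pow_eq_one hfam (i₁ := p * (p + 1)) (by omega) le_rfl (by omega)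
    (fun i hi hi' h hi1 hdvd w => by
      refine lead_eq_zero_of_nat hR.hπ hR.hζ.pow_eq_one hfam h hi1 hdvd hord ha (n := 1) (m := 0)
        (by rw [pow_zero, Nat.cast_one]) (hR.rel01 hc htr h10 h00 φ₀ σ₀.2 hau) ?_ w
      intro h1
      rcases modEq_cases (by omega : 0 < p ^ 2 - 1) (by omega) h1 with h3 | h3 <;> omega)
  exact eq_zero_of_kat (f := fun σ => c σ 0 1) hR.hπ hR.hζ hφ₀ h2 hσ

/-- Frobenius conjugation -/
theorem conj_frob01 (htr : ∀ g, (c g).trace = 0) (h10 : ∀ g, c g 1 0 = 0)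
    (h00 : ∀ τ ∈ inertiaLoc p, c τ 0 0 = 0) (hF0 : c F 0 0 = 0) {σ : GalLoc p} (hσ : σ ∈ Gt π) :
    r F 0 0 * c (F⁻¹ * σ * F) 0 1 = r F 1 1 * c σ 0 1 := by
  have h1 := hR.mul01 hc htr h10 σ F
  have h2 := hR.mul01 hc htr h10 F (F⁻¹ * σ * F)
  have h3 : F * (F⁻¹ * σ * F) = σ * F := by group
  rw [h3, h1, hF0, h00 _ (hR.hπ.conj_mem F hσ).1, hR.u_one hσ, hR.one σ hσ.1] at h2
  have hq := hR.q_ne F
  field_simp at h2
  linear_combination -h2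

/-- values of cocycles on the whole inertia group -/
theorem inertia01 (htr : ∀ g, (c g).trace = 0) (h10 : ∀ g, c g 1 0 = 0)
    (h00 : ∀ τ ∈ inertiaLoc p, c τ 0 0 = 0) (hG : ∀ σ ∈ Gt π, c σ 0 1 = 0)
    {σ₀ : inertiaLoc p} (hgen : ∀ τ : inertiaLoc p, ∃ n : ℕ,
      psi π (τ : GalLoc p) = psi π (σ₀ : GalLoc p) ^ n) (h0 : c σ₀ 0 1 = 0)
    {τ : GalLoc p} (hτ : τ ∈ inertiaLoc p) : c τ 0 1 = 0 := by
  have hn' : ∀ n : ℕ, c ((σ₀ : GalLoc p) ^ n) 0 1 = 0 := by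
    intro n
    induction n with
    | zero => rw [pow_zero, hc.one]; rfl
    | succ n ih =>
      rw [pow_succ, hR.mul01_inertia hc htr h10 h00 (pow_mem σ₀.2 n) σ₀.2, ih, h0, mul_zero,
        add_zero]
  obtain ⟨n, hn⟩ := hgen ⟨τ, hτ⟩
  have h1 : ((σ₀ : GalLoc p) ^ n)⁻¹ * τ ∈ Gt π := by
    rw [hR.hπ.mem_Gt_iff]
    refine ⟨mul_mem (inv_mem (pow_mem σ₀.2 n)) hτ, ?_⟩
    have h2 : psi π (((σ₀ : GalLoc p) ^ n) * (((σ₀ : GalLoc p) ^ n)⁻¹ * τ)) = psi π τ := by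
      rw [mul_inv_cancel_left]
    rw [hR.hπ.psi_mul_inertia (pow_mem σ₀.2 n)] at h2
    have h3 : psi π ((σ₀ : GalLoc p) ^ n) = psi π (σ₀ : GalLoc p) ^ n := by
      have h4 := hR.hπ.psiI_apply (σ₀ ^ n)
      rw [map_pow, Units.val_pow_eq_pow_val, hR.hπ.psiI_apply] at h4
      exact h4.symm
    change psi π τ = _ at hn
    rw [h3, hn] at h2
    exact mul_left_cancel₀ (pow_ne_zero n (hR.hπ.psi_ne_zero _)) (by rw [h2, mul_one])
  have h2 : τ = (σ₀ : GalLoc p) ^ n * (((σ₀ : GalLoc p) ^ n)⁻¹ * τ) := by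
    rw [mul_inv_cancel_left]
  rw [h2, hR.mul01_inertia hc htr h10 h00 (pow_mem σ₀.2 n) h1.1, hn', hG _ h1, mul_zero, add_zero]

end

end RD

end Fermat.Agent.Flat
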