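import Fermat.Agent.Flat.LocBound
import Fermat.Agent.Flat.FrobFix

/-!
# Flat cocycles in the reducible case
-/

set_option autoImplicit false

open GaloisRep Fermat.Agent.CFT.Loc Fermat.Agent.CFT Matrix

namespace Fermat.Agent.Flat

local notation "M₂" => Matrix (Fin 2) (Fin 2)

variable {p : ℕ} [hp : Fact p.Prime]

theorem exists_restrict {G A N : Type*} [Group G] [AddCommGroup A] [AddCommGroup N]
    (ρ : G →* AddMonoid.End N) (ι : A →+ N) (hι : Function.Injective ι)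
    (hstab : ∀ g x, ∃ y, ρ g (ι x) = ι y) :
    ∃ ρ' : G →* AddMonoid.End A, ∀ g x, ι (ρ' g x) = ρ g (ι x) := by
  choose f hf using hstab
  refine ⟨{ toFun := fun g => AddMonoidHom.mk' (f g) (fun x y => by
              apply hι
              rw [← hf, map_add, map_add, hf, hf, map_add])
            map_one' := by
              apply AddMonoidHom.ext
              intro x
              apply hι
              change ι (f 1 x) = ι x
              rw [← hf, map_one]; rfl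
            map_mul' := fun g h => by
              apply AddMonoidHom.ext
              intro x
              apply hι
              change ι (f (g * h) x) = ι (f g (f h x))
              rw [← hf, ← hf, ← hf, map_mul]; rfl }, fun g x => (hf g x).symm⟩

section Conn

variable {M M' A : Type*} [AddCommGroup M] [AddCommGroup M'] [AddCommGroup A] [Finite M']
  {ρ : inertiaLoc p →* AddMonoid.End M} {O : Subalgebra (Wring p) (M → PadicAlgCl p)}

/-- functionals with trivial action vanish on the connected part -/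
theorem conn_zero (hp2 : p ≠ 2) (h : IsOrder ρ O) (i : M' →+ M) (hi : Function.Injective i)
    (ρ' : inertiaLoc p →* AddMonoid.End M') (hiρ : ∀ g m, i (ρ' g m) = ρ g (i m)) (s : M' →+ A)
    (hs : Function.Surjective s) (hsρ : ∀ g m, s (ρ' g m) = s m) (hpA : ∀ a : A, p • a = 0)
    {m : M'} (hm : i m ∈ connPart h) : s m = 0 := by
  have h1 := h.sub i hi hiρ
  have h2 := h1.quot (ρ'' := (1 : inertiaLoc p →* AddMonoid.End A)) s hs (fun g m => hsρ g m)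
  haveI : Finite A := Finite.of_surjective s hs
  refine eq_zero_of_trivial hp2 h2 hpA (fun _ _ => rfl) (fun φ hφ => ?_)
  obtain ⟨ψ, hψ, hψφ⟩ := hφ.1
  have h3 : φ (s m) = ψ (i m) := (congrFun hψφ m).symm
  have h4 : ψ 0 = 0 := by
    have h5 : ψ (i 0) = φ (s 0) := congrFun hψφ 0
    rw [map_zero, map_zero, hφ.2] at h5
    exact h5
  rw [h3]
  exact hm ψ ⟨hψ, h4⟩

end Conn

section ScalarCocycle

variable {k : Type*} [Field k]

/-- a scalar cocycle vanishing on inertia and Frobenius -/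
theorem scal_zero {d θ : GalLoc p → k} (hd : ∀ g h, d (g * h) = d g + θ g * d h)
    (hlc : (locLevels p).LC d) {F : GalLoc p} (hF : ∀ x, resAct p F x = x ^ p)
    (hI : ∀ τ ∈ inertiaLoc p, d τ = 0) (h0 : d F = 0) (g : GalLoc p) : d g = 0 := by
  obtain ⟨H, hH, hHc⟩ := hlc
  obtain ⟨j, t, ht, n, hn, rfl⟩ := exists_decomp hF hH g
  have h1 : d 1 = 0 := hI 1 (one_mem _)
  have hFj : ∀ j : ℕ, d (F ^ j) = 0 := by
    intro j
    induction j with
    | zero => rw [pow_zero, h1]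
    | succ j ih => rw [pow_succ, hd, ih, h0, mul_zero, add_zero]
  rw [hHc _ n hn, hd, hFj, hI t ht, mul_zero, add_zero]

end ScalarCocycle

/-- the data of the reducible case -/
structure RD (p : ℕ) [hp : Fact p.Prime] {k : Type*} [Field k] [CharP k p] [Finite k]
    (r : GalLoc p →* M₂ k) (F : GalLoc p) (π ζ : PadicAlgCl p) : Prop where
  hp2 : p ≠ 2
  upper : ∀ g, r g 1 0 = 0
  one : ∀ τ ∈ inertiaLoc p, r τ 1 1 = 1
  cyc : ∀ τ ∈ inertiaLoc p, ∀ a : ℕ, τ ζ = ζ ^ a → r τ 0 0 = a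
  hπ : IsPi π
  hζ : IsPrimitiveRoot ζ p
  frob : ∀ x, resAct p F x = x ^ p
  fix : F π = π
  flat : FlatV r
  lc : (locLevels p).LC r

namespace RD

variable {k : Type*} [Field k] [CharP k p] [Finite k] {r : GalLoc p →* M₂ k} {F : GalLoc p}
  {π ζ : PadicAlgCl p} (hR : RD p r F π ζ)

include hR

theorem three_le : 3 ≤ p := by
  have := hp.out.two_le
  have := hR.hp2
  omega

theorem u_mul (g h : GalLoc p) : r (g * h) 0 0 = r g 0 0 * r h 0 0 := by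
  rw [map_mul, Matrix.mul_apply, Fin.sum_univ_two, hR.upper h, mul_zero, add_zero]

theorem q_mul (g h : GalLoc p) : r (g * h) 1 1 = r g 1 1 * r h 1 1 := by
  rw [map_mul, Matrix.mul_apply, Fin.sum_univ_two, hR.upper g, zero_mul, zero_add]

theorem u_inv (g : GalLoc p) : r g 0 0 * r g⁻¹ 0 0 = 1 := by
  rw [← hR.u_mul, mul_inv_cancel, map_one, Matrix.one_apply_eq]

theorem q_inv (g : GalLoc p) : r g 1 1 * r g⁻¹ 1 1 = 1 := by
  rw [← hR.q_mul, mul_inv_cancel, map_one, Matrix.one_apply_eq]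

theorem u_ne (g : GalLoc p) : r g 0 0 ≠ 0 := left_ne_zero_of_mul_eq_one (hR.u_inv g)
theorem q_ne (g : GalLoc p) : r g 1 1 ≠ 0 := left_ne_zero_of_mul_eq_one (hR.q_inv g)

theorem rinv (g : GalLoc p) : r g⁻¹ 0 0 = (r g 0 0)⁻¹ ∧ r g⁻¹ 1 1 = (r g 1 1)⁻¹ ∧
    r g⁻¹ 0 1 = -(r g 0 1) / (r g 0 0 * r g 1 1) := by
  have h1 := eq_inv_of_mul_eq_one_right (hR.u_inv g)
  have h2 := eq_inv_of_mul_eq_one_right (hR.q_inv g)
  refine ⟨h1, h2, ?_⟩
  have h3 : (r g * r g⁻¹) 0 1 = 0 := by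
    rw [mul_inv_r]; simp
  rw [Matrix.mul_apply, Fin.sum_univ_two, h2] at h3
  have hu := hR.u_ne g
  have hq := hR.q_ne g
  field_simp
  field_simp at h3
  linear_combination h3

theorem r_eq (g : GalLoc p) : r g = !![r g 0 0, r g 0 1; 0, r g 1 1] := by
  ext i j
  fin_cases i <;> fin_cases j
  · rfl
  · rfl
  · exact hR.upper g
  · rfl

theorem conj10 (g : GalLoc p) (X : M₂ k) :
    (r g * X * r g⁻¹) 1 0 = r g 1 1 * (r g 0 0)⁻¹ * X 1 0 := by
  rw [conj_entry, hR.upper g, hR.upper g⁻¹, (hR.rinv g).1]; ring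

theorem conj00 (g : GalLoc p) {X : M₂ k} (hX : X 1 0 = 0) :
    (r g * X * r g⁻¹) 0 0 = X 0 0 := by
  rw [conj_entry, hR.upper g⁻¹, (hR.rinv g).1, hX]
  have := hR.u_ne g
  field_simp; ring

theorem conj01 (g : GalLoc p) {X : M₂ k} (hX : X 1 0 = 0) (htr : X.trace = 0) :
    (r g * X * r g⁻¹) 0 1 = r g 0 0 * (r g 1 1)⁻¹ * X 0 1 - 2 * r g 0 1 * (r g 1 1)⁻¹ * X 0 0 := by
  rw [Matrix.trace_fin_two] at htr
  have h11 : X 1 1 = - X 0 0 := by linear_combination htr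
  rw [conj_entry, (hR.rinv g).2.1, (hR.rinv g).2.2, hX, h11]
  have := hR.u_ne g
  have := hR.q_ne g
  field_simp; ring

/-- a generator of the tame quotient -/
theorem gen : ∃ (σ₀ : inertiaLoc p) (a : ZMod p), orderOf (hR.hπ.psiI σ₀) = p ^ 2 - 1 ∧
    (σ₀ : GalLoc p) ζ = ζ ^ a.val ∧ (a.val : k) = r σ₀ 0 0 ∧ r σ₀ 0 0 ≠ 1 ∧
    ∀ τ : inertiaLoc p, ∃ n : ℕ, psi π (τ : GalLoc p) = psi π (σ₀ : GalLoc p) ^ n := by
  obtain ⟨σ₀, hord, hgen⟩ := hR.hπ.exists_generator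
  obtain ⟨a, ha⟩ := exists_zmod_val hR.hζ (σ₀ : GalLoc p)
  have hu := hR.cyc σ₀ σ₀.2 a.val ha
  refine ⟨σ₀, a, hord, ha, hu.symm, ?_, hgen⟩
  intro h1
  rw [hu] at h1
  have h2 : ((a.val : ℕ) : k) = ((1 : ℕ) : k) := by rw [h1]; simp
  have h3 := (CharP.natCast_eq_natCast k p).mp h2
  have h4 := (CharP.natCast_eq_natCast (ResF p) p).mpr h3
  rw [← hR.hπ.psi_cyc hR.hζ σ₀.2 ha, Nat.cast_one] at h4
  have h5 : psi π (σ₀ : GalLoc p) ^ (p + 1) = psi π (σ₀ : GalLoc p) ^ 0 := by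
    rw [pow_zero]; exact h4
  rw [psi_pow_eq_iff hR.hπ hord] at h5
  have hp3 := hR.three_le
  have hpp : 3 * p ≤ p ^ 2 := by rw [sq]; exact Nat.mul_le_mul_right p hp3
  rcases modEq_cases (by omega : 0 < p ^ 2 - 1) (by omega) h5 with h3 | h3 <;> omega

/-- `u = 1` on `Gt` -/
theorem u_one {σ : GalLoc p} (hσ : σ ∈ Gt π) : r σ 0 0 = 1 := by
  have h1 := hR.cyc σ hσ.1 1 (by rw [pow_one]; exact hR.hπ.zeta_InL hR.hζ.pow_eq_one σ hσ)
  rw [h1, Nat.cast_one]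

section

variable {c : GalLoc p → M₂ k} (hc : IsCoc r c)

include hc

theorem fst_conn {O : Subalgebra (Wring p) ((Fin 2 → k) × (Fin 2 → k) → PadicAlgCl p)}
    (h : IsOrder ((epsRep r c hc).comp (inertiaLoc p).subtype) O)
    {x : (Fin 2 → k) × (Fin 2 → k)} (hx : x ∈ connPart h) : x.1 1 = 0 := by
  refine conn_zero (A := k) hR.hp2 h (AddMonoidHom.id _) Function.injective_id
    ((epsRep r c hc).comp (inertiaLoc p).subtype) (fun _ _ => rfl) ((Pi.evalAddMonoidHom (fun _ : Fin 2 => k) 1).comp (AddMonoidHom.fst _ _))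
    (fun y => ⟨(Pi.single 1 y, 0), by simp⟩) (fun τ x => ?_)
    (fun a => by rw [nsmul_eq_mul, CharP.cast_eq_zero, zero_mul]) hx
  change (r τ *ᵥ x.1) 1 = x.1 1
  rw [Matrix.mulVec, dotProduct, Fin.sum_univ_two, hR.upper, hR.one τ τ.2]
  ring

theorem snd_conn {O : Subalgebra (Wring p) ((Fin 2 → k) × (Fin 2 → k) → PadicAlgCl p)}
    (h : IsOrder ((epsRep r c hc).comp (inertiaLoc p).subtype) O)
    {w : Fin 2 → k} (hx : ((0 : Fin 2 → k), w) ∈ connPart h) : w 1 = 0 := by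
  refine conn_zero (A := k) hR.hp2 h (AddMonoidHom.inr (Fin 2 → k) (Fin 2 → k))
    (fun a b hab => (Prod.mk.inj hab).2) ((vecRep r).comp (inertiaLoc p).subtype)
    (fun τ m => ?_) (Pi.evalAddMonoidHom (fun _ : Fin 2 => k) 1)
    (fun y => ⟨Pi.single 1 y, by simp⟩) (fun τ x => ?_)
    (fun a => by rw [nsmul_eq_mul, CharP.cast_eq_zero, zero_mul]) hx
  · change ((0 : Fin 2 → k), r τ *ᵥ m) = (r τ *ᵥ (0 : Fin 2 → k), r τ *ᵥ m +
      c τ *ᵥ (r τ *ᵥ (0 : Fin 2 → k)))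
    rw [Matrix.mulVec_zero, Matrix.mulVec_zero, add_zero]
  · change (r τ *ᵥ x) 1 = x 1
    rw [Matrix.mulVec, dotProduct, Fin.sum_univ_two, hR.upper, hR.one τ τ.2]
    ring

/-- the basic elements of the connected part -/
theorem elt_conn {O : Subalgebra (Wring p) ((Fin 2 → k) × (Fin 2 → k) → PadicAlgCl p)}
    (h : IsOrder ((epsRep r c hc).comp (inertiaLoc p).subtype) O)
    (τ : inertiaLoc p) (v : Fin 2 → k) :
    (r τ *ᵥ v - v, c τ *ᵥ (r τ *ᵥ v)) ∈ connPart h := by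
  have h1 := sub_mem_connPart h τ (v, 0)
  have h2 : (epsRep r c hc).comp (inertiaLoc p).subtype τ (v, 0) - (v, 0)
      = (r τ *ᵥ v - v, c τ *ᵥ (r τ *ᵥ v)) := by
    change (r τ *ᵥ v - v, r τ *ᵥ (0 : Fin 2 → k) + c τ *ᵥ (r τ *ᵥ v) - 0) = _
    rw [Matrix.mulVec_zero, zero_add, sub_zero]
  rwa [h2] at h1

/-- the lower left entry is a coboundary on inertia -/
theorem exists_correct (hfl : FlatC r c hc) :
    ∃ w : k, ∀ τ ∈ inertiaLoc p, c τ 1 0 = w * (1 - (r τ 0 0)⁻¹) := by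
  obtain ⟨O, hO⟩ := hfl
  obtain ⟨σ₀, a, -, -, -, hu1, -⟩ := hR.gen
  have hu1' : r σ₀ 0 0 - 1 ≠ 0 := sub_ne_zero.mpr hu1
  refine ⟨r σ₀ 0 0 * (r σ₀ 0 0 - 1)⁻¹ * c σ₀ 1 0, fun τ hτ => ?_⟩
  have hv : ∀ (g : GalLoc p) (x : k), r g *ᵥ (Pi.single 0 x) = Pi.single 0 (r g 0 0 * x) := by
    intro g x
    funext j
    fin_cases j
    · simp
    · simp [hR.upper]
  have h1 := hR.elt_conn hc hO ⟨τ, hτ⟩ (Pi.single 0 (r σ₀ 0 0 - 1))
  have h2 := hR.elt_conn hc hO σ₀ (Pi.single 0 (r τ 0 0 - 1))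
  have h3 := (connPart hO).sub_mem h1 h2
  rw [Prod.mk_sub_mk] at h3
  simp only [hv] at h3
  have h4 : (Pi.single 0 (r τ 0 0 * (r σ₀ 0 0 - 1)) - Pi.single 0 (r σ₀ 0 0 - 1) -
      (Pi.single 0 (r σ₀ 0 0 * (r τ 0 0 - 1)) - Pi.single 0 (r τ 0 0 - 1)) : Fin 2 → k) = 0 := by
    rw [← Pi.single_sub, ← Pi.single_sub, ← Pi.single_sub, Pi.single_eq_zero_iff]
    ring
  rw [h4] at h3
  have h5 := hR.snd_conn hc hO h3
  have h6 : ∀ (g : GalLoc p) (x : k), (c g *ᵥ (Pi.single 0 x)) 1 = c g 1 0 * x := by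
    intro g x
    simp
  rw [Pi.sub_apply, h6, h6] at h5
  have hut := hR.u_ne τ
  have hus := hR.u_ne (σ₀ : GalLoc p)
  field_simp
  linear_combination h5

/-- the diagonal entries vanish on inertia -/
theorem diag_zero (hfl : FlatC r c hc) (htr : ∀ g, (c g).trace = 0)
    (h10 : ∀ τ ∈ inertiaLoc p, c τ 1 0 = 0) : ∀ τ ∈ inertiaLoc p, c τ 0 0 = 0 := by
  intro τ hτ
  obtain ⟨O, hO⟩ := hfl
  obtain ⟨σ₀, a, -, -, -, hu1, -⟩ := hR.gen
  have hu1' : r σ₀ 0 0 - 1 ≠ 0 := sub_ne_zero.mpr hu1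
  have hv : ∀ (g : GalLoc p) (x : k), r g *ᵥ (Pi.single 0 x) = Pi.single 0 (r g 0 0 * x) := by
    intro g x
    funext j
    fin_cases j
    · simp
    · simp [hR.upper]
  have hv1 : r τ *ᵥ (Pi.single 1 1) = Pi.single 0 (r τ 0 1) + Pi.single 1 1 := by
    funext j
    fin_cases j
    · simp
    · simp [hR.one τ hτ]
  have h1 := hR.elt_conn hc hO ⟨τ, hτ⟩ (Pi.single 1 1)
  have h2 := hR.elt_conn hc hO σ₀ (Pi.single 0 (r τ 0 1 / (r σ₀ 0 0 - 1)))
  have h3 := (connPart hO).sub_mem h1 h2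
  rw [Prod.mk_sub_mk] at h3
  simp only [hv, hv1] at h3
  have h4 : (Pi.single 0 (r τ 0 1) + Pi.single 1 1 - Pi.single 1 1 -
      (Pi.single 0 (r σ₀ 0 0 * (r τ 0 1 / (r σ₀ 0 0 - 1))) -
        Pi.single 0 (r τ 0 1 / (r σ₀ 0 0 - 1))) : Fin 2 → k) = 0 := by
    rw [add_sub_cancel_right, ← Pi.single_sub, ← Pi.single_sub, Pi.single_eq_zero_iff]
    field_simp; ring
  rw [h4] at h3
  have h5 := hR.snd_conn hc hO h3
  have h6 : ∀ (g : GalLoc p) (x : k), (c g *ᵥ (Pi.single 0 x)) 1 = c g 1 0 * x := by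
    intro g x
    simp
  have h7 : (c τ *ᵥ (Pi.single 0 (r τ 0 1) + Pi.single 1 1)) 1 = c τ 1 1 := by
    rw [Matrix.mulVec_add, Pi.add_apply, h6, h10 τ hτ]
    simp
  rw [Pi.sub_apply, h6, h7, h10 _ σ₀.2, zero_mul, sub_zero] at h5
  have h8 := htr τ
  rw [Matrix.trace_fin_two, h5, add_zero] at h8
  exact h8

/-- the upper right entry on inertia -/
theorem mul01 (htr : ∀ g, (c g).trace = 0) (h10 : ∀ g, c g 1 0 = 0) (g h : GalLoc p) :
    c (g * h) 0 1 = c g 0 1 + (r g 0 0 * (r g 1 1)⁻¹ * c h 0 1 -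
      2 * r g 0 1 * (r g 1 1)⁻¹ * c h 0 0) := by
  rw [hc, Matrix.add_apply, hR.conj01 g (h10 h) (htr h)]

theorem mul01_inertia (htr : ∀ g, (c g).trace = 0) (h10 : ∀ g, c g 1 0 = 0)
    (h00 : ∀ τ ∈ inertiaLoc p, c τ 0 0 = 0) {g h : GalLoc p} (hg : g ∈ inertiaLoc p)
    (hh : h ∈ inertiaLoc p) : c (g * h) 0 1 = c g 0 1 + r g 0 0 * c h 0 1 := by
  rw [hR.mul01 hc htr h10, hR.one g hg, h00 h hh]
  ring

theorem conj_inertia01 (htr : ∀ g, (c g).trace = 0) (h10 : ∀ g, c g 1 0 = 0)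
    (h00 : ∀ τ ∈ inertiaLoc p, c τ 0 0 = 0) {τ σ : GalLoc p} (hτ : τ ∈ inertiaLoc p)
    (hσ : σ ∈ Gt π) : r τ 0 0 * c (τ⁻¹ * σ * τ) 0 1 = c σ 0 1 := by
  have e1 := hR.mul01_inertia hc htr h10 h00 (mul_mem (inv_mem hτ) hσ.1) hτ
  have e2 := hR.mul01_inertia hc htr h10 h00 (inv_mem hτ) hσ.1
  have e3 := hR.mul01_inertia hc htr h10 h00 (inv_mem hτ) hτ
  rw [inv_mul_cancel, hc.one, Matrix.zero_apply] at e3
  have e4 : r (τ⁻¹ * σ) 0 0 = r τ⁻¹ 0 0 := by rw [hR.u_mul, hR.u_one hσ, mul_one]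
  have e5 := hR.u_inv τ
  rw [e1, e2, e4]
  linear_combination (c σ 0 1) * e5 - (r τ 0 0) * e3

end

end RD

end Fermat.Agent.Flat
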