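import Fermat.Agent.Flat.KumLead

/-!
# An element of inertia fixing the `p`-th roots of units and moving `p ^ (1 / p)`
-/

set_option autoImplicit false
set_option linter.style.haveILetI false

open GaloisRep Fermat.Agent.CFT.Loc Fermat.Agent.CFT IntermediateField

namespace Fermat.Agent.Flat

variable {p : ℕ} [hp : Fact p.Prime]

theorem isOpen_apply_eq (x y : PadicAlgCl p) : IsOpen {τ : GalLoc p | τ x = y} := by
  by_cases hne : ({τ : GalLoc p | τ x = y}).Nonempty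
  · obtain ⟨τ₀, hτ₀⟩ := hne
    have hint : IsIntegral ℚ_[p] x := (Algebra.IsAlgebraic.isAlgebraic _).isIntegral
    haveI : FiniteDimensional ℚ_[p] ℚ_[p]⟮x⟯ := adjoin.finiteDimensional hint
    have h := (IntermediateField.fixingSubgroup_isOpen ℚ_[p]⟮x⟯).leftCoset τ₀
    convert h using 1
    ext τ
    rw [Set.mem_smul_set]
    constructor
    · intro hτ
      have hτ' : τ x = y := hτ
      have hτ₀' : τ₀ x = y := hτ₀
      refine ⟨τ₀⁻¹ * τ, ?_, ?_⟩
      · show _ ∈ ℚ_[p]⟮x⟯.fixingSubgroup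
        rw [mem_fixingSubgroup_adjoin_simple_iff]
        show τ₀.symm (τ _) = _
        rw [hτ', ← hτ₀', AlgEquiv.symm_apply_apply]
      · simp
    · rintro ⟨ρ, hρ, rfl⟩
      have hρ' : ρ x = x := (mem_fixingSubgroup_adjoin_simple_iff _ _).1 hρ
      show τ₀ (ρ _) = _
      rw [hρ']
      exact hτ₀
  · rw [Set.not_nonempty_iff_eq_empty.1 hne]; exact isOpen_empty

theorem isOpen_apply_mem (x : PadicAlgCl p) (S : Set (PadicAlgCl p)) :
    IsOpen {τ : GalLoc p | τ x ∈ S} := by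
  have h : {τ : GalLoc p | τ x ∈ S} = ⋃ y ∈ S, {τ : GalLoc p | τ x = y} := by
    ext τ; simp
  rw [h]
  exact isOpen_biUnion fun y _ => isOpen_apply_eq x y

theorem isClosed_apply_mem (x : PadicAlgCl p) (S : Set (PadicAlgCl p)) :
    IsClosed {τ : GalLoc p | τ x ∈ S} := by
  rw [← isOpen_compl_iff]
  exact isOpen_apply_mem x Sᶜ

theorem isClosed_Gt (π : PadicAlgCl p) : IsClosed ((Gt π : Subgroup (GalLoc p)) : Set (GalLoc p)) := by
  have h : ((Gt π : Subgroup (GalLoc p)) : Set (GalLoc p)) =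
      (⋂ x ∈ {x : PadicAlgCl p | ‖x‖ ≤ 1}, {τ : GalLoc p | τ x ∈ {y | ‖y - x‖ < 1}}) ∩
        {τ : GalLoc p | τ π ∈ ({π} : Set (PadicAlgCl p))} := by
    ext τ
    rw [SetLike.mem_coe, mem_Gt, Set.mem_inter_iff, Set.mem_iInter₂]
    exact Iff.rfl
  rw [h]
  exact (isClosed_biInter fun x _ => isClosed_apply_mem x _).inter (isClosed_apply_mem π _)

/-- finitely many roots of units -/
theorem exists_sigma_fin {π ζ : PadicAlgCl p} (hπ : IsPi π) (hζ : IsPrimitiveRoot ζ p)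
    {w : PadicAlgCl p} (hw : w ^ p = (p : PadicAlgCl p)) (T : Finset (PadicAlgCl p))
    (hT : ∀ y ∈ T, y ^ p ∈ Wring p ∧ ‖y‖ = 1) :
    ∃ σ ∈ Gt π, (∀ y ∈ T, σ y = y) ∧ σ w = ζ * w := by
  classical
  haveI : NeZero p := ⟨hp.out.ne_zero⟩
  have hζσ : ∀ σ : Gt π, σ • ζ = ζ := fun σ => hπ.zeta_InL hζ.pow_eq_one (σ : GalLoc p) σ.2
  have hw0 : w ≠ 0 := by
    rintro rfl
    rw [zero_pow hp.out.ne_zero] at hw
    exact hp.out.ne_zero (by exact_mod_cast hw.symm)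
  have hwσ : ∀ σ : Gt π, σ • w ^ p = w ^ p := fun σ => by
    rw [hw]; exact map_natCast (σ : GalLoc p) p
  have hT0 : ∀ y ∈ T, y ≠ 0 := fun y hy => norm_pos_iff.1 (by rw [(hT y hy).2]; exact one_pos)
  have hTσ : ∀ y ∈ T, ∀ σ : Gt π, σ • y ^ p = y ^ p := fun y hy σ =>
    ((mem_Wring.1 (hT y hy).1).2 (σ : GalLoc p) σ.2.1)
  let Φ : Gt π →* Multiplicative ((T → ZMod p) × ZMod p) :=
    MonoidHom.mk' (fun σ => Multiplicative.ofAdd
      ((fun y : T => kummer p ζ (y : PadicAlgCl p) σ), kummer p ζ w σ)) (fun σ τ => by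
      rw [← ofAdd_add]
      congr 1
      refine Prod.ext ?_ ?_
      · funext y
        exact kummer_map_mul hζ (hT0 y y.2) (hζσ σ) (hTσ y y.2 σ) (hTσ y y.2 τ)
      · exact kummer_map_mul hζ hw0 (hζσ σ) (hwσ σ) (hwσ τ))
  let I : Submodule (ZMod p) ((T → ZMod p) × ZMod p) :=
    AddSubgroup.toZModSubmodule p (Subgroup.toAddSubgroup' Φ.range)
  have hmem : ((0, 1) : (T → ZMod p) × ZMod p) ∈ I := by
    by_contra hcon
    obtain ⟨f, hf, hle⟩ := Submodule.exists_le_ker_of_notMem hcon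
    set c : ZMod p := f (0, 1) with hc
    let d : T → ZMod p := fun y => f (Pi.single y 1, 0)
    have hfe : ∀ (a : T → ZMod p) (b : ZMod p), f (a, b) = ∑ y, a y * d y + b * c := by
      intro a b
      have e1 : (a, b) = ∑ y, a y • ((Pi.single y 1, 0) : (T → ZMod p) × ZMod p) +
          b • ((0, 1) : (T → ZMod p) × ZMod p) := by
        refine Prod.ext ?_ ?_
        · rw [Prod.fst_add, Prod.fst_sum, Prod.smul_fst, smul_zero, add_zero]
          funext z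
          rw [Finset.sum_apply]
          simp [Pi.single_apply]
        · rw [Prod.snd_add, Prod.snd_sum, Prod.smul_snd]
          simp
      rw [e1, map_add, map_sum, map_smul]
      congr 1
      · exact Finset.sum_congr rfl fun y _ => by rw [map_smul, smul_eq_mul]
    set z : PadicAlgCl p := (∏ y : T, (y : PadicAlgCl p) ^ (d y).val) * w ^ c.val with hz
    have hzL : InL π z := by
      intro σ hσ
      have h1 : ((fun y : T => kummer p ζ (y : PadicAlgCl p) (⟨σ, hσ⟩ : Gt π)),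
          kummer p ζ w (⟨σ, hσ⟩ : Gt π)) ∈ I := ⟨⟨σ, hσ⟩, rfl⟩
      have h2 := hle h1
      rw [LinearMap.mem_ker, hfe] at h2
      have h3 : ∀ y : T, σ (y : PadicAlgCl p) =
          ζ ^ (kummer p ζ (y : PadicAlgCl p) (⟨σ, hσ⟩ : Gt π)).val * y := fun y =>
        kummer_spec hζ (hT0 y y.2) (hTσ y y.2 ⟨σ, hσ⟩)
      have h4 : σ w = ζ ^ (kummer p ζ w (⟨σ, hσ⟩ : Gt π)).val * w :=
        kummer_spec hζ hw0 (hwσ ⟨σ, hσ⟩)
      have h5 : σ z = ζ ^ (∑ y : T, (kummer p ζ (y : PadicAlgCl p) (⟨σ, hσ⟩ : Gt π)).val *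
          (d y).val + (kummer p ζ w (⟨σ, hσ⟩ : Gt π)).val * c.val) * z := by
        rw [hz, map_mul, map_prod, map_pow, h4]
        have h6 : ∀ y : T, σ ((y : PadicAlgCl p) ^ (d y).val) =
            ζ ^ ((kummer p ζ (y : PadicAlgCl p) (⟨σ, hσ⟩ : Gt π)).val * (d y).val) *
              (y : PadicAlgCl p) ^ (d y).val := fun y => by
          rw [map_pow, h3, mul_pow, pow_mul]
        rw [Finset.prod_congr rfl fun y _ => h6 y, Finset.prod_mul_distrib,
          Finset.prod_pow_eq_pow_sum, mul_pow, pow_add, ← pow_mul]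
        ring
      rw [h5]
      have h7 : ζ ^ (∑ y : T, (kummer p ζ (y : PadicAlgCl p) (⟨σ, hσ⟩ : Gt π)).val *
          (d y).val + (kummer p ζ w (⟨σ, hσ⟩ : Gt π)).val * c.val) = ζ ^ 0 := by
        rw [zeta_pow_eq_iff hζ]
        push_cast
        simp only [ZMod.natCast_val, ZMod.cast_id', id_eq]
        exact h2
      rw [h7, pow_zero, one_mul]
    have hz0 : z ≠ 0 := mul_ne_zero (Finset.prod_ne_zero_iff.2 fun y _ =>
      pow_ne_zero _ (hT0 y y.2)) (pow_ne_zero _ hw0)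
    obtain ⟨m, hm⟩ := hπ.norm_of_InL hz0 hzL
    have hzn : ‖z‖ = ‖w‖ ^ c.val := by
      rw [hz, norm_mul, norm_prod, norm_pow]
      rw [Finset.prod_eq_one fun y _ => by rw [norm_pow, (hT y y.2).2, one_pow], one_mul]
    have hp2 : 4 ≤ p ^ 2 := by have := hp.out.two_le; nlinarith
    have h8 : ‖w‖ ^ p = ‖π‖ ^ (p ^ 2 - 1) := by
      rw [← norm_pow, ← norm_pow, hw, hπ.pow_eq]
    have h9 : ‖π‖ ^ ((p ^ 2 - 1 : ℕ) * c.val : ℤ) = ‖π‖ ^ (m * p) := by
      rw [zpow_mul, zpow_natCast, zpow_natCast, ← h8, zpow_mul, zpow_natCast, ← hm, hzn, ← pow_mul,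
        ← pow_mul, mul_comm]
    have h10 := zpow_right_injective₀ hπ.norm_pos hπ.norm_lt_one.ne h9
    have h11 : (p : ℤ) ∣ (p ^ 2 - 1 : ℕ) * c.val := ⟨m, by rw [h10]; ring⟩
    have h12 : p ∣ (p ^ 2 - 1) * c.val := by exact_mod_cast h11
    have hcop : Nat.Coprime p (p ^ 2 - 1) := by
      rw [Nat.Prime.coprime_iff_not_dvd hp.out]
      intro h
      have h13 : p ∣ p ^ 2 - (p ^ 2 - 1) := Nat.dvd_sub (dvd_pow_self p two_ne_zero) h
      have h14 : p ^ 2 - (p ^ 2 - 1) = 1 := by omega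
      rw [h14] at h13
      exact hp.out.one_lt.ne' (Nat.dvd_one.1 h13)
    have h13 := hcop.dvd_of_dvd_mul_left h12
    have h14 : c.val = 0 := Nat.eq_zero_of_dvd_of_lt h13 (ZMod.val_lt c)
    exact hf ((ZMod.val_eq_zero c).1 h14)
  obtain ⟨σ, hσ⟩ := hmem
  have h1 : ((fun y : T => kummer p ζ (y : PadicAlgCl p) σ), kummer p ζ w σ) = (0, 1) := hσ
  rw [Prod.mk.injEq] at h1
  refine ⟨σ, σ.2, fun y hy => ?_, ?_⟩
  · have h2 := congrFun h1.1 ⟨y, hy⟩
    exact (kummer_eq_zero_iff hζ (hT0 y hy) (hTσ y hy σ)).1 h2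
  · have h2 := kummer_spec hζ hw0 (hwσ σ)
    rw [h1.2, ZMod.val_one'' hp.out.one_lt.ne', pow_one] at h2
    exact h2

/-- **an element of inertia fixing `ζ_p`, all `p`-th roots of units of `W`, and moving the `p`-th
roots of `p`.** -/
theorem exists_sigma {π ζ : PadicAlgCl p} (hπ : IsPi π) (hζ : IsPrimitiveRoot ζ p)
    {w : PadicAlgCl p} (hw : w ^ p = (p : PadicAlgCl p)) :
    ∃ σ ∈ Gt π, (∀ y : PadicAlgCl p, y ^ p ∈ Wring p → ‖y‖ = 1 → σ y = y) ∧ σ w = ζ * w := by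
  classical
  let ι := {y : PadicAlgCl p // y ^ p ∈ Wring p ∧ ‖y‖ = 1}
  let t : Finset ι → Set (GalLoc p) := fun T =>
    (((Gt π : Subgroup (GalLoc p)) : Set (GalLoc p)) ∩ ⋂ y ∈ T, {τ : GalLoc p | τ y.1 ∈ ({y.1} : Set _)}) ∩
      {τ : GalLoc p | τ w ∈ ({ζ * w} : Set _)}
  have hcl : ∀ T, IsClosed (t T) := fun T =>
    ((isClosed_Gt π).inter (isClosed_biInter fun y _ => isClosed_apply_mem y.1 _)).inter
      (isClosed_apply_mem w _)
  have hne : ∀ T, (t T).Nonempty := by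
    intro T
    obtain ⟨σ, h1, h2, h3⟩ := exists_sigma_fin hπ hζ hw (T.map ⟨Subtype.val, Subtype.val_injective⟩)
      (fun y hy => by
        obtain ⟨z, -, rfl⟩ := Finset.mem_map.1 hy
        exact z.2)
    refine ⟨σ, ⟨h1, ?_⟩, h3⟩
    rw [Set.mem_iInter₂]
    intro y hy
    exact h2 y.1 (Finset.mem_map.2 ⟨y, hy, rfl⟩)
  have hdir : Directed (fun A B => A ⊇ B) t := by
    intro T T'
    refine ⟨T ∪ T', ?_, ?_⟩
    · rintro σ ⟨⟨h1, h2⟩, h3⟩
      refine ⟨⟨h1, ?_⟩, h3⟩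
      rw [Set.mem_iInter₂] at h2 ⊢
      exact fun y hy => h2 y (Finset.mem_union_left _ hy)
    · rintro σ ⟨⟨h1, h2⟩, h3⟩
      refine ⟨⟨h1, ?_⟩, h3⟩
      rw [Set.mem_iInter₂] at h2 ⊢
      exact fun y hy => h2 y (Finset.mem_union_right _ hy)
  obtain ⟨σ, hσ⟩ := IsCompact.nonempty_iInter_of_directed_nonempty_isCompact_isClosed t hdir hne
    (fun b => (hcl b).isCompact) hcl
  rw [Set.mem_iInter] at hσ
  refine ⟨σ, (hσ ∅).1.1, fun y hy hy1 => ?_, (hσ ∅).2⟩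
  have h := (hσ {⟨y, hy, hy1⟩}).1.2
  rw [Set.mem_iInter₂] at h
  exact h ⟨y, hy, hy1⟩ (Finset.mem_singleton_self _)

/-- every `p`-th root of `p` is moved -/
theorem sigma_ne {ζ w : PadicAlgCl p} (hζ : IsPrimitiveRoot ζ p)
    (hw : w ^ p = (p : PadicAlgCl p)) {σ : GalLoc p} (hσζ : σ ζ = ζ) (hσ : σ w = ζ * w)
    {w' : PadicAlgCl p} (hw' : w' ^ p = (p : PadicAlgCl p)) : σ w' = ζ * w' ∧ σ w' ≠ w' := by
  haveI : NeZero p := ⟨hp.out.ne_zero⟩
  have hne : ∀ {w : PadicAlgCl p}, w ^ p = (p : PadicAlgCl p) → w ≠ 0 := by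
    rintro w hw rfl
    rw [zero_pow hp.out.ne_zero] at hw
    exact hp.out.ne_zero (by exact_mod_cast hw.symm)
  have h1 : (w' / w) ^ p = 1 := by
    rw [div_pow, hw, hw', div_self]
    exact_mod_cast hp.out.ne_zero
  obtain ⟨i, -, hi⟩ := hζ.eq_pow_of_pow_eq_one h1
  have h2 : w' = ζ ^ i * w := by rw [hi]; exact (div_mul_cancel₀ _ (hne hw)).symm
  have h3 : σ w' = ζ * w' := by
    rw [h2, map_mul, map_pow, hσζ, hσ]; ring
  refine ⟨h3, fun h => ?_⟩
  rw [h3] at h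
  have h4 : (ζ - 1) * w' = 0 := by linear_combination h
  rcases mul_eq_zero.1 h4 with h5 | h5
  · exact hζ.ne_one hp.out.one_lt (sub_eq_zero.1 h5)
  · exact hne hw' h5

end Fermat.Agent.Flat
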