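import Fermat.Agent.Flat.Family

/-!
# The index bound (Lemma U and Step B)
-/

set_option autoImplicit false

open GaloisRep Fermat.Agent.CFT.Loc Fermat.Agent.CFT

namespace Fermat.Agent.Flat

variable {p : ℕ} [hp : Fact p.Prime]

/-- `c` lies in the extension of `L` cut out by `g` -/
def InM (π : PadicAlgCl p) (g : GalLoc p → ZMod p) (c : PadicAlgCl p) : Prop :=
  ∀ σ ∈ Gt π, g σ = 0 → σ c = c

/-- `g` is a homomorphism on `Gt π` -/
def HomGt (π : PadicAlgCl p) (g : GalLoc p → ZMod p) : Prop :=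
  ∀ σ ∈ Gt π, ∀ τ ∈ Gt π, g (σ * τ) = g σ + g τ

variable {π ζ : PadicAlgCl p} {g : GalLoc p → ZMod p} {c : PadicAlgCl p}

theorem HomGt.one (hg : HomGt π g) : g 1 = 0 := by
  have := hg 1 (one_mem _) 1 (one_mem _)
  rw [mul_one] at this
  exact (left_eq_add.mp this)

theorem HomGt.inv (hg : HomGt π g) {σ : GalLoc p} (hσ : σ ∈ Gt π) : g σ⁻¹ = - g σ := by
  have := hg σ hσ σ⁻¹ (inv_mem hσ)
  rw [mul_inv_cancel, hg.one] at this
  exact (neg_eq_of_add_eq_zero_right this.symm).symm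

theorem HomGt.pow (hg : HomGt π g) {σ : GalLoc p} (hσ : σ ∈ Gt π) (n : ℕ) :
    g (σ ^ n) = n * g σ := by
  induction n with
  | zero => rw [pow_zero, hg.one]; simp
  | succ n ih => rw [pow_succ, hg _ (pow_mem hσ n) _ hσ, ih]; push_cast; ring

theorem InM.norm_pow (hπ : IsPi π) (hg : HomGt π g) (hc : InM π g c) (hc0 : c ≠ 0) :
    ∃ m : ℤ, ‖c‖ ^ p = ‖π‖ ^ m := by
  by_cases hg0 : ∀ σ ∈ Gt π, g σ = 0
  · obtain ⟨m, hm⟩ := hπ.norm_of_InL hc0 (fun σ hσ => hc σ hσ (hg0 σ hσ))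
    exact ⟨m * p, by rw [hm, zpow_mul, zpow_natCast]⟩
  push Not at hg0
  obtain ⟨σ₁, hσ₁, hσ₁'⟩ := hg0
  -- an element with `g τ = 1`
  obtain ⟨τ, hτ, hτ1⟩ : ∃ τ ∈ Gt π, g τ = 1 := by
    refine ⟨σ₁ ^ ((g σ₁)⁻¹).val, pow_mem hσ₁ _, ?_⟩
    rw [hg.pow hσ₁, ZMod.natCast_zmod_val, inv_mul_cancel₀ hσ₁']
  let F : ZMod p → PadicAlgCl p := fun a => (τ ^ a.val) c
  have hgτ : ∀ a : ZMod p, g (τ ^ a.val) = a := fun a => by
    rw [hg.pow hτ, hτ1, mul_one, ZMod.natCast_zmod_val]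
  have hF : ∀ ρ ∈ Gt π, ρ c = F (g ρ) := by
    intro ρ hρ
    have h1 : g ((τ ^ (g ρ).val)⁻¹ * ρ) = 0 := by
      rw [hg _ (inv_mem (pow_mem hτ _)) _ hρ, hg.inv (pow_mem hτ _), hgτ, neg_add_cancel]
    have h2 := hc _ (mul_mem (inv_mem (pow_mem hτ _)) hρ) h1
    calc ρ c = (τ ^ (g ρ).val) (((τ ^ (g ρ).val)⁻¹ * ρ) c) := by
          rw [← AlgEquiv.mul_apply, mul_inv_cancel_left]
      _ = F (g ρ) := by rw [h2]
  have hσF : ∀ σ ∈ Gt π, ∀ a, σ (F a) = F (g σ + a) := by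
    intro σ hσ a
    have h1 : σ (F a) = (σ * τ ^ a.val) c := by rw [AlgEquiv.mul_apply]
    rw [h1, hF _ (mul_mem hσ (pow_mem hτ _)), hg _ hσ _ (pow_mem hτ _), hgτ]
  have hFn : ∀ a, ‖F a‖ = ‖c‖ := fun a => norm_apply _ _
  have hN : ‖∏ a : ZMod p, F a‖ = ‖c‖ ^ p := by
    rw [norm_prod, Finset.prod_congr rfl (fun a _ => hFn a), Finset.prod_const, Finset.card_univ,
      ZMod.card]
  rw [← hN]
  refine hπ.norm_of_InL ?_ (fun σ hσ => ?_)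
  · rw [Finset.prod_ne_zero_iff]
    intro a _
    exact norm_pos_iff.mp (by rw [hFn]; exact norm_pos_iff.mpr hc0)
  · rw [map_prod, Finset.prod_congr rfl (fun a _ => hσF σ hσ a)]
    exact Equiv.prod_comp (Equiv.addLeft (g σ)) F

/-- Lemma U -/
theorem lemmaU (hπ : IsPi π) (hg : HomGt π g) {Pi : PadicAlgCl p} (hW : InM π g Pi)
    (hWn : ‖Pi‖ ^ p = ‖π‖) {β : ℝ} (hβ : 0 < β) (hβ' : ∀ σ ∈ Gt π, ‖σ Pi - Pi‖ ≤ ‖Pi‖ * β)
    (hc : InM π g c) (hc1 : ‖c‖ ≤ 1) {σ : GalLoc p} (hσ : σ ∈ Gt π) : ‖σ c - c‖ ≤ ‖Pi‖ * β := by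
  have hW0 : Pi ≠ 0 := by
    rintro rfl
    rw [norm_zero, zero_pow hp.out.ne_zero] at hWn
    exact hπ.norm_pos.ne hWn
  have hWpos : 0 < ‖Pi‖ := norm_pos_iff.mpr hW0
  have hWlt : ‖Pi‖ < 1 := by
    rw [← pow_lt_pow_iff_p (p := p) (norm_nonneg _) zero_le_one, one_pow, hWn]
    exact hπ.norm_lt_one
  have key : ∀ (N : ℕ) (c : PadicAlgCl p), InM π g c → ‖c‖ ≤ 1 →
      ‖σ c - c‖ ≤ max (‖Pi‖ * β) (‖Pi‖ ^ N) := by
    intro N
    induction N with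
    | zero =>
      intro c _ hc1
      rw [pow_zero]
      exact (norm_sub_le' (by rw [norm_apply]; exact hc1) hc1).trans (le_max_right _ _)
    | succ N ih =>
      intro c hc hc1
      obtain ⟨w, hw, hwr⟩ := exists_Wring_lift (rd p c)
      rw [mem_Wring] at hw
      have hlt : ‖c - w‖ < 1 := (rd_eq_iff hc1 hw.1).mp hwr.symm
      have hcw : InM π g (c - w) := fun τ hτ h0 => by
        rw [map_sub, hc τ hτ h0, hw.2 τ hτ.1]
      have hle : ‖c - w‖ ≤ ‖Pi‖ := by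
        by_cases h0 : c - w = 0
        · rw [h0, norm_zero]; exact hWpos.le
        obtain ⟨m, hm⟩ := hcw.norm_pow hπ hg h0
        have h1 : 1 ≤ m := by
          by_contra hcon
          push Not at hcon
          have h2 : ‖π‖ ^ (0 : ℤ) ≤ ‖π‖ ^ m :=
            zpow_le_zpow_right_of_le_one₀ hπ.norm_pos hπ.norm_lt_one.le (by omega)
          rw [zpow_zero, ← hm] at h2
          have h3 := pow_lt_one₀ (norm_nonneg _) hlt hp.out.ne_zero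
          linarith
        rw [← pow_le_pow_iff_p (p := p) (norm_nonneg _) (norm_nonneg _), hm, hWn]
        have := zpow_le_zpow_right_of_le_one₀ hπ.norm_pos hπ.norm_lt_one.le h1
        rwa [zpow_one] at this
      set c' := (c - w) / Pi with hc'
      have hc'1 : ‖c'‖ ≤ 1 := by
        rw [hc', norm_div]; exact div_le_one_of_le₀ hle (norm_nonneg _)
      have hc'M : InM π g c' := fun τ hτ h0 => by
        rw [hc', map_div₀, hcw τ hτ h0, hW τ hτ h0]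
      have hcc : c = w + Pi * c' := by rw [hc']; field_simp; ring
      have h1 : σ c - c = σ Pi * (σ c' - c') + (σ Pi - Pi) * c' := by
        rw [hcc, map_add, map_mul, hw.2 σ hσ.1]; ring
      rw [h1]
      refine norm_add_le' ?_ ?_
      · rw [norm_mul, norm_apply]
        have h2 := ih c' hc'M hc'1
        calc ‖Pi‖ * ‖σ c' - c'‖ ≤ ‖Pi‖ * max (‖Pi‖ * β) (‖Pi‖ ^ N) := by gcongr
          _ = max (‖Pi‖ * (‖Pi‖ * β)) (‖Pi‖ * ‖Pi‖ ^ N) := mul_max_of_nonneg _ _ hWpos.le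
          _ ≤ _ := by
            refine max_le_max ?_ ?_
            · nlinarith [mul_pos hWpos hβ]
            · rw [pow_succ, mul_comm]
      · rw [norm_mul]
        refine le_max_of_le_left ?_
        calc _ ≤ (‖Pi‖ * β) * 1 := mul_le_mul (hβ' σ hσ) hc'1 (norm_nonneg _) (by positivity)
          _ = _ := mul_one _
  have hBpos : 0 < ‖Pi‖ * β := by positivity
  obtain ⟨N, hN⟩ := exists_pow_lt_of_lt_one hBpos hWlt
  have := key N c hc hc1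
  rwa [max_eq_left hN.le] at this

theorem norm_one_add_pow_sub_one {e : PadicAlgCl p} (he : ‖e‖ < 1) (n : ℕ) :
    ‖(1 + e) ^ n - 1‖ ≤ ‖e‖ := by
  have h1 : ‖1 + e‖ ≤ 1 := norm_add_le' (by rw [norm_one]) he.le
  have h2 : (1 + e) ^ n - 1 = (∑ k ∈ Finset.range n, (1 + e) ^ k) * e := by
    have := geom_sum_mul (1 + e) n
    rw [← this]; ring
  rw [h2, norm_mul]
  calc _ ≤ 1 * ‖e‖ := by
        gcongr
        exact norm_sum_le' _ _ zero_le_one (fun k _ => norm_pow_le' h1 k)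
    _ = _ := one_mul _

theorem norm_one_add_zpow_sub_one {e : PadicAlgCl p} (he : ‖e‖ < 1) (n : ℤ) :
    ‖(1 + e) ^ n - 1‖ ≤ ‖e‖ := by
  have h1 : ‖1 + e‖ = 1 := by
    rw [add_comm, IsUltrametricDist.norm_add_eq_max_of_norm_ne_norm, norm_one, max_eq_right he.le]
    rw [norm_one]; exact he.ne
  obtain ⟨m, rfl | rfl⟩ := n.eq_nat_or_neg
  · rw [zpow_natCast]; exact norm_one_add_pow_sub_one he m
  · have h0 : (1 + e) ^ m ≠ 0 := pow_ne_zero _ (norm_pos_iff.mp (by rw [h1]; exact one_pos))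
    have h2 : (1 + e) ^ (-(m : ℤ)) - 1 = -((1 + e) ^ m - 1) / (1 + e) ^ m := by
      rw [zpow_neg, zpow_natCast]; field_simp; ring
    rw [h2, norm_div, norm_neg, norm_pow, h1, one_pow, div_one]
    exact norm_one_add_pow_sub_one he m

/-- the bound for `σ c - c` in terms of the index -/
theorem index_bound (hπ : IsPi π) (hζ : IsPrimitiveRoot ζ p) (hg : HomGt π g) {i : ℕ}
    {y : PadicAlgCl p} (hy : Kum ζ π g i y) (hyn : ‖y - 1‖ ^ p = ‖π‖ ^ i) (hi : 1 ≤ i)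
    (hlt : i < p * (p + 1)) (hdvd : ¬ p ∣ i) {σ : GalLoc p} (hσ : σ ∈ Gt π) (hc : InM π g c)
    (hc1 : ‖c‖ ≤ 1) : ‖σ c - c‖ ^ p ≤ ‖π‖ ^ (1 + p * (p + 1) - i) := by
  have hζp := hζ.pow_eq_one
  have hcop : IsCoprime (i : ℤ) (p : ℤ) := by
    rw [Nat.isCoprime_iff_coprime, Nat.coprime_comm]
    exact (Nat.Prime.coprime_iff_not_dvd hp.out).mpr hdvd
  obtain ⟨α, γ, hαγ⟩ := hcop
  have hy1 : 0 < ‖y - 1‖ := by
    rcases (norm_nonneg (y - 1)).lt_or_eq with h | h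
    · exact h
    · rw [← h, zero_pow hp.out.ne_zero] at hyn
      exact absurd hyn (pow_pos hπ.norm_pos _).ne
  have hy10 : y - 1 ≠ 0 := norm_pos_iff.mp hy1
  have hgt : ‖π‖ ^ (p + 1) < ‖y - 1‖ := by
    rw [← pow_lt_pow_iff_p (p := p) (by positivity) (norm_nonneg _), hyn, ← pow_mul]
    exact pow_lt_pow_right_of_lt_one₀ hπ.norm_pos hπ.norm_lt_one (by rw [mul_comm]; exact hlt)
  have hyM : InM π g (y - 1) := fun τ hτ h0 => by
    rw [map_sub, map_one, hy.gal τ hτ, h0, ZMod.val_zero, pow_zero, one_mul]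
  set Pi := (y - 1) ^ α * π ^ γ with hWdef
  have hW : InM π g Pi := fun τ hτ h0 => by
    rw [hWdef, map_mul, map_zpow₀, map_zpow₀, hyM τ hτ h0, hτ.2]
  have hWn : ‖Pi‖ ^ p = ‖π‖ := by
    have h1 : (‖y - 1‖ ^ α) ^ p = ‖π‖ ^ (i * α : ℤ) := by
      rw [← zpow_natCast, ← zpow_mul, mul_comm α (p : ℤ), zpow_mul, zpow_natCast, hyn,
        ← zpow_natCast, ← zpow_mul]
    have h2 : (‖π‖ ^ γ) ^ p = ‖π‖ ^ (γ * p : ℤ) := by
      rw [← zpow_natCast, ← zpow_mul]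
    rw [hWdef, norm_mul, norm_zpow, norm_zpow, mul_pow, h1, h2, ← zpow_add₀ hπ.norm_pos.ne',
      mul_comm (i : ℤ) α, hαγ, zpow_one]
  set β := ‖π‖ ^ (p + 1) / ‖y - 1‖ with hβdef
  have hβ : 0 < β := div_pos (pow_pos hπ.norm_pos _) hy1
  have hβ1 : β < 1 := (div_lt_one hy1).mpr hgt
  have hβ' : ∀ τ ∈ Gt π, ‖τ Pi - Pi‖ ≤ ‖Pi‖ * β := by
    intro τ hτ
    set e := (ζ ^ (g τ).val - 1) * y / (y - 1) with he
    have hen : ‖e‖ ≤ β := by
      rw [he, norm_div, norm_mul, hy.norm_eq hπ hi, mul_one]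
      exact div_le_div_of_nonneg_right (hπ.norm_zeta_pow_le hζ _) hy1.le
    have h1 : τ (y - 1) = (y - 1) * (1 + e) := by
      rw [he, map_sub, map_one, hy.gal τ hτ]; field_simp; ring
    have h2 : τ Pi - Pi = Pi * ((1 + e) ^ α - 1) := by
      rw [hWdef, map_mul, map_zpow₀, map_zpow₀, h1, hτ.2, mul_zpow]; ring
    rw [h2, norm_mul]
    exact mul_le_mul_of_nonneg_left
      ((norm_one_add_zpow_sub_one (hen.trans_lt hβ1) α).trans hen) (norm_nonneg _)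
  have h3 := lemmaU hπ hg hW hWn hβ hβ' hc hc1 hσ
  calc ‖σ c - c‖ ^ p ≤ (‖Pi‖ * β) ^ p := pow_le_pow_left₀ (norm_nonneg _) h3 p
    _ = ‖π‖ ^ (1 + p * (p + 1)) / ‖π‖ ^ i := by
      rw [mul_pow, hWn, hβdef, div_pow, hyn, ← pow_mul, mul_comm (p + 1) p, pow_add, pow_one]
      ring
    _ = _ := by
      rw [div_eq_iff (pow_pos hπ.norm_pos _).ne', ← pow_add]
      congr 1; omega

/-- the bound in the case of a non-unit class -/
theorem index_bound_zero (hπ : IsPi π) (hζ : IsPrimitiveRoot ζ p) (hg : HomGt π g)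
    {y : PadicAlgCl p} (hy : ∀ σ ∈ Gt π, σ y = ζ ^ (g σ).val * y) {m : ℤ}
    (hyn : ‖y‖ ^ p = ‖π‖ ^ m) (hdvd : ¬ (p : ℤ) ∣ m) {σ : GalLoc p} (hσ : σ ∈ Gt π)
    (hc : InM π g c) (hc1 : ‖c‖ ≤ 1) : ‖σ c - c‖ ^ p ≤ ‖π‖ ^ (1 + p * (p + 1)) := by
  have hcop : IsCoprime m (p : ℤ) := by
    rw [isCoprime_comm]
    exact (Nat.prime_iff_prime_int.mp hp.out).irreducible.coprime_iff_not_dvd.mpr hdvd
  obtain ⟨α, γ, hαγ⟩ := hcop
  have hyM : InM π g y := fun τ hτ h0 => by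
    rw [hy τ hτ, h0, ZMod.val_zero, pow_zero, one_mul]
  set Pi := y ^ α * π ^ γ with hWdef
  have hW : InM π g Pi := fun τ hτ h0 => by
    rw [hWdef, map_mul, map_zpow₀, map_zpow₀, hyM τ hτ h0, hτ.2]
  have hWn : ‖Pi‖ ^ p = ‖π‖ := by
    have h1 : (‖y‖ ^ α) ^ p = ‖π‖ ^ (m * α : ℤ) := by
      rw [← zpow_natCast, ← zpow_mul, mul_comm α (p : ℤ), zpow_mul, zpow_natCast, hyn,
        ← zpow_mul]
    have h2 : (‖π‖ ^ γ) ^ p = ‖π‖ ^ (γ * p : ℤ) := by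
      rw [← zpow_natCast, ← zpow_mul]
    rw [hWdef, norm_mul, norm_zpow, norm_zpow, mul_pow, h1, h2, ← zpow_add₀ hπ.norm_pos.ne',
      mul_comm m α, hαγ, zpow_one]
  have hβ : 0 < ‖π‖ ^ (p + 1) := pow_pos hπ.norm_pos _
  have hβ1 : ‖π‖ ^ (p + 1) < 1 := pow_lt_one₀ hπ.norm_pos.le hπ.norm_lt_one (Nat.succ_ne_zero _)
  have hβ' : ∀ τ ∈ Gt π, ‖τ Pi - Pi‖ ≤ ‖Pi‖ * ‖π‖ ^ (p + 1) := by
    intro τ hτ
    set e := ζ ^ (g τ).val - 1 with he
    have hen : ‖e‖ ≤ ‖π‖ ^ (p + 1) := hπ.norm_zeta_pow_le hζ _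
    have h1 : τ y = y * (1 + e) := by
      rw [he, hy τ hτ]; ring
    have h2 : τ Pi - Pi = Pi * ((1 + e) ^ α - 1) := by
      rw [hWdef, map_mul, map_zpow₀, map_zpow₀, h1, hτ.2, mul_zpow]; ring
    rw [h2, norm_mul]
    exact mul_le_mul_of_nonneg_left
      ((norm_one_add_zpow_sub_one (hen.trans_lt hβ1) α).trans hen) (norm_nonneg _)
  have h3 := lemmaU hπ hg hW hWn hβ hβ' hc hc1 hσ
  calc ‖σ c - c‖ ^ p ≤ (‖Pi‖ * ‖π‖ ^ (p + 1)) ^ p := pow_le_pow_left₀ (norm_nonneg _) h3 p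
    _ = _ := by
      rw [mul_pow, hWn, ← pow_mul, mul_comm (p + 1) p, pow_add, pow_one]

/-- polynomial argument: `x h` (`h ∈ k₂`) are permuted by `Gt π` through `f`. -/
theorem stepB {k₂ : Type*} [AddCommGroup k₂] [Finite k₂] {T : k₂ →+ ZMod p} {f : GalLoc p → k₂}
    (hf : ∀ σ ∈ Gt π, ∀ τ ∈ Gt π, f (σ * τ) = f σ + f τ) {x : k₂ → PadicAlgCl p}
    (hx1 : ∀ h, ‖x h‖ ≤ 1) (hxσ : ∀ σ ∈ Gt π, ∀ h, σ (x h) = x (h + f σ)) {s : ℝ}
    (hs : ∀ h h', h ≠ h' → ‖x h - x h'‖ = s) {B : ℝ}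
    (hB : ∀ c, InM π (fun σ => T (f σ)) c → ‖c‖ ≤ 1 → ∀ σ ∈ Gt π, ‖σ c - c‖ ≤ B)
    {σ : GalLoc p} (hσ : σ ∈ Gt π) (hTσ : T (f σ) ≠ 0) :
    s ^ (Nat.card {h : k₂ // (∃ τ ∈ Gt π, f τ = h) ∧ T h = 0}) ≤ B := by
  classical
  haveI := Fintype.ofFinite k₂
  set H : Finset k₂ := Finset.univ.filter (fun h => (∃ τ ∈ Gt π, f τ = h) ∧ T h = 0) with hH
  have hcard : Nat.card {h : k₂ // (∃ τ ∈ Gt π, f τ = h) ∧ T h = 0} = H.card := by
    rw [Nat.card_eq_fintype_card, Fintype.card_subtype, hH]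
  have hmem : ∀ h, h ∈ H ↔ (∃ τ ∈ Gt π, f τ = h) ∧ T h = 0 := fun h => by simp [hH]
  have hf1 : f 1 = 0 := by
    have := hf 1 (one_mem _) 1 (one_mem _)
    rw [mul_one] at this
    exact left_eq_add.mp this
  have h0H : (0 : k₂) ∈ H := (hmem 0).mpr ⟨⟨1, one_mem _, hf1⟩, map_zero _⟩
  let P : Polynomial (PadicAlgCl p) := ∏ h ∈ H, (Polynomial.X - Polynomial.C (x h))
  -- coefficients are integral
  have hcoeff : ∀ n, ‖P.coeff n‖ ≤ 1 := by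
    have hgen : ∀ S : Finset k₂, ∀ n,
        ‖(∏ h ∈ S, (Polynomial.X - Polynomial.C (x h)) : Polynomial (PadicAlgCl p)).coeff n‖
          ≤ 1 := by
      intro S
      induction S using Finset.induction_on with
      | empty =>
        intro n
        rw [Finset.prod_empty, Polynomial.coeff_one]
        split_ifs
        · rw [norm_one]
        · rw [norm_zero]; exact zero_le_one
      | insert a S ha ih =>
        intro n
        rw [Finset.prod_insert ha, sub_mul, Polynomial.coeff_sub, Polynomial.coeff_C_mul]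
        refine norm_sub_le' ?_ (norm_mul_le' (hx1 a) (ih n))
        rcases n with _ | n
        · rw [Polynomial.coeff_X_mul_zero, norm_zero]; exact zero_le_one
        · rw [Polynomial.coeff_X_mul]; exact ih n
    exact hgen H
  -- the action
  have hmap : ∀ τ ∈ Gt π, P.map ((τ : PadicAlgCl p ≃ₐ[ℚ_[p]] PadicAlgCl p) : PadicAlgCl p →+* PadicAlgCl p)
      = ∏ h ∈ H, (Polynomial.X - Polynomial.C (x (h + f τ))) := by
    intro τ hτ
    rw [Polynomial.map_prod]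
    refine Finset.prod_congr rfl fun h _ => ?_
    rw [Polynomial.map_sub, Polynomial.map_X, Polynomial.map_C]
    congr 2
    exact hxσ τ hτ h
  have hInM : ∀ n, InM π (fun σ => T (f σ)) (P.coeff n) := by
    intro n τ hτ h0
    replace h0 : T (f τ) = 0 := h0
    have h1 := congrArg (fun Q => Polynomial.coeff Q n) (hmap τ hτ)
    simp only [Polynomial.coeff_map] at h1
    have h2 : ∏ h ∈ H, (Polynomial.X - Polynomial.C (x (h + f τ))) = P := by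
      refine Finset.prod_bij (fun h _ => h + f τ) ?_ ?_ ?_ ?_
      · intro h hh
        obtain ⟨⟨τ', hτ', h1⟩, h2⟩ := (hmem h).mp hh
        exact (hmem _).mpr ⟨⟨τ' * τ, mul_mem hτ' hτ, by rw [hf _ hτ' _ hτ, h1]⟩,
          by rw [map_add, h2, h0, add_zero]⟩
      · intro a _ b _ hab
        exact add_right_cancel hab
      · intro b hb
        obtain ⟨⟨τ', hτ', h1⟩, h2⟩ := (hmem b).mp hb
        have hinv : f τ⁻¹ = - f τ := by
          have := hf τ hτ τ⁻¹ (inv_mem hτ)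
          rw [mul_inv_cancel, hf1] at this
          exact (neg_eq_of_add_eq_zero_right this.symm).symm
        refine ⟨b - f τ, (hmem _).mpr ⟨⟨τ' * τ⁻¹, mul_mem hτ' (inv_mem hτ),
          by rw [hf _ hτ' _ (inv_mem hτ), h1, hinv, sub_eq_add_neg]⟩, ?_⟩, sub_add_cancel _ _⟩
        rw [map_sub, h2, h0, sub_zero]
      · intro h _; rfl
    rw [h2] at h1
    exact h1
  -- evaluate
  set Q := P.map ((σ : PadicAlgCl p ≃ₐ[ℚ_[p]] PadicAlgCl p) : PadicAlgCl p →+* PadicAlgCl p) with hQ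
  have hPeval : P.eval (x 0) = 0 := by
    rw [Polynomial.eval_prod]
    exact Finset.prod_eq_zero h0H (by simp)
  have hQeval : ‖Q.eval (x 0)‖ = s ^ H.card := by
    rw [hQ, hmap σ hσ, Polynomial.eval_prod, norm_prod]
    rw [Finset.prod_congr rfl (fun h hh => ?_), Finset.prod_const]
    rw [Polynomial.eval_sub, Polynomial.eval_X, Polynomial.eval_C]
    apply hs
    intro h0
    have h2 := ((hmem h).mp hh).2
    have h3 : T (h + f σ) = 0 := by rw [← h0, map_zero]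
    rw [map_add, h2, zero_add] at h3
    exact hTσ h3
  have hdiff : ‖(Q - P).eval (x 0)‖ ≤ B := by
    have hB0 : 0 ≤ B := (norm_nonneg _).trans (hB 0 (fun τ _ _ => map_zero τ)
      (by rw [norm_zero]; exact zero_le_one) σ hσ)
    rw [Polynomial.eval_eq_sum_range]
    refine norm_sum_le' _ _ hB0 (fun n _ => ?_)
    rw [norm_mul]
    have h1 : ‖(Q - P).coeff n‖ ≤ B := by
      rw [Polynomial.coeff_sub, hQ, Polynomial.coeff_map]
      exact hB _ (hInM n) (hcoeff n) σ hσ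
    calc _ ≤ B * 1 := mul_le_mul h1 (norm_pow_le' (hx1 0) n) (norm_nonneg _) hB0
      _ = B := mul_one _
  rw [Polynomial.eval_sub, hPeval, sub_zero, hQeval] at hdiff
  rw [hcard]
  exact hdiff

section Modules

variable {N : Type*} [AddCommGroup N] {ρ : inertiaLoc p →* AddMonoid.End N}
  {O : Subalgebra (Wring p) (N → PadicAlgCl p)}

/-- Step B for a module containing a line over `𝔽_{p²}`. -/
theorem stepB_line (hp2 : p ≠ 2) (hπ : IsPi π) (hζ : IsPrimitiveRoot ζ p)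
    {k₂ : Type*} [Field k₂] [CharP k₂ p] {χ : inertiaLoc p →* k₂ˣ} (hχ : TameChar π χ)
    (h : IsOrder ρ O) (ι : k₂ →+ N) (hι : Function.Injective ι)
    (hιρ : ∀ σ x, ι (χ σ * x) = ρ σ (ι x)) {n : N} (hn : n ∈ connPart h) {f : GalLoc p → k₂}
    (hf : ∀ σ (hσ : σ ∈ Gt π), ρ ⟨σ, hσ.1⟩ n = n + ι (f σ)) (T : k₂ →+ ZMod p) {i : ℕ}
    {y : PadicAlgCl p} (hy : Kum ζ π (fun σ => T (f σ)) i y) (hyn : ‖y - 1‖ ^ p = ‖π‖ ^ i)
    (hi : 1 ≤ i) (hlt : i < p * (p + 1)) (hdvd : ¬ p ∣ i) {σ : GalLoc p} (hσ : σ ∈ Gt π)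
    (hTσ : T (f σ) ≠ 0) :
    1 + p * (p + 1) - i ≤ p * Nat.card {h : k₂ // (∃ τ ∈ Gt π, f τ = h) ∧ T h = 0} := by
  haveI : Finite k₂ := Nat.finite_of_card_ne_zero (by rw [hχ.card]; exact pow_ne_zero _ hp.out.ne_zero)
  have h' := h.sub (ρ' := mulRep χ) ι hι (fun σ x => hιρ σ x)
  obtain ⟨hmax, ⟨_, ⟨⟨φ, hφO, rfl⟩, hφ0⟩, hφ⟩, lam, hlam⟩ := line_max hp2 hπ hχ h'
  replace hφ0 : φ 0 = 0 := by
    have : φ (ι 0) = 0 := hφ0
    rwa [map_zero] at this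
  replace hφ : ∀ x : k₂, x ≠ 0 → ‖φ (ι x)‖ = ‖π‖ := hφ
  have hφJ : IsJ O φ := ⟨hφO, hφ0⟩
  have hmax' : ∀ φ, IsJ O φ → ∀ x, ‖φ (ι x)‖ ≤ ‖π‖ := fun φ hφ x =>
    hmax (precomp (Wring p) ι φ) ⟨⟨φ, hφ.1, rfl⟩, by
      change φ (ι 0) = 0
      rw [map_zero]; exact hφ.2⟩ x
  have hχ1 : ∀ σ (hσ : σ ∈ Gt π), ((χ ⟨σ, hσ.1⟩ : k₂ˣ) : k₂) = 1 := by
    intro σ hσ
    apply lam.injective
    rw [hlam, map_one]
    exact (hπ.mem_Gt_iff.mp hσ).2
  have hf2 : ∀ σ ∈ Gt π, ∀ τ ∈ Gt π, f (σ * τ) = f σ + f τ := by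
    intro σ hσ τ hτ
    apply hι
    have h1 := hf (σ * τ) (mul_mem hσ hτ)
    have h2 : ρ ⟨σ * τ, (mul_mem hσ hτ).1⟩ n = ρ ⟨σ, hσ.1⟩ (ρ ⟨τ, hτ.1⟩ n) := by
      have : (⟨σ * τ, (mul_mem hσ hτ).1⟩ : inertiaLoc p) = ⟨σ, hσ.1⟩ * ⟨τ, hτ.1⟩ := rfl
      rw [this, map_mul]; rfl
    rw [h2, hf τ hτ, map_add, hf σ hσ, ← hιρ, hχ1 σ hσ, one_mul, add_assoc] at h1
    rw [map_add]
    exact (add_left_cancel h1).symm
  have hιc : ∀ x, ι x ∈ connPart h := fun x ψ hψ => (hmax' ψ hψ x).trans_lt hπ.norm_lt_one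
  obtain ⟨ϖ, hϖ⟩ := IsAlgClosed.exists_pow_nat_eq π hp.out.pos
  have hnorm : ‖ϖ‖ ^ p = ‖π‖ := by rw [← norm_pow, hϖ]
  have hϖpos : 0 < ‖ϖ‖ := by
    rcases (norm_nonneg ϖ).lt_or_eq with h | h
    · exact h
    · rw [← h, zero_pow hp.out.ne_zero] at hnorm
      exact absurd hnorm hπ.norm_pos.ne
  have hϖlt : ‖ϖ‖ < 1 := by
    rw [← pow_lt_pow_iff_p (p := p) (norm_nonneg _) zero_le_one, one_pow, hnorm]
    exact hπ.norm_lt_one
  have hmain := stepB (π := π) (T := T) (f := f) hf2 (x := fun h => φ (n + ι h)) (s := ‖π‖)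
    (B := ‖ϖ‖ ^ (1 + p * (p + 1) - i)) (fun x => h.norm_le_one hφO _) (fun σ hσ x => ?_)
    (fun a b hab => ?_) (fun c hc hc1 σ hσ => ?_) hσ hTσ
  · rw [← hnorm, ← pow_mul] at hmain
    exact (pow_le_pow_iff_right_of_lt_one₀ hϖpos hϖlt).mp hmain
  · have h1 := h.equivariant' hφO ⟨σ, hσ.1⟩ (n + ι x)
    change σ (φ (n + ι x)) = φ (n + ι (x + f σ))
    rw [← h1, map_add, hf σ hσ, ← hιρ, hχ1 σ hσ, one_mul, map_add]
    congr 1; abel
  · obtain ⟨m, c, d, hc, hd, hcd⟩ := h.J_add hφJ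
    have h1 : n + ι a = (n + ι b) + ι (a - b) := by rw [map_sub]; abel
    have h2 : φ (n + ι a) - φ (n + ι b) = φ (ι (a - b)) + ∑ j, c j (n + ι b) * d j (ι (a - b)) := by
      rw [h1, hcd]; ring
    change ‖φ (n + ι a) - φ (n + ι b)‖ = ‖π‖
    have h3 := hφ (a - b) (sub_ne_zero.mpr hab)
    have h4 : ‖∑ j, c j (n + ι b) * d j (ι (a - b))‖ < ‖π‖ := by
      refine Finset.sum_induction _ (fun x => ‖x‖ < ‖π‖) (fun _ _ ha hb => norm_add_lt' ha hb)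
        (by rw [norm_zero]; exact hπ.norm_pos) (fun j _ => ?_)
      rw [norm_mul]
      have h5 : ‖c j (n + ι b)‖ < 1 := (add_mem hn (hιc b)) _ (hc j)
      have h6 : ‖d j (ι (a - b))‖ ≤ ‖π‖ := hmax' _ (hd j) _
      calc _ ≤ ‖c j (n + ι b)‖ * ‖π‖ := mul_le_mul_of_nonneg_left h6 (norm_nonneg _)
        _ < 1 * ‖π‖ := mul_lt_mul_of_pos_right h5 hπ.norm_pos
        _ = ‖π‖ := one_mul _
    rw [h2, IsUltrametricDist.norm_add_eq_max_of_norm_ne_norm, h3, max_eq_left h4.le]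
    rw [h3]; exact h4.ne'
  · rw [← pow_le_pow_iff_p (p := p) (norm_nonneg _) (pow_nonneg hϖpos.le _), ← pow_mul, mul_comm,
      pow_mul, hnorm]
    exact index_bound hπ hζ (fun σ hσ τ hτ => by rw [hf2 σ hσ τ hτ, map_add]) hy hyn hi hlt hdvd
      hσ hc hc1

/-- (PR): flat extensions of `𝔽_p` by `𝔽_p(1)` are peu ramifiées. -/
theorem peuRam (hπ : IsPi π) (hζ : IsPrimitiveRoot ζ p)
    (h : IsOrder ρ O) (ι : ZMod p →+ N) (hι : Function.Injective ι)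
    (ρ' : inertiaLoc p →* AddMonoid.End (ZMod p))
    (hιρ : ∀ σ x, ι (ρ' σ x) = ρ σ (ι x)) {n : N}
    (hf : ∀ σ (hσ : σ ∈ Gt π), ρ ⟨σ, hσ.1⟩ n = n + ι (g σ)) (hg : HomGt π g)
    {y : PadicAlgCl p} (hy0 : y ≠ 0) (hy : ∀ σ ∈ Gt π, σ y = ζ ^ (g σ).val * y) {m : ℤ}
    (hyn : ‖y‖ ^ p = ‖π‖ ^ m) : (p : ℤ) ∣ m := by
  by_cases hg0 : ∀ σ ∈ Gt π, g σ = 0
  · obtain ⟨m', hm'⟩ := hπ.norm_of_InL hy0 (fun σ hσ => by
      rw [hy σ hσ, hg0 σ hσ, ZMod.val_zero, pow_zero, one_mul])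
    rw [hm', ← zpow_natCast, ← zpow_mul] at hyn
    have := zpow_right_injective₀ hπ.norm_pos hπ.norm_lt_one.ne hyn
    exact ⟨m', by rw [← this]; ring⟩
  push Not at hg0
  obtain ⟨σ₁, hσ₁, hσ₁'⟩ := hg0
  by_contra hdvd
  have h' := h.sub (ρ' := ρ') ι hι hιρ
  obtain ⟨φ₀, hφ₀, m₀, hmax⟩ := h'.exists_max
  have hne : φ₀ m₀ ≠ 0 := by
    intro h0
    have h1 : (1 : ZMod p) = 0 := by
      refine h'.separates _ _ (fun φ hφ => ?_)
      have h2 := hmax _ (h'.sub_const_isJ hφ) 1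
      rw [h0, norm_zero] at h2
      exact sub_eq_zero.mp (norm_le_zero_iff.mp h2)
    exact one_ne_zero h1
  have hs : ‖π‖ ^ (p + 1) ≤ ‖φ₀ m₀‖ := by
    rcases (h'.norm_le_one hφ₀.1 m₀).lt_or_eq with hlt | heq
    · have h1 := h'.bound (fun m => by
        rw [nsmul_eq_mul, CharP.cast_eq_zero, zero_mul]) hφ₀ m₀ hmax hne hlt
      rw [← hπ.norm_pow] at h1
      have h2 : p ^ 2 - 1 = (p + 1) * (p - 1) := by
        have := Nat.sq_sub_sq p 1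
        simpa using this
      rw [h2, pow_mul] at h1
      have hp1 : p - 1 ≠ 0 := by have := hp.out.two_le; omega
      exact (pow_le_pow_iff_left₀ (pow_nonneg hπ.norm_pos.le _) (norm_nonneg _) hp1).mp h1
    · rw [heq]; exact pow_le_one₀ hπ.norm_pos.le hπ.norm_lt_one.le
  obtain ⟨φ, hφO, hφ⟩ := hφ₀.1
  have hφ0 : φ 0 = 0 := by
    have := hφ₀.2
    rw [← hφ] at this
    change φ (ι 0) = 0 at this
    rwa [map_zero] at this
  -- an element with `g σ = m₀`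
  obtain ⟨σ, hσ, hgσ⟩ : ∃ σ ∈ Gt π, g σ = m₀ := by
    refine ⟨σ₁ ^ (m₀ * (g σ₁)⁻¹).val, pow_mem hσ₁ _, ?_⟩
    rw [hg.pow hσ₁, ZMod.natCast_zmod_val, mul_assoc, inv_mul_cancel₀ hσ₁', mul_one]
  obtain ⟨r, a, b, ha, hb, hab⟩ := mem_tens_iff.mp (h.add_mem φ hφO)
  replace hab : ∀ x y, φ (x + y) = ∑ j, a j x * b j y := hab
  have h1 : φ₀ m₀ = ∑ j, (σ (a j n) - a j n) * b j (-n) := by
    have e1 : φ₀ m₀ = φ (ι m₀) := by rw [← hφ]; rfl
    have e2 : ι m₀ = ρ ⟨σ, hσ.1⟩ n + -n := by rw [hf σ hσ, hgσ]; abel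
    have e3 := hab n (-n)
    rw [add_neg_cancel, hφ0] at e3
    rw [e1, e2, hab]
    have e4 : ∀ j, (σ (a j n) - a j n) * b j (-n)
        = a j (ρ ⟨σ, hσ.1⟩ n) * b j (-n) - a j n * b j (-n) := fun j => by
      rw [h.equivariant' (ha j) ⟨σ, hσ.1⟩ n]; ring
    rw [Finset.sum_congr rfl (fun j _ => e4 j), Finset.sum_sub_distrib, ← e3, sub_zero]
  obtain ⟨ϖ, hϖ⟩ := IsAlgClosed.exists_pow_nat_eq π hp.out.pos
  have hnorm : ‖ϖ‖ ^ p = ‖π‖ := by rw [← norm_pow, hϖ]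
  have hϖpos : 0 < ‖ϖ‖ := by
    rcases (norm_nonneg ϖ).lt_or_eq with h | h
    · exact h
    · rw [← h, zero_pow hp.out.ne_zero] at hnorm
      exact absurd hnorm hπ.norm_pos.ne
  have hϖlt : ‖ϖ‖ < 1 := by
    rw [← pow_lt_pow_iff_p (p := p) (norm_nonneg _) zero_le_one, one_pow, hnorm]
    exact hπ.norm_lt_one
  have h2 : ‖φ₀ m₀‖ ≤ ‖ϖ‖ ^ (1 + p * (p + 1)) := by
    rw [h1]
    refine norm_sum_le' _ _ (by positivity) (fun j _ => ?_)
    have h3 : InM π g (a j n) := fun τ hτ h0 => by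
      rw [← h.equivariant' (ha j) ⟨τ, hτ.1⟩ n, hf τ hτ, h0, map_zero, add_zero]
    have h4 := index_bound_zero hπ hζ hg hy hyn hdvd hσ h3 (h.norm_le_one (ha j) n)
    have h5 : ‖σ (a j n) - a j n‖ ≤ ‖ϖ‖ ^ (1 + p * (p + 1)) := by
      rw [← pow_le_pow_iff_p (p := p) (norm_nonneg _) (by positivity), ← pow_mul, mul_comm _ p,
        pow_mul, hnorm]
      exact h4
    rw [norm_mul]
    calc _ ≤ ‖ϖ‖ ^ (1 + p * (p + 1)) * 1 :=
          mul_le_mul h5 (h.norm_le_one (hb j) _) (norm_nonneg _) (by positivity)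
      _ = _ := mul_one _
  have h3 := hs.trans h2
  rw [← hnorm, ← pow_mul] at h3
  have h4 := (pow_le_pow_iff_right_of_lt_one₀ hϖpos hϖlt).mp h3
  omega

end Modules

end Fermat.Agent.Flat
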