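import Fermat.Agent.Flat.SuperL

/-!
# Flat cocycles in the irreducible case: counting and kernel
-/

set_option autoImplicit false

open GaloisRep Fermat.Agent.CFT.Loc Fermat.Agent.CFT Matrix

namespace Fermat.Agent.Flat

local notation "M₂" => Matrix (Fin 2) (Fin 2)

variable {p : ℕ} [hp : Fact p.Prime]

theorem card_roots_le {κ : Type*} [Field κ] (n : κ) {q : ℕ} (hq : 1 < q) :
    {z : κ | z ^ q = n * z}.Finite ∧ Nat.card {z : κ // z ^ q = n * z} ≤ q := by
  classical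
  set P : Polynomial κ := Polynomial.X ^ q - Polynomial.C n * Polynomial.X with hP
  have hdeg : P.natDegree = q := by
    rw [hP]
    apply Polynomial.natDegree_sub_eq_left_of_natDegree_lt _ |>.trans (Polynomial.natDegree_X_pow q)
    rw [Polynomial.natDegree_X_pow]
    calc (Polynomial.C n * Polynomial.X : Polynomial κ).natDegree
        ≤ (Polynomial.X : Polynomial κ).natDegree := Polynomial.natDegree_C_mul_le _ _
      _ = 1 := Polynomial.natDegree_X
      _ < q := hq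
  have hP0 : P ≠ 0 := by
    intro h0
    rw [h0, Polynomial.natDegree_zero] at hdeg
    omega
  have hmem : ∀ z : κ, z ^ q = n * z → z ∈ P.roots.toFinset := by
    intro z hz
    rw [Multiset.mem_toFinset, Polynomial.mem_roots hP0, Polynomial.IsRoot, hP]
    simp only [Polynomial.eval_sub, Polynomial.eval_pow, Polynomial.eval_X, Polynomial.eval_mul,
      Polynomial.eval_C]
    exact sub_eq_zero.mpr hz
  refine ⟨P.roots.toFinset.finite_toSet.subset (fun z hz => hmem z hz), ?_⟩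
  calc Nat.card {z : κ // z ^ q = n * z} ≤ Nat.card P.roots.toFinset :=
        Nat.card_le_card_of_injective (fun z => ⟨z.1, hmem z.1 z.2⟩) (fun a b hab =>
          Subtype.ext (congrArg (fun w : P.roots.toFinset => (w : κ)) hab))
    _ = P.roots.toFinset.card := by rw [Nat.card_eq_fintype_card, Fintype.card_coe]
    _ ≤ Multiset.card P.roots := Multiset.toFinset_card_le _
    _ ≤ P.natDegree := Polynomial.card_roots' P
    _ = q := hdeg

variable {k : Type*} [Field k] [CharP k p] [Finite k]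

theorem card_semilin {κ : Type*} [Field κ] (hcard : Nat.card (K2 p k) = p ^ 2)
    {x : K2 p k} (hx : x ^ p ≠ x) {y n : κ} {S : Set (k →+ κ)}
    (hS1 : ∀ a ∈ S, ∀ b, a (x • b) = y * a b) (hS2 : ∀ a ∈ S, ∀ b, a b ^ (p ^ 2) = n * a b) :
    S.Finite ∧ Nat.card S ≤ Nat.card k := by
  classical
  haveI : Finite (K2 p k) := inferInstance
  haveI : Module.Finite (K2 p k) k := Module.Finite.of_finite
  let B := Module.finBasis (K2 p k) k
  have hq : 1 < p ^ 2 := Nat.one_lt_pow two_ne_zero hp.out.one_lt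
  obtain ⟨hfin, hle⟩ := card_roots_le n hq
  haveI : Finite {z : κ // z ^ (p ^ 2) = n * z} := hfin.to_subtype
  let Φ : S → (Fin (Module.finrank (K2 p k) k) → {z : κ // z ^ (p ^ 2) = n * z}) :=
    fun a j => ⟨a.1 (B j), hS2 a.1 a.2 _⟩
  have hΦ : Function.Injective Φ := by
    intro a a' haa'
    apply Subtype.ext
    apply AddMonoidHom.ext
    intro b
    rw [← B.sum_repr b, map_sum, map_sum]
    refine Finset.sum_congr rfl fun j _ => ?_
    obtain ⟨m, m', hm⟩ := span_one_of_not_nat hcard hx (B.repr b j)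
    have key : ∀ a : S, a.1 (B.repr b j • B j) = m * a.1 (B j) + m' * (y * a.1 (B j)) := by
      intro a
      rw [hm, add_smul, mul_smul, Nat.cast_smul_eq_nsmul, Nat.cast_smul_eq_nsmul, map_add,
        map_nsmul, map_nsmul, hS1 a.1 a.2, nsmul_eq_mul, nsmul_eq_mul]
    rw [key a, key a']
    have h1 := congrArg Subtype.val (congrFun haa' j)
    change a.1 (B j) = a'.1 (B j) at h1
    rw [h1]
  haveI : Finite S := Finite.of_injective Φ hΦ
  refine ⟨Set.toFinite S, ?_⟩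
  calc Nat.card S ≤ Nat.card (Fin (Module.finrank (K2 p k) k) → {z : κ // z ^ (p ^ 2) = n * z}) :=
        Nat.card_le_card_of_injective Φ hΦ
    _ = Nat.card {z : κ // z ^ (p ^ 2) = n * z} ^ (Module.finrank (K2 p k) k) := by
      rw [Nat.card_fun, Nat.card_eq_fintype_card (α := Fin _), Fintype.card_fin]
    _ ≤ (p ^ 2) ^ (Module.finrank (K2 p k) k) := Nat.pow_le_pow_left hle _
    _ = Nat.card k := by
      rw [← hcard]
      haveI := Fintype.ofFinite k
      haveI := Fintype.ofFinite (K2 p k)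
      rw [Nat.card_eq_fintype_card, Nat.card_eq_fintype_card]
      exact (Module.card_eq_pow_finrank (K := K2 p k) (V := k)).symm

omit [CharP k p] [Finite k] in
/-- a locally constant cocycle vanishing on inertia and on Frobenius is zero -/
theorem coc_zero {r : GalLoc p →* M₂ k} {c : GalLoc p → M₂ k} (hc : IsCoc r c)
    (hlc : (locLevels p).LC c) {F : GalLoc p} (hF : ∀ x, resAct p F x = x ^ p)
    (hI : ∀ τ ∈ inertiaLoc p, c τ = 0) (h0 : c F = 0) (g : GalLoc p) : c g = 0 := by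
  obtain ⟨H, hH, hHc⟩ := hlc
  obtain ⟨j, t, ht, n, hn, rfl⟩ := exists_decomp hF hH g
  have hFj : ∀ j : ℕ, c (F ^ j) = 0 := by
    intro j
    induction j with
    | zero => rw [pow_zero, hc.one]
    | succ j ih => rw [pow_succ, hc, ih, h0, mul_zero, zero_mul, add_zero]
  rw [hHc _ n hn, hc, hFj, hI t ht, mul_zero, zero_mul, add_zero]

omit [CharP k p] [Finite k] in
theorem LC_inv {r : GalLoc p →* M₂ k} (hlc : (locLevels p).LC r) :
    (locLevels p).LC (fun g => r g⁻¹) := by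
  obtain ⟨H, hH, hr⟩ := hlc
  refine ⟨H, hH, fun g s hs => ?_⟩
  have h1 : r (g * s)⁻¹ * r g = 1 := by
    rw [← hr g s hs, inv_mul_r]
  calc r (g * s)⁻¹ = r (g * s)⁻¹ * (r g * r g⁻¹) := by rw [mul_inv_r, mul_one]
    _ = (r (g * s)⁻¹ * r g) * r g⁻¹ := by rw [Matrix.mul_assoc]
    _ = r g⁻¹ := by rw [h1, one_mul]

omit [CharP k p] [Finite k] in
theorem LC_dmat {r : GalLoc p →* M₂ k} (hlc : (locLevels p).LC r) (m : M₂ k) :
    (locLevels p).LC (dmat r m) :=
  hlc.comp₂ (LC_inv hlc) (fun a b => a * m * b - m)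

omit [CharP k p] [Finite k] in
theorem conj_entry (A M B : M₂ k) (i j : Fin 2) : (A * M * B) i j =
    (A i 0 * M 0 0 + A i 1 * M 1 0) * B 0 j + (A i 0 * M 0 1 + A i 1 * M 1 1) * B 1 j := by
  simp only [Matrix.mul_apply, Fin.sum_univ_two]

namespace SD

variable {r : GalLoc p →* M₂ k} {F : GalLoc p} {χ : inertiaLoc p →* kˣ} {β γ : k}
  {π ζ : PadicAlgCl p} (hS : SD p r F χ β γ π ζ)

include hS

/-- cocycles vanishing on `Gt` are coboundaries -/
theorem exists_dmat {c : GalLoc p → M₂ k} (hc : IsCoc r c) (hlc : (locLevels p).LC c)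
    (hlcr : (locLevels p).LC r) (htr : ∀ g, (c g).trace = 0) (h0 : ∀ σ ∈ Gt π, c σ = 0) :
    ∃ m : M₂ k, m.trace = 0 ∧ ∀ g, c g = dmat r m g := by
  obtain ⟨σ₀, a, hord, ha, hak, haκ, hgen⟩ := hS.gen
  obtain ⟨lam, hlam⟩ := hS.exists_lam
  have hp3 := hS.three_le
  have hpp : 3 * p ≤ p ^ 2 := by rw [sq]; exact Nat.mul_le_mul_right p hp3
  set t : k := (χ σ₀ : k) with ht
  have ht0 : t ≠ 0 := (χ σ₀).ne_zero
  have htp : t ^ p ≠ t := by
    intro h1
    have h2 : (chi2 χ hS.form.sq σ₀ : K2 p k) ^ p = (chi2 χ hS.form.sq σ₀ : K2 p k) :=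
      Subtype.ext h1
    have h3 := congrArg lam h2
    rw [map_pow, hlam] at h3
    have h4 : psi π (σ₀ : GalLoc p) ^ p = psi π (σ₀ : GalLoc p) ^ 1 := by rw [pow_one]; exact h3
    rw [psi_pow_eq_iff hS.hπ hord] at h4
    rcases modEq_cases (by omega : 1 < p ^ 2 - 1) (by omega) h4 with h5 | h5 <;> omega
  have hrσ₀ : r σ₀ = !![t, 0; 0, t ^ p] := hS.form.inertia σ₀
  have hrinv : r (σ₀ : GalLoc p)⁻¹ = !![t⁻¹, 0; 0, (t ^ p)⁻¹] := by
    have h1 := hS.form.inertia σ₀⁻¹
    rw [map_inv] at h1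
    rw [← InvMemClass.coe_inv, h1]
    simp [ht]
  -- the diagonal entry at `σ₀`
  have hdiag : ∀ n : ℕ, c ((σ₀ : GalLoc p) ^ n) 0 0 = n * c σ₀ 0 0 := by
    intro n
    induction n with
    | zero => rw [pow_zero, hc.one]; simp
    | succ n ih =>
      rw [pow_succ', hc, Matrix.add_apply, hrσ₀, hrinv]
      have h1 : ((!![t, 0; 0, t ^ p] : M₂ k) * c ((σ₀ : GalLoc p) ^ n) *
          (!![t⁻¹, 0; 0, (t ^ p)⁻¹] : M₂ k)) 0 0 = c ((σ₀ : GalLoc p) ^ n) 0 0 := by
        rw [conj_entry]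
        simp
        field_simp
      rw [h1, ih]; push_cast; ring
  have hσN : (σ₀ : GalLoc p) ^ (p ^ 2 - 1) ∈ Gt π := by
    rw [hS.hπ.mem_Gt_iff]
    refine ⟨pow_mem σ₀.2 _, ?_⟩
    have h1 := hS.hπ.psiI_apply (σ₀ ^ (p ^ 2 - 1))
    rw [map_pow, ← hord, pow_orderOf_eq_one, Units.val_one] at h1
    rw [h1, hord]; rfl
  have hc00 : c σ₀ 0 0 = 0 := by
    have h1 := hdiag (p ^ 2 - 1)
    rw [h0 _ hσN] at h1
    have h2 : ((p ^ 2 - 1 : ℕ) : k) = -1 := by
      rw [Nat.cast_sub (by omega)]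
      simp
    rw [h2, Matrix.zero_apply] at h1
    linear_combination h1
  have hc11 : c σ₀ 1 1 = 0 := by
    have h1 := htr σ₀
    rw [Matrix.trace_fin_two, hc00, zero_add] at h1
    exact h1
  have hd1 : t * (t ^ p)⁻¹ - 1 ≠ 0 := by
    rw [sub_ne_zero]
    intro h1
    apply htp
    have : t * (t ^ p)⁻¹ * t ^ p = t ^ p := by rw [h1, one_mul]
    rw [mul_assoc, inv_mul_cancel₀ (pow_ne_zero _ ht0), mul_one] at this
    exact this.symm
  have hd2 : t ^ p * t⁻¹ - 1 ≠ 0 := by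
    rw [sub_ne_zero]
    intro h1
    apply htp
    have : t ^ p * t⁻¹ * t = t := by rw [h1, one_mul]
    rw [mul_assoc, inv_mul_cancel₀ ht0, mul_one] at this
    exact this
  set m : M₂ k := !![0, c σ₀ 0 1 / (t * (t ^ p)⁻¹ - 1); c σ₀ 1 0 / (t ^ p * t⁻¹ - 1), 0] with hm
  have hm1 : dmat r m σ₀ = c σ₀ := by
    rw [dmat, hrσ₀, hrinv, hm]
    ext i j
    fin_cases i <;> fin_cases j
    · simp [hc00]
    · have e1 : t * (c σ₀ 0 1 / (t * (t ^ p)⁻¹ - 1)) * (t ^ p)⁻¹ - c σ₀ 0 1 / (t * (t ^ p)⁻¹ - 1)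
          = c σ₀ 0 1 := by
        have : t * (c σ₀ 0 1 / (t * (t ^ p)⁻¹ - 1)) * (t ^ p)⁻¹ - c σ₀ 0 1 / (t * (t ^ p)⁻¹ - 1)
          = (c σ₀ 0 1 / (t * (t ^ p)⁻¹ - 1)) * (t * (t ^ p)⁻¹ - 1) := by ring
        rw [this, div_mul_cancel₀ _ hd1]
      simpa [Matrix.mul_apply, Fin.sum_univ_two] using e1
    · have e1 : t ^ p * (c σ₀ 1 0 / (t ^ p * t⁻¹ - 1)) * t⁻¹ - c σ₀ 1 0 / (t ^ p * t⁻¹ - 1)
          = c σ₀ 1 0 := by
        have : t ^ p * (c σ₀ 1 0 / (t ^ p * t⁻¹ - 1)) * t⁻¹ - c σ₀ 1 0 / (t ^ p * t⁻¹ - 1)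
          = (c σ₀ 1 0 / (t ^ p * t⁻¹ - 1)) * (t ^ p * t⁻¹ - 1) := by ring
        rw [this, div_mul_cancel₀ _ hd2]
      simpa [Matrix.mul_apply, Fin.sum_univ_two] using e1
    · simp [hc11]
  -- first correction
  set c1 : GalLoc p → M₂ k := fun g => c g + -dmat r m g with hc1
  have hc1c : IsCoc r c1 := hc.add (isCoc_dmat m).neg
  have hc1G : ∀ σ ∈ Gt π, c1 σ = 0 := by
    intro σ hσ
    have h1 : r σ⁻¹ = 1 := hS.r_one (inv_mem hσ)
    simp only [hc1, dmat]
    rw [h0 σ hσ, hS.r_one hσ, h1, one_mul, mul_one, sub_self, neg_zero, add_zero]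
  have hc1σ : c1 σ₀ = 0 := by
    simp only [hc1]
    rw [hm1, add_neg_cancel]
  have hc1n : ∀ n : ℕ, c1 ((σ₀ : GalLoc p) ^ n) = 0 := by
    intro n
    induction n with
    | zero => rw [pow_zero, hc1c.one]
    | succ n ih => rw [pow_succ, hc1c, ih, hc1σ, mul_zero, zero_mul, add_zero]
  have hc1I : ∀ τ ∈ inertiaLoc p, c1 τ = 0 := by
    intro τ hτ
    obtain ⟨n, hn⟩ := hgen ⟨τ, hτ⟩
    have h1 : ((σ₀ : GalLoc p) ^ n)⁻¹ * τ ∈ Gt π := by
      rw [hS.hπ.mem_Gt_iff]
      refine ⟨mul_mem (inv_mem (pow_mem σ₀.2 n)) hτ, ?_⟩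
      have h2 : psi π (((σ₀ : GalLoc p) ^ n) * (((σ₀ : GalLoc p) ^ n)⁻¹ * τ)) = psi π τ := by
        rw [mul_inv_cancel_left]
      rw [hS.hπ.psi_mul_inertia (pow_mem σ₀.2 n)] at h2
      have h3 : psi π ((σ₀ : GalLoc p) ^ n) = psi π (σ₀ : GalLoc p) ^ n := by
        have h4 := hS.hπ.psiI_apply (σ₀ ^ n)
        rw [map_pow, Units.val_pow_eq_pow_val, hS.hπ.psiI_apply] at h4
        exact h4.symm
      change psi π τ = _ at hn
      rw [h3, hn] at h2
      exact mul_left_cancel₀ (pow_ne_zero n (hS.hπ.psi_ne_zero _)) (by rw [h2, mul_one])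
    have h2 : τ = (σ₀ : GalLoc p) ^ n * (((σ₀ : GalLoc p) ^ n)⁻¹ * τ) := by
      rw [mul_inv_cancel_left]
    rw [h2, hc1c, hc1n, hc1G _ h1, mul_zero, zero_mul, add_zero]
  -- the value at Frobenius
  have hcommF : ∀ τ : inertiaLoc p, r τ * c1 F * r (τ : GalLoc p)⁻¹ = c1 F := by
    intro τ
    have h1 : (τ : GalLoc p) * F = F * (F⁻¹ * τ * F) := by group
    have h2 := hc1c (τ : GalLoc p) F
    rw [h1, hc1c, hc1I _ (conj_mem_inertia' F τ), hc1I _ τ.2, mul_zero, zero_mul, add_zero,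
      zero_add] at h2
    exact h2.symm
  have hX := hcommF σ₀
  rw [hrσ₀, hrinv] at hX
  set X := c1 F with hXdef
  have hX01 : X 0 1 = 0 := by
    have h1 := congrFun (congrFun hX 0) 1
    rw [conj_entry] at h1
    simp only [Matrix.of_apply, Matrix.cons_val', Matrix.cons_val_zero, Matrix.cons_val_one,
      Matrix.cons_val_fin_one] at h1
    have h2 : X 0 1 * (t * (t ^ p)⁻¹ - 1) = 0 := by linear_combination h1
    exact (mul_eq_zero.mp h2).resolve_right hd1
  have hX10 : X 1 0 = 0 := by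
    have h1 := congrFun (congrFun hX 1) 0
    rw [conj_entry] at h1
    simp only [Matrix.of_apply, Matrix.cons_val', Matrix.cons_val_zero, Matrix.cons_val_one,
      Matrix.cons_val_fin_one] at h1
    have h2 : X 1 0 * (t ^ p * t⁻¹ - 1) = 0 := by linear_combination h1
    exact (mul_eq_zero.mp h2).resolve_right hd2
  have hmtr : m.trace = 0 := by rw [hm, Matrix.trace_fin_two_of]; simp
  have hXtr : X 0 0 + X 1 1 = 0 := by
    have h1 : X.trace = 0 := by
      rw [hXdef, hc1]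
      simp only [dmat]
      rw [Matrix.trace_add, Matrix.trace_neg, Matrix.trace_sub, Matrix.trace_mul_comm,
        ← Matrix.mul_assoc, inv_mul_r, one_mul, htr, hmtr]
      simp
    rwa [Matrix.trace_fin_two] at h1
  have h2ne : (2 : k) ≠ 0 := by
    intro h2
    have h3 : ((2 : ℕ) : k) = 0 := by exact_mod_cast h2
    have h4 := (CharP.cast_eq_zero_iff k p 2).mp h3
    have := Nat.le_of_dvd two_pos h4
    omega
  set y : k := -(X 0 0) / 2 with hy
  set m' : M₂ k := !![y, 0; 0, -y] with hm'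
  have hFh : r F * m' = -(m' * r F) := by
    rw [hS.form.frob, hm']
    ext i j
    fin_cases i <;> fin_cases j <;> simp [Matrix.mul_apply, Fin.sum_univ_two, mul_comm]
  have hdF : dmat r m' F = X := by
    rw [dmat, hFh, neg_mul, Matrix.mul_assoc, mul_inv_r, mul_one]
    ext i j
    fin_cases i <;> fin_cases j
    · simp [hm', hy]; field_simp; ring
    · simp [hm', hX01]
    · simp [hm', hX10]
    · simp [hm', hy]
      field_simp
      linear_combination -2 * hXtr
  have hdI : ∀ τ ∈ inertiaLoc p, dmat r m' τ = 0 := by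
    intro τ hτ
    have h1 : r τ * m' = m' * r τ := by
      have := hS.form.inertia ⟨τ, hτ⟩
      change r τ = _ at this
      rw [this, hm']
      ext i j
      fin_cases i <;> fin_cases j <;> simp [Matrix.mul_apply, Fin.sum_univ_two, mul_comm]
    rw [dmat, h1, Matrix.mul_assoc, mul_inv_r, mul_one, sub_self]
  have hfinal := coc_zero (c := fun g => c1 g + -dmat r m' g) (hc1c.add (isCoc_dmat m').neg)
    ((hlc.comp₂ (LC_dmat hlcr m) (fun a b => a + -b)).comp₂ (LC_dmat hlcr m') (fun a b => a + -b))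
    hS.frob (fun τ hτ => by rw [hc1I τ hτ, hdI τ hτ, neg_zero, add_zero])
    (by rw [hdF, add_neg_cancel])
  refine ⟨m + m', ?_, fun g => ?_⟩
  · rw [Matrix.trace_add, hmtr, hm', Matrix.trace_fin_two_of]; simp
  · have h1 := hfinal g
    simp only [hc1] at h1
    have h2 : dmat r (m + m') g = dmat r m g + dmat r m' g := by
      rw [dmat, dmat, dmat, mul_add, add_mul]; abel
    rw [h2]
    have h3 : c g = (c g + -dmat r m g + -dmat r m' g) + (dmat r m g + dmat r m' g) := by abel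
    rw [h3, h1, zero_add]

end SD

end Fermat.Agent.Flat
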