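import Fermat.Agent.Flat.SuperZ

/-!
# Flat cocycles in the irreducible case: the conclusion
-/

set_option autoImplicit false

open GaloisRep Fermat.Agent.CFT.Loc Fermat.Agent.CFT Matrix

namespace Fermat.Agent.Flat

local notation "M₂" => Matrix (Fin 2) (Fin 2)

variable {p : ℕ} [hp : Fact p.Prime]

/-- a nonzero leading coefficient -/
theorem exists_of_lead_ne {π ζ : PadicAlgCl p} {W : Type*} [AddCommGroup W]
    {g : W → GalLoc p → ZMod p} {i : ℕ} (hπ : IsPi π) (hζ : ζ ^ p = 1) (hg : KFam π g)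
    (h : KAt ζ π g i) (hi : 1 ≤ i) (hdvd : ¬ p ∣ i) {w : W}
    (hne : lead hπ hζ hg h hi hdvd w ≠ 0) :
    ∃ y, Kum ζ π (g w) i y ∧ ‖y - 1‖ ^ p = ‖π‖ ^ i ∧ ∃ σ ∈ Gt π, g w σ ≠ 0 := by
  obtain ⟨y, hy⟩ := h w
  rw [lead_eq hπ hζ hg h hi hdvd (fun σ _ => rfl) hy] at hne
  refine ⟨y, hy, ?_, ?_⟩
  · have h1 := hy.near
    have h2 : ¬ ‖y - 1‖ ^ p < ‖π‖ ^ i := fun hlt => hne ((hy.lc_eq_zero_iff hπ).mpr hlt)
    exact le_antisymm h1 (not_lt.mp h2)
  · by_contra hcon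
    push Not at hcon
    exact hne (hy.lc_zero_of_zero hπ hcon hdvd)

theorem exists_PT (p : ℕ) [hp : Fact p.Prime] (k : Type*) [Field k] [CharP k p] :
    ∃ (P : k →ₗ[K2 p k] K2 p k) (T : K2 p k →+ ZMod p), (∀ y : K2 p k, P (y : k) = y) ∧
      T 1 ≠ 0 := by
  obtain ⟨P, hP⟩ := LinearMap.exists_leftInverse_of_injective
    (Algebra.linearMap (K2 p k) k) (LinearMap.ker_eq_bot.mpr Subtype.val_injective)
  letI : Algebra (ZMod p) (K2 p k) := ZMod.algebra (K2 p k) p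
  obtain ⟨T, hT⟩ : ∃ T : Module.Dual (ZMod p) (K2 p k), T 1 ≠ 0 := by
    by_contra hcon
    push Not at hcon
    exact one_ne_zero ((Module.forall_dual_apply_eq_zero_iff (ZMod p) (1 : K2 p k)).mp hcon)
  exact ⟨P, T.toAddMonoidHom, fun y => LinearMap.congr_fun hP y, hT⟩

variable {k : Type*} [Field k] [CharP k p]

/-- the functional -/
def phi0 (P : k →ₗ[K2 p k] K2 p k) (T : K2 p k →+ ZMod p) : k →+ ZMod p :=
  T.comp P.toAddMonoidHom

theorem phi0_apply (P : k →ₗ[K2 p k] K2 p k) (T : K2 p k →+ ZMod p) (x : k) :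
    phi0 P T x = T (P x) := rfl

theorem phi0_nonDeg {P : k →ₗ[K2 p k] K2 p k} {T : K2 p k →+ ZMod p}
    (hP : ∀ y : K2 p k, P (y : k) = y) (hT : T 1 ≠ 0) : NonDeg (phi0 P T) := by
  intro x hx
  by_contra hx0
  have h1 := hx x⁻¹
  rw [inv_mul_cancel₀ hx0, phi0_apply] at h1
  have h2 := hP 1
  rw [show (((1 : K2 p k)) : k) = 1 from rfl] at h2
  rw [h2] at h1
  exact hT h1

theorem P_smul (P : k →ₗ[K2 p k] K2 p k) (x : K2 p k) (y : k) : P ((x : k) * y) = x * P y := by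
  have := P.map_smul x y
  rwa [smul_eq_mul] at this

variable [Finite k] {r : GalLoc p →* M₂ k} {F : GalLoc p} {χ : inertiaLoc p →* kˣ} {β γ : k}
  {π ζ : PadicAlgCl p}

theorem card_le_p (hcard : Nat.card (K2 p k) = p ^ 2) {T : K2 p k →+ ZMod p} (hT : T 1 ≠ 0)
    {Q : K2 p k → Prop} : Nat.card {h : K2 p k // Q h ∧ T h = 0} ≤ p := by
  have h1 : Nat.card T.range = p := by
    haveI : Finite T.range := inferInstance
    have h2 : Nat.card T.range ∣ Nat.card (ZMod p) := AddSubgroup.card_addSubgroup_dvd_card _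
    rw [Nat.card_zmod] at h2
    rcases (Nat.dvd_prime hp.out).mp h2 with h3 | h3
    · exfalso
      apply hT
      have h4 : T.range = ⊥ := AddSubgroup.card_eq_one.mp h3
      have h5 : T 1 ∈ T.range := ⟨1, rfl⟩
      rw [h4] at h5
      exact h5
    · exact h3
  have h2 := T.ker.index_mul_card
  rw [AddSubgroup.index_ker, h1, hcard, sq] at h2
  have h3 : Nat.card T.ker = p := Nat.eq_of_mul_eq_mul_left hp.out.pos h2
  refine le_of_le_of_eq (Nat.card_le_card_of_injective (fun h : {h : K2 p k // Q h ∧ T h = 0} =>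
    (⟨h.1, h.2.2⟩ : T.ker)) ?_) h3
  intro a b hab
  have h4 := congrArg (fun z : T.ker => (z : K2 p k)) hab
  exact Subtype.ext h4

namespace SD

variable (hS : SD p r F χ β γ π ζ)

include hS

theorem three_le : 3 ≤ p := by
  have := hp.out.two_le
  have := hS.hp2
  omega

/-- a generator of the tame quotient together with its action on `ζ` -/
theorem gen : ∃ (σ₀ : inertiaLoc p) (a : ZMod p), orderOf (hS.hπ.psiI σ₀) = p ^ 2 - 1 ∧
    (σ₀ : GalLoc p) ζ = ζ ^ a.val ∧ (a.val : k) = (χ σ₀ : k) ^ (p + 1) ∧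
    (a.val : ResF p) = psi π (σ₀ : GalLoc p) ^ (p + 1) ∧
    ∀ τ : inertiaLoc p, ∃ n : ℕ, psi π (τ : GalLoc p) = psi π (σ₀ : GalLoc p) ^ n := by
  obtain ⟨σ₀, hord, hgen⟩ := hS.hπ.exists_generator
  obtain ⟨a, ha⟩ := exists_zmod_val hS.hζ (σ₀ : GalLoc p)
  exact ⟨σ₀, a, hord, ha, (hS.cyc σ₀ _ ha).symm, (hS.hπ.psi_cyc hS.hζ σ₀.2 ha).symm, hgen⟩

section

variable {c : GalLoc p → M₂ k} (hc : IsCoc r c) (hlc : (locLevels p).LC c)

include hc hlc

theorem kfam (φ₀ : k →+ ZMod p) (j : Fin 2) {W : Type*} [AddCommGroup W] (l : W →+ k) :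
    KFam π (fun w => fam φ₀ (fun σ => c σ 0 j) (l w)) :=
  kfam_fam φ₀ (fun σ hσ τ _ => by rw [hS.hom hc hσ]; rfl) (hlc.comp (fun m => m 0 j)) l

omit hlc in
/-- the relation for the off-diagonal entry -/
theorem rel01 (φ₀ : k →+ ZMod p) (τ : inertiaLoc p) {a : ZMod p}
    (ha : (a.val : k) = (χ τ : k) ^ (p + 1)) (b : k) {σ : GalLoc p} (hσ : σ ∈ Gt π) :
    a * fam φ₀ (fun σ => c σ 0 1) b ((τ : GalLoc p)⁻¹ * σ * τ)
      = fam φ₀ (fun σ => c σ 0 1) ((chi2 χ hS.form.sq τ : K2 p k) ^ (2 * p) • b) σ := by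
  have h1 := (hS.conj_inertia hc τ hσ).2
  rw [fam, fam, ← phi_val_mul]
  congr 1
  rw [ha]
  have h2 : ((chi2 χ hS.form.sq τ : K2 p k) ^ (2 * p)) • b = (χ τ : k) ^ (2 * p) * b := rfl
  rw [h2]
  calc (χ τ : k) ^ (p + 1) * (b * c ((τ : GalLoc p)⁻¹ * σ * τ) 0 1)
      = (χ τ : k) ^ p * b * ((χ τ : k) * c ((τ : GalLoc p)⁻¹ * σ * τ) 0 1) := by ring
    _ = _ := by rw [h1]; ring

omit hlc in
theorem rel00 (φ₀ : k →+ ZMod p) (τ : inertiaLoc p) {a : ZMod p} (b : k) {σ : GalLoc p}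
    (hσ : σ ∈ Gt π) :
    a * fam φ₀ (fun σ => c σ 0 0) b ((τ : GalLoc p)⁻¹ * σ * τ)
      = fam φ₀ (fun σ => c σ 0 0) (a.val • b) σ := by
  rw [fam, fam, ← phi_val_mul, (hS.conj_inertia hc τ hσ).1, nsmul_eq_mul, mul_assoc]

/-- the off-diagonal entry of a flat cocycle has index at least `p ^ 2 + 1`. -/
theorem kat01 (hfl : FlatC r c hc) {P : k →ₗ[K2 p k] K2 p k} {T : K2 p k →+ ZMod p}
    (hP : ∀ y : K2 p k, P (y : k) = y) (hT : T 1 ≠ 0) :
    KAt ζ π (fam (phi0 P T) (fun σ => c σ 0 1)) (p ^ 2 + 1) := by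
  obtain ⟨σ₀, a, hord, ha, hak, haκ, -⟩ := hS.gen
  obtain ⟨lam, hlam⟩ := hS.exists_lam
  have hp3 := hS.three_le
  have hpp : 3 * p ≤ p ^ 2 := by rw [sq]; exact Nat.mul_le_mul_right p hp3
  have hlt : 2 * p < p ^ 2 - 1 := by omega
  have hg : KFam π (fam (phi0 P T) (fun σ => c σ 0 1)) :=
    hS.kfam hc hlc (phi0 P T) 1 (AddMonoidHom.id k)
  set x : K2 p k := (chi2 χ hS.form.sq σ₀ : K2 p k) ^ (2 * p) with hx
  have hlx : lam x = psi π (σ₀ : GalLoc p) ^ (2 * p) := by rw [hx, map_pow, hlam]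
  have hx2 : x ^ (p ^ 2) = x := Subtype.ext x.2
  have hrel := fun b => fun σ (hσ : σ ∈ Gt π) => hS.rel01 hc (phi0 P T) σ₀ hak b hσ
  have hmod : 2 * p * p ≡ 2 [MOD p ^ 2 - 1] := by
    have h1 : 2 * p * p = 2 * (p ^ 2 - 1) + 2 := by
      have : 2 * p * p = 2 * p ^ 2 := by ring
      rw [this]; omega
    rw [h1]
    exact (Nat.modEq_iff_dvd' (by omega)).mpr ⟨2, by omega⟩ |>.symm
  have hidx : ∀ i, 1 ≤ i → i < p * (p + 1) → ¬ p ∣ i → i ≠ 2 → i ≠ p ^ 2 + 1 →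
      ¬ i ≡ 2 * p [MOD p ^ 2 - 1] ∧ ¬ i ≡ 2 * p * p [MOD p ^ 2 - 1] := by
    intro i hi1 hi2 hdvd h2 h3
    have h4 : p * (p + 1) = p ^ 2 + p := by ring
    constructor
    · intro h5
      rcases modEq_cases hlt (by omega) h5 with h6 | h6
      · exact hdvd ⟨2, by omega⟩
      · omega
    · intro h5
      rcases modEq_cases (by omega : 2 < p ^ 2 - 1) (by omega) (h5.trans hmod) with h6 | h6
      · exact h2 h6
      · omega
  have hzero : ∀ i, i ≠ 2 → i ≠ p ^ 2 + 1 → i < p * (p + 1) →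
      ∀ (h : KAt ζ π (fam (phi0 P T) (fun σ => c σ 0 1)) i) (hi : 1 ≤ i) (hdvd : ¬ p ∣ i) (w : k),
      lead hS.hπ hS.hζ.pow_eq_one hg h hi hdvd w = 0 := by
    intro i h2 h3 h4 h hi hdvd w
    obtain ⟨h5, h6⟩ := hidx i hi h4 hdvd h2 h3
    exact lead_eq_zero_of_idx hS.hπ hS.hζ.pow_eq_one hg h hi hdvd lam hord ha hx2 hlx hrel h5 h6 w
  have hp4 : p * (p + 1) = p ^ 2 + p := by ring
  -- start
  have h1 : KAt ζ π (fam (phi0 P T) (fun σ => c σ 0 1)) 1 := by
    refine KAt.one_of_conj hS.hπ hS.hζ hg (σ₀ : GalLoc p) ha (fun b => x • b) hrel (fun w => ?_)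
    have hx1 : x ≠ 1 := by
      intro hx1
      rw [hx1, map_one] at hlx
      have h2 : psi π (σ₀ : GalLoc p) ^ 0 = psi π (σ₀ : GalLoc p) ^ (2 * p) := by
        rw [pow_zero]; exact hlx
      rw [psi_pow_eq_iff hS.hπ hord] at h2
      rcases modEq_cases (by omega : 0 < p ^ 2 - 1) (by omega) h2.symm with h3 | h3 <;> omega
    have hx1' : x - 1 ≠ 0 := sub_ne_zero.mpr hx1
    refine ⟨(x - 1)⁻¹ • w, ?_⟩
    have h2 : x • (x - 1)⁻¹ • w = (x - 1) • (x - 1)⁻¹ • w + (x - 1)⁻¹ • w := by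
      rw [sub_smul, one_smul, sub_add_cancel]
    rw [h2, smul_smul, mul_inv_cancel₀ hx1', one_smul]
  have h2 := h1.climb hS.hπ hS.hζ.pow_eq_one hg (i₁ := 2) (by omega) (by omega) le_rfl
    (fun i hi hi' h => hzero i (by omega) (by omega) (by omega) h)
  -- index two
  have h3 : KAt ζ π (fam (phi0 P T) (fun σ => c σ 0 1)) 3 := by
    refine h2.climb hS.hπ hS.hζ.pow_eq_one hg (i₁ := 3) (by omega) (by omega) (by omega)
      (fun i hi hi' h hi1 hdvd w => ?_)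
    by_contra hne
    obtain rfl : i = 2 := by omega
    obtain ⟨y, hy, hyn, σ, hσ, hgσ⟩ := exists_of_lead_ne hS.hπ hS.hζ.pow_eq_one hg h hi1 hdvd hne
    have h4 := hS.step hc hfl 1 P hP T w hy hyn hi1 (by omega) hdvd hσ hgσ
    have h5 := card_le_p hS.card_K2 hT (Q := fun h => ∃ τ ∈ Gt π, P (w * c τ 0 1) = h)
    have h6 := Nat.mul_le_mul_left p h5
    have h7 : p * p = p ^ 2 := (sq p).symm
    omega
  exact h3.climb hS.hπ hS.hζ.pow_eq_one hg (i₁ := p ^ 2 + 1) (by omega) (by omega) (by omega)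
    (fun i hi hi' h => hzero i (by omega) (by omega) (by omega) h)

/-- the diagonal entry of a flat cocycle vanishes on the wild part -/
theorem zero00 (htr : ∀ g, (c g).trace = 0) (hfl : FlatC r c hc) :
    ∀ σ ∈ Gt π, c σ 0 0 = 0 := by
  obtain ⟨P, T, hP, hT⟩ := exists_PT p k
  obtain ⟨σ₀, a, hord, ha, hak, haκ, -⟩ := hS.gen
  obtain ⟨aF, haF⟩ := exists_zmod_val hS.hζ F
  have hp3 := hS.three_le
  have hpp : 3 * p ≤ p ^ 2 := by rw [sq]; exact Nat.mul_le_mul_right p hp3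
  have hlt : p + 1 < p ^ 2 - 1 := by omega
  have hp4 : p * (p + 1) = p ^ 2 + p := by ring
  have hζp := hS.hζ.pow_eq_one
  set f : GalLoc p → k := fun σ => c σ 0 0 with hf
  -- families over subgroups
  have hidx : ∀ i, 1 ≤ i → i < p * (p + 1) → i ≠ p + 1 → ¬ i ≡ p + 1 [MOD p ^ 2 - 1] := by
    intro i hi1 hi2 h3 h5
    rcases modEq_cases hlt (by omega) h5 with h6 | h6
    · exact h3 h6
    · omega
  have hzero : ∀ (W : AddSubgroup k) (hg : KFam π (fun w : W => fam (phi0 P T) f (w : k))) (i : ℕ),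
      i ≠ p + 1 → i < p * (p + 1) →
      ∀ (h : KAt ζ π (fun w : W => fam (phi0 P T) f (w : k)) i) (hi : 1 ≤ i) (hdvd : ¬ p ∣ i)
      (w : W), lead hS.hπ hζp hg h hi hdvd w = 0 := by
    intro W hg i h3 h4 h hi hdvd w
    refine lead_eq_zero_of_nat hS.hπ hζp hg h hi hdvd hord ha haκ (fun w σ hσ => ?_)
      (hidx i hi h4 h3) w
    exact hS.rel00 hc (phi0 P T) σ₀ (w : k) hσ
  have hgW : ∀ W : AddSubgroup k, KFam π (fun w : W => fam (phi0 P T) f (w : k)) := fun W =>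
    hS.kfam hc hlc (phi0 P T) 0 W.subtype
  have hg : KFam π (fam (phi0 P T) f) := hS.kfam hc hlc (phi0 P T) 0 (AddMonoidHom.id k)
  -- start
  have ha1 : (a.val : k) - 1 ≠ 0 := by
    rw [sub_ne_zero]
    intro h1
    have h2 : ((a.val : ℕ) : k) = ((1 : ℕ) : k) := by rw [h1]; simp
    have h3 := (CharP.natCast_eq_natCast k p).mp h2
    have h4 := (CharP.natCast_eq_natCast (ResF p) p).mpr h3
    rw [haκ, Nat.cast_one] at h4
    have h5 : psi π (σ₀ : GalLoc p) ^ 0 = psi π (σ₀ : GalLoc p) ^ (p + 1) := by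
      rw [pow_zero]; exact h4.symm
    rw [psi_pow_eq_iff hS.hπ hord] at h5
    rcases modEq_cases (by omega : 0 < p ^ 2 - 1) (by omega) h5.symm with h3 | h3 <;> omega
  have h1 : KAt ζ π (fam (phi0 P T) f) 1 := by
    refine KAt.one_of_conj hS.hπ hS.hζ hg (σ₀ : GalLoc p) ha (fun b => a.val • b)
      (fun w σ hσ => hS.rel00 hc (phi0 P T) σ₀ w hσ) (fun w => ?_)
    refine ⟨((a.val : k) - 1)⁻¹ * w, ?_⟩
    simp only [nsmul_eq_mul]
    have h2 : (a.val : k) * (((a.val : k) - 1)⁻¹ * w)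
        = ((a.val : k) - 1) * ((a.val : k) - 1)⁻¹ * w + ((a.val : k) - 1)⁻¹ * w := by ring
    rw [h2, mul_inv_cancel₀ ha1, one_mul]
  have hzero' : ∀ i, i ≠ p + 1 → i < p * (p + 1) →
      ∀ (h : KAt ζ π (fam (phi0 P T) f) i) (hi : 1 ≤ i) (hdvd : ¬ p ∣ i)
      (w : k), lead hS.hπ hζp hg h hi hdvd w = 0 := by
    intro i h3 h4 h hi hdvd w
    exact lead_eq_zero_of_nat hS.hπ hζp hg h hi hdvd hord ha haκ
      (fun w σ hσ => hS.rel00 hc (phi0 P T) σ₀ w hσ) (hidx i hi h4 h3) w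
  have h2 : KAt ζ π (fam (phi0 P T) f) (p + 1) :=
    h1.climb hS.hπ hζp hg (i₁ := p + 1) (by omega) (by omega) le_rfl
      (fun i hi hi' h => hzero' i (by omega) (by omega) h)
  have hdvd1 : ¬ p ∣ p + 1 := by
    intro h
    have h3 : p ∣ 1 := (Nat.dvd_add_right (dvd_refl p)).mp h
    have := Nat.le_of_dvd one_pos h3
    omega
  have hi1 : 1 ≤ p + 1 := by omega
  set L := lead hS.hπ hζp hg h2 hi1 hdvd1 with hL
  -- Frobenius
  have hpsiF : psi π F = 1 := by rw [psi, hS.fix, div_self hS.hπ.ne_zero, rd_one]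
  have hLF : ∀ b, L b ^ p = -(aF.val : ResF p) * L b := by
    intro b
    have h3 := lead_conj hS.hπ hζp hg h2 hi1 hdvd1 F haF (w := b) (w' := -(aF.val • b))
      (fun σ hσ => by
        rw [fam, fam, ← phi_val_mul]
        congr 1
        simp only [hf]
        rw [(hS.conj_frob hc htr hσ).1, nsmul_eq_mul]
        ring)
    rw [hS.frob, hpsiF, one_pow, mul_one] at h3
    rw [← hL] at h3
    rw [← h3, map_neg, map_nsmul, nsmul_eq_mul, neg_mul]
  -- members with vanishing leading coefficient vanish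
  have hker : ∀ w, L w = 0 → ∀ σ ∈ Gt π, fam (phi0 P T) f w σ = 0 := by
    intro w hw σ hσ
    let W : AddSubgroup k := L.ker
    have hW2 : KAt ζ π (fun w : W => fam (phi0 P T) f (w : k)) (p + 1) := fun w => h2 w
    have hlead : ∀ w : W, lead hS.hπ hζp (hgW W) hW2 hi1 hdvd1 w = 0 := by
      intro w
      obtain ⟨y, hy⟩ := h2 (w : k)
      have h3 : lead hS.hπ hζp (hgW W) hW2 hi1 hdvd1 w = lc π (p + 1) y :=
        lead_eq hS.hπ hζp (hgW W) hW2 hi1 hdvd1 (fun _ _ => rfl) hy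
      have h4 : L (w : k) = lc π (p + 1) y :=
        lead_eq hS.hπ hζp hg h2 hi1 hdvd1 (fun _ _ => rfl) hy
      rw [h3, ← h4]
      exact w.2
    have hW3 := hW2.succ_of_lead hS.hπ hζp (hgW W) hi1 (by omega) hdvd1 hlead
    have hW4 := hW3.climb hS.hπ hζp (hgW W) (i₁ := p * (p + 1)) (by omega) le_rfl (by omega)
      (fun i hi hi' h => hzero W (hgW W) i (by omega) (by omega) h)
    exact hW4.eq_zero hS.hπ hS.hζ ⟨w, hw⟩ σ hσ
  -- all leading coefficients vanish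
  have hL0 : ∀ b, L b = 0 := by
    intro b
    by_contra hb
    obtain ⟨y, hy, hyn, σ, hσ, hgσ⟩ := exists_of_lead_ne hS.hπ hζp hg h2 hi1 hdvd1 hb
    have h4 := hS.step hc hfl 0 P hP T b hy hyn hi1 (by omega) hdvd1 hσ hgσ
    have hcard : Nat.card {h : K2 p k // (∃ τ ∈ Gt π, P (b * c τ 0 0) = h) ∧ T h = 0} ≤ 1 := by
      haveI : Subsingleton {h : K2 p k // (∃ τ ∈ Gt π, P (b * c τ 0 0) = h) ∧ T h = 0} := by
        have key : ∀ h : {h : K2 p k // (∃ τ ∈ Gt π, P (b * c τ 0 0) = h) ∧ T h = 0}, h.1 = 0 := by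
          rintro ⟨h, ⟨τ, hτ, hτh⟩, hTh⟩
          by_contra hne
          change h ≠ 0 at hne
          -- a second functional
          set w : k := ((h⁻¹ : K2 p k) : k) * b with hw
          have h5 : fam (phi0 P T) f w τ = T 1 := by
            rw [fam, phi0_apply, hw, mul_assoc, P_smul, hτh, inv_mul_cancel₀ hne]
          have h6 : fam (phi0 P T) f b τ = 0 := by
            rw [fam, phi0_apply, hτh, hTh]
          have h7 : L w ^ p = -(aF.val : ResF p) * L w := hLF w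
          obtain ⟨n, hn⟩ : ∃ n : ℕ, L w / L b = n := by
            apply exists_nat_of_pow_eq
            have haF0 : (-(aF.val : ResF p)) ≠ 0 := by
              intro h0
              have := hLF b
              rw [h0, zero_mul] at this
              exact hb (pow_eq_zero_iff hp.out.ne_zero |>.mp this)
            rw [div_pow, h7, hLF b, mul_div_mul_left _ _ haF0]
          have h8 : L (w - n • b) = 0 := by
            rw [map_sub, map_nsmul, nsmul_eq_mul, ← hn, div_mul_cancel₀ _ hb, sub_self]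
          have h9 := hker _ h8 τ hτ
          have h10 : fam (phi0 P T) f (w - n • b) τ
              = fam (phi0 P T) f w τ - n * fam (phi0 P T) f b τ := by
            rw [fam, fam, fam, sub_mul, map_sub, nsmul_eq_mul, mul_assoc (n : k), phi_nat_mul]
          rw [h10, h5, h6, mul_zero, sub_zero] at h9
          exact hT h9
        exact ⟨fun x y => Subtype.ext ((key x).trans (key y).symm)⟩
      exact Finite.card_le_one_iff_subsingleton.mpr inferInstance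
    have h6 := Nat.mul_le_mul_left p hcard
    omega
  intro σ hσ
  exact phi0_nonDeg hP hT _ (fun b => hker b (hL0 b) σ hσ)

end

end SD

end Fermat.Agent.Flat
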