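import Fermat.Agent.Flat.FamK

/-!
# Flat cocycles in the irreducible case
-/

set_option autoImplicit false

open GaloisRep Fermat.Agent.CFT.Loc Fermat.Agent.CFT Matrix

namespace Fermat.Agent.Flat

local notation "M₂" => Matrix (Fin 2) (Fin 2)

/-- the data of the irreducible case -/
structure SD (p : ℕ) [hp : Fact p.Prime] {k : Type*} [Field k] [CharP k p] [Finite k]
    (r : GalLoc p →* M₂ k) (F : GalLoc p) (χ : inertiaLoc p →* kˣ) (β γ : k)
    (π ζ : PadicAlgCl p) : Prop where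
  hp2 : p ≠ 2
  form : SuperForm p r F χ β γ
  hπ : IsPi π
  hζ : IsPrimitiveRoot ζ p
  frob : ∀ x, resAct p F x = x ^ p
  fix : F π = π
  cyc : ∀ (τ : inertiaLoc p) (a : ℕ), (τ : GalLoc p) ζ = ζ ^ a →
    ((χ τ : kˣ) : k) ^ (p + 1) = a
  flat : FlatV r

variable {p : ℕ} [hp : Fact p.Prime] {k : Type*} [Field k] [CharP k p] [Finite k]
  {r : GalLoc p →* M₂ k} {F : GalLoc p} {χ : inertiaLoc p →* kˣ} {β γ : k} {π ζ : PadicAlgCl p}

theorem exists_zmod_val (hζ : IsPrimitiveRoot ζ p) (τ : GalLoc p) :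
    ∃ a : ZMod p, τ ζ = ζ ^ a.val := by
  obtain ⟨i, hi, h⟩ := hζ.eq_pow_of_pow_eq_one (ξ := τ ζ) (by rw [← map_pow, hζ.pow_eq_one, map_one])
  refine ⟨(i : ZMod p), ?_⟩
  rw [ZMod.val_natCast, Nat.mod_eq_of_lt hi, h]

/-- `χ` with values in `k₂` -/
noncomputable def chi2 (χ : inertiaLoc p →* kˣ) (h : ∀ τ, ((χ τ : kˣ) : k) ^ (p ^ 2) = χ τ) :
    inertiaLoc p →* (K2 p k)ˣ where
  toFun τ := Units.mk0 (⟨(χ τ : k), h τ⟩ : K2 p k) (fun h0 =>
    (χ τ).ne_zero (congrArg Subtype.val h0))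
  map_one' := by
    ext
    change ((χ 1 : kˣ) : k) = 1
    rw [map_one, Units.val_one]
  map_mul' σ τ := by
    ext
    change ((χ (σ * τ) : kˣ) : k) = (χ σ : k) * (χ τ : k)
    rw [map_mul, Units.val_mul]

namespace SD

variable (hS : SD p r F χ β γ π ζ)

include hS

theorem card_K2 : Nat.card (K2 p k) = p ^ 2 := by
  obtain ⟨τ₀, h⟩ := hS.form.ne
  exact Flat.card_K2 (hS.form.sq τ₀) h

theorem tameChar : TameChar π (chi2 χ hS.form.sq) := by
  refine ⟨hS.card_K2, fun τ a ha => ?_⟩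
  obtain ⟨b, hb⟩ := exists_zmod_val hS.hζ (τ : GalLoc p)
  have h1 := hS.hπ.psi_cyc hS.hζ τ.2 hb
  rw [ha] at h1
  have h2 := (CharP.natCast_eq_natCast (ResF p) p).mp h1
  ext
  change ((χ τ : kˣ) : k) ^ (p + 1) = ((a : K2 p k) : k)
  rw [hS.cyc τ b.val hb]
  have h3 := (CharP.natCast_eq_natCast k p).mpr h2
  rw [← h3]
  push_cast
  rfl

theorem exists_lam : ∃ lam : K2 p k →+* ResF p, ∀ τ : inertiaLoc p,
    lam (chi2 χ hS.form.sq τ : K2 p k) = psi π (τ : GalLoc p) := by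
  obtain ⟨O, hO⟩ := hS.flat
  let i : K2 p k →+ (Fin 2 → k) := AddMonoidHom.mk' (fun y => ![(y : k), 0]) (fun x y => by
    funext j
    fin_cases j <;> simp)
  have hi : Function.Injective i := by
    intro x y hxy
    exact Subtype.ext (congrFun hxy 0)
  have h1 := hO.sub (ρ' := mulRep (chi2 χ hS.form.sq)) i hi (fun τ y => by
    change ![((χ τ : kˣ) : k) * (y : k), 0] = r τ *ᵥ ![(y : k), 0]
    rw [hS.form.inertia]
    funext j
    fin_cases j <;> simp [Matrix.mulVec, dotProduct, Fin.sum_univ_two])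
  exact (line_max hS.hp2 hS.hπ hS.tameChar h1).2.2

theorem chi_one {σ : GalLoc p} (hσ : σ ∈ Gt π) : χ ⟨σ, hσ.1⟩ = 1 := by
  obtain ⟨lam, hlam⟩ := hS.exists_lam
  have h1 := hlam ⟨σ, hσ.1⟩
  rw [(hS.hπ.mem_Gt_iff.mp hσ).2] at h1
  have h2 : (chi2 χ hS.form.sq ⟨σ, hσ.1⟩ : K2 p k) = 1 := lam.injective (by rw [h1, map_one])
  ext
  exact congrArg Subtype.val h2

theorem r_one {σ : GalLoc p} (hσ : σ ∈ Gt π) : r σ = 1 := by
  have h1 := hS.form.inertia ⟨σ, hσ.1⟩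
  rw [hS.chi_one hσ, Units.val_one, one_pow] at h1
  rw [h1, Matrix.one_fin_two]

theorem bg_ne_zero : β ≠ 0 ∧ γ ≠ 0 := by
  have h1 : r F * r F⁻¹ = 1 := mul_inv_r F
  have h2 := congrArg Matrix.det h1
  rw [Matrix.det_mul, Matrix.det_one, hS.form.frob, Matrix.det_fin_two_of] at h2
  have h3 : (0 * 0 - β * γ : k) ≠ 0 := left_ne_zero_of_mul_eq_one h2
  constructor
  · rintro rfl; simp at h3
  · rintro rfl; simp at h3

section

variable {c : GalLoc p → M₂ k} (hc : IsCoc r c)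

include hc

theorem hom {σ τ : GalLoc p} (hσ : σ ∈ Gt π) : c (σ * τ) = c σ + c τ := by
  have h1 : r σ⁻¹ = 1 := hS.r_one (inv_mem hσ)
  rw [hc, hS.r_one hσ, h1, one_mul, mul_one]

theorem conj_inertia (τ : inertiaLoc p) {σ : GalLoc p} (hσ : σ ∈ Gt π) :
    c ((τ : GalLoc p)⁻¹ * σ * τ) 0 0 = c σ 0 0 ∧
    (χ τ : k) * c ((τ : GalLoc p)⁻¹ * σ * τ) 0 1 = (χ τ : k) ^ p * c σ 0 1 := by
  have h1 := hc.conj (τ : GalLoc p) (hS.r_one hσ)
  set X := c ((τ : GalLoc p)⁻¹ * σ * τ) with hX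
  have h2 : r τ * X = c σ * r τ := by
    rw [h1, ← Matrix.mul_assoc, ← Matrix.mul_assoc, mul_inv_r, one_mul]
  rw [hS.form.inertia] at h2
  have e00 := congrFun (congrFun h2 0) 0
  have e01 := congrFun (congrFun h2 0) 1
  simp only [Matrix.mul_apply, Fin.sum_univ_two, Matrix.of_apply, Matrix.cons_val', Matrix.cons_val_zero,
    Matrix.cons_val_one, Matrix.cons_val_fin_one, zero_mul, mul_zero, add_zero, zero_add] at e00 e01
  constructor
  · rw [mul_comm (c σ 0 0)] at e00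
    exact mul_left_cancel₀ (χ τ).ne_zero e00
  · rw [e01, mul_comm]

theorem conj_frob (htr : ∀ g, (c g).trace = 0) {σ : GalLoc p} (hσ : σ ∈ Gt π) :
    c (F⁻¹ * σ * F) 0 0 = - c σ 0 0 ∧ γ * c (F⁻¹ * σ * F) 0 1 = β * c σ 1 0 := by
  have h1 := hc.conj F (hS.r_one hσ)
  set X := c (F⁻¹ * σ * F) with hX
  have h2 : r F * X = c σ * r F := by
    rw [h1, ← Matrix.mul_assoc, ← Matrix.mul_assoc, mul_inv_r, one_mul]
  rw [hS.form.frob] at h2
  have e10 := congrFun (congrFun h2 1) 0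
  have e11 := congrFun (congrFun h2 1) 1
  simp only [Matrix.mul_apply, Fin.sum_univ_two, Matrix.of_apply, Matrix.cons_val', Matrix.cons_val_zero,
    Matrix.cons_val_one, Matrix.cons_val_fin_one, zero_mul, mul_zero, add_zero, zero_add] at e10 e11
  have h3 := htr σ
  rw [Matrix.trace_fin_two] at h3
  constructor
  · have : γ * X 0 0 = γ * (- c σ 0 0) := by rw [e10]; linear_combination γ * h3
    exact mul_left_cancel₀ hS.bg_ne_zero.2 this
  · rw [e11, mul_comm]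

theorem conj_frob2 {σ : GalLoc p} (hσ : σ ∈ Gt π) : c ((F * F)⁻¹ * σ * (F * F)) = c σ := by
  have h1 := hc.conj (F * F) (hS.r_one hσ)
  have h2 : r (F * F) = (β * γ) • (1 : M₂ k) := by
    rw [map_mul, hS.form.frob]
    ext i j
    fin_cases i <;> fin_cases j <;> simp [Matrix.mul_apply, Fin.sum_univ_two, mul_comm]
  have h3 : r (F * F)⁻¹ * r (F * F) = 1 := inv_mul_r _
  rw [h1, h2, mul_smul_comm, mul_one]
  rw [h2, mul_smul_comm, mul_one] at h3
  rw [← smul_mul_assoc, h3, one_mul]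

theorem one_mem_conn : ∃ τ : inertiaLoc p, ∀ (x : (Fin 2 → k) × (Fin 2 → k)), ∃ y,
    epsRep r c hc τ y - y = x := by
  obtain ⟨τ, hτ⟩ := hS.form.ne
  have hχ1 : (χ τ : k) - 1 ≠ 0 := by
    rw [sub_ne_zero]
    intro h1
    rw [h1, one_pow] at hτ
    exact hτ rfl
  have hχ2 : (χ τ : k) ^ p - 1 ≠ 0 := by
    rw [sub_ne_zero]
    intro h1
    have h2 := hS.form.sq τ
    rw [sq, pow_mul, h1, one_pow] at h2
    exact hτ (by rw [h1, h2])
  have key : ∀ u : Fin 2 → k, ∃ v : Fin 2 → k, r τ *ᵥ v - v = u := by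
    intro u
    refine ⟨![u 0 / ((χ τ : k) - 1), u 1 / ((χ τ : k) ^ p - 1)], ?_⟩
    rw [hS.form.inertia]
    funext j
    fin_cases j
    · simp
      field_simp
    · simp
      field_simp
  refine ⟨τ, fun x => ?_⟩
  obtain ⟨v, hv⟩ := key x.1
  obtain ⟨w, hw⟩ := key (x.2 - c τ *ᵥ (r τ *ᵥ v))
  refine ⟨(v, w), ?_⟩
  refine Prod.ext ?_ ?_
  · exact hv
  · change r τ *ᵥ w + c τ *ᵥ (r τ *ᵥ v) - w = x.2
    have : r τ *ᵥ w + c τ *ᵥ (r τ *ᵥ v) - w = (r τ *ᵥ w - w) + c τ *ᵥ (r τ *ᵥ v) := by abel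
    rw [this, hw]; abel

/-- Step B for a column of the cocycle -/
theorem step (hfl : FlatC r c hc) (j : Fin 2) (P : k →ₗ[K2 p k] K2 p k)
    (hP : ∀ y : K2 p k, P (y : k) = y) (T : K2 p k →+ ZMod p) (b : k) {i : ℕ}
    {y : PadicAlgCl p} (hy : Kum ζ π (fun σ => T (P (b * c σ 0 j))) i y)
    (hyn : ‖y - 1‖ ^ p = ‖π‖ ^ i)
    (hi : 1 ≤ i) (hlt : i < p * (p + 1)) (hdvd : ¬ p ∣ i) {σ : GalLoc p} (hσ : σ ∈ Gt π)
    (hTσ : T (P (b * c σ 0 j)) ≠ 0) :
    1 + p * (p + 1) - i ≤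
      p * Nat.card {h : K2 p k // (∃ τ ∈ Gt π, P (b * c τ 0 j) = h) ∧ T h = 0} := by
  obtain ⟨O, hO⟩ := hfl
  let ρ := (epsRep r c hc).comp (inertiaLoc p).subtype
  let K : AddSubgroup ((Fin 2 → k) × (Fin 2 → k)) :=
    { carrier := {x | x.1 = 0 ∧ P (x.2 0) = 0}
      add_mem' := fun {a b} ha hb => ⟨by rw [Prod.fst_add, ha.1, hb.1, add_zero],
        by rw [Prod.snd_add, Pi.add_apply, map_add, ha.2, hb.2, add_zero]⟩
      zero_mem' := ⟨rfl, map_zero P⟩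
      neg_mem' := fun {a} ha => ⟨by rw [Prod.fst_neg, ha.1, neg_zero],
        by rw [Prod.snd_neg, Pi.neg_apply, map_neg, ha.2, neg_zero]⟩ }
  have hmemK : ∀ x, x ∈ K ↔ x.1 = 0 ∧ P (x.2 0) = 0 := fun _ => Iff.rfl
  have hK : ∀ g, ∀ x ∈ K, ρ g x ∈ K := by
    rintro τ ⟨v, w⟩ ⟨h1, h2⟩
    change v = 0 at h1
    subst h1
    refine ⟨?_, ?_⟩
    · change r τ *ᵥ (0 : Fin 2 → k) = 0
      exact Matrix.mulVec_zero _
    change P ((r τ *ᵥ w + c τ *ᵥ (r τ *ᵥ (0 : Fin 2 → k))) 0) = 0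
    rw [Matrix.mulVec_zero, Matrix.mulVec_zero, add_zero, hS.form.inertia]
    have h3 : ((!![(χ τ : k), 0; 0, (χ τ : k) ^ p] : M₂ k) *ᵥ w) 0 =
        (chi2 χ hS.form.sq τ : K2 p k) • w 0 := by
      simp [Matrix.mulVec, dotProduct, Fin.sum_univ_two]
      rfl
    rw [h3, map_smul, h2, smul_zero]
  have hq := hO.quot (ρ'' := quotRep ρ K hK) (QuotientAddGroup.mk' K)
    (QuotientAddGroup.mk'_surjective K) (fun _ _ => rfl)
  let ι : K2 p k →+ ((Fin 2 → k) × (Fin 2 → k)) ⧸ K := AddMonoidHom.mk'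
    (fun y => QuotientAddGroup.mk' K ((0 : Fin 2 → k), (Pi.single 0 (y : k) : Fin 2 → k)))
    (fun x y => by
      rw [← map_add]
      congr 1
      refine Prod.ext (add_zero _).symm ?_
      change (Pi.single 0 ((x + y : K2 p k) : k) : Fin 2 → k) =
        Pi.single 0 (x : k) + Pi.single 0 (y : k)
      rw [← Pi.single_add]
      rfl)
  have hι : Function.Injective ι := by
    rw [injective_iff_map_eq_zero]
    intro y hy
    have h1 := (QuotientAddGroup.eq_zero_iff _).mp hy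
    have h2 : P ((Pi.single 0 (y : k) : Fin 2 → k) 0) = 0 := h1.2
    rwa [Pi.single_eq_same, hP] at h2
  obtain ⟨τ₁, hτ₁⟩ := hS.one_mem_conn hc
  refine stepB_line hS.hp2 hS.hπ hS.hζ hS.tameChar hq ι hι (fun τ y => ?_)
    (n := QuotientAddGroup.mk' K (Pi.single j b, 0)) ?_ (f := fun σ => P (b * c σ 0 j))
    (fun σ hσ => ?_) T hy hyn hi hlt hdvd hσ hTσ
  · change QuotientAddGroup.mk' K (0, Pi.single 0 (((chi2 χ hS.form.sq τ : K2 p k) * y : K2 p k) : k)) =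
      QuotientAddGroup.mk' K (r τ *ᵥ (0 : Fin 2 → k), r τ *ᵥ (Pi.single 0 (y : k)) +
        c τ *ᵥ (r τ *ᵥ (0 : Fin 2 → k)))
    rw [Matrix.mulVec_zero, Matrix.mulVec_zero, add_zero, hS.form.inertia]
    congr 2
    funext l
    fin_cases l
    · simp [Matrix.mulVec, dotProduct, Fin.sum_univ_two]
      left
      rfl
    · simp [Matrix.mulVec, dotProduct, Fin.sum_univ_two]
  · obtain ⟨m, hm⟩ := hτ₁ (Pi.single j b, 0)
    have h1 := sub_mem_connPart hq τ₁ (QuotientAddGroup.mk' K m)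
    rw [← hm, map_sub]
    exact h1
  · change QuotientAddGroup.mk' K (r σ *ᵥ (Pi.single j b), r σ *ᵥ (0 : Fin 2 → k) +
        c σ *ᵥ (r σ *ᵥ (Pi.single j b))) = QuotientAddGroup.mk' K (Pi.single j b, 0) +
        QuotientAddGroup.mk' K (0, Pi.single 0 ((P (b * c σ 0 j) : K2 p k) : k))
    rw [hS.r_one hσ, Matrix.one_mulVec, Matrix.one_mulVec, zero_add, ← map_add]
    apply (QuotientAddGroup.eq).mpr
    rw [hmemK]
    constructor
    · simp
    · have h1 : (-(Pi.single j b, c σ *ᵥ Pi.single j b) + ((Pi.single j b, 0) +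
          (0, Pi.single 0 ((P (b * c σ 0 j) : K2 p k) : k))) :
          (Fin 2 → k) × (Fin 2 → k)).2 0 = -(b * c σ 0 j) + ((P (b * c σ 0 j) : K2 p k) : k) := by
        simp [Matrix.mulVec_single]
      rw [h1, map_add, map_neg, hP, neg_add_cancel]

end

end SD

end Fermat.Agent.Flat
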