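import Fermat.Agent.Flat.Lead

/-!
# The tame characters of level 2
-/

set_option autoImplicit false

open GaloisRep Fermat.Agent.CFT.Loc

namespace Fermat.Agent.Flat

variable {p : ℕ} [hp : Fact p.Prime]

theorem rd_nat_ne_zero {n : ℕ} (hn : n.Coprime p) : (n : ResF p) ≠ 0 := by
  intro h
  have := (CharP.cast_eq_zero_iff (ResF p) p n).mp h
  exact hp.out.one_lt.ne' (Nat.Coprime.eq_one_of_dvd (Nat.Coprime.symm hn) this)

/-- Roots of unity of order prime to `p` inject under reduction. -/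
theorem root_eq_one {n : ℕ} (hn : n.Coprime p) {ζ : PadicAlgCl p} (hζ : ζ ^ n = 1)
    (h : rd p ζ = 1) : ζ = 1 := by
  by_contra hne
  have hn0 : n ≠ 0 := by
    rintro rfl
    exact hp.out.one_lt.ne' (by simpa using hn)
  have hnorm : ‖ζ‖ = 1 := by
    have h1 : ‖ζ‖ ^ n = 1 := by rw [← norm_pow, hζ, norm_one]
    exact (pow_eq_one_iff_of_nonneg (norm_nonneg _) hn0).mp h1
  have h1 : (∑ i ∈ Finset.range n, ζ ^ i) * (ζ - 1) = 0 := by
    rw [geom_sum_mul, hζ, sub_self]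
  have h2 : ∑ i ∈ Finset.range n, ζ ^ i = 0 :=
    (mul_eq_zero.mp h1).resolve_right (sub_ne_zero.mpr hne)
  have h3 : rd p (∑ i ∈ Finset.range n, ζ ^ i) = n := by
    rw [rd_sum _ _ (fun i _ => norm_pow_le' hnorm.le i)]
    rw [Finset.sum_congr rfl (fun i _ => by rw [rd_pow hnorm.le, h, one_pow] :
      ∀ i ∈ Finset.range n, rd p (ζ ^ i) = 1)]
    simp
  rw [h2, rd_zero] at h3
  exact rd_nat_ne_zero hn h3.symm

theorem sq_sub_one_coprime : (p ^ 2 - 1).Coprime p := by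
  have h1 : 1 ≤ p ^ 2 := Nat.one_le_pow _ _ hp.out.pos
  have : Nat.Coprime (p ^ 2 - 1) (p ^ 2) := by
    rw [Nat.coprime_comm]
    have := Nat.coprime_self_sub_right (n := p ^ 2) (m := 1) h1
    rw [this]; exact Nat.coprime_one_right _
  exact Nat.Coprime.coprime_dvd_right (dvd_pow_self p two_ne_zero) this

theorem two_lt_sq_sub_one (hp3 : p ≠ 2) : 8 ≤ p ^ 2 - 1 := by
  have : 3 ≤ p := by
    have := hp.out.two_le
    omega
  have : 9 ≤ p ^ 2 := by nlinarith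
  omega

/-- norms along finite quotients of inertia -/
theorem norm_pow_card {C : Type*} [Group C] [Finite C] (f : inertiaLoc p →* C)
    {x : PadicAlgCl p} (hx0 : x ≠ 0) (hx : ∀ σ : inertiaLoc p, f σ = 1 → (σ : GalLoc p) x = x) :
    ∃ n : ℤ, ‖x‖ ^ (Nat.card C) = (p : ℝ) ^ n := by
  classical
  haveI := Fintype.ofFinite f.range
  choose s hs using fun h : f.range => h.2
  have hdiv : Nat.card f.range ∣ Nat.card C := Subgroup.card_subgroup_dvd_card _
  set N : PadicAlgCl p := ∏ h : f.range, ((s h : inertiaLoc p) : GalLoc p) x with hN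
  have key : ∀ (σ τ : inertiaLoc p), f σ = f τ → (σ : GalLoc p) x = (τ : GalLoc p) x := by
    intro σ τ hστ
    have h1 : f (τ⁻¹ * σ) = 1 := by rw [map_mul, map_inv, hστ, inv_mul_cancel]
    have h2 := hx _ h1
    have h3 : (σ : GalLoc p) x = (τ : GalLoc p) (((τ⁻¹ * σ : inertiaLoc p) : GalLoc p) x) := by
      rw [← AlgEquiv.mul_apply, ← Subgroup.coe_mul, mul_inv_cancel_left]
    rw [h3, h2]
  have hNfix : ∀ σ ∈ inertiaLoc p, σ N = N := by
    intro σ hσ
    rw [hN, map_prod]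
    let e : f.range ≃ f.range := Equiv.mulLeft (⟨f ⟨σ, hσ⟩, ⟨_, rfl⟩⟩ : f.range)
    rw [← Equiv.prod_comp e (fun h => ((s h : inertiaLoc p) : GalLoc p) x)]
    refine Finset.prod_congr rfl fun h _ => ?_
    have h1 := key (⟨σ, hσ⟩ * s h) (s (e h)) (by
      rw [map_mul, hs, hs]; rfl)
    exact h1
  have hN0 : N ≠ 0 := by
    rw [hN, Finset.prod_ne_zero_iff]
    intro h _ h0
    exact hx0 ((map_eq_zero_iff _ (AlgEquiv.injective _)).mp h0)
  obtain ⟨n, hn⟩ := exists_norm_eq_zpow hN0 hNfix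
  have hnorm : ‖N‖ = ‖x‖ ^ (Nat.card f.range) := by
    rw [hN, norm_prod, Finset.prod_congr rfl (fun h _ => norm_apply _ x), Finset.prod_const,
      Finset.card_univ, Nat.card_eq_fintype_card]
  obtain ⟨m, hm⟩ := hdiv
  refine ⟨n * m, ?_⟩
  rw [hm, pow_mul, ← hnorm, hn, zpow_mul]
  norm_cast

/-- A uniformizer of the tame extension of degree `p² - 1`. -/
structure IsPi (π : PadicAlgCl p) : Prop where
  pow_eq : π ^ (p ^ 2 - 1) = p

theorem exists_isPi : ∃ π : PadicAlgCl p, IsPi π := by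
  have : p ^ 2 - 1 ≠ 0 := by
    have := hp.out.two_le
    have : 4 ≤ p ^ 2 := by nlinarith
    omega
  obtain ⟨π, hπ⟩ := IsAlgClosed.exists_pow_nat_eq (p : PadicAlgCl p) (Nat.pos_of_ne_zero this)
  exact ⟨π, ⟨hπ⟩⟩

namespace IsPi

variable {π : PadicAlgCl p} (hπ : IsPi π)

include hπ

theorem ne_zero : π ≠ 0 := by
  rintro rfl
  have h := hπ.pow_eq
  have h0 : p ^ 2 - 1 ≠ 0 := by
    have := hp.out.two_le
    have : 4 ≤ p ^ 2 := by nlinarith
    omega
  rw [zero_pow h0] at h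
  exact hp.out.ne_zero (by exact_mod_cast h.symm)

theorem norm_pow : ‖π‖ ^ (p ^ 2 - 1) = (p : ℝ)⁻¹ := by
  rw [← _root_.norm_pow, hπ.pow_eq, norm_natCast_p]

theorem norm_pos : 0 < ‖π‖ := norm_pos_iff.mpr hπ.ne_zero

theorem norm_lt_one : ‖π‖ < 1 := by
  by_contra hcon
  push Not at hcon
  have h1 := one_le_pow₀ hcon (n := p ^ 2 - 1)
  rw [hπ.norm_pow] at h1
  have h2 : (p : ℝ)⁻¹ < 1 := inv_lt_one_of_one_lt₀ one_lt_p
  linarith

/-- `σ π / π` -/
theorem root (σ : GalLoc p) : (σ π / π) ^ (p ^ 2 - 1) = 1 := by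
  rw [div_pow, ← map_pow, hπ.pow_eq, map_natCast]
  exact div_self (by exact_mod_cast hp.out.ne_zero)

theorem norm_root (σ : GalLoc p) : ‖σ π / π‖ = 1 := by
  rw [norm_div, norm_apply]
  exact div_self hπ.norm_pos.ne'

end IsPi

/-- the tame character -/
noncomputable def psi (π : PadicAlgCl p) (σ : GalLoc p) : ResF p := rd p (σ π / π)

namespace IsPi

variable {π : PadicAlgCl p} (hπ : IsPi π)

include hπ

theorem psi_mul (σ τ : GalLoc p) : psi π (σ * τ) = resAct p σ (psi π τ) * psi π σ := by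
  rw [psi, psi, psi, ← rd_gal σ (hπ.norm_root τ).le,
    ← rd_mul (by rw [norm_apply]; exact (hπ.norm_root τ).le) (hπ.norm_root σ).le]
  congr 1
  have h1 : σ π ≠ 0 := fun h => hπ.ne_zero ((map_eq_zero_iff _ (AlgEquiv.injective _)).mp h)
  rw [map_div₀, AlgEquiv.mul_apply]
  field_simp [hπ.ne_zero]

theorem psi_mul_inertia {σ : GalLoc p} (hσ : σ ∈ inertiaLoc p) (τ : GalLoc p) :
    psi π (σ * τ) = psi π σ * psi π τ := by
  rw [hπ.psi_mul, mem_inertiaLoc_iff.mp hσ, mul_comm]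

theorem psi_ne_zero (σ : GalLoc p) : psi π σ ≠ 0 := rd_ne_zero_of_norm_eq_one (hπ.norm_root σ)

theorem psi_pow (σ : GalLoc p) : psi π σ ^ (p ^ 2 - 1) = 1 := by
  rw [psi, ← rd_pow (hπ.norm_root σ).le, hπ.root, rd_one]

theorem psi_one : psi π (1 : GalLoc p) = 1 := by
  rw [psi, AlgEquiv.one_apply, div_self hπ.ne_zero, rd_one]

theorem apply_eq_of_psi {σ : GalLoc p} (h : psi π σ = 1) : σ π = π := by
  have := root_eq_one sq_sub_one_coprime (hπ.root σ) h
  rwa [div_eq_one_iff_eq hπ.ne_zero] at this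

/-- `ψ` on inertia as a character -/
noncomputable def psiI : inertiaLoc p →* (ResF p)ˣ where
  toFun σ := Units.mk0 (psi π (σ : GalLoc p)) (hπ.psi_ne_zero _)
  map_one' := by ext; exact hπ.psi_one
  map_mul' σ τ := by ext; exact hπ.psi_mul_inertia σ.2 _

theorem psiI_apply (σ : inertiaLoc p) : ((hπ.psiI σ : (ResF p)ˣ) : ResF p) = psi π σ := rfl

theorem zpow_norm_eq {x : PadicAlgCl p} {n : ℤ} (h : ‖x‖ ^ (p ^ 2 - 1) = (p : ℝ) ^ n) :
    ‖x‖ = ‖π‖ ^ (-n) := by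
  have h0 : p ^ 2 - 1 ≠ 0 := by
    have := hp.out.two_le
    have : 4 ≤ p ^ 2 := by nlinarith
    omega
  have h1 : (‖π‖ ^ (-n)) ^ (p ^ 2 - 1) = (p : ℝ) ^ n := by
    rw [← zpow_natCast, ← zpow_mul, mul_comm, zpow_mul, zpow_natCast, hπ.norm_pow]
    rw [inv_zpow, zpow_neg, inv_inv]
  exact (pow_left_inj₀ (norm_nonneg _) (zpow_nonneg hπ.norm_pos.le _) h0).mp (h.trans h1.symm)

/-- there is an element of inertia on which `ψ` has order exactly `p² - 1` -/
theorem exists_generator : ∃ σ₀ : inertiaLoc p, orderOf (hπ.psiI σ₀) = p ^ 2 - 1 ∧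
    ∀ τ : inertiaLoc p, ∃ n : ℕ, psi π (τ : GalLoc p) = psi π (σ₀ : GalLoc p) ^ n := by
  classical
  have h0 : p ^ 2 - 1 ≠ 0 := by
    have := hp.out.two_le
    have : 4 ≤ p ^ 2 := by nlinarith
    omega
  haveI : NeZero (p ^ 2 - 1) := ⟨h0⟩
  have hsub : hπ.psiI.range ≤ rootsOfUnity (p ^ 2 - 1) (ResF p) := by
    rintro _ ⟨σ, rfl⟩
    rw [mem_rootsOfUnity]
    ext
    rw [Units.val_pow_eq_pow_val, psiI_apply]
    exact hπ.psi_pow _
  haveI : Finite (rootsOfUnity (p ^ 2 - 1) (ResF p)) := inferInstance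
  haveI : Finite hπ.psiI.range := Finite.of_injective _ (Subgroup.inclusion_injective hsub)
  obtain ⟨g, hg⟩ := IsCyclic.exists_generator (α := hπ.psiI.range)
  obtain ⟨σ₀, hσ₀⟩ := g.2
  have hgen : ∀ τ : inertiaLoc p, ∃ n : ℕ, hπ.psiI τ = hπ.psiI σ₀ ^ n := by
    intro τ
    have := hg ⟨hπ.psiI τ, ⟨τ, rfl⟩⟩
    rw [← mem_powers_iff_mem_zpowers] at this
    obtain ⟨n, hn⟩ := this
    refine ⟨n, ?_⟩
    have h1 := congrArg Subtype.val hn
    rw [hσ₀]; exact h1.symm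
  refine ⟨σ₀, ?_, fun τ => ?_⟩
  · set d := orderOf (hπ.psiI σ₀) with hd
    have hdvd : d ∣ p ^ 2 - 1 := by
      apply orderOf_dvd_of_pow_eq_one
      ext
      rw [Units.val_pow_eq_pow_val, psiI_apply]
      exact hπ.psi_pow _
    have hfix : ∀ σ ∈ inertiaLoc p, σ (π ^ d) = π ^ d := by
      intro σ hσ
      obtain ⟨n, hn⟩ := hgen ⟨σ, hσ⟩
      have h1 : psi π σ ^ d = 1 := by
        have : (hπ.psiI ⟨σ, hσ⟩) ^ d = 1 := by
          rw [hn, ← pow_mul, mul_comm, pow_mul, pow_orderOf_eq_one, one_pow]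
        have := congrArg Units.val this
        rw [Units.val_pow_eq_pow_val, psiI_apply, Units.val_one] at this
        exact this
      have h2 : (σ π / π) ^ d = 1 := by
        refine root_eq_one sq_sub_one_coprime (n := p ^ 2 - 1) ?_ ?_
        · rw [← pow_mul, mul_comm, pow_mul, hπ.root, one_pow]
        · rw [rd_pow (hπ.norm_root σ).le]; exact h1
      rw [div_pow, div_eq_one_iff_eq (pow_ne_zero _ hπ.ne_zero)] at h2
      rw [map_pow]; exact h2
    obtain ⟨n, hn⟩ := exists_norm_eq_zpow (pow_ne_zero d hπ.ne_zero) hfix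
    rw [_root_.norm_pow] at hn
    -- r ^ d = p ^ n = r ^ (-(p^2-1) n)
    have h3 : ‖π‖ ^ (d : ℤ) = ‖π‖ ^ (-(((p ^ 2 - 1 : ℕ) : ℤ) * n)) := by
      rw [zpow_natCast, hn, zpow_neg, zpow_mul, zpow_natCast, hπ.norm_pow, inv_zpow, inv_inv]
    have h4 := zpow_right_injective₀ hπ.norm_pos hπ.norm_lt_one.ne h3
    have h5 : ((p ^ 2 - 1 : ℕ) : ℤ) ∣ (d : ℤ) := ⟨-n, by rw [h4]; ring⟩
    exact Nat.dvd_antisymm hdvd (by exact_mod_cast h5)
  · obtain ⟨n, hn⟩ := hgen τ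
    refine ⟨n, ?_⟩
    have := congrArg Units.val hn
    rw [Units.val_pow_eq_pow_val] at this
    exact this

end IsPi

end Fermat.Agent.Flat
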