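import Fermat.Agent.Flat.StepB

/-!
# Frobenius elements, leading characters, lines over finite fields
-/

set_option autoImplicit false

open GaloisRep Fermat.Agent.CFT.Loc Fermat.Agent.CFT

namespace Fermat.Agent.Flat

variable {p : ℕ} [hp : Fact p.Prime]

/-! ### generation -/

theorem exists_decomp {F : GalLoc p} (hF : ∀ r, resAct p F r = r ^ p) {H : Subgroup (GalLoc p)}
    (hH : H ∈ locLevels p) (g : GalLoc p) :
    ∃ j : ℕ, ∃ t ∈ inertiaLoc p, ∃ n ∈ H, g = F ^ j * t * n := by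
  obtain ⟨N, hN, hNH, hNn⟩ := Levels.exists_normal hH
  obtain ⟨E, hE, hEN⟩ := (mem_locLevels_iff p).mp hN
  obtain ⟨j, hj⟩ := exists_frobenius_pow p (resAct p g) (n := resDeg p E) (resDeg_ne_zero p E)
  obtain ⟨h, hh, hh'⟩ := exists_fixing_of_resAct (K := E) ((F ^ j)⁻¹ * g) (by
    intro r hr
    rw [resAct_mul_apply, hj r ((mem_resSub_iff p E r).1 hr), ← resAct_pow_apply hF j r,
      resAct_inv_apply])
  have ht : h⁻¹ * ((F ^ j)⁻¹ * g) ∈ inertiaLoc p := inv_mul_mem_inertiaLoc_iff.2 hh'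
  set t := h⁻¹ * ((F ^ j)⁻¹ * g) with htdef
  refine ⟨j, t, ht, t⁻¹ * h * t, ?_, ?_⟩
  · have := hNn.conj_mem h (hEN hh) t⁻¹
    rw [inv_inv] at this
    exact hNH this
  · rw [htdef]; group

/-- every root of unity of order dividing `p² - 1` is a value of `ψ` -/
theorem IsPi.psi_surj {π : PadicAlgCl p} (hπ : IsPi π) {x : ResF p} (hx : x ^ (p ^ 2 - 1) = 1) :
    ∃ τ ∈ inertiaLoc p, psi π τ = x := by
  classical
  have h0 : p ^ 2 - 1 ≠ 0 := by
    have := hp.out.two_le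
    have : 4 ≤ p ^ 2 := by nlinarith
    omega
  haveI : NeZero (p ^ 2 - 1) := ⟨h0⟩
  obtain ⟨σ₀, hord, -⟩ := hπ.exists_generator
  have hx0 : x ≠ 0 := by
    rintro rfl
    rw [zero_pow h0] at hx
    exact zero_ne_one hx
  let u : (ResF p)ˣ := Units.mk0 x hx0
  have hu : u ∈ rootsOfUnity (p ^ 2 - 1) (ResF p) := by
    rw [mem_rootsOfUnity]
    ext
    rw [Units.val_pow_eq_pow_val]
    exact hx
  have hsub : Subgroup.zpowers (hπ.psiI σ₀) ≤ rootsOfUnity (p ^ 2 - 1) (ResF p) := by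
    rw [Subgroup.zpowers_le, mem_rootsOfUnity]
    ext
    rw [Units.val_pow_eq_pow_val, IsPi.psiI_apply]
    exact hπ.psi_pow _
  have heq : Subgroup.zpowers (hπ.psiI σ₀) = rootsOfUnity (p ^ 2 - 1) (ResF p) := by
    apply Subgroup.eq_of_le_of_card_ge hsub
    rw [Nat.card_zpowers, hord]
    exact card_rootsOfUnity _ _
  rw [← heq] at hu
  obtain ⟨n, hn⟩ := hu
  refine ⟨((σ₀ ^ n : inertiaLoc p) : GalLoc p), (σ₀ ^ n).2, ?_⟩
  have h1 := congrArg Units.val hn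
  change ((hπ.psiI σ₀ ^ n : (ResF p)ˣ) : ResF p) = x at h1
  rw [← map_zpow, IsPi.psiI_apply] at h1
  exact h1

/-- a Frobenius element fixing `π` -/
theorem IsPi.exists_frob {π : PadicAlgCl p} (hπ : IsPi π) :
    ∃ F : GalLoc p, (∀ r, resAct p F r = r ^ p) ∧ F π = π := by
  obtain ⟨F₀, hF₀⟩ := exists_frobenius_loc' (l := p)
  have h1 := hπ.psi_pow F₀
  -- choose `x` with `x ^ p * psi F₀ = 1`
  set y := psi π F₀ with hy
  have hy0 : y ≠ 0 := hπ.psi_ne_zero F₀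
  have hp2 : p * p = (p ^ 2 - 1) + 1 := by
    have := hp.out.two_le
    have : 4 ≤ p ^ 2 := by nlinarith
    rw [← sq]; omega
  have h2 : ((y⁻¹) ^ p) ^ (p ^ 2 - 1) = 1 := by
    rw [← pow_mul, mul_comm, pow_mul, inv_pow, h1, inv_one, one_pow]
  obtain ⟨τ, hτ, hτy⟩ := hπ.psi_surj h2
  have h3 : psi π (F₀ * τ) = 1 := by
    rw [hπ.psi_mul, hF₀, hτy, ← pow_mul, hp2, pow_succ, inv_pow, h1, inv_one, one_mul, ← hy]
    exact inv_mul_cancel₀ hy0
  refine ⟨F₀ * τ, fun r => ?_, hπ.apply_eq_of_psi h3⟩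
  rw [resAct_mul_apply, mem_inertiaLoc_iff.mp hτ, hF₀]

/-! ### leading characters -/

/-- `τ z / z` modulo the maximal ideal -/
noncomputable def chz (z : PadicAlgCl p) (τ : GalLoc p) : ResF p := rd p (τ z / z)

section chz

variable {z : PadicAlgCl p} (hz : z ≠ 0)

include hz

theorem chz_norm (τ : GalLoc p) : ‖τ z / z‖ = 1 := by
  rw [norm_div, norm_apply]
  exact div_self (norm_pos_iff.mpr hz).ne'

theorem chz_ne_zero (τ : GalLoc p) : chz z τ ≠ 0 := rd_ne_zero_of_norm_eq_one (chz_norm hz τ)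

theorem chz_mul (σ τ : GalLoc p) : chz z (σ * τ) = resAct p σ (chz z τ) * chz z σ := by
  rw [chz, chz, chz, ← rd_gal σ (chz_norm hz τ).le,
    ← rd_mul (by rw [norm_apply]; exact (chz_norm hz τ).le) (chz_norm hz σ).le]
  congr 1
  have h1 : σ z ≠ 0 := fun h => hz ((map_eq_zero_iff _ (AlgEquiv.injective _)).mp h)
  rw [map_div₀, AlgEquiv.mul_apply]
  field_simp

theorem chz_mul_inertia {σ : GalLoc p} (hσ : σ ∈ inertiaLoc p) (τ : GalLoc p) :
    chz z (σ * τ) = chz z σ * chz z τ := by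
  rw [chz_mul hz, mem_inertiaLoc_iff.mp hσ, mul_comm]

theorem chz_one : chz z (1 : GalLoc p) = 1 := by
  rw [chz, AlgEquiv.one_apply, div_self hz, rd_one]

theorem chz_pow {σ : GalLoc p} (hσ : σ ∈ inertiaLoc p) (n : ℕ) :
    chz z (σ ^ n) = chz z σ ^ n := by
  induction n with
  | zero => rw [pow_zero, pow_zero, chz_one hz]
  | succ n ih => rw [pow_succ, chz_mul_inertia hz (pow_mem hσ n), ih, pow_succ]

theorem chz_unit {v : PadicAlgCl p} (hv : ‖v‖ = ‖z‖) {τ : GalLoc p} (hτ : τ ∈ inertiaLoc p) :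
    chz v τ = chz z τ := by
  have hv0 : v ≠ 0 := norm_pos_iff.mp (by rw [hv]; exact norm_pos_iff.mpr hz)
  have h1 : ‖v / z‖ = 1 := by
    rw [norm_div, hv]; exact div_self (norm_pos_iff.mpr hz).ne'
  have hτz : τ z ≠ 0 := fun h => hz ((map_eq_zero_iff _ (AlgEquiv.injective _)).mp h)
  have h2 : (τ v / v) * (v / z) = τ (v / z) * (τ z / z) := by
    rw [map_div₀]; field_simp
  have h3 := congrArg (rd p) h2
  rw [rd_mul (chz_norm hv0 τ).le h1.le, rd_mul (by rw [norm_apply]; exact h1.le)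
    (chz_norm hz τ).le, rd_inertia hτ h1.le, mul_comm] at h3
  exact mul_left_cancel₀ (rd_ne_zero_of_norm_eq_one h1) h3

theorem chz_conj (g : GalLoc p) {τ : GalLoc p} (hτ : τ ∈ inertiaLoc p) :
    chz z (g * τ * g⁻¹) = resAct p g (chz z τ) := by
  -- `g τ g⁻¹ z / z = g (τ (g⁻¹ z) / g⁻¹ z)`
  have hgz : g⁻¹ z ≠ 0 := fun h => hz ((map_eq_zero_iff _ (AlgEquiv.injective _)).mp h)
  have h1 : (g * τ * g⁻¹) z / z = g (τ (g⁻¹ z) / g⁻¹ z) := by
    rw [map_div₀, AlgEquiv.mul_apply, AlgEquiv.mul_apply]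
    congr 1
    rw [← AlgEquiv.mul_apply, mul_inv_cancel]; rfl
  have h2 : chz (g⁻¹ z) τ = chz z τ := chz_unit hz (norm_apply _ _) hτ
  rw [chz, h1, rd_gal g (chz_norm hgz τ).le]
  rw [chz] at h2
  rw [h2]

end chz

theorem chz_zeta {ζ : PadicAlgCl p} (hζ : IsPrimitiveRoot ζ p) {τ : GalLoc p} {a : ℕ}
    (ha : τ ζ = ζ ^ a) : chz (ζ - 1) τ = (a : ResF p) := by
  have h0 : ζ - 1 ≠ 0 := sub_ne_zero.mpr (hζ.ne_one hp.out.one_lt)
  obtain ⟨hζn, hζr⟩ := rd_root_p hζ.pow_eq_one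
  have h1 : τ (ζ - 1) / (ζ - 1) = ∑ i ∈ Finset.range a, ζ ^ i := by
    rw [map_sub, map_one, ha, ← geom_sum_mul ζ a]
    exact mul_div_cancel_right₀ _ h0
  rw [chz, h1, rd_sum _ _ (fun i _ => norm_pow_le' hζn.le i)]
  rw [Finset.sum_congr rfl (fun i _ => by rw [rd_pow hζn.le, hζr, one_pow] :
    ∀ i ∈ Finset.range a, rd p (ζ ^ i) = 1)]
  simp

/-! ### leading functions -/

section Lead

variable {M : Type*} [AddCommGroup M] {ρ : inertiaLoc p →* AddMonoid.End M}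
  {O : Subalgebra (Wring p) (M → PadicAlgCl p)}

theorem lead_add (h : IsOrder ρ O) {z : PadicAlgCl p} (hz : z ≠ 0) (hz1 : ‖z‖ < 1)
    (hmax : ∀ φ, IsJ O φ → ∀ m, ‖φ m‖ ≤ ‖z‖) {φ : M → PadicAlgCl p} (hφ : IsJ O φ) (x y : M) :
    rd p (φ (x + y) / z) = rd p (φ x / z) + rd p (φ y / z) := by
  have hzpos : 0 < ‖z‖ := norm_pos_iff.mpr hz
  have hle : ∀ x, ‖φ x / z‖ ≤ 1 := fun x => by
    rw [norm_div]; exact div_le_one_of_le₀ (hmax φ hφ x) hzpos.le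
  obtain ⟨n, a, b, ha, hb, hab⟩ := h.J_add hφ
  rw [← rd_add (hle x) (hle y), rd_eq_iff (hle _) (norm_add_le' (hle _) (hle _))]
  have h1 : φ (x + y) / z - (φ x / z + φ y / z) = (∑ i, a i x * b i y) / z := by
    rw [hab]; ring
  rw [h1, norm_div, div_lt_one hzpos]
  have h2 : ‖∑ i, a i x * b i y‖ ≤ ‖z‖ * ‖z‖ := by
    refine norm_sum_le' _ _ (by positivity) (fun i _ => ?_)
    rw [norm_mul]
    exact mul_le_mul (hmax _ (ha i) x) (hmax _ (hb i) y) (norm_nonneg _) hzpos.le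
  exact h2.trans_lt (by nlinarith)

theorem lead_equiv (h : IsOrder ρ O) {z : PadicAlgCl p} (hz : z ≠ 0)
    (hmax : ∀ φ, IsJ O φ → ∀ m, ‖φ m‖ ≤ ‖z‖) {φ : M → PadicAlgCl p} (hφ : IsJ O φ)
    (τ : inertiaLoc p) (x : M) :
    rd p (φ (ρ τ x) / z) = chz z (τ : GalLoc p) * rd p (φ x / z) := by
  have hle : ‖φ x / z‖ ≤ 1 := by
    rw [norm_div]; exact div_le_one_of_le₀ (hmax φ hφ x) (norm_nonneg _)
  have hτz : (τ : GalLoc p) z ≠ 0 := fun h => hz ((map_eq_zero_iff _ (AlgEquiv.injective _)).mp h)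
  have h1 : φ (ρ τ x) / z = ((τ : GalLoc p) z / z) * (τ : GalLoc p) (φ x / z) := by
    rw [h.equivariant' hφ.1, map_div₀]; field_simp
  rw [h1, rd_mul (chz_norm hz _).le (by rw [norm_apply]; exact hle), rd_inertia τ.2 hle]
  rfl

/-- (T) a connected module with trivial action is zero -/
theorem eq_zero_of_trivial (hp2 : p ≠ 2) [Finite M] (h : IsOrder ρ O)
    (hpM : ∀ m : M, p • m = 0) (htriv : ∀ σ m, ρ σ m = m) {x : M} (hx : x ∈ connPart h) :
    x = 0 := by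
  -- restrict to the connected part
  let C := connPart h
  have hC := h.sub (ρ' := (1 : inertiaLoc p →* AddMonoid.End C)) C.subtype
    Subtype.val_injective (fun σ m => (htriv σ m).symm)
  obtain ⟨φ₀, hφ₀, m₀, hmax⟩ := hC.exists_max
  have hlt : ‖φ₀ m₀‖ < 1 := by
    obtain ⟨φ, hφ, rfl⟩ := hφ₀.1
    exact m₀.2 φ ⟨hφ, hφ₀.2⟩
  by_cases hne : φ₀ m₀ = 0
  · have h1 : (⟨x, hx⟩ : C) = 0 := by
      refine hC.separates _ _ (fun φ hφ => ?_)
      have h2 := hmax _ (hC.sub_const_isJ hφ) ⟨x, hx⟩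
      rw [hne, norm_zero] at h2
      exact sub_eq_zero.mp (norm_le_zero_iff.mp h2)
    exact congrArg Subtype.val h1
  exfalso
  have h1 := hC.bound (fun m => Subtype.ext (hpM m)) hφ₀ m₀ hmax hne hlt
  obtain ⟨n, hn⟩ := exists_norm_eq_zpow hne (fun σ hσ => by
    have := hC.equivariant' hφ₀.1 ⟨σ, hσ⟩ m₀
    exact this.symm)
  have hp1 := one_lt_p (p := p)
  have hn1 : n ≤ -1 := by
    by_contra hcon
    push Not at hcon
    have : (1 : ℝ) ≤ (p : ℝ) ^ n := one_le_zpow₀ hp1.le (by omega)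
    rw [← hn] at this
    linarith
  rw [hn] at h1
  have h2 : ((p : ℝ) ^ n) ^ (p - 1) ≤ ((p : ℝ) ^ (-1 : ℤ)) ^ 2 := by
    have h3 : (p : ℝ) ^ n ≤ (p : ℝ) ^ (-1 : ℤ) := zpow_le_zpow_right₀ hp1.le hn1
    have h4 : (0 : ℝ) < (p : ℝ) ^ n := zpow_pos (by linarith) _
    have h5 : (p : ℝ) ^ (-1 : ℤ) < 1 := by rw [zpow_neg_one]; exact inv_lt_one_of_one_lt₀ hp1
    calc ((p : ℝ) ^ n) ^ (p - 1) ≤ ((p : ℝ) ^ (-1 : ℤ)) ^ (p - 1) :=
          pow_le_pow_left₀ h4.le h3 _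
      _ ≤ ((p : ℝ) ^ (-1 : ℤ)) ^ 2 := by
        apply pow_le_pow_of_le_one (by positivity) h5.le
        have := hp.out.two_le
        omega
  have h6 := h1.trans h2
  rw [zpow_neg_one] at h6
  have h7 : (0 : ℝ) < (p : ℝ)⁻¹ := by positivity
  have h8 : (p : ℝ)⁻¹ < 1 := inv_lt_one_of_one_lt₀ hp1
  nlinarith

end Lead

end Fermat.Agent.Flat
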