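import Fermat.Agent.Flat.RedBound

/-!
# Transport of the local bound under conjugation
-/

set_option autoImplicit false

open GaloisRep Fermat.Agent.CFT.Loc Fermat.Agent.CFT Matrix Fermat.Agent.TW

namespace Fermat.Agent.Flat

local notation "M₂" => Matrix (Fin 2) (Fin 2)

section Conj

variable {G : Type*} [Group G] {k : Type*} [Field k] {r r' : G →* M₂ k} {P : M₂ k}

/-- conjugated representations -/
theorem exists_conjRep (r : G →* M₂ k) {P : M₂ k} (hP : IsUnit P.det) :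
    ∃ r' : G →* M₂ k, ∀ g, r g * P = P * r' g := by
  refine ⟨{ toFun := fun g => P⁻¹ * r g * P
            map_one' := by rw [map_one, mul_one, Matrix.nonsing_inv_mul _ hP]
            map_mul' := fun g g' => ?_ }, fun g => ?_⟩
  · rw [map_mul]
    calc P⁻¹ * (r g * r g') * P = P⁻¹ * r g * 1 * r g' * P := by
          simp only [mul_one, Matrix.mul_assoc]
      _ = P⁻¹ * r g * (P * P⁻¹) * r g' * P := by rw [Matrix.mul_nonsing_inv _ hP]
      _ = _ := by simp only [Matrix.mul_assoc]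
  · change r g * P = P * (P⁻¹ * r g * P)
    rw [← Matrix.mul_assoc, ← Matrix.mul_assoc, Matrix.mul_nonsing_inv _ hP, one_mul]

theorem conj_eq (hP : IsUnit P.det) (h : ∀ g, r g * P = P * r' g) (g : G) :
    r' g = P⁻¹ * r g * P := by
  rw [Matrix.mul_assoc, h, ← Matrix.mul_assoc, Matrix.nonsing_inv_mul _ hP, one_mul]

theorem conj_eq' (hP : IsUnit P.det) (h : ∀ g, r g * P = P * r' g) (g : G) :
    r g = P * r' g * P⁻¹ := by
  rw [← h, Matrix.mul_assoc, Matrix.mul_nonsing_inv _ hP, mul_one]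

theorem conj_symm (hP : IsUnit P.det) (h : ∀ g, r g * P = P * r' g) (g : G) :
    r' g * P⁻¹ = P⁻¹ * r g := by
  rw [conj_eq hP h, Matrix.mul_assoc, Matrix.mul_nonsing_inv _ hP, mul_one]

theorem det_conj (hP : IsUnit P.det) (h : ∀ g, r g * P = P * r' g) (g : G) :
    (r' g).det = (r g).det := by
  have h1 := congrArg Matrix.det (h g)
  rw [Matrix.det_mul, Matrix.det_mul, mul_comm] at h1
  exact (hP.mul_left_cancel h1).symm

theorem isUnit_det_inv (hP : IsUnit P.det) : IsUnit (P⁻¹).det := by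
  have h1 := congrArg Matrix.det (Matrix.nonsing_inv_mul _ hP)
  rw [Matrix.det_mul, Matrix.det_one] at h1
  exact IsUnit.of_mul_eq_one _ h1

end Conj

variable {p : ℕ} [hp : Fact p.Prime]

section

variable {k : Type*} [Field k] {r r' : GalLoc p →* M₂ k} {P : M₂ k}

theorem LC_conj (hP : IsUnit P.det) (h : ∀ g, r g * P = P * r' g) (hlc : (locLevels p).LC r) :
    (locLevels p).LC r' := by
  have h1 : (r' : GalLoc p → M₂ k) = fun g => P⁻¹ * r g * P := funext (conj_eq hP h)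
  rw [h1]
  exact hlc.comp (fun m => P⁻¹ * m * P)

theorem FlatV_conj (hP : IsUnit P.det) (h : ∀ g, r g * P = P * r' g) (hfl : FlatV r) :
    FlatV r' := by
  refine IsFlat.of_injective hfl (AddMonoidHom.mk' (fun v => P *ᵥ v) (Matrix.mulVec_add P)) ?_ ?_
  · intro v w hvw
    change P *ᵥ v = P *ᵥ w at hvw
    have h1 := congrArg (fun x => P⁻¹ *ᵥ x) hvw
    simp only [Matrix.mulVec_mulVec, Matrix.nonsing_inv_mul _ hP, Matrix.one_mulVec] at h1
    exact h1
  · intro g v
    change P *ᵥ (r' g *ᵥ v) = r g *ᵥ (P *ᵥ v)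
    rw [Matrix.mulVec_mulVec, Matrix.mulVec_mulVec, h]

theorem FlatC_conj (hP : IsUnit P.det) (h : ∀ g, r g * P = P * r' g) {c c' : GalLoc p → M₂ k}
    {hc : IsCoc r c} {hc' : IsCoc r' c'} (hcc : ∀ g, c g * P = P * c' g) (hfl : FlatC r c hc) :
    FlatC r' c' hc' := by
  refine IsFlat.of_injective hfl (AddMonoidHom.mk'
    (fun x : (Fin 2 → k) × (Fin 2 → k) => (P *ᵥ x.1, P *ᵥ x.2)) (fun x y => by
      rw [Prod.fst_add, Prod.snd_add, Matrix.mulVec_add, Matrix.mulVec_add]; rfl)) ?_ ?_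
  · rintro ⟨v, v'⟩ ⟨w, w'⟩ hvw
    change (P *ᵥ v, P *ᵥ v') = (P *ᵥ w, P *ᵥ w') at hvw
    obtain ⟨h1, h2⟩ := Prod.mk.inj hvw
    replace h1 := congrArg (fun x => P⁻¹ *ᵥ x) h1
    replace h2 := congrArg (fun x => P⁻¹ *ᵥ x) h2
    simp only [Matrix.mulVec_mulVec, Matrix.nonsing_inv_mul _ hP, Matrix.one_mulVec] at h1 h2
    rw [h1, h2]
  · rintro g ⟨v, w⟩
    change (P *ᵥ (r' g *ᵥ v), P *ᵥ (r' g *ᵥ w + c' g *ᵥ (r' g *ᵥ v))) =
      (r g *ᵥ (P *ᵥ v), r g *ᵥ (P *ᵥ w) + c g *ᵥ (r g *ᵥ (P *ᵥ v)))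
    rw [Matrix.mulVec_add]
    simp only [Matrix.mulVec_mulVec, h]
    rw [← Matrix.mul_assoc (c g), hcc, Matrix.mul_assoc]

end

section

variable {k : Type} [Field k] [Algebra (ZMod p) k] {r r' : GalLoc p →* M₂ k} {P : M₂ k}

/-- conjugation on trace zero matrices -/
noncomputable def conjSl (p : ℕ) [hp : Fact p.Prime] [Algebra (ZMod p) k] (P : M₂ k)
    (hP : IsUnit P.det) : sl k →ₗ[ZMod p] sl k where
  toFun m := ⟨P * m * P⁻¹, by
    rw [mem_sl, Matrix.trace_mul_comm, ← Matrix.mul_assoc, Matrix.nonsing_inv_mul _ hP, one_mul]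
    exact mem_sl.mp m.2⟩
  map_add' m m' := Subtype.ext (by
    change P * ((m : M₂ k) + m') * P⁻¹ = P * m * P⁻¹ + P * m' * P⁻¹
    rw [mul_add, add_mul])
  map_smul' c m := Subtype.ext (by
    change P * (c • (m : M₂ k)) * P⁻¹ = c • (P * m * P⁻¹)
    rw [mul_smul_comm, smul_mul_assoc])

theorem conjSl_apply (hP : IsUnit P.det) (m : sl k) :
    ((conjSl p P hP m : sl k) : M₂ k) = P * m * P⁻¹ := rfl

theorem conjSl_compat (hP : IsUnit P.det) (h : ∀ g, r g * P = P * r' g) :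
    Compat (adRep (p := p) r' 1) (adRep (p := p) r 1) (MonoidHom.id (GalLoc p))
      (conjSl p P hP) := by
  intro g m
  apply Subtype.ext
  change P * ((adRep (p := p) r' 1 g m : sl k) : M₂ k) * P⁻¹ =
    ((adRep (p := p) r 1 g (conjSl p P hP m) : sl k) : M₂ k)
  rw [adRep_one_apply, adRep_one_apply, conjSl_apply, conj_eq hP h, conj_eq hP h]
  have h1 : P * P⁻¹ = 1 := Matrix.mul_nonsing_inv _ hP
  calc P * (P⁻¹ * r g * P * (m : M₂ k) * (P⁻¹ * r g⁻¹ * P)) * P⁻¹
      = (P * P⁻¹) * r g * P * (m : M₂ k) * P⁻¹ * r g⁻¹ * (P * P⁻¹) := by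
        simp only [Matrix.mul_assoc]
    _ = _ := by rw [h1, one_mul, mul_one]; simp only [Matrix.mul_assoc]

theorem LocBound.conj (hP : IsUnit P.det) (h : ∀ g, r g * P = P * r' g) (hb : LocBound p r')
    [Finite k] : LocBound p r := by
  obtain ⟨L', hL', hL⟩ := hb
  have hid : Levels.Cont (locLevels p) (locLevels p) (MonoidHom.id (GalLoc p)) := fun H hH => hH
  have hP' := isUnit_det_inv hP
  have hPinv : (P⁻¹)⁻¹ = P := Matrix.nonsing_inv_nonsing_inv _ hP
  let Φ := H1.map (locLevels p) (locLevels p) (adRep (p := p) r' 1) (adRep (p := p) r 1)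
    (MonoidHom.id (GalLoc p)) (conjSl p P hP) hid (conjSl_compat hP h)
  let Ψ := H1.map (locLevels p) (locLevels p) (adRep (p := p) r 1) (adRep (p := p) r' 1)
    (MonoidHom.id (GalLoc p)) (conjSl p P⁻¹ hP') hid (conjSl_compat hP' (conj_symm hP h))
  have hinv : ∀ m : sl k, conjSl p P⁻¹ hP' (conjSl p P hP m) = m := by
    intro m
    apply Subtype.ext
    rw [conjSl_apply, conjSl_apply, hPinv]
    calc P⁻¹ * (P * (m : M₂ k) * P⁻¹) * P = (P⁻¹ * P) * (m : M₂ k) * (P⁻¹ * P) := by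
          simp only [Matrix.mul_assoc]
      _ = _ := by rw [Matrix.nonsing_inv_mul _ hP, one_mul, mul_one]
  have hinv' : ∀ m : sl k, conjSl p P hP (conjSl p P⁻¹ hP' m) = m := by
    intro m
    apply Subtype.ext
    rw [conjSl_apply, conjSl_apply, hPinv]
    calc P * (P⁻¹ * (m : M₂ k) * P) * P⁻¹ = (P * P⁻¹) * (m : M₂ k) * (P * P⁻¹) := by
          simp only [Matrix.mul_assoc]
      _ = _ := by rw [Matrix.mul_nonsing_inv _ hP, one_mul, mul_one]
  have hΨΦ : ∀ x, Ψ (Φ x) = x := by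
    intro x
    obtain ⟨c, rfl⟩ := H1.mk_surjective _ _ x
    simp only [Φ, Ψ, H1.map_mk]
    congr 1
    apply Subtype.ext
    funext g
    exact hinv _
  have hΦinj : Function.Injective Φ := Function.LeftInverse.injective hΨΦ
  refine ⟨L'.map Φ, ?_, fun c hc => ?_⟩
  · rw [← (Submodule.equivMapOfInjective Φ hΦinj L').finrank_eq]
    refine hL'.trans (Nat.add_le_add_right ?_ _)
    haveI : Module.Finite (ZMod p) (adRep (p := p) r 1).invariants := Module.Finite.of_finite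
    refine LinearMap.finrank_le_finrank_of_injective
      (f := ((conjSl p P hP).comp (adRep (p := p) r' 1).invariants.subtype).codRestrict
        (adRep (p := p) r 1).invariants (fun m g => ?_)) ?_
    · have h1 := conjSl_compat (p := p) hP h g (m : sl k)
      change conjSl p P hP (adRep (p := p) r' 1 g m) = adRep (p := p) r 1 g (conjSl p P hP m) at h1
      change adRep (p := p) r 1 g (conjSl p P hP m) = conjSl p P hP m
      rw [← h1, m.2 g]
    · intro m m' hmm
      have h1 : conjSl p P hP (m : sl k) = conjSl p P hP (m' : sl k) := congrArg Subtype.val hmm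
      have h2 := congrArg (conjSl p P⁻¹ hP') h1
      rw [hinv, hinv] at h2
      exact Subtype.ext h2
  · set c' : ↥(Z1 (locLevels p) (adRep (p := p) r' 1)) :=
      ⟨pp1 (MonoidHom.id (GalLoc p)) (conjSl p P⁻¹ hP') c,
        pp1_mem_Z1 hid (conjSl_compat hP' (conj_symm hP h)) c.2⟩ with hc'
    have h1 : ∀ g, cM c g * P = P * cM c' g := by
      intro g
      change (c.1 g : M₂ k) * P = P * (P⁻¹ * (c.1 g : M₂ k) * (P⁻¹)⁻¹)
      rw [hPinv, ← Matrix.mul_assoc, ← Matrix.mul_assoc, Matrix.mul_nonsing_inv _ hP, one_mul]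
    refine ⟨H1.mk _ _ c', hL c' (FlatC_conj hP h h1 hc), ?_⟩
    simp only [Φ, H1.map_mk]
    congr 1
    apply Subtype.ext
    funext g
    exact hinv' _

end

end Fermat.Agent.Flat
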